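import Fermat.Agent.S24.InfDefs

/-!
WPA4a of the S24 project: calculus of expansions in `w = e^{2πiτ/N}` (`HasWExp`).
-/

set_option autoImplicit false

open ModularCurve AlgebraicCurve MatrixGroups UpperHalfPlane ModularForm EisensteinSeries

open scoped Manifold

namespace Fermat.Agent.S24

variable {N : ℕ} [NeZero N] {f g : ℍ → ℂ} {L M : LaurentSeries ℂ}

theorem wpA4a_Npos (N : ℕ) [NeZero N] : (0 : ℝ) < (N : ℝ) := by
  exact_mod_cast Nat.pos_of_ne_zero (NeZero.ne N)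

theorem wpA4a_wN_ne_zero (N : ℕ) (τ : ℍ) : wN N τ ≠ 0 := Function.Periodic.qParam_ne_zero _

theorem wpA4a_norm_wN_lt_one (N : ℕ) [NeZero N] (τ : ℍ) : ‖wN N τ‖ < 1 :=
  Function.Periodic.norm_qParam_lt_one (wpA4a_Npos N) τ.im_pos

/-- A function on `ℍ` invariant under `τ ↦ τ + N` gives an `N`-periodic function on `ℂ`. -/
theorem wpA4a_periodic_of (N : ℕ) (F : ℍ → ℂ) (h : ∀ τ : ℍ, F ((N : ℝ) +ᵥ τ) = F τ) :
    Function.Periodic (F ∘ ofComplex) (N : ℝ) := by
  intro w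
  show F (ofComplex (w + ((N : ℝ) : ℂ))) = F (ofComplex w)
  by_cases hw : 0 < w.im
  · have hw' : 0 < (w + ((N : ℝ) : ℂ)).im := by simpa using hw
    rw [ofComplex_apply_of_im_pos hw', ofComplex_apply_of_im_pos hw, ← h ⟨w, hw⟩]
    congr 1
    ext
    simp [add_comm]
  · have hw1 : w.im ≤ 0 := not_lt.mp hw
    have hw' : (w + ((N : ℝ) : ℂ)).im ≤ 0 := by simpa using hw1
    rw [ofComplex_apply_of_im_nonpos hw', ofComplex_apply_of_im_nonpos hw1]

theorem wpA4a_vadd_of_periodic (N : ℕ) (F : ℍ → ℂ)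
    (h : Function.Periodic (F ∘ ofComplex) (N : ℝ)) (τ : ℍ) : F ((N : ℝ) +ᵥ τ) = F τ := by
  have h1 := h (τ : ℂ)
  simp only [Function.comp_apply, ofComplex_apply] at h1
  rw [← h1]
  congr 1
  have : ((τ : ℂ) + ((N : ℝ) : ℂ)) = (((N : ℝ) +ᵥ τ : ℍ) : ℂ) := by
    simp [add_comm]
  rw [this, ofComplex_apply]

theorem wpA4a_wN_vadd (N : ℕ) [NeZero N] (τ : ℍ) : wN N ((N : ℝ) +ᵥ τ) = wN N τ := by
  have hN : ((N : ℝ) : ℂ) ≠ 0 := by
    exact_mod_cast (wpA4a_Npos N).ne'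
  simp only [wN, Function.Periodic.qParam, coe_vadd]
  have : 2 * (Real.pi : ℂ) * Complex.I * (((N : ℝ) : ℂ) + (τ : ℂ)) / ((N : ℝ) : ℂ) =
      2 * (Real.pi : ℂ) * Complex.I * (τ : ℂ) / ((N : ℝ) : ℂ) + 2 * (Real.pi : ℂ) * Complex.I := by
    field_simp
    ring
  rw [this, Complex.exp_add, Complex.exp_two_pi_mul_I, mul_one]

theorem wpA4a_mdiff_wN (N : ℕ) : MDiff (wN N) := by
  rw [UpperHalfPlane.mdifferentiable_iff]
  intro z hz
  have hd : DifferentiableAt ℂ (Function.Periodic.qParam (N : ℝ)) z :=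
    (Function.Periodic.differentiable_qParam (h := (N : ℝ))) z
  refine (hd.congr_of_eventuallyEq ?_).differentiableWithinAt
  have hopen : IsOpen {z : ℂ | 0 < z.im} := isOpen_lt continuous_const Complex.continuous_im
  filter_upwards [hopen.mem_nhds hz] with y hy
  simp [wN, ofComplex_apply_of_im_pos hy]

theorem wpA4a_isNice_wN (N : ℕ) [NeZero N] : IsNice N (wN N) := by
  refine ⟨wpA4a_periodic_of N _ (wpA4a_wN_vadd N), wpA4a_mdiff_wN N, ?_⟩
  rw [UpperHalfPlane.isBoundedAtImInfty_iff]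
  exact ⟨1, 0, fun z _ => (wpA4a_norm_wN_lt_one N z).le⟩

theorem wpA4a_isNice_const (N : ℕ) (c : ℂ) : IsNice N (fun _ : ℍ => c) := by
  refine ⟨fun w => rfl, mdifferentiable_const, ?_⟩
  rw [UpperHalfPlane.isBoundedAtImInfty_iff]
  exact ⟨‖c‖, 0, fun z _ => le_rfl⟩

omit [NeZero N] in
theorem wpA4a_isNice_mul (hf : IsNice N f) (hg : IsNice N g) : IsNice N (fun τ => f τ * g τ) := by
  refine ⟨?_, hf.2.1.mul hg.2.1, hf.2.2.mul hg.2.2⟩
  intro w
  have h1 := hf.1 w
  have h2 := hg.1 w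
  simp only [Function.comp_apply] at h1 h2 ⊢
  rw [h1, h2]

omit [NeZero N] in
theorem wpA4a_isNice_add (hf : IsNice N f) (hg : IsNice N g) : IsNice N (fun τ => f τ + g τ) := by
  refine ⟨?_, hf.2.1.add hg.2.1, hf.2.2.add hg.2.2⟩
  intro w
  have h1 := hf.1 w
  have h2 := hg.1 w
  simp only [Function.comp_apply] at h1 h2 ⊢
  rw [h1, h2]

theorem wpA4a_isNice_wN_pow (N : ℕ) [NeZero N] (k : ℕ) : IsNice N (fun τ => wN N τ ^ k) := by
  induction k with
  | zero => simpa using wpA4a_isNice_const N 1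
  | succ k ih =>
    have := wpA4a_isNice_mul ih (wpA4a_isNice_wN N)
    simpa [pow_succ] using this

theorem wpA4a_analyticAt (hf : IsNice N f) : AnalyticAt ℂ (cuspFunction (N : ℝ) f) 0 :=
  analyticAt_cuspFunction_zero (wpA4a_Npos N) hf.1 hf.2.1 hf.2.2

theorem wpA4a_hasSum (hf : IsNice N f) (τ : ℍ) :
    HasSum (fun n : ℕ => (qExpansion (N : ℝ) f).coeff n * wN N τ ^ n) (f τ) := by
  simpa [wN] using hasSum_qExpansion (wpA4a_Npos N) hf.1 hf.2.1 hf.2.2 τ

theorem wpA4a_qExpansion_unique (hf : IsNice N f) (c : ℕ → ℂ)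
    (hc : ∀ τ : ℍ, HasSum (fun n : ℕ => c n * wN N τ ^ n) (f τ)) :
    qExpansion (N : ℝ) f = PowerSeries.mk c := by
  have key : ∀ τ : ℍ,
      HasSum (fun m : ℕ => c m • Function.Periodic.qParam (N : ℝ) (τ : ℂ) ^ m) (f τ) :=
    fun τ => by simpa [wN] using hc τ
  have han := wpA4a_analyticAt hf
  let inst : FunLike (ℍ → ℂ) ℍ ℂ := ⟨fun f => f, fun _ _ h => h⟩
  ext n
  rw [PowerSeries.coeff_mk]
  exact (qExpansion_coeff_unique (F := ℍ → ℂ) f (wpA4a_Npos N) han key n).symm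

theorem wpA4a_qExpansion_mul (hf : IsNice N f) (hg : IsNice N g) :
    qExpansion (N : ℝ) (fun τ => f τ * g τ) = qExpansion (N : ℝ) f * qExpansion (N : ℝ) g :=
  qExpansion_mul (wpA4a_analyticAt hf) (wpA4a_analyticAt hg)

theorem wpA4a_qExpansion_add (hf : IsNice N f) (hg : IsNice N g) :
    qExpansion (N : ℝ) (fun τ => f τ + g τ) = qExpansion (N : ℝ) f + qExpansion (N : ℝ) g :=
  qExpansion_add (wpA4a_analyticAt hf) (wpA4a_analyticAt hg)

theorem wpA4a_qExpansion_wN_pow (N : ℕ) [NeZero N] (k : ℕ) :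
    qExpansion (N : ℝ) (fun τ => wN N τ ^ k) = PowerSeries.X ^ k := by
  rw [wpA4a_qExpansion_unique (wpA4a_isNice_wN_pow N k) (fun n => if n = k then 1 else 0)]
  · ext n
    simp [PowerSeries.coeff_X_pow]
  · intro τ
    have h := hasSum_ite_eq k (wN N τ ^ k)
    convert h using 2 with n
    split_ifs with hn
    · rw [hn, one_mul]
    · rw [zero_mul]

theorem wpA4a_shift (P : PowerSeries ℂ) (m k : ℕ) :
    HahnSeries.single (-((m + k : ℕ) : ℤ)) (1 : ℂ) *
        HahnSeries.ofPowerSeries ℤ ℂ (P * PowerSeries.X ^ k) =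
      HahnSeries.single (-(m : ℤ)) (1 : ℂ) * HahnSeries.ofPowerSeries ℤ ℂ P := by
  rw [map_mul, HahnSeries.ofPowerSeries_X_pow, mul_comm (HahnSeries.ofPowerSeries ℤ ℂ P),
    ← mul_assoc, HahnSeries.single_mul_single]
  have e : (-((m + k : ℕ) : ℤ) + (k : ℤ)) = -(m : ℤ) := by omega
  rw [e, mul_one]

/-- The exponent `m` in `HasWExp` can be raised. -/
theorem wpA4a_raise {m : ℕ} (k : ℕ) (h : IsNice N (fun τ => f τ * wN N τ ^ m)) :
    IsNice N (fun τ => f τ * wN N τ ^ (m + k)) ∧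
      HahnSeries.single (-((m + k : ℕ) : ℤ)) (1 : ℂ) *
          HahnSeries.ofPowerSeries ℤ ℂ
            (qExpansion (N : ℝ) (fun τ => f τ * wN N τ ^ (m + k))) =
        HahnSeries.single (-(m : ℤ)) (1 : ℂ) *
          HahnSeries.ofPowerSeries ℤ ℂ (qExpansion (N : ℝ) (fun τ => f τ * wN N τ ^ m)) := by
  have e : (fun τ => f τ * wN N τ ^ (m + k)) =
      fun τ => (f τ * wN N τ ^ m) * wN N τ ^ k := by
    funext τ
    ring
  rw [e]
  refine ⟨wpA4a_isNice_mul h (wpA4a_isNice_wN_pow N k), ?_⟩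
  rw [wpA4a_qExpansion_mul h (wpA4a_isNice_wN_pow N k), wpA4a_qExpansion_wN_pow, wpA4a_shift]

/-- Expansions are unique. -/
theorem HasWExp.unique (h : HasWExp N f L) (h' : HasWExp N f M) : L = M := by
  obtain ⟨m, hm, rfl⟩ := h
  obtain ⟨m', hm', rfl⟩ := h'
  have h1 := (wpA4a_raise m' hm).2
  have h2 := (wpA4a_raise m hm').2
  rw [← h1, ← h2, add_comm m m']

/-- Constants. -/
theorem hasWExp_const (N : ℕ) [NeZero N] (c : ℂ) :
    HasWExp N (fun _ : ℍ => c) (HahnSeries.C c) := by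
  have e : (fun τ : ℍ => c * wN N τ ^ 0) = fun _ => c := by
    funext τ
    simp
  refine ⟨0, ?_, ?_⟩
  · rw [e]
    exact wpA4a_isNice_const N c
  · have hq : qExpansion (N : ℝ) (fun _ : ℍ => c) = PowerSeries.C c := by
      rw [wpA4a_qExpansion_unique (wpA4a_isNice_const N c) (fun n => if n = 0 then c else 0)]
      · ext n
        simp [PowerSeries.coeff_C]
      · intro τ
        have h := hasSum_ite_eq 0 c
        convert h using 2 with n
        split_ifs with hn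
        · rw [hn, pow_zero, mul_one]
        · rw [zero_mul]
    rw [e, hq, HahnSeries.ofPowerSeries_C]
    simp

theorem HasWExp.add (hf : HasWExp N f L) (hg : HasWExp N g M) : HasWExp N (f + g) (L + M) := by
  obtain ⟨m, hm, rfl⟩ := hf
  obtain ⟨m', hm', rfl⟩ := hg
  obtain ⟨n1, e1⟩ := wpA4a_raise m' hm
  obtain ⟨n2, e2⟩ := wpA4a_raise m hm'
  rw [add_comm m' m] at n2 e2
  have e : (fun τ => (f + g) τ * wN N τ ^ (m + m')) =
      fun τ => f τ * wN N τ ^ (m + m') + g τ * wN N τ ^ (m + m') := by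
    funext τ
    simp only [Pi.add_apply]
    ring
  refine ⟨m + m', ?_, ?_⟩
  · rw [e]
    exact wpA4a_isNice_add n1 n2
  · rw [e, ← e1, ← e2, ← mul_add, ← map_add, ← wpA4a_qExpansion_add n1 n2]

theorem HasWExp.mul (hf : HasWExp N f L) (hg : HasWExp N g M) : HasWExp N (f * g) (L * M) := by
  obtain ⟨m, hm, rfl⟩ := hf
  obtain ⟨m', hm', rfl⟩ := hg
  have e : (fun τ => (f * g) τ * wN N τ ^ (m + m')) =
      fun τ => (f τ * wN N τ ^ m) * (g τ * wN N τ ^ m') := by
    funext τ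
    simp only [Pi.mul_apply]
    ring
  refine ⟨m + m', ?_, ?_⟩
  · rw [e]
    exact wpA4a_isNice_mul hm hm'
  · rw [e, wpA4a_qExpansion_mul hm hm', map_mul]
    have hs : HahnSeries.single (-((m + m' : ℕ) : ℤ)) (1 : ℂ) =
        HahnSeries.single (-(m : ℤ)) (1 : ℂ) * HahnSeries.single (-(m' : ℤ)) (1 : ℂ) := by
      have e : -((m + m' : ℕ) : ℤ) = -(m : ℤ) + -(m' : ℤ) := by omega
      rw [HahnSeries.single_mul_single, e, mul_one]
    rw [hs]
    ring

theorem HasWExp.eq_zero_iff (hf : HasWExp N f L) : f = 0 ↔ L = 0 := by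
  obtain ⟨m, hm, rfl⟩ := hf
  constructor
  · rintro rfl
    have e : (fun τ : ℍ => (0 : ℍ → ℂ) τ * wN N τ ^ m) = 0 := by
      funext τ
      simp
    rw [e, qExpansion_zero]
    simp
  · intro h
    have hunit : HahnSeries.single (m : ℤ) (1 : ℂ) * HahnSeries.single (-(m : ℤ)) (1 : ℂ) = 1 := by
      rw [HahnSeries.single_mul_single]
      simp
    have h2 : HahnSeries.ofPowerSeries ℤ ℂ
        (qExpansion (N : ℝ) (fun τ => f τ * wN N τ ^ m)) = 0 := by
      have h3 := congrArg (fun x => HahnSeries.single (m : ℤ) (1 : ℂ) * x) h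
      simp only [← mul_assoc, hunit, one_mul, mul_zero] at h3
      exact h3
    have h3 : qExpansion (N : ℝ) (fun τ => f τ * wN N τ ^ m) = 0 :=
      HahnSeries.ofPowerSeries_injective (by rw [h2, map_zero])
    have h4 := (qExpansion_eq_zero_iff (wpA4a_Npos N) hm.1 hm.2.1 hm.2.2).mp h3
    funext τ
    have h5 := congrFun h4 τ
    simp only [Pi.zero_apply, mul_eq_zero] at h5
    rcases h5 with h5 | h5
    · exact h5
    · exact absurd h5 (pow_ne_zero m (wpA4a_wN_ne_zero N τ))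

/-- entire functions restrict to holomorphic functions on `ℍ` -/
theorem wpA4a_mdiff_of_differentiable (u : ℂ → ℂ) (hu : Differentiable ℂ u) :
    MDiff (fun τ : ℍ => u (τ : ℂ)) := by
  rw [UpperHalfPlane.mdifferentiable_iff]
  intro z hz
  refine ((hu z).congr_of_eventuallyEq ?_).differentiableWithinAt
  have hopen : IsOpen {z : ℂ | 0 < z.im} := isOpen_lt continuous_const Complex.continuous_im
  filter_upwards [hopen.mem_nhds hz] with y hy
  simp [ofComplex_apply_of_im_pos hy]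

/-- translation by a real number preserves holomorphy -/
theorem wpA4a_mdiff_translate (F : ℍ → ℂ) (hF : MDiff F) (x : ℝ) :
    MDiff (fun τ : ℍ => F (x +ᵥ τ)) := by
  rw [UpperHalfPlane.mdifferentiable_iff] at hF ⊢
  intro z hz
  have hopen : IsOpen {z : ℂ | 0 < z.im} := isOpen_lt continuous_const Complex.continuous_im
  have hz' : (z + (x : ℂ)) ∈ {z : ℂ | 0 < z.im} := by
    simpa using hz
  have h1 : DifferentiableAt ℂ (F ∘ ofComplex) (z + (x : ℂ)) :=
    (hF _ hz').differentiableAt (hopen.mem_nhds hz')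
  have h2 : DifferentiableAt ℂ (fun y : ℂ => (F ∘ ofComplex) (y + (x : ℂ))) z :=
    DifferentiableAt.comp (g := F ∘ ofComplex) (f := fun y : ℂ => y + (x : ℂ)) z h1
      (differentiableAt_id.add_const _)
  refine (h2.congr_of_eventuallyEq ?_).differentiableWithinAt
  filter_upwards [hopen.mem_nhds hz] with y hy
  have hy' : 0 < (y + (x : ℂ)).im := by simpa using hy
  simp only [Function.comp_apply]
  rw [ofComplex_apply_of_im_pos hy, ofComplex_apply_of_im_pos hy']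
  congr 1
  ext
  simp [add_comm]

set_option linter.unusedSectionVars false in
theorem HasWExp.mdiff (hf : HasWExp N f L) : MDiff f := by
  obtain ⟨m, hm, rfl⟩ := hf
  have hu : Differentiable ℂ (fun z : ℂ => (Function.Periodic.qParam (N : ℝ) z ^ m)⁻¹) :=
    ((Function.Periodic.differentiable_qParam (h := (N : ℝ))).pow m).inv
      (fun z => pow_ne_zero m (Function.Periodic.qParam_ne_zero z))
  have h1 := wpA4a_mdiff_of_differentiable _ hu
  have h2 := hm.2.1.mul h1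
  have e : f = (fun τ => f τ * wN N τ ^ m) * fun τ : ℍ => (Function.Periodic.qParam (N : ℝ) (τ : ℂ) ^ m)⁻¹ := by
    funext τ
    have := pow_ne_zero m (wpA4a_wN_ne_zero N τ)
    simp only [Pi.mul_apply]
    rw [← wN_def]
    field_simp
  rw [e]
  exact h2

/-- coefficients of `w ^ (-m) · P` -/
theorem wpA4a_coeff (P : PowerSeries ℂ) (m : ℕ) (n : ℤ) :
    (HahnSeries.single (-(m : ℤ)) (1 : ℂ) * HahnSeries.ofPowerSeries ℤ ℂ P).coeff n =
      if n + m < 0 then 0 else PowerSeries.coeff (n + m).natAbs P := by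
  have h := HahnSeries.coeff_single_mul_add (r := (1 : ℂ)) (x := HahnSeries.ofPowerSeries ℤ ℂ P)
    (a := n + m) (b := -(m : ℤ))
  rw [show n + (m : ℤ) + -(m : ℤ) = n by ring, one_mul, PowerSeries.coeff_coe] at h
  exact h

theorem wpA4a_coeff_nat (P : PowerSeries ℂ) (m : ℕ) (j : ℕ) :
    (HahnSeries.single (-(m : ℤ)) (1 : ℂ) * HahnSeries.ofPowerSeries ℤ ℂ P).coeff ((j : ℤ) - m) =
      PowerSeries.coeff j P := by
  rw [wpA4a_coeff]
  have h1 : ¬ ((j : ℤ) - m + m < 0) := by omega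
  have h2 : ((j : ℤ) - m + m).natAbs = j := by omega
  rw [if_neg h1, h2]

/-- No principal part: the function tends to the constant coefficient at `i∞`. -/
theorem HasWExp.tendsto (hf : HasWExp N f L) (hL : ∀ n : ℤ, n < 0 → L.coeff n = 0) :
    Filter.Tendsto f atImInfty (nhds (L.coeff 0)) := by
  have hmd := hf.mdiff
  obtain ⟨m, hm, rfl⟩ := hf
  obtain ⟨P, hP⟩ : ∃ P, P = qExpansion (N : ℝ) (fun τ => f τ * wN N τ ^ m) := ⟨_, rfl⟩
  rw [← hP] at hL ⊢
  have hP0 : ∀ j : ℕ, j < m → PowerSeries.coeff j P = 0 := by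
    intro j hj
    have h1 := hL ((j : ℤ) - m) (by omega)
    rwa [wpA4a_coeff_nat] at h1
  have hsum : ∀ τ : ℍ, HasSum (fun n : ℕ => PowerSeries.coeff (n + m) P * wN N τ ^ n) (f τ) := by
    intro τ
    have h1 := wpA4a_hasSum hm τ
    rw [← hP] at h1
    have h2 := (hasSum_nat_add_iff' m).mpr h1
    have h3 : ∑ i ∈ Finset.range m, PowerSeries.coeff i P * wN N τ ^ i = 0 :=
      Finset.sum_eq_zero (fun i hi => by rw [hP0 i (Finset.mem_range.mp hi), zero_mul])
    rw [h3, sub_zero] at h2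
    have hw := pow_ne_zero m (wpA4a_wN_ne_zero N τ)
    have h4 := h2.mul_right ((wN N τ ^ m)⁻¹)
    have e1 : (fun i : ℕ => PowerSeries.coeff (i + m) P * wN N τ ^ (i + m) * (wN N τ ^ m)⁻¹) =
        fun n : ℕ => PowerSeries.coeff (n + m) P * wN N τ ^ n := by
      funext n
      rw [pow_add]
      field_simp
    have e2 : f τ * wN N τ ^ m * (wN N τ ^ m)⁻¹ = f τ := by
      field_simp
    rw [e1, e2] at h4
    exact h4
  have hper : Function.Periodic (f ∘ ofComplex) (N : ℝ) := by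
    refine wpA4a_periodic_of N f (fun τ => ?_)
    have h1 := wpA4a_vadd_of_periodic N _ hm.1 τ
    simp only [wpA4a_wN_vadd] at h1
    exact mul_right_cancel₀ (pow_ne_zero m (wpA4a_wN_ne_zero N τ)) h1
  have hnice : IsNice N f :=
    ⟨hper, hmd, isBoundedAtImInfty_of_hasSum_qExpansion (wpA4a_Npos N)
      (c := fun n => PowerSeries.coeff (n + m) P) (fun τ => by simpa [wN] using hsum τ)⟩
  have hq := wpA4a_qExpansion_unique hnice _ hsum
  have hf_eq : f = cuspFunction (N : ℝ) f ∘ (fun τ : ℍ => Function.Periodic.qParam (N : ℝ) τ) := by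
    funext τ
    exact (eq_cuspFunction τ (wpA4a_Npos N).ne' hnice.1).symm
  have hcont := (wpA4a_analyticAt hnice).continuousAt.tendsto.comp
    (qParam_tendsto_atImInfty (wpA4a_Npos N))
  rw [← hf_eq] at hcont
  have hval : cuspFunction (N : ℝ) f 0 = PowerSeries.coeff 0 (qExpansion (N : ℝ) f) := by
    simp [qExpansion_coeff]
  rw [hval, hq, PowerSeries.coeff_mk, zero_add] at hcont
  have h0 := wpA4a_coeff_nat P m m
  rw [sub_self] at h0
  rw [h0]
  exact hcont

omit [NeZero N] in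
theorem wpA4a_isNice_translate {F : ℍ → ℂ} (hF : IsNice N F) (x : ℝ) :
    IsNice N (fun τ : ℍ => F (x +ᵥ τ)) := by
  refine ⟨wpA4a_periodic_of N _ (fun τ => ?_), wpA4a_mdiff_translate F hF.2.1 x, ?_⟩
  · have e : x +ᵥ ((N : ℝ) +ᵥ τ) = (N : ℝ) +ᵥ (x +ᵥ τ) := by
      ext
      simp only [coe_vadd]
      ring
    rw [e]
    exact wpA4a_vadd_of_periodic N F hF.1 _
  · have hb := hF.2.2
    rw [UpperHalfPlane.isBoundedAtImInfty_iff] at hb ⊢
    obtain ⟨B, A, hBA⟩ := hb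
    exact ⟨B, A, fun z hz => hBA _ (by simpa using hz)⟩

theorem wpA4a_actFn_T_pow (k : ℕ) (f : ℍ → ℂ) (τ : ℍ) :
    actFn (ModularGroup.T ^ k) f τ = f ((-(k : ℝ)) +ᵥ τ) := by
  rw [actFn_apply]
  congr 1
  have h := modular_T_zpow_smul τ (-(k : ℤ))
  rw [zpow_neg, zpow_natCast] at h
  rw [h]
  push_cast
  rfl

theorem wpA4a_wN_translate (N : ℕ) [NeZero N] (k : ℕ) (τ : ℍ) :
    wN N ((-(k : ℝ)) +ᵥ τ) =
      Complex.exp (-(2 * (Real.pi : ℂ) * Complex.I * (k : ℂ) / (N : ℂ))) * wN N τ := by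
  have hN : (N : ℂ) ≠ 0 := by
    exact_mod_cast NeZero.ne N
  simp only [wN, Function.Periodic.qParam, coe_vadd]
  rw [← Complex.exp_add]
  congr 1
  push_cast
  field_simp

/-- Translation `τ ↦ τ - k` twists the coefficients. -/
theorem HasWExp.twist (hf : HasWExp N f L) (k : ℕ) :
    HasWExp N (actFn (ModularGroup.T ^ k) f) (twistL N k L) := by
  obtain ⟨m, hm, rfl⟩ := hf
  obtain ⟨P, hP⟩ : ∃ P, P = qExpansion (N : ℝ) (fun τ => f τ * wN N τ ^ m) := ⟨_, rfl⟩
  rw [← hP]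
  obtain ⟨a, ha⟩ : ∃ a : ℂ, a = 2 * (Real.pi : ℂ) * Complex.I * (k : ℂ) / (N : ℂ) := ⟨_, rfl⟩
  have hζ : Complex.exp a * Complex.exp (-a) = 1 := by
    rw [← Complex.exp_add, add_neg_cancel, Complex.exp_zero]
  have hw : ∀ τ : ℍ, wN N ((-(k : ℝ)) +ᵥ τ) = Complex.exp (-a) * wN N τ := by
    intro τ
    rw [ha]
    exact wpA4a_wN_translate N k τ
  have htr := wpA4a_isNice_translate hm (-(k : ℝ))
  have hg : (fun τ => actFn (ModularGroup.T ^ k) f τ * wN N τ ^ m) =
      fun τ : ℍ => Complex.exp a ^ m *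
        (f ((-(k : ℝ)) +ᵥ τ) * wN N ((-(k : ℝ)) +ᵥ τ) ^ m) := by
    funext τ
    rw [wpA4a_actFn_T_pow, hw, mul_pow]
    have h1 : Complex.exp a ^ m * Complex.exp (-a) ^ m = 1 := by
      rw [← mul_pow, hζ, one_pow]
    calc f (-(k : ℝ) +ᵥ τ) * wN N τ ^ m
        = (Complex.exp a ^ m * Complex.exp (-a) ^ m) * (f (-(k : ℝ) +ᵥ τ) * wN N τ ^ m) := by
          rw [h1, one_mul]
      _ = _ := by ring
  have hnice : IsNice N (fun τ => actFn (ModularGroup.T ^ k) f τ * wN N τ ^ m) := by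
    rw [hg]
    exact wpA4a_isNice_mul (wpA4a_isNice_const N (Complex.exp a ^ m)) htr
  have hsum : ∀ τ : ℍ, HasSum
      (fun n : ℕ => (Complex.exp a ^ m * Complex.exp (-a) ^ n * PowerSeries.coeff n P) *
        wN N τ ^ n) (actFn (ModularGroup.T ^ k) f τ * wN N τ ^ m) := by
    intro τ
    have h1 := wpA4a_hasSum hm ((-(k : ℝ)) +ᵥ τ)
    rw [← hP, hw] at h1
    have h2 := h1.mul_left (Complex.exp a ^ m)
    have e1 : (fun n : ℕ => Complex.exp a ^ m *
        (PowerSeries.coeff n P * (Complex.exp (-a) * wN N τ) ^ n)) =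
        fun n : ℕ => (Complex.exp a ^ m * Complex.exp (-a) ^ n * PowerSeries.coeff n P) *
          wN N τ ^ n := by
      funext n
      rw [mul_pow]
      ring
    rw [e1] at h2
    have e2 : actFn (ModularGroup.T ^ k) f τ * wN N τ ^ m = Complex.exp a ^ m *
        (f ((-(k : ℝ)) +ᵥ τ) * wN N ((-(k : ℝ)) +ᵥ τ) ^ m) := congrFun hg τ
    rw [e2, hw]
    exact h2
  refine ⟨m, hnice, ?_⟩
  rw [wpA4a_qExpansion_unique hnice _ hsum]
  ext n
  rw [twistL_coeff, wpA4a_coeff, wpA4a_coeff]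
  by_cases hn : n + (m : ℤ) < 0
  · rw [if_pos hn, if_pos hn, mul_zero]
  · rw [if_neg hn, if_neg hn, PowerSeries.coeff_mk]
    obtain ⟨j, hj⟩ : ∃ j : ℕ, (j : ℤ) = n + m := ⟨(n + m).natAbs, by omega⟩
    have hj' : (n + (m : ℤ)).natAbs = j := by omega
    rw [hj']
    have hnc : (n : ℂ) = (j : ℂ) - (m : ℂ) := by
      have : n = (j : ℤ) - m := by omega
      rw [this]
      push_cast
      ring
    have hexp : Complex.exp (-(2 * (Real.pi : ℂ) * Complex.I * (k : ℂ) * (n : ℂ) / (N : ℂ))) =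
        Complex.exp a ^ m * Complex.exp (-a) ^ j := by
      rw [← Complex.exp_nat_mul, ← Complex.exp_nat_mul, ← Complex.exp_add]
      congr 1
      rw [ha, hnc]
      ring
    rw [hexp]

/-- Criterion: a holomorphic function given by a convergent series in `w`. -/
theorem hasWExp_of_hasSum (N : ℕ) [NeZero N] (f : ℍ → ℂ) (hf : MDiff f) (m : ℕ) (c : ℕ → ℂ)
    (h : ∀ τ : ℍ, HasSum (fun n : ℕ => c n * wN N τ ^ n) (f τ * wN N τ ^ m)) :
    HasWExp N f (HahnSeries.single (-(m : ℤ)) (1 : ℂ) *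
      HahnSeries.ofPowerSeries ℤ ℂ (PowerSeries.mk c)) := by
  have hnice : IsNice N (fun τ => f τ * wN N τ ^ m) := by
    refine ⟨wpA4a_periodic_of N _ (fun τ => ?_), hf.mul (wpA4a_isNice_wN_pow N m).2.1, ?_⟩
    · have h1 := h ((N : ℝ) +ᵥ τ)
      rw [wpA4a_wN_vadd] at h1
      show f ((N : ℝ) +ᵥ τ) * wN N ((N : ℝ) +ᵥ τ) ^ m = f τ * wN N τ ^ m
      rw [wpA4a_wN_vadd]
      exact h1.unique (h τ)
    · exact isBoundedAtImInfty_of_hasSum_qExpansion (wpA4a_Npos N) (c := c)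
        (fun τ => by simpa [wN] using h τ)
  exact ⟨m, hnice, by rw [wpA4a_qExpansion_unique hnice c h]⟩

end Fermat.Agent.S24
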