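/-
S24, package WPA1 (bridge part, helper85): the formal power series of the Prelude
(`etaProd`, `dedekindEtaUnitInv`, `eisenstein4`, `jNum`) are the Taylor expansions of the
corresponding analytic functions of `q` on the open unit disc.
-/
import Mathlib
import Fermat.Prelude.Def_ModularCurve_X0

set_option autoImplicit false

open scoped Topology

namespace Fermat.Agent.S24

noncomputable section

/-- The Taylor power series at `0` of a function `ℂ → ℂ`. -/
def aj5_ts (f : ℂ → ℂ) : PowerSeries ℂ :=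
  PowerSeries.mk fun n => ((n.factorial : ℂ))⁻¹ * iteratedDeriv n f 0

theorem aj5_ts_coeff (f : ℂ → ℂ) (n : ℕ) :
    PowerSeries.coeff n (aj5_ts f) = ((n.factorial : ℂ))⁻¹ * iteratedDeriv n f 0 := by
  simp [aj5_ts]

theorem aj5_ts_congr {f g : ℂ → ℂ} (h : f =ᶠ[𝓝 0] g) : aj5_ts f = aj5_ts g := by
  ext n
  rw [aj5_ts_coeff, aj5_ts_coeff, h.iteratedDeriv_eq n]

theorem aj5_ts_mul {f g : ℂ → ℂ} (hf : AnalyticAt ℂ f 0) (hg : AnalyticAt ℂ g 0) :
    aj5_ts (fun q => f q * g q) = aj5_ts f * aj5_ts g := by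
  ext n
  simp only [aj5_ts_coeff, iteratedDeriv_fun_mul hf.contDiffAt hg.contDiffAt, Finset.mul_sum,
    PowerSeries.coeff_mul, Finset.Nat.sum_antidiagonal_eq_sum_range_succ_mk, Nat.succ_eq_add_one]
  refine Finset.sum_congr rfl fun i hi ↦ ?_
  rw [Nat.cast_choose _ (by grind)]
  field_simp [Nat.factorial_ne_zero]

theorem aj5_ts_const (c : ℂ) : aj5_ts (fun _ => c) = PowerSeries.C c := by
  ext n
  rw [aj5_ts_coeff, PowerSeries.coeff_C]
  rcases n with _ | n
  · simp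
  · simp [iteratedDeriv_const]

theorem aj5_ts_one_sub_pow (m : ℕ) :
    aj5_ts (fun q : ℂ => 1 - q ^ (m + 1)) = 1 - PowerSeries.X ^ (m + 1) := by
  ext n
  rw [aj5_ts_coeff]
  have h1 : ContDiffAt ℂ n (fun _ : ℂ => (1 : ℂ)) 0 := contDiffAt_const
  have h2 : ContDiffAt ℂ n (fun q : ℂ => q ^ (m + 1)) 0 := by fun_prop
  have : iteratedDeriv n (fun q : ℂ => 1 - q ^ (m + 1)) 0 =
      iteratedDeriv n (fun _ : ℂ => (1 : ℂ)) 0 - iteratedDeriv n (fun q : ℂ => q ^ (m + 1)) 0 :=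
    iteratedDeriv_sub h1 h2
  rw [this, iteratedDeriv_fun_pow_zero, iteratedDeriv_const, map_sub, PowerSeries.coeff_one,
    PowerSeries.coeff_X_pow]
  by_cases h0 : n = 0
  · subst h0; simp
  · by_cases hm : n = m + 1
    · subst hm
      simp [Nat.factorial_ne_zero]
    · simp [h0, hm]

theorem aj5_hasSum_ts {f : ℂ → ℂ} (hf : DifferentiableOn ℂ f (Metric.ball 0 1)) {q : ℂ}
    (hq : ‖q‖ < 1) : HasSum (fun n : ℕ => PowerSeries.coeff n (aj5_ts f) * q ^ n) (f q) := by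
  have h := Complex.hasSum_taylorSeries_on_ball hf (z := q) (by simpa using hq)
  have e : (fun n : ℕ => PowerSeries.coeff n (aj5_ts f) * q ^ n) =
      fun n : ℕ => ((n.factorial : ℂ))⁻¹ • (q - 0) ^ n • iteratedDeriv n f 0 := by
    funext n
    rw [aj5_ts_coeff, sub_zero, smul_eq_mul, smul_eq_mul]
    ring
  rw [e]
  exact h

theorem aj5_ts_finprod (s : Finset ℕ) :
    aj5_ts (fun q : ℂ => ∏ n ∈ s, (1 - q ^ (n + 1))) =
      PowerSeries.map (Int.castRingHom ℂ)
        (∏ n ∈ s, ((1 : PowerSeries ℤ) - PowerSeries.X ^ (n + 1))) := by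
  induction s using Finset.induction_on with
  | empty =>
    simp only [Finset.prod_empty, map_one]
    rw [aj5_ts_const, map_one]
  | insert a s ha ih =>
    simp only [Finset.prod_insert ha]
    have h1 : AnalyticAt ℂ (fun q : ℂ => 1 - q ^ (a + 1)) 0 :=
      Differentiable.analyticAt (by fun_prop) 0
    have h2 : AnalyticAt ℂ (fun q : ℂ => ∏ n ∈ s, (1 - q ^ (n + 1))) 0 :=
      Differentiable.analyticAt (by fun_prop) 0
    rw [aj5_ts_mul h1 h2, ih, aj5_ts_one_sub_pow, map_mul]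
    simp

theorem aj5_tendsto_iteratedDeriv {ι : Type*} {φ : Filter ι} {F : ι → ℂ → ℂ} {f : ℂ → ℂ}
    {U : Set ℂ} (hU : IsOpen U) (hf : TendstoLocallyUniformlyOn F f φ U)
    (hF : ∀ᶠ i in φ, DifferentiableOn ℂ (F i) U) (k : ℕ) :
    TendstoLocallyUniformlyOn (fun i => iteratedDeriv k (F i)) (iteratedDeriv k f) φ U ∧
      ∀ᶠ i in φ, DifferentiableOn ℂ (iteratedDeriv k (F i)) U := by
  induction k with
  | zero => simpa [iteratedDeriv_zero] using And.intro hf hF
  | succ k ih =>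
    refine ⟨?_, ?_⟩
    · have := ih.1.deriv ih.2 hU
      simpa [iteratedDeriv_succ, Function.comp_def] using this
    · filter_upwards [ih.2] with i hi
      rw [iteratedDeriv_succ]
      exact hi.deriv hU

open scoped PowerSeries.WithPiTopology in
theorem aj5_coeff_etaProd_tendsto (k : ℕ) :
    Filter.Tendsto
      (fun s : Finset ℕ =>
        ((PowerSeries.coeff k (∏ n ∈ s, ((1 : PowerSeries ℤ) - PowerSeries.X ^ (n + 1))) : ℤ) : ℂ))
      Filter.atTop (𝓝 ((PowerSeries.coeff k ModularCurve.etaProd : ℤ) : ℂ)) := by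
  have h : HasProd (fun n : ℕ => (1 : PowerSeries ℤ) - PowerSeries.X ^ (n + 1))
      ModularCurve.etaProd :=
    (PowerSeries.WithPiTopology.multipliable_one_sub_X_pow ℤ).hasProd
  have h1 := ((PowerSeries.WithPiTopology.continuous_coeff ℤ k).tendsto _).comp h
  exact ((continuous_of_discreteTopology (f := fun z : ℤ => (z : ℂ))).tendsto _).comp h1

/-- The Taylor series of `q ↦ ∏ (1 - q^(n+1))` is the formal product `etaProd`. -/
theorem aj5_ts_tprod :
    aj5_ts (fun q : ℂ => ∏' n : ℕ, (1 - q ^ (n + 1))) =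
      PowerSeries.map (Int.castRingHom ℂ) ModularCurve.etaProd := by
  ext k
  rw [PowerSeries.coeff_map]
  have hloc : TendstoLocallyUniformlyOn
      (fun (s : Finset ℕ) (q : ℂ) => ∏ n ∈ s, (1 - q ^ (n + 1)))
      (fun q : ℂ => ∏' n : ℕ, (1 - q ^ (n + 1))) Filter.atTop (Metric.ball 0 1) :=
    ModularForm.multipliableLocallyUniformlyOn_one_sub_pow.hasProdLocallyUniformlyOn
  have hd : ∀ᶠ s : Finset ℕ in Filter.atTop,
      DifferentiableOn ℂ (fun q : ℂ => ∏ n ∈ s, (1 - q ^ (n + 1))) (Metric.ball 0 1) :=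
    .of_forall fun s => Differentiable.differentiableOn (by fun_prop)
  have h1 := ((aj5_tendsto_iteratedDeriv Metric.isOpen_ball hloc hd k).1).tendsto_at
    (show (0 : ℂ) ∈ Metric.ball (0 : ℂ) 1 by simp)
  have h2 : Filter.Tendsto
      (fun s : Finset ℕ =>
        PowerSeries.coeff k (aj5_ts (fun q : ℂ => ∏ n ∈ s, (1 - q ^ (n + 1)))))
      Filter.atTop
      (𝓝 (PowerSeries.coeff k (aj5_ts (fun q : ℂ => ∏' n : ℕ, (1 - q ^ (n + 1)))))) := by
    simp only [aj5_ts_coeff]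
    exact h1.const_mul _
  refine tendsto_nhds_unique h2 ((aj5_coeff_etaProd_tendsto k).congr fun s => ?_)
  rw [aj5_ts_finprod, PowerSeries.coeff_map]
  rfl

/-- (b) The formal product `etaProd` evaluates to the analytic product on the unit disc. -/
theorem aj5_hasSum_etaProd (q : ℂ) (hq : ‖q‖ < 1) :
    HasSum (fun n : ℕ => ((PowerSeries.coeff n ModularCurve.etaProd : ℤ) : ℂ) * q ^ n)
      (∏' n : ℕ, (1 - q ^ (n + 1))) := by
  have h := aj5_hasSum_ts ModularForm.differentiableOn_tprod_one_sub_pow hq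
  rw [aj5_ts_tprod] at h
  simpa [PowerSeries.coeff_map] using h

theorem aj5_ts_pow {f : ℂ → ℂ} (hf : AnalyticAt ℂ f 0) (k : ℕ) :
    aj5_ts (fun q => f q ^ k) = aj5_ts f ^ k := by
  induction k with
  | zero =>
    simp only [pow_zero]
    rw [aj5_ts_const, map_one]
  | succ k ih =>
    simp only [pow_succ]
    rw [aj5_ts_mul (hf.fun_pow k) hf, ih]

theorem aj5_tprod_ne_zero {q : ℂ} (hq : ‖q‖ < 1) : ∏' n : ℕ, (1 - q ^ (n + 1)) ≠ 0 := by
  have h := tprod_one_add_ne_zero_of_summable (f := fun n : ℕ => -q ^ (n + 1)) ?_ ?_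
  · simpa [sub_eq_add_neg] using h
  · intro n h0
    have h1 : q ^ (n + 1) = 1 := by
      have : 1 - q ^ (n + 1) = 0 := by simpa [sub_eq_add_neg] using h0
      exact (sub_eq_zero.mp this).symm
    have h2 : ‖q‖ ^ (n + 1) = 1 := by rw [← norm_pow, h1, norm_one]
    have h3 : ‖q‖ ^ (n + 1) < 1 := pow_lt_one₀ (norm_nonneg q) hq (Nat.succ_ne_zero n)
    linarith
  · simpa using (summable_nat_add_iff 1).mpr (summable_geometric_of_lt_one (norm_nonneg q) hq)

/-- The function `q ↦ 1 / ∏ (1 - q^(n+1))^24` is holomorphic on the unit disc. -/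
theorem aj5_differentiableOn_etaInv :
    DifferentiableOn ℂ (fun q : ℂ => ((∏' n : ℕ, (1 - q ^ (n + 1))) ^ 24)⁻¹) (Metric.ball 0 1) :=
  (ModularForm.differentiableOn_tprod_one_sub_pow.fun_pow 24).fun_inv fun q hq =>
    pow_ne_zero 24 (aj5_tprod_ne_zero (by simpa using hq))

theorem aj5_ball_mem_nhds : Metric.ball (0 : ℂ) 1 ∈ 𝓝 (0 : ℂ) :=
  Metric.ball_mem_nhds (0 : ℂ) zero_lt_one

/-- The Taylor series of `q ↦ 1 / ∏ (1 - q^(n+1))^24` is `dedekindEtaUnitInv`. -/
theorem aj5_ts_etaUnitInv :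
    aj5_ts (fun q : ℂ => ((∏' n : ℕ, (1 - q ^ (n + 1))) ^ 24)⁻¹) =
      PowerSeries.map (Int.castRingHom ℂ) ModularCurve.dedekindEtaUnitInv := by
  have hF : AnalyticAt ℂ (fun q : ℂ => ∏' n : ℕ, (1 - q ^ (n + 1))) 0 :=
    ModularForm.differentiableOn_tprod_one_sub_pow.analyticAt aj5_ball_mem_nhds
  have hG : AnalyticAt ℂ (fun q : ℂ => ((∏' n : ℕ, (1 - q ^ (n + 1))) ^ 24)⁻¹) 0 :=
    aj5_differentiableOn_etaInv.analyticAt aj5_ball_mem_nhds
  have h1 : aj5_ts (fun q : ℂ => (∏' n : ℕ, (1 - q ^ (n + 1))) ^ 24) =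
      PowerSeries.map (Int.castRingHom ℂ) ModularCurve.dedekindEtaUnit := by
    rw [aj5_ts_pow hF, aj5_ts_tprod, ModularCurve.dedekindEtaUnit, map_pow]
  have h2 : aj5_ts (fun q : ℂ => ((∏' n : ℕ, (1 - q ^ (n + 1))) ^ 24)⁻¹) *
      PowerSeries.map (Int.castRingHom ℂ) ModularCurve.dedekindEtaUnit = 1 := by
    rw [← h1, ← aj5_ts_mul hG (hF.fun_pow 24)]
    have he : (fun q : ℂ => ((∏' n : ℕ, (1 - q ^ (n + 1))) ^ 24)⁻¹ *
        (∏' n : ℕ, (1 - q ^ (n + 1))) ^ 24) =ᶠ[𝓝 0] fun _ => (1 : ℂ) := by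
      filter_upwards [aj5_ball_mem_nhds] with q hq
      exact inv_mul_cancel₀ (pow_ne_zero 24 (aj5_tprod_ne_zero (by simpa using hq)))
    rw [aj5_ts_congr he, aj5_ts_const, map_one]
  have h3 : PowerSeries.map (Int.castRingHom ℂ) ModularCurve.dedekindEtaUnit *
      PowerSeries.map (Int.castRingHom ℂ) ModularCurve.dedekindEtaUnitInv = 1 := by
    rw [← map_mul, ModularCurve.dedekindEtaUnit_mul_inv, map_one]
  exact left_inv_eq_right_inv h2 h3

/-- (c) `dedekindEtaUnitInv` evaluates to `1 / ∏ (1 - q^(n+1))^24` on the unit disc. -/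
theorem aj5_hasSum_etaUnitInv (q : ℂ) (hq : ‖q‖ < 1) :
    HasSum (fun n : ℕ => ((PowerSeries.coeff n ModularCurve.dedekindEtaUnitInv : ℤ) : ℂ) * q ^ n)
      ((∏' n : ℕ, (1 - q ^ (n + 1))) ^ 24)⁻¹ := by
  have h := aj5_hasSum_ts aj5_differentiableOn_etaInv hq
  rw [aj5_ts_etaUnitInv] at h
  simpa [PowerSeries.coeff_map] using h

section Eisenstein

open UpperHalfPlane ModularForm EisensteinSeries ModularFormClass

/-- The `q`-expansion of `E₄` is the formal series `eisenstein4 = 1 + 240 ∑ σ₃(n) qⁿ`. -/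
theorem aj5_qExpansion_E4 :
    qExpansion 1 E₄ = PowerSeries.map (Int.castRingHom ℂ) ModularCurve.eisenstein4 := by
  ext m
  rw [EisensteinSeries.E_qExpansion_coeff _ ⟨2, rfl⟩, PowerSeries.coeff_map,
    ModularCurve.eisenstein4, PowerSeries.coeff_mk]
  by_cases hm : m = 0
  · simp [hm]
  · simp only [hm, if_false]
    rw [show bernoulli 4 = -1 / 30 by decide +kernel]
    simp [ArithmeticFunction.sigma_apply]
    norm_num

theorem aj5_ts_cuspFunction_E4 :
    aj5_ts (cuspFunction 1 E₄) =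
      PowerSeries.map (Int.castRingHom ℂ) ModularCurve.eisenstein4 := by
  rw [← aj5_qExpansion_E4]
  ext m
  rw [aj5_ts_coeff, qExpansion_coeff]

theorem aj5_differentiableOn_cuspFunction_E4 :
    DifferentiableOn ℂ (cuspFunction 1 E₄) (Metric.ball 0 1) := fun q hq =>
  (ModularFormClass.differentiableAt_cuspFunction E₄ one_pos one_mem_strictPeriods_SL
    (by simpa using hq)).differentiableWithinAt

/-- The holomorphic function on the unit disc whose value at `q = e^{2πiτ}` is `j(τ)·q`. -/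
def aj5_jNumFun (q : ℂ) : ℂ :=
  cuspFunction 1 E₄ q ^ 3 * ((∏' n : ℕ, (1 - q ^ (n + 1))) ^ 24)⁻¹

theorem aj5_differentiableOn_jNumFun : DifferentiableOn ℂ aj5_jNumFun (Metric.ball 0 1) :=
  (aj5_differentiableOn_cuspFunction_E4.fun_pow 3).fun_mul aj5_differentiableOn_etaInv

theorem aj5_ts_jNumFun :
    aj5_ts aj5_jNumFun = PowerSeries.map (Int.castRingHom ℂ) ModularCurve.jNum := by
  have h4 : AnalyticAt ℂ (cuspFunction 1 E₄) 0 :=
    aj5_differentiableOn_cuspFunction_E4.analyticAt aj5_ball_mem_nhds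
  have hG : AnalyticAt ℂ (fun q : ℂ => ((∏' n : ℕ, (1 - q ^ (n + 1))) ^ 24)⁻¹) 0 :=
    aj5_differentiableOn_etaInv.analyticAt aj5_ball_mem_nhds
  have : aj5_jNumFun = fun q : ℂ =>
      (fun q => cuspFunction 1 E₄ q ^ 3) q *
        (fun q : ℂ => ((∏' n : ℕ, (1 - q ^ (n + 1))) ^ 24)⁻¹) q := rfl
  rw [this, aj5_ts_mul (h4.fun_pow 3) hG, aj5_ts_pow h4, aj5_ts_cuspFunction_E4,
    aj5_ts_etaUnitInv, ModularCurve.jNum, map_mul, map_pow]

/-- `jNum` evaluates to `aj5_jNumFun` on the unit disc. -/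
theorem aj5_hasSum_jNumFun (q : ℂ) (hq : ‖q‖ < 1) :
    HasSum (fun n : ℕ => ((PowerSeries.coeff n ModularCurve.jNum : ℤ) : ℂ) * q ^ n)
      (aj5_jNumFun q) := by
  have h := aj5_hasSum_ts aj5_differentiableOn_jNumFun hq
  rw [aj5_ts_jNumFun] at h
  simpa [PowerSeries.coeff_map] using h

theorem aj5_jNumFun_qParam (τ : ℍ) :
    aj5_jNumFun (Function.Periodic.qParam 1 τ) =
      E₄ τ ^ 3 / ModularForm.discriminant τ * Function.Periodic.qParam 1 τ := by
  have hq : ‖Function.Periodic.qParam 1 (τ : ℂ)‖ < 1 :=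
    Function.Periodic.norm_qParam_lt_one one_pos τ.im_pos
  have hq0 : Function.Periodic.qParam 1 (τ : ℂ) ≠ 0 := by
    simp [Function.Periodic.qParam]
  have h4 : cuspFunction 1 E₄ (Function.Periodic.qParam 1 τ) = E₄ τ :=
    SlashInvariantFormClass.eq_cuspFunction E₄ τ one_mem_strictPeriods_SL one_ne_zero
  have hΔ : ModularForm.discriminant τ = Function.Periodic.qParam 1 τ *
      (∏' n : ℕ, (1 - Function.Periodic.qParam 1 (τ : ℂ) ^ (n + 1))) ^ 24 := by
    rw [ModularForm.discriminant_eq_q_prod, (ModularForm.multipliable_one_sub_pow hq).tprod_pow]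
  have hP : (∏' n : ℕ, (1 - Function.Periodic.qParam 1 (τ : ℂ) ^ (n + 1))) ^ 24 ≠ 0 :=
    pow_ne_zero 24 (aj5_tprod_ne_zero hq)
  rw [aj5_jNumFun, h4, hΔ]
  field_simp

/-- The `q`-expansion of `j·q` is `jNum`. -/
theorem aj5_hasSum_jNum (τ : ℍ) :
    HasSum (fun n : ℕ => ((PowerSeries.coeff n ModularCurve.jNum : ℤ) : ℂ) *
        Function.Periodic.qParam 1 τ ^ n)
      (E₄ τ ^ 3 / ModularForm.discriminant τ * Function.Periodic.qParam 1 τ) := by
  rw [← aj5_jNumFun_qParam]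
  exact aj5_hasSum_jNumFun _ (Function.Periodic.norm_qParam_lt_one one_pos τ.im_pos)

theorem aj5_coeff_jq (n : ℕ) :
    ModularCurve.jq.coeff ((n : ℤ) - 1) = ((PowerSeries.coeff n ModularCurve.jNum : ℤ) : ℚ) := by
  rw [ModularCurve.jq, sub_eq_add_neg, HahnSeries.coeff_single_mul_add, one_mul,
    HahnSeries.ofPowerSeries_apply_coeff, ModularCurve.jNumQ, PowerSeries.coeff_map]
  rfl

/-- The `q`-expansion of `j` is the formal Laurent series `jq` of the Prelude. -/
theorem aj5_hasSum_jq (τ : ℍ) :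
    HasSum (fun n : ℕ => ((ModularCurve.jq.coeff ((n : ℤ) - 1) : ℚ) : ℂ) *
        Function.Periodic.qParam 1 τ ^ n)
      (E₄ τ ^ 3 / ModularForm.discriminant τ * Function.Periodic.qParam 1 τ) := by
  have h := aj5_hasSum_jNum τ
  have e : (fun n : ℕ => ((ModularCurve.jq.coeff ((n : ℤ) - 1) : ℚ) : ℂ) *
      Function.Periodic.qParam 1 τ ^ n) =
      fun n : ℕ => ((PowerSeries.coeff n ModularCurve.jNum : ℤ) : ℂ) *
        Function.Periodic.qParam 1 τ ^ n := by
    funext n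
    rw [aj5_coeff_jq]
    simp
  rw [e]
  exact h

theorem aj5_jNumFun_zero : aj5_jNumFun 0 = 1 := by
  have h := aj5_hasSum_jNumFun 0 (by simp)
  have h' : HasSum (fun n : ℕ => ((PowerSeries.coeff n ModularCurve.jNum : ℤ) : ℂ) * (0 : ℂ) ^ n)
      (((PowerSeries.coeff 0 ModularCurve.jNum : ℤ) : ℂ) * (0 : ℂ) ^ 0) :=
    hasSum_single 0 fun n hn => by simp [hn]
  have h2 := h.unique h'
  rw [h2, PowerSeries.coeff_zero_eq_constantCoeff_apply, ModularCurve.constantCoeff_jNum]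
  simp

/-- `j(τ)·q → 1` as `τ → i∞`. -/
theorem aj5_tendsto_jq :
    Filter.Tendsto
      (fun τ : ℍ => E₄ τ ^ 3 / ModularForm.discriminant τ * Function.Periodic.qParam 1 τ)
      atImInfty (𝓝 1) := by
  have hc : ContinuousAt aj5_jNumFun 0 :=
    (aj5_differentiableOn_jNumFun.differentiableAt aj5_ball_mem_nhds).continuousAt
  have h := hc.tendsto.comp (UpperHalfPlane.qParam_tendsto_atImInfty one_pos)
  rw [aj5_jNumFun_zero] at h
  exact h.congr fun τ => aj5_jNumFun_qParam τ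

end Eisenstein

end

end Fermat.Agent.S24
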