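import Fermat.Agent.S24.AnDefs

/-!
S24 / WPA5 (a): holomorphy of the elements of `ModRing N` and the order functions at interior
points of the upper half plane.
-/

set_option autoImplicit false

open ModularCurve AlgebraicCurve MatrixGroups UpperHalfPlane ModularForm EisensteinSeries
open scoped Manifold

namespace Fermat.Agent.S24

/-- Holomorphy of a function on `ℍ`, phrased on `ℂ`. -/
theorem wpA5_mdiff_iff (f : ℍ → ℂ) :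
    MDiff f ↔ DifferentiableOn ℂ (f ∘ ofComplex) {z : ℂ | 0 < z.im} :=
  UpperHalfPlane.mdifferentiable_iff

theorem wpA5_kleinJ_mdiff : MDiff kleinJ := by
  have h4 : MDiff (⇑E₄) := E₄.holo'
  have hΔ : MDiff (ModularForm.discriminant) := CuspForm.discriminant.holo'
  rw [wpA5_mdiff_iff] at h4 hΔ ⊢
  have : (kleinJ ∘ ofComplex) =
      fun z => ((⇑E₄ ∘ ofComplex) z) ^ 3 / ((ModularForm.discriminant ∘ ofComplex) z) := by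
    funext z
    simp [kleinJ]
  rw [this]
  refine (h4.pow 3).div hΔ ?_
  intro z _
  exact ModularForm.discriminant_ne_zero _

theorem wpA5_scaleH_mdiff (d : ℕ) : MDiff (fun τ : ℍ => ((scaleH d τ : ℍ) : ℂ)) := by
  by_cases hd : d = 0
  · subst hd
    have : (fun τ : ℍ => ((scaleH 0 τ : ℍ) : ℂ)) = fun τ : ℍ => (τ : ℂ) := by
      funext τ
      simp [scaleH]
    rw [this]
    exact mdifferentiable_coe
  · have : (fun τ : ℍ => ((scaleH d τ : ℍ) : ℂ)) = fun τ : ℍ => (d : ℂ) * (τ : ℂ) := by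
      funext τ
      exact coe_scaleH d hd τ
    rw [this, wpA5_mdiff_iff]
    have h2 : DifferentiableOn ℂ (fun z : ℂ => (d : ℂ) * z) {z : ℂ | 0 < z.im} :=
      (differentiable_id.const_mul (d : ℂ)).differentiableOn
    refine h2.congr ?_
    intro z hz
    simp [Function.comp, ofComplex_apply_of_im_pos hz]

theorem wpA5_ofComplex_coe (τ : ℍ) : ofComplex (τ : ℂ) = τ := ofComplex_apply τ

/-- Composition of a holomorphic function on `ℍ` with a holomorphic self-map of `ℍ`. -/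
theorem wpA5_mdiff_comp (f : ℍ → ℂ) (m : ℍ → ℍ) (hf : MDiff f)
    (hm : MDiff (fun τ : ℍ => ((m τ : ℍ) : ℂ))) : MDiff (fun τ : ℍ => f (m τ)) := by
  rw [wpA5_mdiff_iff] at hf hm ⊢
  have hmaps : Set.MapsTo ((fun τ : ℍ => ((m τ : ℍ) : ℂ)) ∘ ofComplex) {z : ℂ | 0 < z.im}
      {z : ℂ | 0 < z.im} := by
    intro z _
    exact (m (ofComplex z)).im_pos
  have := hf.comp hm hmaps
  refine this.congr ?_
  intro z _
  simp [Function.comp]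

theorem wpA5_smul_mdiff (g : SL(2, ℤ)) : MDiff (fun τ : ℍ => ((g • τ : ℍ) : ℂ)) := by
  have h := mdifferentiable_smul (g := ((g : SL(2, ℤ)) : GL (Fin 2) ℝ)) (by simp)
  exact mdifferentiable_coe.comp h

theorem wpA5_genFn_mdiff (g : SL(2, ℤ)) (d : ℕ) : MDiff (genFn g d) := by
  have h1 : MDiff (fun τ : ℍ => kleinJ (scaleH d τ)) :=
    wpA5_mdiff_comp kleinJ (scaleH d) wpA5_kleinJ_mdiff (wpA5_scaleH_mdiff d)
  exact wpA5_mdiff_comp (fun τ : ℍ => kleinJ (scaleH d τ)) (fun τ => g⁻¹ • τ) h1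
    (wpA5_smul_mdiff g⁻¹)

theorem wpA5_mdiff_of_mem (N : ℕ) [NeZero N] (f : ℍ → ℂ) (hf : f ∈ ModRing N) : MDiff f := by
  unfold ModRing at hf
  induction hf using Algebra.adjoin_induction with
  | mem x hx =>
    obtain ⟨g, d, _, rfl⟩ := hx
    exact wpA5_genFn_mdiff g d
  | algebraMap c =>
    rw [wpA5_mdiff_iff]
    exact differentiableOn_const (c := phi c)
  | add x y _ _ ihx ihy =>
    rw [wpA5_mdiff_iff] at ihx ihy ⊢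
    exact ihx.add ihy
  | mul x y _ _ ihx ihy =>
    rw [wpA5_mdiff_iff] at ihx ihy ⊢
    exact ihx.mul ihy

theorem wpA5_analyticAt (f : ℍ → ℂ) (hf : MDiff f) (τ₀ : ℍ) :
    AnalyticAt ℂ (f ∘ ofComplex) (τ₀ : ℂ) := by
  rw [wpA5_mdiff_iff] at hf
  exact hf.analyticAt (isOpen_upperHalfPlaneSet.mem_nhds τ₀.im_pos)

theorem wpA5_order_ne_top (f : ℍ → ℂ) (hf : MDiff f) (h0 : f ≠ 0) (τ₀ : ℍ) :
    analyticOrderAt (f ∘ ofComplex) (τ₀ : ℂ) ≠ ⊤ := by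
  intro htop
  apply h0
  rw [analyticOrderAt_eq_top] at htop
  apply UpperHalfPlane.eq_zero_of_frequently hf (τ := τ₀)
  apply Filter.Eventually.frequently
  rw [eventually_nhdsWithin_iff]
  have h2 : ∀ᶠ z in nhds τ₀, (f ∘ ofComplex) ((z : ℍ) : ℂ) = 0 :=
    continuous_coe.continuousAt.eventually htop
  filter_upwards [h2] with z hz _
  simpa using hz

theorem wpA5_analyticOrderAt_ne_top (N : ℕ) [NeZero N] (τ₀ : ℍ) (f : ℍ → ℂ) (hf : f ∈ ModRing N)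
    (h0 : f ≠ 0) : analyticOrderAt (f ∘ ofComplex) (τ₀ : ℂ) ≠ ⊤ :=
  wpA5_order_ne_top f (wpA5_mdiff_of_mem N f hf) h0 τ₀

theorem wpA5_ordAt_mul_of_mdiff (τ₀ : ℍ) (f g : ℍ → ℂ) (hf : MDiff f) (hg : MDiff g)
    (hf0 : f ≠ 0) (hg0 : g ≠ 0) : ordAt τ₀ (f * g) = ordAt τ₀ f + ordAt τ₀ g := by
  unfold ordAt
  have h1 : ((f * g) ∘ ofComplex) = (f ∘ ofComplex) * (g ∘ ofComplex) := rfl
  rw [h1, analyticOrderAt_mul (wpA5_analyticAt f hf τ₀) (wpA5_analyticAt g hg τ₀),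
    ENat.toNat_add (wpA5_order_ne_top f hf hf0 τ₀) (wpA5_order_ne_top g hg hg0 τ₀)]
  push_cast
  rfl

theorem wpA5_ordAt_mul (N : ℕ) [NeZero N] (τ₀ : ℍ) (f g : ℍ → ℂ) (hf : f ∈ ModRing N)
    (hg : g ∈ ModRing N) (hf0 : f ≠ 0) (hg0 : g ≠ 0) :
    ordAt τ₀ (f * g) = ordAt τ₀ f + ordAt τ₀ g :=
  wpA5_ordAt_mul_of_mdiff τ₀ f g (wpA5_mdiff_of_mem N f hf) (wpA5_mdiff_of_mem N g hg) hf0 hg0

theorem wpA5_ordAt_add_of_mdiff (τ₀ : ℍ) (f g : ℍ → ℂ) (hf : MDiff f) (hg : MDiff g)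
    (hf0 : f ≠ 0) (hg0 : g ≠ 0) (hfg : f + g ≠ 0) :
    min (ordAt τ₀ f) (ordAt τ₀ g) ≤ ordAt τ₀ (f + g) := by
  unfold ordAt
  have h1 : ((f + g) ∘ ofComplex) = (f ∘ ofComplex) + (g ∘ ofComplex) := rfl
  have hle := le_analyticOrderAt_add (f := f ∘ ofComplex) (g := g ∘ ofComplex) (z₀ := (τ₀ : ℂ))
  rw [← h1] at hle
  have hfg' : MDiff (f + g) := by
    rw [wpA5_mdiff_iff] at hf hg ⊢
    exact hf.add hg
  have e1 := wpA5_order_ne_top f hf hf0 τ₀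
  have e2 := wpA5_order_ne_top g hg hg0 τ₀
  have e3 := wpA5_order_ne_top (f + g) hfg' hfg τ₀
  obtain ⟨a, ha⟩ := ENat.ne_top_iff_exists.mp e1
  obtain ⟨b, hb⟩ := ENat.ne_top_iff_exists.mp e2
  obtain ⟨c, hc⟩ := ENat.ne_top_iff_exists.mp e3
  rw [← ha, ← hb, ← hc] at hle ⊢
  simp only [ENat.toNat_natCast]
  have h2 : min a b ≤ c := by
    rcases le_total a b with h | h
    · rw [min_eq_left (by exact_mod_cast h)] at hle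
      rw [min_eq_left h]
      exact_mod_cast hle
    · rw [min_eq_right (by exact_mod_cast h)] at hle
      rw [min_eq_right h]
      exact_mod_cast hle
  exact_mod_cast h2

theorem wpA5_ordAt_add (N : ℕ) [NeZero N] (τ₀ : ℍ) (f g : ℍ → ℂ) (hf : f ∈ ModRing N)
    (hg : g ∈ ModRing N) (hf0 : f ≠ 0) (hg0 : g ≠ 0) (hfg : f + g ≠ 0) :
    min (ordAt τ₀ f) (ordAt τ₀ g) ≤ ordAt τ₀ (f + g) :=
  wpA5_ordAt_add_of_mdiff τ₀ f g (wpA5_mdiff_of_mem N f hf) (wpA5_mdiff_of_mem N g hg) hf0 hg0 hfg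

theorem wpA5_ordAt_const (τ₀ : ℍ) (c : Kbar) (hc : c ≠ 0) :
    ordAt τ₀ (algebraMap Kbar (ℍ → ℂ) c) = 0 := by
  unfold ordAt
  have h1 : ((algebraMap Kbar (ℍ → ℂ) c) ∘ ofComplex) = fun _ : ℂ => phi c := rfl
  have h2 : analyticOrderAt (fun _ : ℂ => phi c) (τ₀ : ℂ) = 0 := by
    rw [analyticOrderAt_eq_zero]
    right
    exact (map_ne_zero phi).mpr hc
  rw [h1, h2]
  rfl

/-- The Möbius map of `γ` as a function on `ℂ`. -/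
theorem wpA5_actFn_comp (γ : SL(2, ℤ)) (f : ℍ → ℂ) :
    (actFn γ f) ∘ ofComplex =
      (f ∘ ofComplex) ∘ (fun z : ℂ => (((γ⁻¹ : SL(2, ℤ)) • ofComplex z : ℍ) : ℂ)) := by
  funext z
  simp [actFn, Function.comp]

theorem wpA5_det_pos (g : SL(2, ℤ)) : 0 < (((g : SL(2, ℤ)) : GL (Fin 2) ℝ)).val.det := by
  have : (((g : SL(2, ℤ)) : GL (Fin 2) ℝ)).val.det = (((g : SL(2, ℤ)) : GL (Fin 2) ℝ)).det.val :=
    rfl
  rw [this]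
  simp

theorem wpA5_ordAt_actFn' (τ₀ : ℍ) (γ : SL(2, ℤ)) (hγ : γ • τ₀ = τ₀) (f : ℍ → ℂ) :
    ordAt τ₀ (actFn γ f) = ordAt τ₀ f := by
  unfold ordAt
  have hγ' : (γ⁻¹ : SL(2, ℤ)) • τ₀ = τ₀ := by
    rw [inv_smul_eq_iff, hγ]
  have hdet : 0 < ((((γ⁻¹ : SL(2, ℤ)) : GL (Fin 2) ℝ)).val).det := wpA5_det_pos γ⁻¹
  have hG : AnalyticAt ℂ (fun z : ℂ => (((γ⁻¹ : SL(2, ℤ)) • ofComplex z : ℍ) : ℂ)) (τ₀ : ℂ) :=
    τ₀.analyticAt_smul hdet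
  have hG' : deriv (fun z : ℂ => (((γ⁻¹ : SL(2, ℤ)) • ofComplex z : ℍ) : ℂ)) (τ₀ : ℂ) ≠ 0 :=
    τ₀.deriv_smul_ne_zero hdet
  rw [wpA5_actFn_comp, analyticOrderAt_comp_of_deriv_ne_zero hG hG']
  simp only [wpA5_ofComplex_coe, hγ']

theorem wpA5_ordAt_actFn (N : ℕ) [NeZero N] (τ₀ : ℍ) (γ : SL(2, ℤ)) (hγ : γ • τ₀ = τ₀)
    (f : ℍ → ℂ) (_hf : f ∈ ModRing N) : ordAt τ₀ (actFn γ f) = ordAt τ₀ f :=
  wpA5_ordAt_actFn' τ₀ γ hγ f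

theorem wpA5_denom_inv (τ₀ : ℍ) (γ : SL(2, ℤ)) (hγ : γ • τ₀ = τ₀) :
    denom ((γ⁻¹ : SL(2, ℤ)) : GL (Fin 2) ℝ) (τ₀ : ℂ) * denom (γ : GL (Fin 2) ℝ) (τ₀ : ℂ) = 1 := by
  have hγ' : (γ⁻¹ : SL(2, ℤ)) • τ₀ = τ₀ := by
    rw [inv_smul_eq_iff, hγ]
  have h1 := denom_cocycle (γ : GL (Fin 2) ℝ) ((γ⁻¹ : SL(2, ℤ)) : GL (Fin 2) ℝ) τ₀.im_ne_zero
  have h2 : (((γ⁻¹ : SL(2, ℤ)) • τ₀ : ℍ) : ℂ) =
      num ((γ⁻¹ : SL(2, ℤ)) : GL (Fin 2) ℝ) τ₀ / denom ((γ⁻¹ : SL(2, ℤ)) : GL (Fin 2) ℝ) τ₀ :=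
    coe_smul_of_det_pos (wpA5_det_pos γ⁻¹) τ₀
  rw [← h2, hγ'] at h1
  have h3 : (γ : GL (Fin 2) ℝ) * ((γ⁻¹ : SL(2, ℤ)) : GL (Fin 2) ℝ) = 1 := by
    rw [← map_mul, ← map_mul, mul_inv_cancel, map_one, map_one]
  rw [h3] at h1
  have h4 : denom (1 : GL (Fin 2) ℝ) (τ₀ : ℂ) = 1 := by
    simp [denom]
  rw [h4] at h1
  rw [mul_comm]
  exact h1.symm

theorem wpA5_dvd_ordAt' (τ₀ : ℍ) (γ : SL(2, ℤ)) (hγ : γ • τ₀ = τ₀) (e : ℕ)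
    (he : IsPrimitiveRoot (UpperHalfPlane.denom γ τ₀ ^ 2) e) (f : ℍ → ℂ) (hf : MDiff f)
    (hf0 : f ≠ 0) (hinv : actFn γ f = f) : (e : ℤ) ∣ ordAt τ₀ f := by
  have hγ' : (γ⁻¹ : SL(2, ℤ)) • τ₀ = τ₀ := by
    rw [inv_smul_eq_iff, hγ]
  have hdet : 0 < ((((γ⁻¹ : SL(2, ℤ)) : GL (Fin 2) ℝ)).val).det := wpA5_det_pos γ⁻¹
  obtain ⟨G, hGdef⟩ : ∃ G : ℂ → ℂ, G = fun z : ℂ => (((γ⁻¹ : SL(2, ℤ)) • ofComplex z : ℍ) : ℂ) :=
    ⟨_, rfl⟩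
  obtain ⟨F, hFdef⟩ : ∃ F : ℂ → ℂ, F = f ∘ ofComplex := ⟨_, rfl⟩
  have hFG : F ∘ G = F := by
    rw [hFdef, hGdef, ← wpA5_actFn_comp, hinv]
  have hFan : AnalyticAt ℂ F (τ₀ : ℂ) := by
    rw [hFdef]
    exact wpA5_analyticAt f hf τ₀
  have hG : AnalyticAt ℂ G (τ₀ : ℂ) := by
    rw [hGdef]
    exact τ₀.analyticAt_smul hdet
  have hGτ : G (τ₀ : ℂ) = (τ₀ : ℂ) := by
    rw [hGdef]
    simp only [wpA5_ofComplex_coe, hγ']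
  have hG'val : deriv G (τ₀ : ℂ) = UpperHalfPlane.denom γ τ₀ ^ 2 := by
    rw [hGdef]
    refine Eq.trans (τ₀.deriv_smul hdet) ?_
    have h1 := wpA5_denom_inv τ₀ γ hγ
    have h2 : (((((γ⁻¹ : SL(2, ℤ)) : GL (Fin 2) ℝ)).val).det : ℂ) = 1 := by
      have : ((((γ⁻¹ : SL(2, ℤ)) : GL (Fin 2) ℝ)).val).det = 1 := by
        have h : ((((γ⁻¹ : SL(2, ℤ)) : GL (Fin 2) ℝ)).val).det =
          (((γ⁻¹ : SL(2, ℤ)) : GL (Fin 2) ℝ)).det.val := rfl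
        rw [h]
        simp
      rw [this]
      simp
    rw [h2]
    have h3 : denom ((γ⁻¹ : SL(2, ℤ)) : GL (Fin 2) ℝ) (τ₀ : ℂ) ≠ 0 := denom_ne_zero _ τ₀
    have h4 : denom (γ : GL (Fin 2) ℝ) (τ₀ : ℂ) *
        denom ((γ⁻¹ : SL(2, ℤ)) : GL (Fin 2) ℝ) (τ₀ : ℂ) = 1 := by
      rw [mul_comm]
      exact h1
    rw [div_eq_iff (pow_ne_zero 2 h3), ← mul_pow, h4, one_pow]
  have hG' : deriv G (τ₀ : ℂ) ≠ 0 := by
    rw [hGdef]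
    exact τ₀.deriv_smul_ne_zero hdet
  obtain ⟨n, hn⟩ := ENat.ne_top_iff_exists.mp (wpA5_order_ne_top f hf hf0 τ₀)
  rw [← hFdef] at hn
  obtain ⟨u, hu, hu0, hFu⟩ := (hFan.analyticOrderAt_eq_natCast).mp hn.symm
  have h1 := hG.analyticOrderAt_sub_eq_one_of_deriv_ne_zero hG'
  obtain ⟨k, hk, hk0, hGk⟩ :=
    ((hG.fun_sub analyticAt_const).analyticOrderAt_eq_natCast (n := 1)).mp (by simpa using h1)
  have hkτ : k (τ₀ : ℂ) = deriv G (τ₀ : ℂ) := by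
    have h2 : deriv (fun z => G z - G (τ₀ : ℂ)) (τ₀ : ℂ) =
        deriv (fun z => (z - (τ₀ : ℂ)) ^ 1 • k z) (τ₀ : ℂ) := Filter.EventuallyEq.deriv_eq hGk
    rw [deriv_sub_const] at h2
    rw [h2]
    have hd : HasDerivAt (fun z : ℂ => (z - (τ₀ : ℂ)) ^ 1 • k z) (k (τ₀ : ℂ)) (τ₀ : ℂ) := by
      have h3 : HasDerivAt (fun z : ℂ => z - (τ₀ : ℂ)) 1 (τ₀ : ℂ) :=
        (hasDerivAt_id (τ₀ : ℂ)).sub_const (τ₀ : ℂ)
      have h4 := h3.mul hk.differentiableAt.hasDerivAt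
      have h5 : (fun z : ℂ => (z - (τ₀ : ℂ)) ^ 1 • k z) = (fun z : ℂ => z - (τ₀ : ℂ)) * k := by
        funext z
        simp
      rw [h5]
      have h6 : (1 * k (τ₀ : ℂ) + ((τ₀ : ℂ) - (τ₀ : ℂ)) * deriv k (τ₀ : ℂ)) = k (τ₀ : ℂ) := by
        ring
      rw [h6] at h4
      exact h4
    rw [hd.deriv]
  have hcomp : ∀ᶠ z in nhds (τ₀ : ℂ), F (G z) = (G z - (τ₀ : ℂ)) ^ n • u (G z) := by
    have ht : Filter.Tendsto G (nhds (τ₀ : ℂ)) (nhds (τ₀ : ℂ)) := by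
      have := hG.continuousAt.tendsto
      rwa [hGτ] at this
    exact ht.eventually hFu
  have hev : ∀ᶠ z in nhds (τ₀ : ℂ),
      (z - (τ₀ : ℂ)) ^ n * (k z ^ n * u (G z)) = (z - (τ₀ : ℂ)) ^ n * u z := by
    filter_upwards [hcomp, hGk, hFu] with z h1 h2 h3
    have h4 : F (G z) = F z := congrFun hFG z
    rw [h1, h3] at h4
    rw [hGτ] at h2
    simp only [pow_one, smul_eq_mul] at h2 h4
    rw [h2, mul_pow] at h4
    rw [← h4]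
    ring
  have hev2 : ∀ᶠ z in nhdsWithin (τ₀ : ℂ) {(τ₀ : ℂ)}ᶜ, k z ^ n * u (G z) = u z := by
    rw [eventually_nhdsWithin_iff]
    filter_upwards [hev] with z hz hne
    have : (z - (τ₀ : ℂ)) ^ n ≠ 0 := pow_ne_zero _ (sub_ne_zero.mpr hne)
    exact mul_left_cancel₀ this hz
  have hl1 : Filter.Tendsto (fun z => k z ^ n * u (G z)) (nhdsWithin (τ₀ : ℂ) {(τ₀ : ℂ)}ᶜ)
      (nhds (k (τ₀ : ℂ) ^ n * u (τ₀ : ℂ))) := by
    have hu' : ContinuousAt u (G (τ₀ : ℂ)) := by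
      rw [hGτ]
      exact hu.continuousAt
    have hc : ContinuousAt (fun z => k z ^ n * u (G z)) (τ₀ : ℂ) :=
      (hk.continuousAt.pow n).mul (ContinuousAt.comp (f := G) hu' hG.continuousAt)
    have := hc.tendsto
    simp only [hGτ] at this
    exact tendsto_nhdsWithin_of_tendsto_nhds this
  have hl2 : Filter.Tendsto u (nhdsWithin (τ₀ : ℂ) {(τ₀ : ℂ)}ᶜ) (nhds (u (τ₀ : ℂ))) :=
    tendsto_nhdsWithin_of_tendsto_nhds hu.continuousAt.tendsto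
  have heq : k (τ₀ : ℂ) ^ n * u (τ₀ : ℂ) = u (τ₀ : ℂ) :=
    tendsto_nhds_unique_of_eventuallyEq hl1 hl2 hev2
  have hk1 : k (τ₀ : ℂ) ^ n = 1 := by
    have h5 : (k (τ₀ : ℂ) ^ n - 1) * u (τ₀ : ℂ) = 0 := by linear_combination heq
    rcases mul_eq_zero.mp h5 with h | h
    · linear_combination h
    · exact absurd h hu0
  rw [hkτ, hG'val] at hk1
  have hdvd := he.dvd_of_pow_eq_one n hk1
  unfold ordAt
  rw [← hFdef, ← hn]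
  simp only [ENat.toNat_natCast]
  exact_mod_cast hdvd

theorem wpA5_dvd_ordAt (N : ℕ) [NeZero N] (τ₀ : ℍ) (γ : SL(2, ℤ)) (hγ : γ • τ₀ = τ₀) (e : ℕ)
    (he : IsPrimitiveRoot (UpperHalfPlane.denom γ τ₀ ^ 2) e) (f : ℍ → ℂ) (hf : f ∈ ModRing N)
    (hf0 : f ≠ 0) (hinv : actFn γ f = f) : (e : ℤ) ∣ ordAt τ₀ f :=
  wpA5_dvd_ordAt' τ₀ γ hγ e he f (wpA5_mdiff_of_mem N f hf) hf0 hinv

end Fermat.Agent.S24
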