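import Fermat.Agent.S24.KleinJ
import Fermat.Agent.S24.ModField

/-!
WPA5b2 of the S24 project: `ModRing N` is integral over `ℚ̄[j]`.
-/

set_option autoImplicit false

open ModularCurve AlgebraicCurve MatrixGroups UpperHalfPlane ModularForm EisensteinSeries
open scoped Manifold

namespace Fermat.Agent.S24

/-- The conjugate `diag(d,1) δ diag(d,1)⁻¹` of a matrix `δ` with `d ∣ δ₁₀`. -/
def wpA5b2_conj (d : ℕ) (δ : SL(2, ℤ)) (h : (d : ℤ) ∣ δ 1 0) : SL(2, ℤ) :=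
  ⟨!![δ 0 0, δ 0 1 * d; δ 1 0 / d, δ 1 1], by
    obtain ⟨c, hc⟩ := h
    have hdet := Matrix.SpecialLinearGroup.det_coe δ
    rw [Matrix.det_fin_two] at hdet
    rw [Matrix.det_fin_two_of]
    by_cases hd : (d : ℤ) = 0
    · rw [hd] at hc ⊢
      rw [hc] at hdet
      simp only [zero_mul, mul_zero, sub_zero] at hdet
      simpa using hdet
    · rw [hc, Int.mul_ediv_cancel_left _ hd]
      rw [hc] at hdet
      linarith⟩

theorem wpA5b2_scaleH_smul (d : ℕ) (hd : d ≠ 0) (δ : SL(2, ℤ)) (h : (d : ℤ) ∣ δ 1 0) (z : ℍ) :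
    scaleH d (δ • z) = wpA5b2_conj d δ h • scaleH d z := by
  apply UpperHalfPlane.ext
  rw [coe_scaleH d hd, coe_specialLinearGroup_apply, coe_specialLinearGroup_apply,
    coe_scaleH d hd]
  obtain ⟨c, hc⟩ := h
  have hdz : (d : ℤ) ≠ 0 := by exact_mod_cast hd
  have hdc : (d : ℂ) ≠ 0 := by exact_mod_cast hd
  have h10 : (wpA5b2_conj d δ ⟨c, hc⟩) 1 0 = c := by
    change δ 1 0 / (d : ℤ) = c
    rw [hc, Int.mul_ediv_cancel_left _ hdz]
  have h00 : (wpA5b2_conj d δ ⟨c, hc⟩) 0 0 = δ 0 0 := rfl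
  have h01 : (wpA5b2_conj d δ ⟨c, hc⟩) 0 1 = δ 0 1 * d := rfl
  have h11 : (wpA5b2_conj d δ ⟨c, hc⟩) 1 1 = δ 1 1 := rfl
  rw [h10, h00, h01, h11, hc]
  have hden := UpperHalfPlane.denom_ne_zero δ z
  simp only [algebraMap_int_eq, eq_intCast, Int.cast_mul, Int.cast_natCast, Complex.ofReal_intCast,
    Complex.ofReal_mul, Complex.ofReal_natCast]
  have hden' : ((c : ℂ) * ((d : ℂ) * (z : ℂ)) + (δ 1 1 : ℂ)) ≠ 0 := by
    have := hden
    rw [UpperHalfPlane.denom] at this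
    simpa [hc, mul_comm, mul_assoc, mul_left_comm] using this
  have hden'' : (((d : ℂ) * (c : ℂ)) * (z : ℂ) + (δ 1 1 : ℂ)) ≠ 0 := by
    convert hden' using 1; ring
  field_simp

theorem wpA5b_kleinJ_scaleH_smul (d : ℕ) (δ : SL(2, ℤ)) (hδ : δ ∈ CongruenceSubgroup.Gamma0 d)
    (z : ℍ) : kleinJ (scaleH d (δ • z)) = kleinJ (scaleH d z) := by
  by_cases hd : d = 0
  · subst hd
    have h0 : ∀ w : ℍ, scaleH 0 w = w := fun w => by simp [scaleH]
    rw [h0, h0, wpA1_kleinJ_smul]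
  · have h : (d : ℤ) ∣ δ 1 0 := by
      rw [CongruenceSubgroup.Gamma0_mem] at hδ
      exact (ZMod.intCast_zmod_eq_zero_iff_dvd _ _).mp hδ
    rw [wpA5b2_scaleH_smul d hd δ h z, wpA1_kleinJ_smul]

theorem wpA5b_genFn_mul_Gamma0 (d : ℕ) (g γ : SL(2, ℤ))
    (hγ : γ ∈ CongruenceSubgroup.Gamma0 d) : genFn (g * γ) d = genFn g d := by
  funext τ
  rw [genFn_apply, genFn_apply, mul_inv_rev, mul_smul]
  exact wpA5b_kleinJ_scaleH_smul d γ⁻¹ (inv_mem hγ) _

theorem wpA5b_actFn_kleinJ (g : SL(2, ℤ)) : actFn g kleinJ = kleinJ :=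
  funext fun τ => wpA1_kleinJ_smul g⁻¹ τ

theorem wpA5b_actFn_genFn_one (N d : ℕ) (hd : d ∣ N) (g : SL(2, ℤ))
    (hg : g ∈ CongruenceSubgroup.Gamma0 N) : actFn g (genFn 1 d) = genFn 1 d := by
  have hg' : g ∈ CongruenceSubgroup.Gamma0 d := by
    rw [CongruenceSubgroup.Gamma0_mem] at hg ⊢
    rw [ZMod.intCast_zmod_eq_zero_iff_dvd] at hg ⊢
    exact (Int.natCast_dvd_natCast.mpr hd).trans hg
  rw [actFn_genFn, mul_one]
  have := wpA5b_genFn_mul_Gamma0 d 1 g hg'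
  rwa [one_mul] at this

/-! ### Integrality -/

theorem wpA5b2_kleinJ_eq_genFn : kleinJ = genFn 1 1 := by
  funext τ
  have h1 : scaleH 1 τ = τ := by
    apply UpperHalfPlane.ext
    rw [coe_scaleH 1 one_ne_zero]
    simp
  rw [genFn_apply, inv_one, one_smul, h1]

theorem wpA5b2_adjoin_le (N : ℕ) : Algebra.adjoin Kbar {kleinJ} ≤ ModRing N := by
  refine Algebra.adjoin_le ?_
  rintro f rfl
  rw [wpA5b2_kleinJ_eq_genFn]
  exact genFn_mem_ModRing N 1 (one_dvd N)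

theorem wpA5b2_actFn_mem (N : ℕ) (g : SL(2, ℤ)) (f : ℍ → ℂ) (hf : f ∈ ModRing N) :
    actFn g f ∈ ModRing N := by
  induction hf using Algebra.adjoin_induction with
  | mem x hx =>
    obtain ⟨h, d, hd, rfl⟩ := hx
    rw [actFn_genFn]
    exact genFn_mem_ModRing N _ hd
  | algebraMap c =>
    have : actFn g (algebraMap Kbar (ℍ → ℂ) c) = algebraMap Kbar (ℍ → ℂ) c := rfl
    rw [this]
    exact Subalgebra.algebraMap_mem _ c
  | add x y _ _ hx hy =>
    have : actFn g (x + y) = actFn g x + actFn g y := rfl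
    rw [this]
    exact add_mem hx hy
  | mul x y _ _ hx hy =>
    have : actFn g (x * y) = actFn g x * actFn g y := rfl
    rw [this]
    exact mul_mem hx hy

/-- `actFn h` as a ring endomorphism of the ring of all functions on `ℍ`. -/
noncomputable def wpA5b2_actHom (h : SL(2, ℤ)) : (ℍ → ℂ) →+* (ℍ → ℂ) where
  toFun := actFn h
  map_one' := rfl
  map_mul' _ _ := rfl
  map_zero' := rfl
  map_add' _ _ := rfl

/-- The generator `genFn g d` as a function of the coset `g Γ₀(d)`. -/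
noncomputable def wpA5b2_G (d : ℕ) (x : SL(2, ℤ) ⧸ CongruenceSubgroup.Gamma0 d) : ℍ → ℂ :=
  Quotient.liftOn' x (fun g => genFn g d) (by
    intro a b hab
    rw [QuotientGroup.leftRel_apply] at hab
    have : b = a * (a⁻¹ * b) := by group
    change genFn a d = genFn b d
    rw [this, wpA5b_genFn_mul_Gamma0 d a _ hab])

theorem wpA5b2_G_mk (d : ℕ) (g : SL(2, ℤ)) :
    wpA5b2_G d (g : SL(2, ℤ) ⧸ CongruenceSubgroup.Gamma0 d) = genFn g d := rfl

theorem wpA5b2_G_mem (N d : ℕ) (hd : d ∣ N) (x : SL(2, ℤ) ⧸ CongruenceSubgroup.Gamma0 d) :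
    wpA5b2_G d x ∈ ModRing N := by
  induction x using QuotientGroup.induction_on with
  | H g => exact genFn_mem_ModRing N g hd

theorem wpA5b2_G_act (d : ℕ) (h : SL(2, ℤ)) (x : SL(2, ℤ) ⧸ CongruenceSubgroup.Gamma0 d) :
    actFn h (wpA5b2_G d x) = wpA5b2_G d (h • x) := by
  induction x using QuotientGroup.induction_on with
  | H g =>
    rw [wpA5b2_G_mk, actFn_genFn]
    rfl

theorem wpA5b2_isIntegral_genFn (N : ℕ) [NeZero N]
    (hfix : ∀ f : ℍ → ℂ, f ∈ ModRing N → (∀ g : SL(2, ℤ), actFn g f = f) →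
      f ∈ Algebra.adjoin Kbar {kleinJ})
    (g : SL(2, ℤ)) (d : ℕ) (hd : d ∣ N) :
    IsIntegral (Algebra.adjoin Kbar {kleinJ}) (genFn g d) := by
  classical
  have : NeZero d := ⟨fun h0 => NeZero.ne N (by rw [h0] at hd; exact zero_dvd_iff.mp hd)⟩
  have : Finite (SL(2, ℤ) ⧸ CongruenceSubgroup.Gamma0 d) :=
    Subgroup.finite_quotient_of_finiteIndex
  let : Fintype (SL(2, ℤ) ⧸ CongruenceSubgroup.Gamma0 d) := Fintype.ofFinite _
  -- the polynomial over `ModRing N`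
  let Q' : Polynomial (ModRing N) :=
    ∏ x : SL(2, ℤ) ⧸ CongruenceSubgroup.Gamma0 d,
      (Polynomial.X - Polynomial.C ⟨wpA5b2_G d x, wpA5b2_G_mem N d hd x⟩)
  let Q : Polynomial (ℍ → ℂ) :=
    ∏ x : SL(2, ℤ) ⧸ CongruenceSubgroup.Gamma0 d, (Polynomial.X - Polynomial.C (wpA5b2_G d x))
  have hQQ' : Q = Q'.map (ModRing N).val.toRingHom := by
    simp only [Q, Q', Polynomial.map_prod, Polynomial.map_sub, Polynomial.map_X, Polynomial.map_C]
    rfl
  have hQmonic : Q.Monic := Polynomial.monic_prod_of_monic _ _ fun x _ => Polynomial.monic_X_sub_C _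
  have hQroot : Q.eval (genFn g d) = 0 := by
    simp only [Q, Polynomial.eval_prod]
    refine Finset.prod_eq_zero (Finset.mem_univ (g : SL(2, ℤ) ⧸ CongruenceSubgroup.Gamma0 d)) ?_
    rw [wpA5b2_G_mk]
    simp
  have hQmem : ∀ i, Q.coeff i ∈ ModRing N := by
    intro i
    rw [hQQ', Polynomial.coeff_map]
    exact (Q'.coeff i).2
  have hQinv : ∀ h : SL(2, ℤ), Q.map (wpA5b2_actHom h) = Q := by
    intro h
    simp only [Q, Polynomial.map_prod, Polynomial.map_sub, Polynomial.map_X, Polynomial.map_C]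
    have : ∀ x : SL(2, ℤ) ⧸ CongruenceSubgroup.Gamma0 d,
        (wpA5b2_actHom h) (wpA5b2_G d x) = wpA5b2_G d (h • x) := wpA5b2_G_act d h
    simp only [this]
    exact Equiv.prod_comp (MulAction.toPerm h)
      (fun x : SL(2, ℤ) ⧸ CongruenceSubgroup.Gamma0 d => Polynomial.X - Polynomial.C (wpA5b2_G d x))
  have hQcoeff : ∀ i, Q.coeff i ∈ Algebra.adjoin Kbar {kleinJ} := by
    intro i
    refine hfix _ (hQmem i) fun h => ?_
    have := congrArg (fun P => Polynomial.coeff P i) (hQinv h)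
    simp only [Polynomial.coeff_map] at this
    exact this
  have hlift : Q ∈ Polynomial.lifts (algebraMap (Algebra.adjoin Kbar {kleinJ}) (ℍ → ℂ)) := by
    rw [Polynomial.lifts_iff_coeff_lifts]
    intro i
    exact ⟨⟨Q.coeff i, hQcoeff i⟩, rfl⟩
  obtain ⟨q, hq, -, hqm⟩ := Polynomial.lifts_and_natDegree_eq_and_monic hlift hQmonic
  refine ⟨q, hqm, ?_⟩
  rw [← Polynomial.eval_map, hq]
  exact hQroot

theorem wpA5b_isIntegral_of_fixed (N : ℕ) [NeZero N]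
    (hfix : ∀ f : ℍ → ℂ, f ∈ ModRing N → (∀ g : SL(2, ℤ), actFn g f = f) →
      f ∈ Algebra.adjoin Kbar {kleinJ})
    (f : ℍ → ℂ) (hf : f ∈ ModRing N) : IsIntegral (Algebra.adjoin Kbar {kleinJ}) f := by
  induction hf using Algebra.adjoin_induction with
  | mem x hx =>
    obtain ⟨h, d, hd, rfl⟩ := hx
    exact wpA5b2_isIntegral_genFn N hfix h d hd
  | algebraMap c =>
    rw [IsScalarTower.algebraMap_apply Kbar (Algebra.adjoin Kbar {kleinJ}) (ℍ → ℂ)]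
    exact isIntegral_algebraMap
  | add x y _ _ hx hy => exact hx.add hy
  | mul x y _ _ hx hy => exact hx.mul hy

/-! ### Denominators in `ℚ̄[j]` -/

theorem wpA5b2_mul_ne_zero (f g : ℍ → ℂ) (hf : MDiff f) (hg : MDiff g) (hf0 : f ≠ 0)
    (hg0 : g ≠ 0) : f * g ≠ 0 := by
  intro h
  have h1 : ((f * g) ∘ ofComplex) = (f ∘ ofComplex) * (g ∘ ofComplex) := rfl
  have key := analyticOrderAt_mul (wpA5_analyticAt f hf UpperHalfPlane.I)
    (wpA5_analyticAt g hg UpperHalfPlane.I)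
  rw [← h1, h] at key
  have htop : analyticOrderAt ((0 : ℍ → ℂ) ∘ ofComplex) (UpperHalfPlane.I : ℂ) = ⊤ := by
    rw [analyticOrderAt_eq_top]
    exact Filter.Eventually.of_forall fun z => rfl
  rw [htop] at key
  rcases ENat.add_eq_top.mp key.symm with h' | h'
  · exact wpA5_order_ne_top f hf hf0 _ h'
  · exact wpA5_order_ne_top g hg hg0 _ h'

theorem wpA5b2_mul_ne_zero_of_mem (N : ℕ) [NeZero N] (f g : ℍ → ℂ) (hf : f ∈ ModRing N)
    (hg : g ∈ ModRing N) (hf0 : f ≠ 0) (hg0 : g ≠ 0) : f * g ≠ 0 :=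
  wpA5b2_mul_ne_zero f g (wpA5_mdiff_of_mem N f hf) (wpA5_mdiff_of_mem N g hg) hf0 hg0

theorem wpA5b2_pow_ne_zero (N : ℕ) [NeZero N] (f : ℍ → ℂ) (hf : f ∈ ModRing N) (hf0 : f ≠ 0)
    (k : ℕ) : f ^ k ≠ 0 := by
  induction k with
  | zero =>
    rw [pow_zero]
    intro h
    have := congrFun h UpperHalfPlane.I
    simp at this
  | succ k ih =>
    rw [pow_succ]
    exact wpA5b2_mul_ne_zero_of_mem N _ _ (pow_mem hf k) hf ih hf0

theorem wpA5b2_eval₂_mem (N : ℕ) (f : ℍ → ℂ) (hf : f ∈ ModRing N)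
    (r : Polynomial (Algebra.adjoin Kbar {kleinJ})) :
    Polynomial.eval₂ (algebraMap (Algebra.adjoin Kbar {kleinJ}) (ℍ → ℂ)) f r ∈ ModRing N := by
  rw [Polynomial.eval₂_eq_sum_range]
  refine Subalgebra.sum_mem _ fun i _ => ?_
  exact mul_mem (wpA5b2_adjoin_le N (r.coeff i).2) (pow_mem hf i)

theorem wpA5b_exists_denom_of_fixed (N : ℕ) [NeZero N]
    (hfix : ∀ f : ℍ → ℂ, f ∈ ModRing N → (∀ g : SL(2, ℤ), actFn g f = f) →
      f ∈ Algebra.adjoin Kbar {kleinJ})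
    (f : ℍ → ℂ) (hf : f ∈ ModRing N) (h0 : f ≠ 0) :
    ∃ a ∈ ModRing N, ∃ b ∈ Algebra.adjoin Kbar {kleinJ}, b ≠ 0 ∧ a * f = b := by
  obtain ⟨p, hpm, hp⟩ := wpA5b_isIntegral_of_fixed N hfix f hf
  have hp0 : p ≠ 0 := hpm.ne_zero
  obtain ⟨q, hpq, hq⟩ := Polynomial.exists_eq_pow_rootMultiplicity_mul_and_not_dvd p hp0 0
  simp only [Polynomial.C_0, sub_zero, Polynomial.X_dvd_iff] at hpq hq
  rw [hpq, Polynomial.eval₂_mul, Polynomial.eval₂_pow, Polynomial.eval₂_X] at hp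
  have hq0 : Polynomial.eval₂ (algebraMap (Algebra.adjoin Kbar {kleinJ}) (ℍ → ℂ)) f q = 0 := by
    by_contra hne
    exact wpA5b2_mul_ne_zero_of_mem N _ _ (pow_mem hf _) (wpA5b2_eval₂_mem N f hf q)
      (wpA5b2_pow_ne_zero N f hf h0 _) hne hp
  obtain ⟨q', hq'⟩ := Polynomial.X_dvd_sub_C (p := q)
  have h2 := congrArg (Polynomial.eval₂ (algebraMap (Algebra.adjoin Kbar {kleinJ}) (ℍ → ℂ)) f) hq'
  rw [Polynomial.eval₂_sub, hq0, Polynomial.eval₂_mul, Polynomial.eval₂_X, Polynomial.eval₂_C,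
    zero_sub] at h2
  refine ⟨-Polynomial.eval₂ (algebraMap (Algebra.adjoin Kbar {kleinJ}) (ℍ → ℂ)) f q',
    neg_mem (wpA5b2_eval₂_mem N f hf q'), (q.coeff 0 : ℍ → ℂ), (q.coeff 0).2, ?_, ?_⟩
  · intro h
    exact hq (Subtype.ext h)
  · rw [neg_mul, mul_comm, ← h2, neg_neg]
    rfl

end Fermat.Agent.S24
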