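/-
S24, package AJ1 (helper79): the analytic modular invariant `j = E₄³/Δ` on the upper half plane,
its `SL(2,ℤ)`-invariance, holomorphy, and `j - 1728 = E₆²/Δ`.
-/
import Mathlib

set_option autoImplicit false

open UpperHalfPlane ModularForm ModularFormClass MatrixGroups EisensteinSeries
open scoped Manifold

namespace Fermat.Agent.S24

noncomputable section

/-- The analytic modular invariant `j = E₄³/Δ` on the upper half plane. -/
def jFun (τ : ℍ) : ℂ := E₄ τ ^ 3 / ModularForm.discriminant τ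

/-- The elliptic point `ρ = e^{2πi/3} = -1/2 + (√3/2) i`. -/
def rhoPt : ℍ := ⟨⟨-1/2, Real.sqrt 3 / 2⟩, by positivity⟩

theorem aj1_mem (g : SL(2, ℤ)) :
    (g : GL (Fin 2) ℝ) ∈
      (Matrix.SpecialLinearGroup.mapGL ℝ : SL(2, ℤ) →* GL (Fin 2) ℝ).range :=
  ⟨g, rfl⟩

/-- Weight 4 transformation law of `E₄` under `SL(2,ℤ)`. -/
theorem aj1_E4_smul (g : SL(2, ℤ)) (τ : ℍ) : E₄ (g • τ) = denom g τ ^ (4 : ℤ) * E₄ τ :=
  SlashInvariantForm.slash_action_eqn'' (Γ := 𝒮ℒ) E₄ (aj1_mem g) τ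

/-- Weight 6 transformation law of `E₆` under `SL(2,ℤ)`. -/
theorem aj1_E6_smul (g : SL(2, ℤ)) (τ : ℍ) : E₆ (g • τ) = denom g τ ^ (6 : ℤ) * E₆ τ :=
  SlashInvariantForm.slash_action_eqn'' (Γ := 𝒮ℒ) E₆ (aj1_mem g) τ

/-- Weight 12 transformation law of `Δ` under `SL(2,ℤ)`. -/
theorem aj1_disc_smul (g : SL(2, ℤ)) (τ : ℍ) :
    ModularForm.discriminant (g • τ) = denom g τ ^ (12 : ℤ) * ModularForm.discriminant τ :=
  SlashInvariantForm.slash_action_eqn'' (Γ := 𝒮ℒ) CuspForm.discriminant (aj1_mem g) τ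

/-- `j` is `SL(2,ℤ)`-invariant. -/
theorem jFun_smul (g : SL(2, ℤ)) (τ : ℍ) : jFun (g • τ) = jFun τ := by
  unfold jFun
  rw [aj1_E4_smul, aj1_disc_smul]
  have hd : denom g τ ≠ 0 := denom_ne_zero g τ
  have hΔ := ModularForm.discriminant_ne_zero τ
  field_simp

/-- `j` is holomorphic on the upper half plane. -/
theorem jFun_mdifferentiable : MDifferentiable 𝓘(ℂ) 𝓘(ℂ) jFun := by
  have h4 : MDifferentiable 𝓘(ℂ) 𝓘(ℂ) (E₄ : ℍ → ℂ) := ModularFormClass.holo E₄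
  have hΔ : MDifferentiable 𝓘(ℂ) 𝓘(ℂ) (CuspForm.discriminant : ℍ → ℂ) :=
    CuspFormClass.holo CuspForm.discriminant
  rw [UpperHalfPlane.mdifferentiable_iff] at h4 hΔ ⊢
  have : (jFun ∘ ofComplex) = fun z => ((E₄ : ℍ → ℂ) ∘ ofComplex) z ^ 3 /
      ((CuspForm.discriminant : ℍ → ℂ) ∘ ofComplex) z := by
    ext z; rfl
  rw [this]
  exact (h4.pow 3).div hΔ (fun z _ => ModularForm.discriminant_ne_zero _)

/-- `j - 1728 = E₆²/Δ`. -/
theorem jFun_sub_1728 (τ : ℍ) : jFun τ - 1728 = E₆ τ ^ 2 / ModularForm.discriminant τ := by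
  unfold jFun
  have hΔ := ModularForm.discriminant_ne_zero τ
  have h := ModularForm.discriminant_eq_E₄_cube_sub_E₆_sq τ
  field_simp
  rw [h]; ring

end

end Fermat.Agent.S24
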