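import Fermat.Agent.S24.AnDefs

/-!
# S24, package WPA3: local behaviour of Klein's `j` at the elliptic points

Exports (exact signatures of the S24 plan):

* `wpA3_deriv_ne_zero` : `j' ≠ 0` away from `j ∈ {0, 1728}`;
* `wpA3_ST_smul_rho`, `wpA3_kleinJ_rho`, `wpA3_order_rho` : `ρ` is fixed by `S * T`,
  `j ρ = 0`, and `j` vanishes to order exactly `3` at `ρ`;
* `wpA3_kleinJ_I`, `wpA3_order_I` : `j i = 1728` and `j - 1728` vanishes to order exactly `2`
  at `i`.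

Method.  `H = 3 · D E₄ · E₆ - 2 · E₄ · D E₆` (`D = (2πi)⁻¹ d/dτ`) is a cusp form of weight 12
and level one: the non-modular terms of `D E₄`, `D E₆` cancel, and `D f = q · G'(q)` for the cusp
function `G` of `f`, so `D f → 0` at `i∞`.  Hence `H = c · Δ`.  Together with
`1728 Δ = E₄³ - E₆²` this gives `j' = -2πi · c · E₄² E₆ / (1728 Δ)`.  The constant `c` is not
zero because `j` is not constant (`j ρ = 0 ≠ 1728 = j i`, by modularity at the fixed points).
-/

set_option autoImplicit false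

open ModularCurve AlgebraicCurve MatrixGroups UpperHalfPlane ModularForm EisensteinSeries
open scoped Manifold

namespace Fermat.Agent.S24

/-! ### Level-one modularity at a point, and the derivative at `i∞` -/

open Derivative in
/-- Level-one slash invariance, as an equation of functions. -/
theorem wpA3_slash_eq {k : ℤ} (f : ModularForm 𝒮ℒ k) (γ : SL(2, ℤ)) :
    (f : ℍ → ℂ) ∣[k] γ = f := by
  have hγ : (γ : GL (Fin 2) ℝ) ∈ 𝒮ℒ := ⟨γ, rfl⟩
  rw [SL_slash]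
  exact SlashInvariantForm.slash_action_eqn f _ hγ

/-- Modularity at a point. -/
theorem wpA3_smul_eq {k : ℤ} (f : ModularForm 𝒮ℒ k) (γ : SL(2, ℤ)) (z : ℍ) :
    f (γ • z) = denom γ z ^ k * f z := by
  have h := congrFun (wpA3_slash_eq f γ) z
  rw [SL_slash_apply] at h
  have hd : denom γ z ≠ 0 := denom_ne_zero _ z
  rw [← h, mul_comm, mul_assoc, ← zpow_add₀ hd]
  simp

open Derivative in
/-- The normalized derivative of a level-one modular form in the `q`-coordinate. -/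
theorem wpA3_D_eq_q_mul {k : ℤ} (f : ModularForm 𝒮ℒ k) (τ : ℍ) :
    D f τ = Function.Periodic.qParam 1 τ *
      deriv (cuspFunction 1 f) (Function.Periodic.qParam 1 τ) := by
  have hq : ‖Function.Periodic.qParam 1 (τ : ℂ)‖ < 1 :=
    Function.Periodic.norm_qParam_lt_one one_pos τ.im_pos
  have hG : HasDerivAt (cuspFunction 1 f)
      (deriv (cuspFunction 1 f) (Function.Periodic.qParam 1 τ)) (Function.Periodic.qParam 1 τ) :=
    (ModularFormClass.differentiableAt_cuspFunction f one_pos one_mem_strictPeriods_SL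
      hq).hasDerivAt
  have hqd : HasDerivAt (Function.Periodic.qParam 1)
      (Function.Periodic.qParam 1 (τ : ℂ) * (2 * Real.pi * Complex.I)) (τ : ℂ) := by
    unfold Function.Periodic.qParam
    have h1 : HasDerivAt (fun z : ℂ => 2 * Real.pi * Complex.I * z / ((1 : ℝ) : ℂ))
        (2 * Real.pi * Complex.I) (τ : ℂ) := by
      simpa using ((hasDerivAt_id (τ : ℂ)).const_mul (2 * Real.pi * Complex.I))
    exact h1.cexp
  have hcomp : (f ∘ ofComplex) =ᶠ[nhds (τ : ℂ)]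
      (cuspFunction 1 f) ∘ (Function.Periodic.qParam 1) := by
    filter_upwards [isOpen_upperHalfPlaneSet.mem_nhds τ.im_pos] with w hw
    simp only [Function.comp_apply, ofComplex_apply_of_im_pos hw]
    exact (SlashInvariantFormClass.eq_cuspFunction f ⟨w, hw⟩ one_mem_strictPeriods_SL
      one_ne_zero).symm
  unfold Derivative.normalizedDerivOfComplex
  rw [hcomp.deriv_eq, (hG.comp (τ : ℂ) hqd).deriv]
  have hpi : (2 * Real.pi * Complex.I : ℂ) ≠ 0 := by
    simp [Real.pi_ne_zero]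
  field_simp

open Derivative in
/-- The normalized derivative of a level-one modular form vanishes at `i∞`. -/
theorem wpA3_D_isZeroAtImInfty {k : ℤ} (f : ModularForm 𝒮ℒ k) :
    IsZeroAtImInfty (D f) := by
  have hG : AnalyticAt ℂ (cuspFunction 1 f) 0 :=
    ModularFormClass.analyticAt_cuspFunction_zero f one_pos one_mem_strictPeriods_SL
  have hcont : ContinuousAt (deriv (cuspFunction 1 f)) 0 := hG.deriv.continuousAt
  have hq := UpperHalfPlane.qParam_tendsto_atImInfty (h := 1) one_pos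
  have h := hq.mul (hcont.tendsto.comp hq)
  simp only [zero_mul] at h
  exact h.congr (fun τ => (wpA3_D_eq_q_mul f τ).symm)

/-- A level-one modular form has a limit at `i∞`. -/
theorem wpA3_tendsto_atImInfty {k : ℤ} (f : ModularForm 𝒮ℒ k) :
    Filter.Tendsto f atImInfty (nhds (cuspFunction 1 f 0)) := by
  have hG : AnalyticAt ℂ (cuspFunction 1 f) 0 :=
    ModularFormClass.analyticAt_cuspFunction_zero f one_pos one_mem_strictPeriods_SL
  have hq := UpperHalfPlane.qParam_tendsto_atImInfty (h := 1) one_pos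
  exact (hG.continuousAt.tendsto.comp hq).congr
    (fun τ => SlashInvariantFormClass.eq_cuspFunction f τ one_mem_strictPeriods_SL one_ne_zero)

open Derivative in
/-- Quasi-modularity of the normalized derivative at a point. -/
theorem wpA3_D_smul_eq {k : ℤ} (f : ModularForm 𝒮ℒ k) (γ : SL(2, ℤ)) (z : ℍ) :
    D f (γ • z) = denom γ z ^ (k + 2) *
      (D f z + (k : ℂ) * (2 * Real.pi * Complex.I)⁻¹ * (γ 1 0 / denom γ z) * f z) := by
  have h := congrFun (normalizedDerivOfComplex_SL_slash (k := k) (F := f)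
    (ModularFormClass.holo f) (γ := γ)) z
  rw [wpA3_slash_eq f γ] at h
  simp only [Pi.sub_apply, SL_slash_apply] at h
  have hd : denom γ z ≠ 0 := denom_ne_zero _ z
  have h2 : D f (γ • z) * denom γ z ^ (-(k + 2)) =
      D f z + (k : ℂ) * (2 * Real.pi * Complex.I)⁻¹ * (γ 1 0 / denom γ z) * f z := by
    rw [h]; ring
  rw [← h2, mul_comm, mul_assoc, ← zpow_add₀ hd]
  simp

open Derivative in
/-- The first Rankin–Cohen bracket of `E₄` and `E₆` (up to normalisation). -/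
noncomputable def wpA3_H (τ : ℍ) : ℂ := 3 * D E₄ τ * E₆ τ - 2 * E₄ τ * D E₆ τ

theorem wpA3_H_smul_eq (γ : SL(2, ℤ)) (z : ℍ) :
    wpA3_H (γ • z) = denom γ z ^ (12 : ℤ) * wpA3_H z := by
  have hd : denom γ z ≠ 0 := denom_ne_zero _ z
  unfold wpA3_H
  rw [wpA3_D_smul_eq E₄ γ z, wpA3_D_smul_eq E₆ γ z, wpA3_smul_eq E₄ γ z, wpA3_smul_eq E₆ γ z]
  have e1 : denom γ z ^ ((4 : ℤ) + 2) = denom γ z ^ (6 : ℕ) := by
    rw [← zpow_natCast]; norm_num
  have e2 : denom γ z ^ ((6 : ℤ) + 2) = denom γ z ^ (8 : ℕ) := by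
    rw [← zpow_natCast]; norm_num
  have e3 : denom γ z ^ (4 : ℤ) = denom γ z ^ (4 : ℕ) := by
    rw [← zpow_natCast]; norm_num
  have e4 : denom γ z ^ (6 : ℤ) = denom γ z ^ (6 : ℕ) := by
    rw [← zpow_natCast]; norm_num
  have e5 : denom γ z ^ (12 : ℤ) = denom γ z ^ (12 : ℕ) := by
    rw [← zpow_natCast]; norm_num
  rw [e1, e2, e3, e4, e5]
  push_cast
  ring

theorem wpA3_H_slash (γ : SL(2, ℤ)) : wpA3_H ∣[(12 : ℤ)] γ = wpA3_H := by
  funext z
  have hd : denom γ z ≠ 0 := denom_ne_zero _ z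
  rw [SL_slash_apply, wpA3_H_smul_eq, mul_comm, ← mul_assoc, ← zpow_add₀ hd]
  simp


open Derivative in
theorem wpA3_H_mdiff : MDiff wpA3_H := by
  have h4 : MDiff (E₄ : ℍ → ℂ) := ModularFormClass.holo E₄
  have h6 : MDiff (E₆ : ℍ → ℂ) := ModularFormClass.holo E₆
  have hD4 : MDiff (D E₄) := normalizedDerivOfComplex_mdifferentiable h4
  have hD6 : MDiff (D E₆) := normalizedDerivOfComplex_mdifferentiable h6
  have h3 : MDiff (fun _ : ℍ => (3 : ℂ)) := mdifferentiable_const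
  have h2 : MDiff (fun _ : ℍ => (2 : ℂ)) := mdifferentiable_const
  exact ((h3.mul hD4).mul h6).sub ((h2.mul h4).mul hD6)

theorem wpA3_H_isZeroAtImInfty : IsZeroAtImInfty wpA3_H := by
  have h4 := wpA3_tendsto_atImInfty E₄
  have h6 := wpA3_tendsto_atImInfty E₆
  have hD4 : Filter.Tendsto (Derivative.normalizedDerivOfComplex E₄) atImInfty (nhds 0) :=
    wpA3_D_isZeroAtImInfty E₄
  have hD6 : Filter.Tendsto (Derivative.normalizedDerivOfComplex E₆) atImInfty (nhds 0) :=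
    wpA3_D_isZeroAtImInfty E₆
  have h := ((hD4.const_mul 3).mul h6).sub ((h4.const_mul 2).mul hD6)
  simp only [mul_zero, zero_mul, sub_zero] at h
  exact h

/-- The bracket as a cusp form of weight 12 and level one. -/
noncomputable def wpA3_Hcusp : CuspForm 𝒮ℒ 12 where
  toFun := wpA3_H
  slash_action_eq' A hA := by
    obtain ⟨A, rfl⟩ := hA
    exact wpA3_H_slash A
  holo' := wpA3_H_mdiff
  zero_at_cusps' hc := by
    rw [Subgroup.IsArithmetic.isCusp_iff_isCusp_SL2Z] at hc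
    rw [OnePoint.isZeroAt_iff_forall_SL2Z hc]
    intro γ _
    rw [wpA3_H_slash γ]
    exact wpA3_H_isZeroAtImInfty

theorem wpA3_exists_H_eq : ∃ c : ℂ, ∀ τ : ℍ, wpA3_H τ = c * ModularForm.discriminant τ := by
  obtain ⟨c, hc⟩ := CuspForm.exists_smul_discriminant_of_weight_eq_twelve wpA3_Hcusp
  refine ⟨c, fun τ => ?_⟩
  have h := congrArg (fun f : CuspForm 𝒮ℒ 12 => f τ) hc
  exact h.symm


/-! ### The elliptic points -/

theorem wpA3_sqrt3_sq : (((Real.sqrt 3 : ℝ) : ℂ)) ^ 2 = 3 := by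
  have h : (Real.sqrt 3) ^ 2 = (3 : ℝ) := Real.sq_sqrt (by norm_num)
  exact_mod_cast h

theorem wpA3_coe_rho : ((rhoH : ℍ) : ℂ) = -1 / 2 + ((Real.sqrt 3 : ℝ) : ℂ) / 2 * Complex.I := by
  simp [rhoH]

theorem wpA3_rho_sq : ((rhoH : ℍ) : ℂ) ^ 2 + (rhoH : ℂ) + 1 = 0 := by
  rw [wpA3_coe_rho]
  linear_combination ((((Real.sqrt 3 : ℝ) : ℂ)) ^ 2 / 4) * Complex.I_sq - (1 / 4) * wpA3_sqrt3_sq

theorem wpA3_T_smul_rho_coe : ((ModularGroup.T • rhoH : ℍ) : ℂ) = 1 + (rhoH : ℂ) := by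
  rw [modular_T_smul]
  simp

theorem wpA3_ST_smul_rho : (ModularGroup.S * ModularGroup.T) • rhoH = rhoH := by
  rw [mul_smul, modular_S_smul]
  apply UpperHalfPlane.ext
  change (-((ModularGroup.T • rhoH : ℍ) : ℂ))⁻¹ = (rhoH : ℂ)
  rw [wpA3_T_smul_rho_coe]
  apply inv_eq_of_mul_eq_one_left
  linear_combination (-1 : ℂ) * wpA3_rho_sq

theorem wpA3_S_smul_I : ModularGroup.S • UpperHalfPlane.I = UpperHalfPlane.I := by
  rw [modular_S_smul]
  apply UpperHalfPlane.ext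
  change (-((UpperHalfPlane.I : ℍ) : ℂ))⁻¹ = ((UpperHalfPlane.I : ℍ) : ℂ)
  simp

theorem wpA3_E4_rho : E₄ rhoH = 0 := by
  have h1 := wpA3_smul_eq E₄ ModularGroup.S (ModularGroup.T • rhoH)
  have h2 := wpA3_smul_eq E₄ ModularGroup.T rhoH
  rw [← mul_smul, wpA3_ST_smul_rho, ModularGroup.denom_S, wpA3_T_smul_rho_coe] at h1
  rw [h2] at h1
  have hT : denom (ModularGroup.T : SL(2, ℤ)) (rhoH : ℂ) = 1 := by
    rw [ModularGroup.denom_apply]
    simp [ModularGroup.T]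
  rw [hT, one_zpow, one_mul] at h1
  have e4 : (1 + (rhoH : ℂ)) ^ (4 : ℤ) = (1 + (rhoH : ℂ)) ^ (4 : ℕ) := by
    rw [← zpow_natCast]; norm_num
  rw [e4] at h1
  -- with `w = 1 + ρ` we have `w ^ 2 = w - 1`, hence `w ^ 4 = -w`
  have hw : (1 + (rhoH : ℂ)) ^ 4 = -(1 + (rhoH : ℂ)) := by
    linear_combination ((rhoH : ℂ) ^ 2 + 3 * (rhoH : ℂ) + 2) * wpA3_rho_sq
  rw [hw] at h1
  have hne : (2 + (rhoH : ℂ)) ≠ 0 := by
    intro h
    have him := congrArg Complex.im h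
    rw [wpA3_coe_rho] at him
    simp at him
  have h3 : (2 + (rhoH : ℂ)) * E₄ rhoH = 0 := by linear_combination h1
  exact (mul_eq_zero.mp h3).resolve_left hne

theorem wpA3_E6_I : E₆ UpperHalfPlane.I = 0 := by
  have h1 := wpA3_smul_eq E₆ ModularGroup.S UpperHalfPlane.I
  rw [wpA3_S_smul_I, ModularGroup.denom_S] at h1
  have e6 : ((UpperHalfPlane.I : ℍ) : ℂ) ^ (6 : ℤ) = -1 := by
    have : ((UpperHalfPlane.I : ℍ) : ℂ) ^ (6 : ℤ) = ((UpperHalfPlane.I : ℍ) : ℂ) ^ (6 : ℕ) := by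
      rw [← zpow_natCast]; norm_num
    rw [this]
    change Complex.I ^ 6 = -1
    have h2 : Complex.I ^ 6 = (Complex.I ^ 2) ^ 3 := by ring
    rw [h2, Complex.I_sq]; norm_num
  rw [e6] at h1
  have h3 : (2 : ℂ) * E₆ UpperHalfPlane.I = 0 := by linear_combination h1
  exact (mul_eq_zero.mp h3).resolve_left two_ne_zero

theorem wpA3_kleinJ_rho : kleinJ rhoH = 0 := by
  simp [kleinJ, wpA3_E4_rho]

theorem wpA3_kleinJ_sub (τ : ℍ) :
    kleinJ τ - 1728 = E₆ τ ^ 2 / ModularForm.discriminant τ := by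
  have hΔ := ModularForm.discriminant_ne_zero τ
  have h := ModularForm.discriminant_eq_E₄_cube_sub_E₆_sq τ
  unfold kleinJ
  field_simp
  linear_combination (-1728 : ℂ) * h

theorem wpA3_kleinJ_I : kleinJ UpperHalfPlane.I = 1728 := by
  have h := wpA3_kleinJ_sub UpperHalfPlane.I
  rw [wpA3_E6_I] at h
  simp at h
  linear_combination h


/-! ### The derivative of `j` -/

open Derivative in
theorem wpA3_hasDerivAt {k : ℤ} (f : ModularForm 𝒮ℒ k) (τ : ℍ) :
    HasDerivAt ((f : ℍ → ℂ) ∘ ofComplex) (2 * Real.pi * Complex.I * D f τ) (τ : ℂ) := by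
  have h := (UpperHalfPlane.mdifferentiableAt_iff.mp (ModularFormClass.holo f τ)).hasDerivAt
  have hpi : (2 * Real.pi * Complex.I : ℂ) ≠ 0 := by
    simp [Real.pi_ne_zero]
  have e : 2 * Real.pi * Complex.I * D f τ = deriv ((f : ℍ → ℂ) ∘ ofComplex) (τ : ℂ) := by
    unfold Derivative.normalizedDerivOfComplex
    field_simp
  rw [e]
  exact h

theorem wpA3_kleinJ_comp :
    kleinJ ∘ ofComplex = fun z : ℂ => ((E₄ : ℍ → ℂ) ∘ ofComplex) z ^ 3 /
      ((((E₄ : ℍ → ℂ) ∘ ofComplex) z ^ 3 - ((E₆ : ℍ → ℂ) ∘ ofComplex) z ^ 2) / 1728) := by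
  funext z
  simp only [Function.comp_apply, kleinJ]
  rw [ModularForm.discriminant_eq_E₄_cube_sub_E₆_sq]

open Derivative in
theorem wpA3_deriv_kleinJ (c : ℂ) (hc : ∀ τ : ℍ, wpA3_H τ = c * ModularForm.discriminant τ)
    (τ : ℍ) :
    deriv (kleinJ ∘ ofComplex) (τ : ℂ) =
      -(2 * Real.pi * Complex.I) * c * E₄ τ ^ 2 * E₆ τ / (1728 * ModularForm.discriminant τ) := by
  have h4 := wpA3_hasDerivAt E₄ τ
  have h6 := wpA3_hasDerivAt E₆ τ
  have hΔ := ModularForm.discriminant_ne_zero τ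
  have hΔeq := ModularForm.discriminant_eq_E₄_cube_sub_E₆_sq τ
  have hne : (((E₄ : ℍ → ℂ) ∘ ofComplex) (τ : ℂ) ^ 3 -
      ((E₆ : ℍ → ℂ) ∘ ofComplex) (τ : ℂ) ^ 2) / 1728 ≠ 0 := by
    simp only [Function.comp_apply, ofComplex_apply]
    rw [← hΔeq]; exact hΔ
  have hd := (h4.pow 3).div (((h4.pow 3).sub (h6.pow 2)).div_const 1728) hne
  rw [wpA3_kleinJ_comp]
  refine (HasDerivAt.deriv hd).trans ?_
  simp only [Pi.pow_apply, Pi.sub_apply]
  have hH := hc τ
  unfold wpA3_H at hH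
  simp only [Function.comp_apply, ofComplex_apply] at hne ⊢
  rw [← hΔeq] at hne ⊢
  have h1728 : (E₄ τ ^ 3 - E₆ τ ^ 2) = 1728 * ModularForm.discriminant τ := by
    rw [hΔeq]; ring
  have e31 : (3 - 1 : ℕ) = 2 := rfl
  have e21 : (2 - 1 : ℕ) = 1 := rfl
  rw [e31, e21, pow_one, div_eq_div_iff (pow_ne_zero 2 hΔ) (mul_ne_zero (by norm_num) hΔ)]
  push_cast
  linear_combination
    (-(ModularForm.discriminant τ) * (3 * E₄ τ ^ 2 * (2 * Real.pi * Complex.I * D E₄ τ))) * h1728 +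
    (-(ModularForm.discriminant τ) * (2 * Real.pi * Complex.I) * E₄ τ ^ 2 * E₆ τ) * hH


theorem wpA3_kleinJ_differentiableOn :
    DifferentiableOn ℂ (kleinJ ∘ ofComplex) upperHalfPlaneSet := by
  have h4 : DifferentiableOn ℂ ((E₄ : ℍ → ℂ) ∘ ofComplex) upperHalfPlaneSet :=
    UpperHalfPlane.mdifferentiable_iff.mp (ModularFormClass.holo E₄)
  have hΔ : DifferentiableOn ℂ ((CuspForm.discriminant : ℍ → ℂ) ∘ ofComplex) upperHalfPlaneSet :=
    UpperHalfPlane.mdifferentiable_iff.mp (CuspFormClass.holo CuspForm.discriminant)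
  have h : DifferentiableOn ℂ (fun z : ℂ => ((E₄ : ℍ → ℂ) ∘ ofComplex) z ^ 3 /
      ((CuspForm.discriminant : ℍ → ℂ) ∘ ofComplex) z) upperHalfPlaneSet :=
    (h4.pow 3).div hΔ (fun z _ => ModularForm.discriminant_ne_zero _)
  exact h

theorem wpA3_exists_ne_zero :
    ∃ c : ℂ, c ≠ 0 ∧ ∀ τ : ℍ, wpA3_H τ = c * ModularForm.discriminant τ := by
  obtain ⟨c, hc⟩ := wpA3_exists_H_eq
  refine ⟨c, ?_, hc⟩
  intro h0
  have hderiv : Set.EqOn (deriv (kleinJ ∘ ofComplex)) 0 upperHalfPlaneSet := by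
    intro z hz
    have := wpA3_deriv_kleinJ c hc ⟨z, hz⟩
    rw [h0] at this
    simpa using this
  have hconst := IsOpen.is_const_of_deriv_eq_zero isOpen_upperHalfPlaneSet
    (convex_halfSpace_im_gt 0).isPreconnected wpA3_kleinJ_differentiableOn hderiv
    (x := (rhoH : ℂ)) (y := (UpperHalfPlane.I : ℂ)) rhoH.im_pos UpperHalfPlane.I.im_pos
  simp only [Function.comp_apply, ofComplex_apply] at hconst
  rw [wpA3_kleinJ_rho, wpA3_kleinJ_I] at hconst
  norm_num at hconst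

theorem wpA3_deriv_ne_zero (τ : ℍ) (h0 : kleinJ τ ≠ 0) (h1 : kleinJ τ ≠ 1728) :
    deriv (kleinJ ∘ ofComplex) (τ : ℂ) ≠ 0 := by
  obtain ⟨c, hc0, hc⟩ := wpA3_exists_ne_zero
  have hΔ := ModularForm.discriminant_ne_zero τ
  have h4 : E₄ τ ≠ 0 := by
    intro h
    apply h0
    simp [kleinJ, h]
  have h6 : E₆ τ ≠ 0 := by
    intro h
    apply h1
    have := wpA3_kleinJ_sub τ
    rw [h] at this
    simp at this
    linear_combination this
  rw [wpA3_deriv_kleinJ c hc τ]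
  have hpi : (2 * Real.pi * Complex.I : ℂ) ≠ 0 := by
    simp [Real.pi_ne_zero]
  have hden : (1728 * ModularForm.discriminant τ) ≠ 0 := mul_ne_zero (by norm_num) hΔ
  exact div_ne_zero (mul_ne_zero (mul_ne_zero (mul_ne_zero (neg_ne_zero.mpr hpi) hc0)
    (pow_ne_zero 2 h4)) h6) hden

/-! ### Orders at the elliptic points -/

theorem wpA3_analyticAt {f : ℍ → ℂ} (hf : MDiff f) (τ : ℍ) :
    AnalyticAt ℂ (f ∘ ofComplex) (τ : ℂ) :=
  (UpperHalfPlane.mdifferentiable_iff.mp hf).analyticAt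
    (isOpen_upperHalfPlaneSet.mem_nhds τ.im_pos)

theorem wpA3_order_rho : analyticOrderAt (kleinJ ∘ ofComplex) (rhoH : ℂ) = 3 := by
  obtain ⟨c, hc0, hc⟩ := wpA3_exists_ne_zero
  have hΔ := ModularForm.discriminant_ne_zero rhoH
  have ha4 : AnalyticAt ℂ ((E₄ : ℍ → ℂ) ∘ ofComplex) (rhoH : ℂ) :=
    wpA3_analyticAt (ModularFormClass.holo E₄) rhoH
  have haΔ : AnalyticAt ℂ ((CuspForm.discriminant : ℍ → ℂ) ∘ ofComplex) (rhoH : ℂ) :=
    wpA3_analyticAt (CuspFormClass.holo CuspForm.discriminant) rhoH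
  have hΔ0 : ((CuspForm.discriminant : ℍ → ℂ) ∘ ofComplex) (rhoH : ℂ) ≠ 0 := by
    simp only [Function.comp_apply, ofComplex_apply]
    exact hΔ
  have haΔinv : AnalyticAt ℂ (((CuspForm.discriminant : ℍ → ℂ) ∘ ofComplex)⁻¹) (rhoH : ℂ) :=
    haΔ.inv hΔ0
  -- the derivative of `E₄` at `ρ` does not vanish
  have hH := hc rhoH
  unfold wpA3_H at hH
  rw [wpA3_E4_rho] at hH
  have hD4 : Derivative.normalizedDerivOfComplex E₄ rhoH ≠ 0 := by
    intro h
    rw [h] at hH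
    simp at hH
    rcases hH with h | h
    · exact hc0 h
    · exact hΔ h
  have hpi : (2 * Real.pi * Complex.I : ℂ) ≠ 0 := by
    simp [Real.pi_ne_zero]
  have hderiv : deriv ((E₄ : ℍ → ℂ) ∘ ofComplex) (rhoH : ℂ) ≠ 0 := by
    rw [(wpA3_hasDerivAt E₄ rhoH).deriv]
    exact mul_ne_zero hpi hD4
  have h40 : ((E₄ : ℍ → ℂ) ∘ ofComplex) (rhoH : ℂ) = 0 := by
    simp only [Function.comp_apply, ofComplex_apply]
    exact wpA3_E4_rho
  have ho4 : analyticOrderAt ((E₄ : ℍ → ℂ) ∘ ofComplex) (rhoH : ℂ) = 1 :=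
    ha4.analyticOrderAt_eq_one_of_zero_deriv_ne_zero h40 hderiv
  have hoΔ : analyticOrderAt (((CuspForm.discriminant : ℍ → ℂ) ∘ ofComplex)⁻¹) (rhoH : ℂ) = 0 := by
    rw [haΔinv.analyticOrderAt_eq_zero]
    simp only [Pi.inv_apply]
    exact inv_ne_zero hΔ0
  have hfun : kleinJ ∘ ofComplex = ((E₄ : ℍ → ℂ) ∘ ofComplex) ^ 3 *
      (((CuspForm.discriminant : ℍ → ℂ) ∘ ofComplex)⁻¹) := by
    funext z
    simp [kleinJ, div_eq_mul_inv]
  rw [hfun, analyticOrderAt_mul (ha4.pow 3) haΔinv, analyticOrderAt_pow ha4, ho4, hoΔ]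
  rfl

theorem wpA3_order_I :
    analyticOrderAt (fun z : ℂ => kleinJ (ofComplex z) - 1728) (UpperHalfPlane.I : ℂ) = 2 := by
  obtain ⟨c, hc0, hc⟩ := wpA3_exists_ne_zero
  have hΔ := ModularForm.discriminant_ne_zero UpperHalfPlane.I
  have ha6 : AnalyticAt ℂ ((E₆ : ℍ → ℂ) ∘ ofComplex) (UpperHalfPlane.I : ℂ) :=
    wpA3_analyticAt (ModularFormClass.holo E₆) UpperHalfPlane.I
  have haΔ : AnalyticAt ℂ ((CuspForm.discriminant : ℍ → ℂ) ∘ ofComplex)
      (UpperHalfPlane.I : ℂ) :=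
    wpA3_analyticAt (CuspFormClass.holo CuspForm.discriminant) UpperHalfPlane.I
  have hΔ0 : ((CuspForm.discriminant : ℍ → ℂ) ∘ ofComplex) (UpperHalfPlane.I : ℂ) ≠ 0 := by
    simp only [Function.comp_apply, ofComplex_apply]
    exact hΔ
  have haΔinv : AnalyticAt ℂ (((CuspForm.discriminant : ℍ → ℂ) ∘ ofComplex)⁻¹)
      (UpperHalfPlane.I : ℂ) :=
    haΔ.inv hΔ0
  -- the derivative of `E₆` at `i` does not vanish
  have hH := hc UpperHalfPlane.I
  unfold wpA3_H at hH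
  rw [wpA3_E6_I] at hH
  have hD6 : Derivative.normalizedDerivOfComplex E₆ UpperHalfPlane.I ≠ 0 := by
    intro h
    rw [h] at hH
    simp at hH
    rcases hH with h | h
    · exact hc0 h
    · exact hΔ h
  have hpi : (2 * Real.pi * Complex.I : ℂ) ≠ 0 := by
    simp [Real.pi_ne_zero]
  have hderiv : deriv ((E₆ : ℍ → ℂ) ∘ ofComplex) (UpperHalfPlane.I : ℂ) ≠ 0 := by
    rw [(wpA3_hasDerivAt E₆ UpperHalfPlane.I).deriv]
    exact mul_ne_zero hpi hD6
  have h60 : ((E₆ : ℍ → ℂ) ∘ ofComplex) (UpperHalfPlane.I : ℂ) = 0 := by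
    simp only [Function.comp_apply, ofComplex_apply]
    exact wpA3_E6_I
  have ho6 : analyticOrderAt ((E₆ : ℍ → ℂ) ∘ ofComplex) (UpperHalfPlane.I : ℂ) = 1 :=
    ha6.analyticOrderAt_eq_one_of_zero_deriv_ne_zero h60 hderiv
  have hoΔ : analyticOrderAt (((CuspForm.discriminant : ℍ → ℂ) ∘ ofComplex)⁻¹)
      (UpperHalfPlane.I : ℂ) = 0 := by
    rw [haΔinv.analyticOrderAt_eq_zero]
    simp only [Pi.inv_apply]
    exact inv_ne_zero hΔ0
  have hfun : (fun z : ℂ => kleinJ (ofComplex z) - 1728) = ((E₆ : ℍ → ℂ) ∘ ofComplex) ^ 2 *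
      (((CuspForm.discriminant : ℍ → ℂ) ∘ ofComplex)⁻¹) := by
    funext z
    rw [wpA3_kleinJ_sub]
    simp [div_eq_mul_inv]
  rw [hfun, analyticOrderAt_mul (ha6.pow 2) haΔinv, analyticOrderAt_pow ha6, ho6, hoΔ]
  rfl

end Fermat.Agent.S24
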