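import Fermat.Agent.S24.Defs

/-!
S24 assembly, bridge (backup copy, ruling #529(3)): the formal function field
`modularFunctionFieldBar N = ℚ̄(j(q^d) : d ∣ N) ⊆ ℚ̄((q))` embeds into the field `D.M` of any
`ModularData N`, sending `JJ d` to `D.jd d`; the image is fixed by `Γ₀(N)`; `JJ 1` is
transcendental.  All names are prefixed `asmAb_`.
-/

set_option autoImplicit false

open ModularCurve AlgebraicCurve MatrixGroups IntermediateField

namespace Fermat.Agent.S24

attribute [local instance] ModularData.fieldM ModularData.algM ModularData.actM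

/-- `JJ d` lies in the formal function field of level `N` for `d ∣ N`. -/
theorem asmAb_JJ_mem (N : ℕ) [NeZero N] (d : ℕ) (hd : d ∣ N) : JJ d ∈ modularFunctionFieldBar N := by
  have hd0 : d ≠ 0 := fun h => NeZero.ne N (by simpa [h] using hd)
  haveI : NeZero d := ⟨hd0⟩
  rw [JJ_of_neZero]
  exact coeffEmb_mem_laurentBaseChange Kbar (jqd_mem_full N hd)

/-- The generators `JJ d`, `d ∣ N`. -/
def asmAb_gens (N : ℕ) : Set (LaurentSeries Kbar) := Set.range (fun d : N.divisors => JJ d.1)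

theorem asmAb_coeffEmb_algebraMap (c : ℚ) :
    coeffEmb Kbar (algebraMap ℚ (LaurentSeries ℚ) c)
      = algebraMap Kbar (LaurentSeries Kbar) (algebraMap ℚ Kbar c) := by
  rw [algebraMap_laurentSeries_eq_single, algebraMap_laurentSeries_eq_single]
  exact coeffMap_single _ _ _

theorem asmAb_coeffEmb_mem (N : ℕ) [NeZero N] (x : LaurentSeries ℚ)
    (hx : x ∈ modularFunctionFieldFull N) :
    coeffEmb Kbar x ∈ IntermediateField.adjoin Kbar (asmAb_gens N) := by
  unfold modularFunctionFieldFull at hx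
  induction hx using IntermediateField.adjoin_induction with
  | mem y hy =>
    obtain ⟨d, hne, hdvd, rfl⟩ := hy
    haveI := hne
    apply IntermediateField.subset_adjoin
    refine ⟨⟨d, Nat.mem_divisors.mpr ⟨hdvd, NeZero.ne N⟩⟩, ?_⟩
    exact JJ_of_neZero d
  | algebraMap c =>
    rw [asmAb_coeffEmb_algebraMap]
    exact IntermediateField.algebraMap_mem _ _
  | add x y _ _ hx hy => rw [map_add]; exact add_mem hx hy
  | inv x _ hx => rw [map_inv₀]; exact inv_mem hx
  | mul x y _ _ hx hy => rw [map_mul]; exact mul_mem hx hy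

/-- The formal function field is generated over `ℚ̄` by the `JJ d`, `d ∣ N`. -/
theorem asmAb_eq_adjoin (N : ℕ) [NeZero N] :
    modularFunctionFieldBar N = IntermediateField.adjoin Kbar (asmAb_gens N) := by
  apply le_antisymm
  · show laurentBaseChange Kbar (modularFunctionFieldFull N) ≤ _
    unfold laurentBaseChange
    rw [IntermediateField.adjoin_le_iff]
    rintro y ⟨x, hx, rfl⟩
    exact asmAb_coeffEmb_mem N x hx
  · rw [IntermediateField.adjoin_le_iff]
    rintro y ⟨d, rfl⟩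
    exact asmAb_JJ_mem N d.1 (Nat.dvd_of_mem_divisors d.2)

/-- Evaluation of polynomials at the formal series `JJ d`. -/
noncomputable def asmAb_phiJ (N : ℕ) : MvPolynomial N.divisors Kbar →ₐ[Kbar] LaurentSeries Kbar :=
  MvPolynomial.aeval (fun d : N.divisors => JJ d.1)

/-- Evaluation of polynomials at the functions `jd d`. -/
noncomputable def asmAb_phiM (N : ℕ) (D : ModularData N) : MvPolynomial N.divisors Kbar →ₐ[Kbar] D.M :=
  MvPolynomial.aeval (fun d : N.divisors => D.jd d.1)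

theorem asmAb_ker_eq (N : ℕ) (D : ModularData N) :
    RingHom.ker (asmAb_phiJ N) = RingHom.ker (asmAb_phiM N D) := by
  ext P
  rw [RingHom.mem_ker, RingHom.mem_ker]
  exact D.rel_iff P

theorem asmAb_range (N : ℕ) : (asmAb_phiJ N).range = Algebra.adjoin Kbar (asmAb_gens N) :=
  MvPolynomial.aeval_range _

/-- The algebra map `ℚ̄[JJ d] → M`, `JJ d ↦ jd d` (on the range of `asmAb_phiJ`). -/
noncomputable def asmAb_psiRange (N : ℕ) (D : ModularData N) : (asmAb_phiJ N).range →ₐ[Kbar] D.M :=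
  (Ideal.Quotient.liftₐ (RingHom.ker (asmAb_phiJ N)) (asmAb_phiM N D)
      (fun a ha => by rw [asmAb_ker_eq N D] at ha; exact ha)).comp
    ((Ideal.quotientKerEquivRange (asmAb_phiJ N)).symm : (asmAb_phiJ N).range →ₐ[Kbar] _)

theorem asmAb_psiRange_apply (N : ℕ) (D : ModularData N) (P : MvPolynomial N.divisors Kbar) :
    asmAb_psiRange N D ⟨asmAb_phiJ N P, ⟨P, rfl⟩⟩ = asmAb_phiM N D P := by
  have h : (Ideal.quotientKerEquivRange (asmAb_phiJ N)).symm ⟨asmAb_phiJ N P, ⟨P, rfl⟩⟩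
      = Ideal.Quotient.mk _ P := by
    rw [AlgEquiv.symm_apply_eq]
    rfl
  unfold asmAb_psiRange
  rw [AlgHom.comp_apply]
  erw [h]
  rfl

theorem asmAb_psiRange_injective (N : ℕ) (D : ModularData N) :
    Function.Injective (asmAb_psiRange N D) := by
  rw [injective_iff_map_eq_zero]
  rintro ⟨x, P, hP⟩ h
  have hx : (⟨x, P, hP⟩ : (asmAb_phiJ N).range) = ⟨asmAb_phiJ N P, ⟨P, rfl⟩⟩ :=
    Subtype.ext hP.symm
  rw [hx, asmAb_psiRange_apply] at h
  have hP' : P ∈ RingHom.ker (asmAb_phiJ N) := by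
    rw [asmAb_ker_eq N D]; exact h
  rw [hx]
  exact Subtype.ext hP'

/-- The algebra map `ℚ̄[JJ d : d ∣ N] → M`, `JJ d ↦ jd d`. -/
noncomputable def asmAb_psi (N : ℕ) (D : ModularData N) :
    Algebra.adjoin Kbar (asmAb_gens N) →ₐ[Kbar] D.M :=
  (asmAb_psiRange N D).comp
    (Subalgebra.equivOfEq _ _ (asmAb_range N).symm : _ →ₐ[Kbar] (asmAb_phiJ N).range)

theorem asmAb_psi_injective (N : ℕ) (D : ModularData N) : Function.Injective (asmAb_psi N D) := by
  unfold asmAb_psi
  exact (asmAb_psiRange_injective N D).comp (AlgEquiv.injective _)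

theorem asmAb_psi_gen (N : ℕ) (D : ModularData N) (d : N.divisors) :
    asmAb_psi N D ⟨JJ d.1, Algebra.subset_adjoin ⟨d, rfl⟩⟩ = D.jd d.1 := by
  have h1 : asmAb_phiJ N (MvPolynomial.X d) = JJ d.1 := by
    unfold asmAb_phiJ
    exact MvPolynomial.aeval_X _ _
  have h2 : asmAb_phiM N D (MvPolynomial.X d) = D.jd d.1 := by
    unfold asmAb_phiM
    exact MvPolynomial.aeval_X _ _
  have h3 : (Subalgebra.equivOfEq _ _ (asmAb_range N).symm
      (⟨JJ d.1, Algebra.subset_adjoin ⟨d, rfl⟩⟩ : Algebra.adjoin Kbar (asmAb_gens N)))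
      = ⟨asmAb_phiJ N (MvPolynomial.X d), ⟨MvPolynomial.X d, rfl⟩⟩ :=
    Subtype.ext h1.symm
  unfold asmAb_psi
  rw [AlgHom.comp_apply]
  erw [h3]
  rw [asmAb_psiRange_apply, h2]

open IntermediateField.algebraAdjoinAdjoin in
/-- The embedding of the fraction field `ℚ̄(JJ d : d ∣ N)` into `M`. -/
noncomputable def asmAb_iota' (N : ℕ) (D : ModularData N) :
    ↥(IntermediateField.adjoin Kbar (asmAb_gens N)) →ₐ[Kbar] D.M :=
  IsFractionRing.liftAlgHom (asmAb_psi_injective N D)

open IntermediateField.algebraAdjoinAdjoin in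
theorem asmAb_iota'_gen (N : ℕ) (D : ModularData N) (d : N.divisors) :
    asmAb_iota' N D ⟨JJ d.1, IntermediateField.subset_adjoin Kbar _ ⟨d, rfl⟩⟩ = D.jd d.1 := by
  have h : (⟨JJ d.1, IntermediateField.subset_adjoin Kbar _ ⟨d, rfl⟩⟩ :
      ↥(IntermediateField.adjoin Kbar (asmAb_gens N)))
      = algebraMap (Algebra.adjoin Kbar (asmAb_gens N)) _
          ⟨JJ d.1, Algebra.subset_adjoin ⟨d, rfl⟩⟩ := rfl
  rw [h]
  unfold asmAb_iota'
  rw [IsFractionRing.liftAlgHom_apply, IsFractionRing.lift_algebraMap]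
  exact asmAb_psi_gen N D d

theorem asmAb_iota'_smul (N : ℕ) (D : ModularData N) (g : SL(2, ℤ))
    (hg : g ∈ CongruenceSubgroup.Gamma0 N) (x : LaurentSeries Kbar)
    (hx : x ∈ IntermediateField.adjoin Kbar (asmAb_gens N)) :
    g • asmAb_iota' N D ⟨x, hx⟩ = asmAb_iota' N D ⟨x, hx⟩ := by
  induction hx using IntermediateField.adjoin_induction with
  | mem y hy =>
    obtain ⟨d, rfl⟩ := hy
    rw [asmAb_iota'_gen]
    exact D.smul_jd g hg d.1 (Nat.dvd_of_mem_divisors d.2)
  | algebraMap c =>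
    have h : (⟨algebraMap Kbar (LaurentSeries Kbar) c, IntermediateField.algebraMap_mem _ c⟩ :
        ↥(IntermediateField.adjoin Kbar (asmAb_gens N))) = algebraMap Kbar _ c := rfl
    rw [h, AlgHom.commutes]
    exact D.smul_const g c
  | add x y hx hy ihx ihy =>
    have h : (⟨x + y, add_mem hx hy⟩ : ↥(IntermediateField.adjoin Kbar (asmAb_gens N)))
        = ⟨x, hx⟩ + ⟨y, hy⟩ := rfl
    rw [h, map_add, smul_add, ihx, ihy]
  | inv x hx ihx =>
    have h : (⟨x⁻¹, inv_mem hx⟩ : ↥(IntermediateField.adjoin Kbar (asmAb_gens N)))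
        = (⟨x, hx⟩ : ↥(IntermediateField.adjoin Kbar (asmAb_gens N)))⁻¹ := rfl
    rw [h, map_inv₀, smul_inv'', ihx]
  | mul x y hx hy ihx ihy =>
    have h : (⟨x * y, mul_mem hx hy⟩ : ↥(IntermediateField.adjoin Kbar (asmAb_gens N)))
        = ⟨x, hx⟩ * ⟨y, hy⟩ := rfl
    rw [h, map_mul, smul_mul', ihx, ihy]

theorem asmAb_JJ_one : JJ 1 = coeffEmb Kbar jq := by
  rw [JJ_of_neZero 1, qExpand_one_apply]

theorem asmAb_coeff_JJ_one_pow (i n : ℕ) (hin : i ≤ n) :
    ((JJ 1) ^ i).coeff (-(n : ℤ)) = if i = n then 1 else 0 := by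
  rw [asmAb_JJ_one, ← map_pow, coeffEmb_coeff]
  split_ifs with h
  · subst h
    rw [coeff_jq_pow_self, map_one]
  · have hlt : (-(n : ℤ)) < -(i : ℤ) := by
      have : i < n := lt_of_le_of_ne hin h
      omega
    rw [coeff_jq_pow_of_lt hlt, map_zero]

theorem asmAb_coeff_algebraMap_mul (c : Kbar) (x : LaurentSeries Kbar) (k : ℤ) :
    (algebraMap Kbar (LaurentSeries Kbar) c * x).coeff k = c * x.coeff k := by
  rw [algebraMap_laurentSeries_eq_single, HahnSeries.single_zero_mul_eq_smul,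
    HahnSeries.coeff_smul, smul_eq_mul]

/-- `JJ 1 = j(q)` is transcendental over `ℚ̄` (it has a pole). -/
theorem asmAb_transcendental_JJ_one : Transcendental Kbar (JJ 1) := by
  rintro ⟨p, hp0, hp⟩
  have h1 : (Polynomial.aeval (JJ 1) p).coeff (-(p.natDegree : ℤ)) = p.leadingCoeff := by
    rw [Polynomial.aeval_eq_sum_range, HahnSeries.coeff_sum]
    simp only [Algebra.smul_def]
    rw [Finset.sum_eq_single p.natDegree]
    · rw [asmAb_coeff_algebraMap_mul, asmAb_coeff_JJ_one_pow _ _ le_rfl, if_pos rfl, mul_one]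
      rfl
    · intro i hi hne
      have hle : i ≤ p.natDegree := Nat.lt_succ_iff.mp (Finset.mem_range.mp hi)
      rw [asmAb_coeff_algebraMap_mul, asmAb_coeff_JJ_one_pow _ _ hle, if_neg hne, mul_zero]
    · intro h
      exact absurd (Finset.mem_range.mpr (Nat.lt_succ_self _)) h
  rw [hp] at h1
  exact hp0 (Polynomial.leadingCoeff_eq_zero.mp h1.symm)

/-- `JJ 1`, as an element of the formal function field, is transcendental over `ℚ̄`. -/
theorem asmAb_transcendental (N : ℕ) [NeZero N] :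
    Transcendental Kbar (⟨JJ 1, asmAb_JJ_mem N 1 (one_dvd N)⟩ : ↥(modularFunctionFieldBar N)) := by
  intro halg
  exact asmAb_transcendental_JJ_one (halg.algHom (modularFunctionFieldBar N).val)

/-- **Bridge.** The formal function field of level `N` embeds into the field of modular functions
of any `ModularData N`, with `JJ d ↦ jd d` for `d ∣ N`, and the image is fixed by `Γ₀(N)`. -/
theorem asmAb_exists_iota (N : ℕ) [NeZero N] (D : ModularData N) :
    ∃ ι : ↥(modularFunctionFieldBar N) →ₐ[Kbar] D.M,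
      (∀ (d : ℕ) (hd : d ∣ N), ι ⟨JJ d, asmAb_JJ_mem N d hd⟩ = D.jd d) ∧
      ∀ g ∈ CongruenceSubgroup.Gamma0 N, ∀ f : ↥(modularFunctionFieldBar N), g • ι f = ι f := by
  have hE := asmAb_eq_adjoin N
  refine ⟨(asmAb_iota' N D).comp (IntermediateField.equivOfEq hE).toAlgHom, ?_, ?_⟩
  · intro d hd
    have hdm : d ∈ N.divisors := Nat.mem_divisors.mpr ⟨hd, NeZero.ne N⟩
    exact asmAb_iota'_gen N D ⟨d, hdm⟩
  · intro g hg f
    exact asmAb_iota'_smul N D g hg _ _

end Fermat.Agent.S24
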