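import Fermat.Agent.S24.AnDefs

/-!
WPA1 of the S24 project: basic facts about Klein's `j`-function `kleinJ = E₄³ / Δ`:
holomorphy, `SL(2,ℤ)`-invariance, and its `q`-expansion, which is the formal series `jq`
of the Prelude.
-/

set_option autoImplicit false

open ModularCurve AlgebraicCurve MatrixGroups UpperHalfPlane ModularForm EisensteinSeries
open scoped Manifold

namespace Fermat.Agent.S24

theorem wpA1_kleinJ_mdiff : MDiff kleinJ := by
  rw [UpperHalfPlane.mdifferentiable_iff]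
  have h4 : DifferentiableOn ℂ ((E₄ : ℍ → ℂ) ∘ ofComplex) {z | 0 < z.im} :=
    UpperHalfPlane.mdifferentiable_iff.mp (ModularFormClass.holo E₄)
  have hΔ : DifferentiableOn ℂ ((CuspForm.discriminant : ℍ → ℂ) ∘ ofComplex) {z | 0 < z.im} :=
    UpperHalfPlane.mdifferentiable_iff.mp (CuspFormClass.holo CuspForm.discriminant)
  have hdiv : DifferentiableOn ℂ
      (fun z => ((E₄ : ℍ → ℂ) ∘ ofComplex) z ^ 3 /
        ((CuspForm.discriminant : ℍ → ℂ) ∘ ofComplex) z) {z | 0 < z.im} := by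
    refine (h4.pow 3).div hΔ ?_
    intro z _
    exact ModularForm.discriminant_ne_zero _
  exact hdiv.congr fun z _ => rfl

theorem wpA1_kleinJ_smul (g : SL(2, ℤ)) (τ : ℍ) : kleinJ (g • τ) = kleinJ τ := by
  have hg : (Matrix.SpecialLinearGroup.mapGL ℝ g : GL (Fin 2) ℝ) ∈ 𝒮ℒ := ⟨g, rfl⟩
  have h4 : E₄ (g • τ) = (denom g τ) ^ (4 : ℤ) * E₄ τ :=
    SlashInvariantForm.slash_action_eqn'' E₄ hg τ
  have hΔ : ModularForm.discriminant (g • τ) =
      (denom g τ) ^ (12 : ℤ) * ModularForm.discriminant τ :=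
    SlashInvariantForm.slash_action_eqn'' CuspForm.discriminant hg τ
  have hd : denom g τ ≠ 0 := denom_ne_zero _ _
  have hΔ0 : ModularForm.discriminant τ ≠ 0 := ModularForm.discriminant_ne_zero τ
  unfold kleinJ
  rw [h4, hΔ]
  field_simp

/-! ### The `q`-expansion of `j` -/

/-- Taylor series at `0` of a function `ℂ → ℂ` (junk unless the function is analytic at `0`). -/
noncomputable def wpA1_taylor (f : ℂ → ℂ) : PowerSeries ℂ :=
  PowerSeries.mk fun m => ((m.factorial : ℂ))⁻¹ * iteratedDeriv m f 0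

theorem wpA1_taylor_coeff (f : ℂ → ℂ) (m : ℕ) :
    (wpA1_taylor f).coeff m = ((m.factorial : ℂ))⁻¹ * iteratedDeriv m f 0 := by
  simp [wpA1_taylor]

theorem wpA1_qExpansion_eq (f : ℍ → ℂ) : qExpansion 1 f = wpA1_taylor (cuspFunction 1 f) := rfl

theorem wpA1_taylor_congr {f g : ℂ → ℂ} (h : f =ᶠ[nhds 0] g) :
    wpA1_taylor f = wpA1_taylor g := by
  ext m
  rw [wpA1_taylor_coeff, wpA1_taylor_coeff, h.iteratedDeriv_eq m]

theorem wpA1_taylor_mul {f g : ℂ → ℂ} (hf : AnalyticAt ℂ f 0) (hg : AnalyticAt ℂ g 0) :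
    wpA1_taylor (f * g) = wpA1_taylor f * wpA1_taylor g := by
  ext
  simp only [wpA1_taylor_coeff, iteratedDeriv_mul hf.contDiffAt hg.contDiffAt, Finset.mul_sum,
    PowerSeries.coeff_mul, Finset.Nat.sum_antidiagonal_eq_sum_range_succ_mk, Nat.succ_eq_add_one]
  refine Finset.sum_congr rfl fun i hi ↦ ?_
  rw [Nat.cast_choose _ (by grind)]
  field_simp [Nat.factorial_ne_zero]

theorem wpA1_taylor_pow {f : ℂ → ℂ} (hf : AnalyticAt ℂ f 0) (k : ℕ) :
    wpA1_taylor (f ^ k) = wpA1_taylor f ^ k := by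
  induction k with
  | zero =>
    ext m
    have h2 : iteratedDeriv m (1 : ℂ → ℂ) 0 = if m = 0 then 1 else 0 := by
      simpa [ite_apply] using! iteratedDeriv_const
    simp +contextual [wpA1_taylor_coeff, h2, PowerSeries.coeff_one]
  | succ k ih =>
    rw [pow_succ, pow_succ, wpA1_taylor_mul (hf.pow k) hf, ih]

/-- Iterated derivatives of a polynomial function. -/
theorem wpA1_iteratedDeriv_eval (m : ℕ) (P : Polynomial ℂ) :
    iteratedDeriv m (fun q : ℂ => P.eval q) = fun q => (Polynomial.derivative^[m] P).eval q := by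
  induction m generalizing P with
  | zero => simp
  | succ m ih =>
    rw [iteratedDeriv_succ']
    have : deriv (fun q : ℂ => P.eval q) = fun q => (Polynomial.derivative P).eval q := by
      funext q
      exact P.deriv
    rw [this, ih, Function.iterate_succ_apply]

theorem wpA1_taylor_eval (P : Polynomial ℂ) :
    wpA1_taylor (fun q : ℂ => P.eval q) = (P : PowerSeries ℂ) := by
  ext m
  rw [wpA1_taylor_coeff, wpA1_iteratedDeriv_eval, Polynomial.coeff_coe]
  show ((m.factorial : ℂ))⁻¹ * (Polynomial.derivative^[m] P).eval 0 = P.coeff m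
  rw [← Polynomial.coeff_zero_eq_eval_zero,
    Polynomial.coeff_iterate_derivative, zero_add, Nat.descFactorial_self, nsmul_eq_mul, ← mul_assoc,
    inv_mul_cancel₀ (by exact_mod_cast Nat.factorial_ne_zero m), one_mul]

/-- Taylor coefficients at a point pass to locally uniform limits of holomorphic functions. -/
theorem wpA1_tendsto_iteratedDeriv {ι : Type*} {l : Filter ι} {F : ι → ℂ → ℂ}
    {f : ℂ → ℂ} {U : Set ℂ} (hU : IsOpen U) (hF : ∀ i, DifferentiableOn ℂ (F i) U)
    (hf : TendstoLocallyUniformlyOn F f l U) (m : ℕ) :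
    TendstoLocallyUniformlyOn (fun i => iteratedDeriv m (F i)) (iteratedDeriv m f) l U ∧
      ∀ i, DifferentiableOn ℂ (iteratedDeriv m (F i)) U := by
  induction m with
  | zero => simpa using ⟨hf, hF⟩
  | succ m ih =>
    refine ⟨?_, fun i => ?_⟩
    · have := ih.1.deriv (.of_forall ih.2) hU
      simpa only [iteratedDeriv_succ, Function.comp_def] using this
    · rw [iteratedDeriv_succ]
      exact (ih.2 i).deriv hU

theorem wpA1_finprod_eval (s : Finset ℕ) (q : ℂ) :
    (∏ i ∈ s, (1 - q ^ (i + 1))) =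
      (Polynomial.map (Int.castRingHom ℂ)
        (∏ i ∈ s, (1 - Polynomial.X ^ (i + 1) : Polynomial ℤ))).eval q := by
  simp [Polynomial.eval_prod, Polynomial.map_prod]

theorem wpA1_finprod_coe (s : Finset ℕ) :
    ((∏ i ∈ s, (1 - Polynomial.X ^ (i + 1) : Polynomial ℤ) : Polynomial ℤ) : PowerSeries ℤ) =
      ∏ i ∈ s, (1 - PowerSeries.X ^ (i + 1)) := by
  rw [← Polynomial.coeToPowerSeries.ringHom_apply, map_prod]
  simp

open scoped PowerSeries.WithPiTopology in
/-- The key comparison: the Taylor series of the analytic Euler product is the formal one. -/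
theorem wpA1_taylor_tprod :
    wpA1_taylor (fun q : ℂ => ∏' n : ℕ, (1 - q ^ (n + 1))) =
      PowerSeries.map (Int.castRingHom ℂ) etaProd := by
  ext m
  rw [wpA1_taylor_coeff, PowerSeries.coeff_map]
  have hloc : TendstoLocallyUniformlyOn (fun (s : Finset ℕ) (q : ℂ) => ∏ i ∈ s, (1 - q ^ (i + 1)))
      (fun q : ℂ => ∏' n : ℕ, (1 - q ^ (n + 1))) Filter.atTop (Metric.ball 0 1) :=
    multipliableLocallyUniformlyOn_one_sub_pow.hasProdLocallyUniformlyOn
  have hdiff : ∀ s : Finset ℕ,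
      DifferentiableOn ℂ (fun q : ℂ => ∏ i ∈ s, (1 - q ^ (i + 1))) (Metric.ball 0 1) := by
    intro s
    exact DifferentiableOn.fun_finsetProd (fun _ _ ↦ by fun_prop)
  have hT : Filter.Tendsto (fun s : Finset ℕ =>
        iteratedDeriv m (fun q : ℂ => ∏ i ∈ s, (1 - q ^ (i + 1))) 0) Filter.atTop
      (nhds (iteratedDeriv m (fun q : ℂ => ∏' n : ℕ, (1 - q ^ (n + 1))) 0)) :=
    (wpA1_tendsto_iteratedDeriv Metric.isOpen_ball hdiff hloc m).1.tendsto_at
      (Metric.mem_ball_self one_pos)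
  have hP : ∀ s : Finset ℕ, iteratedDeriv m (fun q : ℂ => ∏ i ∈ s, (1 - q ^ (i + 1))) 0 =
      (m.factorial : ℂ) *
        (((PowerSeries.coeff m (∏ i ∈ s, (1 - PowerSeries.X ^ (i + 1)) : PowerSeries ℤ)) : ℤ) : ℂ) := by
    intro s
    have h1 := congrArg (PowerSeries.coeff m) (wpA1_taylor_eval (Polynomial.map (Int.castRingHom ℂ)
        (∏ i ∈ s, (1 - Polynomial.X ^ (i + 1) : Polynomial ℤ))))
    rw [wpA1_taylor_coeff, Polynomial.coeff_coe, Polynomial.coeff_map] at h1
    have h2 : (fun q : ℂ => ∏ i ∈ s, (1 - q ^ (i + 1))) = fun q : ℂ =>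
        (Polynomial.map (Int.castRingHom ℂ)
          (∏ i ∈ s, (1 - Polynomial.X ^ (i + 1) : Polynomial ℤ))).eval q :=
      funext fun q => wpA1_finprod_eval s q
    rw [h2, ← wpA1_finprod_coe, Polynomial.coeff_coe]
    have hm : (m.factorial : ℂ) ≠ 0 := by exact_mod_cast Nat.factorial_ne_zero m
    rw [eq_intCast] at h1
    rw [← h1, ← mul_assoc, mul_inv_cancel₀ hm, one_mul]
  have hF : Filter.Tendsto (fun s : Finset ℕ =>
      (((PowerSeries.coeff m (∏ i ∈ s, (1 - PowerSeries.X ^ (i + 1)) : PowerSeries ℤ)) : ℤ) : ℂ))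
      Filter.atTop (nhds ((PowerSeries.coeff m etaProd : ℤ) : ℂ)) := by
    have h1 : HasProd (fun n : ℕ => (1 - PowerSeries.X ^ (n + 1) : PowerSeries ℤ)) etaProd :=
      (PowerSeries.WithPiTopology.multipliable_one_sub_X_pow ℤ).hasProd
    have h2 := ((PowerSeries.WithPiTopology.continuous_coeff (R := ℤ) m).tendsto etaProd).comp h1
    have h3 : Continuous (fun n : ℤ => (n : ℂ)) := continuous_of_discreteTopology
    exact (h3.tendsto _).comp h2
  have hT' : Filter.Tendsto (fun s : Finset ℕ =>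
      ((m.factorial : ℂ))⁻¹ * iteratedDeriv m (fun q : ℂ => ∏ i ∈ s, (1 - q ^ (i + 1))) 0)
      Filter.atTop (nhds (((m.factorial : ℂ))⁻¹ *
        iteratedDeriv m (fun q : ℂ => ∏' n : ℕ, (1 - q ^ (n + 1))) 0)) :=
    hT.const_mul _
  refine tendsto_nhds_unique hT' (hF.congr fun s => ?_)
  have hm : (m.factorial : ℂ) ≠ 0 := by exact_mod_cast Nat.factorial_ne_zero m
  rw [hP s, ← mul_assoc, inv_mul_cancel₀ hm, one_mul]

theorem wpA1_qExpansion_E4 :
    qExpansion 1 E₄ = PowerSeries.map (Int.castRingHom ℂ) eisenstein4 := by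
  ext m
  rw [E_qExpansion_coeff (by norm_num) ⟨2, rfl⟩ m, PowerSeries.coeff_map, eisenstein4,
    PowerSeries.coeff_mk]
  by_cases hm : m = 0
  · simp [hm]
  · rw [if_neg hm, if_neg hm, show bernoulli 4 = -1 / 30 by decide +kernel,
      ArithmeticFunction.sigma_apply, eq_intCast]
    push_cast
    ring

theorem wpA1_E4_tendsto : Filter.Tendsto (fun τ : ℍ => E₄ τ) atImInfty (nhds 1) := by
  have han : AnalyticAt ℂ (cuspFunction 1 E₄) 0 :=
    ModularFormClass.analyticAt_cuspFunction_zero E₄ one_pos one_mem_strictPeriods_SL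
  have h0 : cuspFunction 1 E₄ 0 = 1 := by
    have := E_qExpansion_coeff_zero (k := 4) (by norm_num) ⟨2, rfl⟩
    simpa [qExpansion_coeff] using this
  have h1 := han.continuousAt.tendsto.comp (qParam_tendsto_atImInfty (h := 1) one_pos)
  rw [h0] at h1
  refine h1.congr fun τ => ?_
  exact SlashInvariantFormClass.eq_cuspFunction E₄ τ one_mem_strictPeriods_SL one_ne_zero

theorem wpA1_kleinJ_mul_discriminant (τ : ℍ) :
    kleinJ τ * ModularForm.discriminant τ = E₄ τ ^ 3 := by
  unfold kleinJ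
  exact div_mul_cancel₀ _ (ModularForm.discriminant_ne_zero τ)

theorem wpA1_G_eq (τ : ℍ) :
    kleinJ τ * Function.Periodic.qParam 1 τ = E₄ τ ^ 3 / ∏' n, (1 - eta_q n τ) ^ 24 := by
  have hq : Function.Periodic.qParam 1 (τ : ℂ) ≠ 0 := Function.Periodic.qParam_ne_zero _
  have hΔ := ModularForm.discriminant_ne_zero τ
  have h1 := ModularForm.discriminant_eq_q_prod τ
  have hD : (∏' n, (1 - eta_q n τ) ^ 24) ≠ 0 := by
    intro h0
    rw [h0, mul_zero] at h1
    exact hΔ h1
  unfold kleinJ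
  rw [h1]
  field_simp

theorem wpA1_kleinJ_tendsto :
    Filter.Tendsto (fun τ : ℍ => kleinJ τ * Function.Periodic.qParam 1 τ) atImInfty (nhds 1) := by
  have h1 : Filter.Tendsto (fun τ : ℍ => E₄ τ ^ 3 / ∏' n, (1 - eta_q n τ) ^ 24) atImInfty
      (nhds (1 ^ 3 / 1)) :=
    (wpA1_E4_tendsto.pow 3).div ModularForm.tendsto_atImInfty_tprod_one_sub_eta_q_pow one_ne_zero
  simp only [one_pow, div_one] at h1
  exact h1.congr fun τ => (wpA1_G_eq τ).symm

theorem wpA1_G_periodic :
    Function.Periodic ((fun τ : ℍ => kleinJ τ * Function.Periodic.qParam 1 τ) ∘ ofComplex)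
      ((1 : ℝ) : ℂ) := by
  intro w
  have h4 := SlashInvariantFormClass.periodic_comp_ofComplex E₄ one_mem_strictPeriods_SL w
  have hΔ := SlashInvariantFormClass.periodic_comp_ofComplex CuspForm.discriminant
    one_mem_strictPeriods_SL w
  have hq : Function.Periodic.qParam 1 ((ofComplex (w + (1 : ℝ)) : ℍ) : ℂ) =
      Function.Periodic.qParam 1 ((ofComplex w : ℍ) : ℂ) := by
    by_cases hw : 0 < w.im
    · have hw' : 0 < (w + (1 : ℝ)).im := by simpa using hw
      rw [ofComplex_apply_of_im_pos hw', ofComplex_apply_of_im_pos hw]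
      simp [Function.Periodic.qParam, mul_add, Complex.exp_add, Complex.exp_two_pi_mul_I]
    · have hw' : (w + (1 : ℝ)).im ≤ 0 := by simpa using hw
      rw [ofComplex_apply_of_im_nonpos hw', ofComplex_apply_of_im_nonpos (not_lt.mp hw)]
  simp only [Function.comp_apply] at h4 hΔ ⊢
  unfold kleinJ
  have hΔ' : ModularForm.discriminant (ofComplex (w + (1 : ℝ))) =
      ModularForm.discriminant (ofComplex w) := hΔ
  rw [h4, hΔ', hq]

theorem wpA1_G_mdiff : MDiff (fun τ : ℍ => kleinJ τ * Function.Periodic.qParam 1 τ) := by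
  rw [UpperHalfPlane.mdifferentiable_iff]
  have h1 := UpperHalfPlane.mdifferentiable_iff.mp wpA1_kleinJ_mdiff
  have h2 : DifferentiableOn ℂ (fun z : ℂ => Function.Periodic.qParam 1 z) {z | 0 < z.im} :=
    (Function.Periodic.differentiable_qParam).differentiableOn
  refine (h1.mul h2).congr fun z hz => ?_
  have hz' : 0 < z.im := hz
  simp [ofComplex_apply_of_im_pos hz']

theorem wpA1_G_bdd : IsBoundedAtImInfty (fun τ : ℍ => kleinJ τ * Function.Periodic.qParam 1 τ) :=
  wpA1_kleinJ_tendsto.isBigO_one ℝ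

theorem wpA1_G_analyticAt :
    AnalyticAt ℂ (cuspFunction 1 (fun τ : ℍ => kleinJ τ * Function.Periodic.qParam 1 τ)) 0 :=
  analyticAt_cuspFunction_zero one_pos wpA1_G_periodic wpA1_G_mdiff wpA1_G_bdd

theorem wpA1_taylor_id : wpA1_taylor (fun q : ℂ => q) = PowerSeries.X := by
  have h := wpA1_taylor_eval (Polynomial.X : Polynomial ℂ)
  simpa using h

theorem wpA1_analyticAt_tprod :
    AnalyticAt ℂ (fun q : ℂ => ∏' n : ℕ, (1 - q ^ (n + 1))) 0 :=
  ModularForm.differentiableOn_tprod_one_sub_pow.analyticAt (Metric.ball_mem_nhds 0 one_pos)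

theorem wpA1_taylor_tprod_pow :
    wpA1_taylor (fun q : ℂ => ∏' n : ℕ, (1 - q ^ (n + 1)) ^ 24) =
      PowerSeries.map (Int.castRingHom ℂ) dedekindEtaUnit := by
  have h1 : (fun q : ℂ => ∏' n : ℕ, (1 - q ^ (n + 1)) ^ 24) =ᶠ[nhds 0]
      (fun q : ℂ => ∏' n : ℕ, (1 - q ^ (n + 1))) ^ 24 := by
    filter_upwards [Metric.ball_mem_nhds (0 : ℂ) one_pos] with q hq
    exact (ModularForm.multipliable_one_sub_pow (by simpa using hq)).tprod_pow 24
  rw [wpA1_taylor_congr h1, wpA1_taylor_pow wpA1_analyticAt_tprod, wpA1_taylor_tprod,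
    dedekindEtaUnit, map_pow]

theorem wpA1_analyticAt_tprod_pow :
    AnalyticAt ℂ (fun q : ℂ => ∏' n : ℕ, (1 - q ^ (n + 1)) ^ 24) 0 :=
  (ModularForm.differentiableOn_tprod_one_sub_pow_pow 24).analyticAt
    (Metric.ball_mem_nhds 0 one_pos)

/-- The `q`-expansion of `j · q` is the integral power series `jNum`. -/
theorem wpA1_qExpansion_G :
    qExpansion 1 (fun τ : ℍ => kleinJ τ * Function.Periodic.qParam 1 τ) =
      PowerSeries.map (Int.castRingHom ℂ) jNum := by
  set G : ℍ → ℂ := fun τ : ℍ => kleinJ τ * Function.Periodic.qParam 1 τ with hG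
  set φ : ℂ → ℂ := fun q : ℂ => ∏' n : ℕ, (1 - q ^ (n + 1)) ^ 24 with hφ
  have hGan : AnalyticAt ℂ (cuspFunction 1 G) 0 := wpA1_G_analyticAt
  have hEan : AnalyticAt ℂ (cuspFunction 1 E₄) 0 :=
    ModularFormClass.analyticAt_cuspFunction_zero E₄ one_pos one_mem_strictPeriods_SL
  have hid : AnalyticAt ℂ (fun q : ℂ => q) 0 := analyticAt_id
  have hφan : AnalyticAt ℂ φ 0 := wpA1_analyticAt_tprod_pow
  -- the identity of germs at `0`
  have hgerm : (cuspFunction 1 G * ((fun q : ℂ => q) * φ)) =ᶠ[nhds 0]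
      (cuspFunction 1 E₄ ^ 3 * fun q : ℂ => q) := by
    filter_upwards [Metric.ball_mem_nhds (0 : ℂ) one_pos] with q hq
    have hq1 : ‖q‖ < 1 := by simpa using hq
    by_cases hq0 : q = 0
    · simp [hq0]
    · have him := Function.Periodic.im_invQParam_pos_of_norm_lt_one one_pos hq1 hq0
      set τ : ℍ := ⟨Function.Periodic.invQParam 1 q, him⟩ with hτ
      have hqτ : Function.Periodic.qParam 1 (τ : ℂ) = q :=
        Function.Periodic.qParam_right_inv one_ne_zero hq0
      have e1 : cuspFunction 1 G q = G τ := by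
        rw [← hqτ]
        exact eq_cuspFunction τ one_ne_zero wpA1_G_periodic
      have e2 : cuspFunction 1 E₄ q = E₄ τ := by
        rw [← hqτ]
        exact SlashInvariantFormClass.eq_cuspFunction E₄ τ one_mem_strictPeriods_SL one_ne_zero
      have e3 : ModularForm.discriminant τ = q * φ q := by
        rw [ModularForm.discriminant_eq_q_prod τ, hqτ]
        simp only [hφ, eta_q, hqτ]
      simp only [Pi.mul_apply, Pi.pow_apply]
      rw [e1, e2, ← e3, hG]
      simp only
      rw [hqτ, mul_right_comm, wpA1_kleinJ_mul_discriminant]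
  have hT := wpA1_taylor_congr hgerm
  rw [wpA1_taylor_mul hGan (hid.mul hφan), wpA1_taylor_mul hid hφan,
    wpA1_taylor_mul (hEan.pow 3) hid, wpA1_taylor_pow hEan, wpA1_taylor_id,
    wpA1_taylor_tprod_pow, ← wpA1_qExpansion_eq, ← wpA1_qExpansion_eq, wpA1_qExpansion_E4] at hT
  -- now pure power series algebra
  have hunit : PowerSeries.map (Int.castRingHom ℂ) dedekindEtaUnit *
      PowerSeries.map (Int.castRingHom ℂ) dedekindEtaUnitInv = 1 := by
    rw [← map_mul, dedekindEtaUnit_mul_inv, map_one]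
  have h2 : qExpansion 1 G * PowerSeries.X =
      PowerSeries.map (Int.castRingHom ℂ) jNum * PowerSeries.X := by
    calc qExpansion 1 G * PowerSeries.X
        = qExpansion 1 G * (PowerSeries.X * PowerSeries.map (Int.castRingHom ℂ) dedekindEtaUnit) *
            PowerSeries.map (Int.castRingHom ℂ) dedekindEtaUnitInv := by
          rw [mul_assoc, mul_assoc, hunit, mul_one]
      _ = PowerSeries.map (Int.castRingHom ℂ) jNum * PowerSeries.X := by
          rw [hT, jNum, map_mul, map_pow]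
          ring
  exact mul_right_cancel₀ PowerSeries.X_ne_zero h2

theorem wpA1_jq_coeff (n : ℕ) : jq.coeff ((n : ℤ) - 1) = ((PowerSeries.coeff n jNum : ℤ) : ℚ) := by
  rw [jq, HahnSeries.coeff_single_mul, one_mul, sub_neg_eq_add, sub_add_cancel,
    HahnSeries.ofPowerSeries_apply_coeff, jNumQ, PowerSeries.coeff_map, eq_intCast]

theorem wpA1_kleinJ_hasSum (τ : ℍ) :
    HasSum (fun n : ℕ => ((jq.coeff ((n : ℤ) - 1) : ℚ) : ℂ) * Function.Periodic.qParam 1 τ ^ n)
      (kleinJ τ * Function.Periodic.qParam 1 τ) := by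
  have h := hasSum_qExpansion one_pos wpA1_G_periodic wpA1_G_mdiff wpA1_G_bdd τ
  rw [wpA1_qExpansion_G] at h
  have e : (fun n : ℕ => ((jq.coeff ((n : ℤ) - 1) : ℚ) : ℂ) * Function.Periodic.qParam 1 τ ^ n) =
      fun m : ℕ => (PowerSeries.coeff m) (PowerSeries.map (Int.castRingHom ℂ) jNum) •
        Function.Periodic.qParam 1 (τ : ℂ) ^ m := by
    funext n
    rw [wpA1_jq_coeff, PowerSeries.coeff_map, eq_intCast, smul_eq_mul, Rat.cast_intCast]
  rw [e]
  exact h

end Fermat.Agent.S24
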