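import Fermat.Agent.S24.Defs

/-!
S24, work package WP1b: basic facts on places of a function field (owner: helper97).
-/

set_option autoImplicit false

open ModularCurve AlgebraicCurve MatrixGroups IntermediateField

namespace Fermat.Agent.S24

section General

variable {K F : Type*} [Field K] [Field F] [Algebra K F]

theorem wp1b_ord_nonneg_iff (v : Place K F) {f : F} (hf : f ≠ 0) :
    0 ≤ v.ord f ↔ v.adicValuation f ≤ 1 := by
  unfold Place.ord
  rw [neg_nonneg, ← WithZero.log_one, WithZero.log_le_log (v.adicValuation_ne_zero hf) one_ne_zero]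

theorem wp1b_ord_pos_iff (v : Place K F) {f : F} (hf : f ≠ 0) :
    0 < v.ord f ↔ v.adicValuation f < 1 := by
  unfold Place.ord
  rw [neg_pos, ← WithZero.log_one, WithZero.log_lt_log (v.adicValuation_ne_zero hf) one_ne_zero]

theorem wp1b_ord_le_ord_iff (v : Place K F) {f g : F} (hf : f ≠ 0) (hg : g ≠ 0) :
    v.ord f ≤ v.ord g ↔ v.adicValuation g ≤ v.adicValuation f := by
  unfold Place.ord
  rw [neg_le_neg_iff, WithZero.log_le_log (v.adicValuation_ne_zero hg) (v.adicValuation_ne_zero hf)]

/-- An element lies in the valuation ring of `v` iff its order is nonnegative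
(recall `v.ord 0 = 0`). -/
theorem wp1_mem_iff_ord_nonneg (v : Place K F) (f : F) :
    f ∈ v.toValuationSubring ↔ 0 ≤ v.ord f := by
  rcases eq_or_ne f 0 with rfl | hf
  · simp
  rw [wp1b_ord_nonneg_iff v hf]
  constructor
  · intro h
    have := v.adicValuation_coe ⟨f, h⟩
    rw [this]
    exact IsDedekindDomain.HeightOneSpectrum.intValuation_le_one _ _
  · intro h
    obtain ⟨a, ha⟩ := IsDiscreteValuationRing.exists_lift_of_le_one (A := v.toValuationSubring)
      (K := F) (x := f) h
    rw [← ha]
    exact a.2

theorem wp1_ord_add (v : Place K F) (f g : F) (hfg : f + g ≠ 0) (hf : f ≠ 0) (hg : g ≠ 0) :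
    min (v.ord f) (v.ord g) ≤ v.ord (f + g) := by
  have h := Valuation.map_add v.adicValuation f g
  rcases le_total (v.adicValuation f) (v.adicValuation g) with h1 | h1
  · rw [max_eq_right h1] at h
    exact (min_le_right _ _).trans ((wp1b_ord_le_ord_iff v hg hfg).mpr h)
  · rw [max_eq_left h1] at h
    exact (min_le_left _ _).trans ((wp1b_ord_le_ord_iff v hf hfg).mpr h)

theorem wp1_ord_algebraMap (v : Place K F) (c : K) : v.ord (algebraMap K F c) = 0 := by
  rcases eq_or_ne c 0 with rfl | hc
  · simp
  have hu : IsUnit (algebraMap K v.toValuationSubring c) := (Ne.isUnit hc).map _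
  have := v.ord_coe_unit hu.unit
  rwa [IsUnit.unit_spec, v.coe_algebraMap] at this

end General

section Transcendental

variable {K F : Type*} [Field K] [Field F] [Algebra K F]

open scoped IntermediateField.algebraAdjoinAdjoin in
theorem wp1b_finite_of_transcendental (y : F) [FiniteDimensional K⟮y⟯ F] (t : F)
    (ht : Transcendental K t) : FiniteDimensional K⟮t⟯ F := by
  have h1 : Algebra.IsAlgebraic K⟮y⟯ F := Algebra.IsAlgebraic.of_finite _ _
  have h2 : Algebra.IsAlgebraic (Algebra.adjoin K {y}) F :=
    Algebra.IsAlgebraic.trans (Algebra.adjoin K {y}) K⟮y⟯ F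
  have h3 : Algebra.trdeg K F ≤ 1 := by
    have := Algebra.IsAlgebraic.trdeg_le_cardinalMk K ({y} : Set F)
    simpa using this
  have h4 : AlgebraicIndependent K (Subtype.val : ({t} : Set F) → F) :=
    (algebraicIndependent_singleton_iff (⟨t, rfl⟩ : ({t} : Set F))).mpr ht
  have h5 : IsTranscendenceBasis K (Subtype.val : ({t} : Set F) → F) :=
    h4.isTranscendenceBasis_of_trdeg_le_of_finite (by simpa using h3)
  have h6 : Algebra.IsAlgebraic K⟮t⟯ F := by
    have := h5.isAlgebraic_field
    rwa [Subtype.range_coe] at this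
  have h7a : Algebra.EssFiniteType K K⟮y⟯ :=
    IntermediateField.essFiniteType_iff.mpr ⟨{y}, by simp⟩
  have h7 : Algebra.EssFiniteType K F := Algebra.EssFiniteType.comp K K⟮y⟯ F
  have h8 : Algebra.EssFiniteType K⟮t⟯ F := Algebra.EssFiniteType.of_comp K K⟮t⟯ F
  exact Algebra.finite_of_essFiniteType_of_isAlgebraic

theorem wp1_finite_of_transcendental (y : F) (_hy : Transcendental K y) [FiniteDimensional K⟮y⟯ F]
    (t : F) (ht : Transcendental K t) : FiniteDimensional K⟮t⟯ F :=
  wp1b_finite_of_transcendental y t ht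

end Transcendental

section AlgClosed

variable {K F : Type*} [Field K] [IsAlgClosed K] [Field F] [Algebra K F]

/-- Over an algebraically closed field, algebraic elements are constants. -/
theorem wp1b_exists_eq_algebraMap_of_isAlgebraic {f : F} (hf : IsAlgebraic K f) :
    ∃ c : K, f = algebraMap K F c := by
  have hint : IsIntegral K f := hf.isIntegral
  have hdeg : (minpoly K f).degree = 1 :=
    IsAlgClosed.degree_eq_one_of_irreducible K (minpoly.irreducible hint)
  obtain ⟨c, hc⟩ := minpoly.mem_range_of_degree_eq_one K f hdeg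
  exact ⟨c, hc.symm⟩

/-- If no `f - c` has positive order at `v`, every nonzero polynomial in `f` has order `0`. -/
theorem wp1b_ord_aeval_eq_zero (v : Place K F) (f : F) (hf : Transcendental K f)
    (h : ∀ c : K, v.ord (f - algebraMap K F c) = 0) :
    ∀ (n : ℕ) (p : Polynomial K), p.natDegree = n → p ≠ 0 → v.ord (Polynomial.aeval f p) = 0 := by
  intro n
  induction n with
  | zero =>
    intro p hp hp0
    rw [Polynomial.eq_C_of_natDegree_eq_zero hp]
    simp only [Polynomial.aeval_C]
    exact wp1_ord_algebraMap v _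
  | succ n ih =>
    intro p hp hp0
    have hdeg : p.degree ≠ 0 := by
      intro h0
      have := Polynomial.natDegree_eq_zero_iff_degree_le_zero.mpr h0.le
      omega
    obtain ⟨c, hc⟩ := IsAlgClosed.exists_root p hdeg
    obtain ⟨q, rfl⟩ := Polynomial.dvd_iff_isRoot.mpr hc
    have hq0 : q ≠ 0 := fun h0 => hp0 (by rw [h0, mul_zero])
    have hqdeg : q.natDegree = n := by
      have := Polynomial.natDegree_mul (Polynomial.X_sub_C_ne_zero c) hq0
      rw [Polynomial.natDegree_X_sub_C] at this
      omega
    rw [map_mul]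
    have h1 : Polynomial.aeval f (Polynomial.X - Polynomial.C c) = f - algebraMap K F c := by
      simp
    have hne1 : f - algebraMap K F c ≠ 0 := by
      intro h0
      apply hf
      rw [sub_eq_zero] at h0
      rw [h0]
      exact isAlgebraic_algebraMap c
    have hne2 : Polynomial.aeval f q ≠ 0 := fun h0 => hf ⟨q, hq0, h0⟩
    rw [h1, v.ord_mul hne1 hne2, h c, ih q hqdeg hq0, add_zero]

theorem wp1_exists_const (y : F) (_hy : Transcendental K y) [FiniteDimensional K⟮y⟯ F]
    (v : Place K F) (f : F) (hf : f ∈ v.toValuationSubring) :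
    ∃ c : K, f = algebraMap K F c ∨ 0 < v.ord (f - algebraMap K F c) := by
  by_cases halg : IsAlgebraic K f
  · obtain ⟨c, hc⟩ := wp1b_exists_eq_algebraMap_of_isAlgebraic halg
    exact ⟨c, Or.inl hc⟩
  by_contra hcon
  push Not at hcon
  have htr : Transcendental K f := halg
  -- every `f - c` has order zero
  have h0 : ∀ c : K, v.ord (f - algebraMap K F c) = 0 := by
    intro c
    have h1 : f - algebraMap K F c ∈ v.toValuationSubring :=
      v.toValuationSubring.sub_mem hf (v.algebraMap_mem' c)
    have h2 := (wp1_mem_iff_ord_nonneg v _).mp h1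
    have h3 := (hcon c).2
    omega
  have hpoly := wp1b_ord_aeval_eq_zero v f htr h0
  -- `K(f) ⊆ O_v`
  have hsub : ∀ x : F, x ∈ K⟮f⟯ → x ∈ v.toValuationSubring := by
    intro x hx
    obtain ⟨r, s, rfl⟩ := (IntermediateField.mem_adjoin_simple_iff K x).mp hx
    rw [wp1_mem_iff_ord_nonneg]
    by_cases hr : r = 0
    · simp [hr]
    by_cases hs : s = 0
    · simp [hs]
    have hne1 : Polynomial.aeval f r ≠ 0 := fun h0 => htr ⟨r, hr, h0⟩
    have hne2 : Polynomial.aeval f s ≠ 0 := fun h0 => htr ⟨s, hs, h0⟩
    rw [div_eq_mul_inv, v.ord_mul hne1 (inv_ne_zero hne2), v.ord_inv, hpoly _ r rfl hr,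
      hpoly _ s rfl hs]
    simp
  -- hence `O_v = F`, contradiction
  have : FiniteDimensional K⟮f⟯ F := wp1b_finite_of_transcendental y f htr
  apply v.ne_top'
  refine SetLike.ext fun x => ⟨fun _ => ValuationSubring.mem_top x, fun _ => ?_⟩
  have hxint : IsIntegral K⟮f⟯ x := IsIntegral.of_finite _ _
  obtain ⟨p, hpm, hpx⟩ := hxint
  let φ : K⟮f⟯ →+* v.toValuationSubring :=
    (algebraMap K⟮f⟯ F).codRestrict v.toValuationSubring (fun z => hsub _ z.2)
  have hφ : (algebraMap v.toValuationSubring F).comp φ = algebraMap K⟮f⟯ F := rfl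
  have hint' : IsIntegral v.toValuationSubring x := by
    refine ⟨p.map φ, hpm.map φ, ?_⟩
    rw [Polynomial.eval₂_map, hφ]
    exact hpx
  obtain ⟨a, ha⟩ := (IsIntegrallyClosed.isIntegral_iff (R := v.toValuationSubring) (K := F)).mp hint'
  rw [← ha]
  exact a.2

theorem wp1_deg_eq_one (y : F) (hy : Transcendental K y) [FiniteDimensional K⟮y⟯ F]
    (v : Place K F) : v.deg = 1 := by
  have hsurj : Function.Surjective (algebraMap K v.ResidueField) := by
    intro z
    obtain ⟨a, rfl⟩ := IsLocalRing.residue_surjective z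
    obtain ⟨c, hc⟩ := wp1_exists_const y hy v (a : F) a.2
    refine ⟨c, ?_⟩
    have hmem : a - algebraMap K v.toValuationSubring c ∈
        IsLocalRing.maximalIdeal v.toValuationSubring := by
      rw [IsLocalRing.mem_maximalIdeal, mem_nonunits_iff]
      intro hu
      rcases hc with hc | hc
      · have h0 : a - algebraMap K v.toValuationSubring c = 0 := by
          apply Subtype.ext
          simp [hc]
        rw [h0] at hu
        exact not_isUnit_zero hu
      · have h1 := v.ord_coe_unit hu.unit
        rw [IsUnit.unit_spec] at h1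
        have h2 : ((a - algebraMap K v.toValuationSubring c : v.toValuationSubring) : F)
            = (a : F) - algebraMap K F c := by simp
        rw [h2] at h1
        omega
    have := Ideal.Quotient.eq.mpr hmem
    exact this.symm
  unfold Place.deg
  have e : K ≃ₗ[K] v.ResidueField :=
    LinearEquiv.ofBijective (Algebra.linearMap K v.ResidueField)
      ⟨(algebraMap K v.ResidueField).injective, hsurj⟩
  rw [← e.finrank_eq, Module.finrank_self]

end AlgClosed

end Fermat.Agent.S24
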