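import Fermat.Agent.S24.Places
import Fermat.Agent.S24.PlacesBasicCore

/-!
S24, work package WP3 (owner: helper90): abstract counting of places.

Main result: `wp3_card_zeros_eq_numOrbits'` -- the places of `F` above `y = 0` correspond
bijectively to the orbits of a permutation `π` on the index set of a family of embeddings
`σ a : F →ₐ[K] M`, given a `π`-compatible order function on `M`.
-/

set_option autoImplicit false

open ModularCurve AlgebraicCurve MatrixGroups IntermediateField

namespace Fermat.Agent.S24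

section OrdFnBasics

variable {K L : Type*} [Field K] [Field L] [Algebra K L]

theorem wp3_ord_one (u : OrdFn K L) : u.ord 1 = 0 := by
  have := u.ord_const 1 one_ne_zero
  simpa using this

theorem wp3_ord_neg_one (u : OrdFn K L) : u.ord (-1) = 0 := by
  have := u.ord_const (-1) (neg_ne_zero.mpr one_ne_zero)
  simpa using this

theorem wp3_ord_neg (u : OrdFn K L) (f : L) : u.ord (-f) = u.ord f := by
  rcases eq_or_ne f 0 with rfl | hf
  · simp
  · have := u.ord_mul (-1) f (neg_ne_zero.mpr one_ne_zero) hf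
    rw [wp3_ord_neg_one, zero_add] at this
    simpa using this

theorem wp3_ord_inv (u : OrdFn K L) {f : L} (hf : f ≠ 0) : u.ord f⁻¹ = -u.ord f := by
  have := u.ord_mul f f⁻¹ hf (inv_ne_zero hf)
  rw [mul_inv_cancel₀ hf, wp3_ord_one] at this
  linarith

theorem wp3_ord_pow (u : OrdFn K L) {f : L} (hf : f ≠ 0) (n : ℕ) :
    u.ord (f ^ n) = n * u.ord f := by
  induction n with
  | zero => simp [wp3_ord_one]
  | succ n ih =>
    rw [pow_succ, u.ord_mul _ _ (pow_ne_zero n hf) hf, ih]
    push_cast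
    ring

theorem wp3_ord_zpow (u : OrdFn K L) {f : L} (hf : f ≠ 0) (n : ℤ) :
    u.ord (f ^ n) = n * u.ord f := by
  cases n with
  | ofNat n => simpa using wp3_ord_pow u hf n
  | negSucc n =>
    rw [zpow_negSucc, wp3_ord_inv u (pow_ne_zero _ hf), wp3_ord_pow u hf, Int.negSucc_eq]
    push_cast
    ring

theorem wp3_ord_prod (u : OrdFn K L) {ι : Type*} (s : Finset ι) (g : ι → L)
    (hg : ∀ i ∈ s, g i ≠ 0) : u.ord (∏ i ∈ s, g i) = ∑ i ∈ s, u.ord (g i) := by
  classical
  induction s using Finset.induction_on with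
  | empty => simp [wp3_ord_one]
  | insert a s ha ih =>
    have h1 : g a ≠ 0 := hg a (Finset.mem_insert_self a s)
    have h2 : ∀ i ∈ s, g i ≠ 0 := fun i hi => hg i (Finset.mem_insert_of_mem hi)
    rw [Finset.prod_insert ha, Finset.sum_insert ha,
      u.ord_mul _ _ h1 (Finset.prod_ne_zero_iff.mpr h2), ih h2]

/-- The valuation ring of an order function. -/
def wp3_vs (u : OrdFn K L) : ValuationSubring L where
  carrier := {f | f = 0 ∨ 0 ≤ u.ord f}
  mul_mem' := by
    rintro a b (rfl | ha) (rfl | hb)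
    · left; simp
    · left; simp
    · left; simp
    · by_cases ha0 : a = 0
      · left; simp [ha0]
      by_cases hb0 : b = 0
      · left; simp [hb0]
      right
      rw [u.ord_mul a b ha0 hb0]
      exact add_nonneg ha hb
  one_mem' := Or.inr (wp3_ord_one u).ge
  add_mem' := by
    rintro a b ha hb
    by_cases ha0 : a = 0
    · simpa [ha0] using hb
    by_cases hb0 : b = 0
    · simpa [hb0] using ha
    by_cases hab : a + b = 0
    · left; exact hab
    right
    have ha' : 0 ≤ u.ord a := ha.resolve_left ha0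
    have hb' : 0 ≤ u.ord b := hb.resolve_left hb0
    exact (le_min ha' hb').trans (u.ord_add a b ha0 hb0 hab)
  zero_mem' := Or.inl rfl
  neg_mem' := by
    rintro a (rfl | ha)
    · left; simp
    · right; rw [wp3_ord_neg]; exact ha
  mem_or_inv_mem' := by
    intro a
    by_cases ha0 : a = 0
    · left; left; exact ha0
    rcases le_total 0 (u.ord a) with h | h
    · left; right; exact h
    · right; right; rw [wp3_ord_inv u ha0]; exact neg_nonneg.mpr h

theorem wp3_mem_vs (u : OrdFn K L) (f : L) : f ∈ wp3_vs u ↔ f = 0 ∨ 0 ≤ u.ord f := Iff.rfl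

theorem wp3_algebraMap_mem_vs (u : OrdFn K L) (c : K) : algebraMap K L c ∈ wp3_vs u := by
  by_cases hc : c = 0
  · left; simp [hc]
  · right; exact (u.ord_const c hc).ge

theorem wp3_vs_ne_top (u : OrdFn K L) (h : ∃ y₀ : L, y₀ ≠ 0 ∧ 0 < u.ord y₀) : wp3_vs u ≠ ⊤ := by
  obtain ⟨y₀, hy₀, hpos⟩ := h
  intro htop
  have hmem : y₀⁻¹ ∈ wp3_vs u := by rw [htop]; exact ValuationSubring.mem_top _
  rcases hmem with h0 | h0
  · exact inv_ne_zero hy₀ h0
  · rw [wp3_ord_inv u hy₀] at h0
    linarith

theorem wp3_vs_isPrincipal (u : OrdFn K L) (I : Ideal (wp3_vs u)) : I.IsPrincipal := by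
  classical
  by_cases hI : I = ⊥
  · rw [hI]; exact bot_isPrincipal
  have hex : ∃ n : ℕ, ∃ x ∈ I, x ≠ 0 ∧ u.ord (x : L) = n := by
    obtain ⟨x, hxI, hx0⟩ := Submodule.exists_mem_ne_zero_of_ne_bot hI
    have hx0' : (x : L) ≠ 0 := fun h => hx0 (Subtype.ext h)
    have hx : 0 ≤ u.ord (x : L) := x.2.resolve_left hx0'
    exact ⟨(u.ord (x : L)).toNat, x, hxI, hx0, (Int.toNat_of_nonneg hx).symm⟩
  obtain ⟨x₀, hx₀I, hx₀0, hx₀⟩ := Nat.find_spec hex
  have hx₀0' : (x₀ : L) ≠ 0 := fun h => hx₀0 (Subtype.ext h)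
  refine ⟨⟨x₀, ?_⟩⟩
  apply le_antisymm
  · intro g hg
    by_cases hg0 : g = 0
    · rw [hg0]; exact Submodule.zero_mem _
    have hg0' : (g : L) ≠ 0 := fun h => hg0 (Subtype.ext h)
    have hgord : 0 ≤ u.ord (g : L) := g.2.resolve_left hg0'
    have hle : (Nat.find hex : ℤ) ≤ u.ord (g : L) := by
      have := Nat.find_min' hex ⟨g, hg, hg0, (Int.toNat_of_nonneg hgord).symm⟩
      calc (Nat.find hex : ℤ) ≤ ((u.ord (g : L)).toNat : ℤ) := by exact_mod_cast this
        _ = u.ord (g : L) := Int.toNat_of_nonneg hgord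
    have hq : (g : L) * (x₀ : L)⁻¹ ∈ wp3_vs u := by
      right
      rw [u.ord_mul _ _ hg0' (inv_ne_zero hx₀0'), wp3_ord_inv u hx₀0', hx₀]
      linarith
    rw [Submodule.mem_span_singleton]
    refine ⟨⟨_, hq⟩, ?_⟩
    apply Subtype.ext
    simp only [smul_eq_mul, MulMemClass.coe_mul]
    field_simp
  · rw [Submodule.span_le]
    intro z hz
    rw [Set.mem_singleton_iff] at hz
    rw [hz]; exact hx₀I

/-- The place attached to a nontrivial order function. -/
def wp3_place (u : OrdFn K L) (h : ∃ y₀ : L, y₀ ≠ 0 ∧ 0 < u.ord y₀) : Place K L where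
  toValuationSubring := wp3_vs u
  algebraMap_mem' := wp3_algebraMap_mem_vs u
  ne_top' := wp3_vs_ne_top u h
  isPrincipalIdealRing' := ⟨wp3_vs_isPrincipal u⟩

theorem wp3_mem_place (u : OrdFn K L) (h : ∃ y₀ : L, y₀ ≠ 0 ∧ 0 < u.ord y₀) (f : L) :
    f ∈ (wp3_place u h).toValuationSubring ↔ f = 0 ∨ 0 ≤ u.ord f := Iff.rfl

/-- The order function is a positive multiple of the normalised order of its place. -/
theorem wp3_ord_eq_mul (u : OrdFn K L) (h : ∃ y₀ : L, y₀ ≠ 0 ∧ 0 < u.ord y₀) :
    ∃ (m : ℤ) (ϖ : L), 0 < m ∧ ϖ ≠ 0 ∧ u.ord ϖ = m ∧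
      ∀ f : L, f ≠ 0 → u.ord f = m * (wp3_place u h).ord f := by
  obtain ⟨ϖ, hϖ⟩ := IsDiscreteValuationRing.exists_irreducible (wp3_place u h).toValuationSubring
  have hϖ0 : (ϖ : L) ≠ 0 := fun h0 => hϖ.ne_zero (Subtype.ext h0)
  have hm0 : 0 ≤ u.ord (ϖ : L) := ((wp3_mem_place u h _).mp ϖ.2).resolve_left hϖ0
  have hunit : ∀ un : (wp3_place u h).toValuationSubringˣ,
      u.ord ((un : (wp3_place u h).toValuationSubring) : L) = 0 := by
    intro un
    have h0 : ((un : (wp3_place u h).toValuationSubring) : L) ≠ 0 := by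
      intro h0
      exact un.ne_zero (Subtype.ext h0)
    have h1 : 0 ≤ u.ord ((un : (wp3_place u h).toValuationSubring) : L) :=
      ((wp3_mem_place u h _).mp (un : (wp3_place u h).toValuationSubring).2).resolve_left h0
    have h0' : ((un⁻¹ : (wp3_place u h).toValuationSubringˣ) :
        (wp3_place u h).toValuationSubring).1 ≠ 0 := by
      intro h0
      exact (un⁻¹).ne_zero (Subtype.ext h0)
    have h2 : 0 ≤ u.ord ((un⁻¹ : (wp3_place u h).toValuationSubringˣ) :
        (wp3_place u h).toValuationSubring).1 :=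
      ((wp3_mem_place u h _).mp ((un⁻¹ : (wp3_place u h).toValuationSubringˣ) :
        (wp3_place u h).toValuationSubring).2).resolve_left h0'
    have h3 : ((un : (wp3_place u h).toValuationSubring) : L) *
        ((un⁻¹ : (wp3_place u h).toValuationSubringˣ) :
          (wp3_place u h).toValuationSubring).1 = 1 := by
      exact congrArg Subtype.val (un.mul_inv)
    have h4 := u.ord_mul _ _ h0 h0'
    rw [h3, wp3_ord_one] at h4
    linarith
  have hmpos : 0 < u.ord (ϖ : L) := by
    rcases hm0.lt_or_eq with hlt | heq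
    · exact hlt
    exfalso
    apply hϖ.not_isUnit
    have hinv : (ϖ : L)⁻¹ ∈ (wp3_place u h).toValuationSubring := by
      right
      rw [wp3_ord_inv u hϖ0, ← heq]
      simp
    exact isUnit_iff_exists_inv.mpr ⟨⟨_, hinv⟩, Subtype.ext (mul_inv_cancel₀ hϖ0)⟩
  refine ⟨u.ord (ϖ : L), ϖ, hmpos, hϖ0, rfl, ?_⟩
  intro f hf
  obtain ⟨un, hun⟩ := (wp3_place u h).exists_unit_mul_zpow hf hϖ
  have h0 : ((un : (wp3_place u h).toValuationSubring) : L) ≠ 0 := by
    intro h0
    exact un.ne_zero (Subtype.ext h0)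
  conv_lhs => rw [hun]
  rw [u.ord_mul _ _ h0 (zpow_ne_zero _ hϖ0), hunit un, wp3_ord_zpow u hϖ0, zero_add, mul_comm]

end OrdFnBasics

section Counting

variable {X P : Type*} [Fintype X] [Fintype P]

theorem wp3_count (π : Equiv.Perm X) (Φ : X → P) (hΦsurj : Function.Surjective Φ)
    (hΦπ : ∀ a, Φ (π a) = Φ a) (d : P → ℕ) (hsum : ∑ p, d p = Fintype.card X)
    (hd : ∀ a, d (Φ a) ≤ Function.minimalPeriod π a) :
    Nat.card P = numOrbits π := by
  classical
  have hpow : ∀ (n : ℕ) (a : X), Φ ((π ^ n) a) = Φ a := by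
    intro n
    induction n with
    | zero => intro a; simp
    | succ n ih => intro a; rw [pow_succ', Equiv.Perm.mul_apply, hΦπ, ih]
  let fib : P → Finset X := fun p => Finset.univ.filter (fun a => Φ a = p)
  let orb : X → Finset X := fun a =>
    (Finset.range (Function.minimalPeriod π a)).image (fun i => (π ^ i) a)
  have horb_card : ∀ a, (orb a).card = Function.minimalPeriod π a := by
    intro a
    rw [Finset.card_image_of_injOn, Finset.card_range]
    intro i hi j hj hij
    have := Function.iterate_injOn_Iio_minimalPeriod (f := π) (x := a)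
    apply this (by simpa using hi) (by simpa using hj)
    simpa [Equiv.Perm.iterate_eq_pow] using hij
  have horb_sub : ∀ a, orb a ⊆ fib (Φ a) := by
    intro a b hb
    simp only [orb, Finset.mem_image, Finset.mem_range] at hb
    obtain ⟨i, -, rfl⟩ := hb
    simp [fib, hpow]
  have hfib_ge : ∀ p, d p ≤ (fib p).card := by
    intro p
    obtain ⟨a, rfl⟩ := hΦsurj p
    calc d (Φ a) ≤ Function.minimalPeriod π a := hd a
      _ = (orb a).card := (horb_card a).symm
      _ ≤ (fib (Φ a)).card := Finset.card_le_card (horb_sub a)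
  have hfib_sum : ∑ p, (fib p).card = Fintype.card X := by
    rw [← Finset.card_univ]
    exact (Finset.card_eq_sum_card_fiberwise (f := Φ) (s := Finset.univ) (t := Finset.univ)
      (fun _ _ => Finset.mem_univ _)).symm
  have hfib_eq : ∀ p, (fib p).card = d p := by
    have := (Finset.sum_eq_sum_iff_of_le (s := Finset.univ) (f := d)
      (g := fun p => (fib p).card) (fun p _ => hfib_ge p)).mp (by rw [hsum, hfib_sum])
    intro p
    exact (this p (Finset.mem_univ p)).symm
  have horb_eq : ∀ a, orb a = fib (Φ a) := by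
    intro a
    apply Finset.eq_of_subset_of_card_le (horb_sub a)
    rw [hfib_eq, horb_card]
    exact hd a
  have hinv : ∀ g ∈ Subgroup.zpowers π, ∀ a, Φ (g a) = Φ a := by
    intro g hg a
    obtain ⟨k, rfl⟩ := Subgroup.mem_zpowers_iff.mp hg
    cases k with
    | ofNat n => simpa using hpow n a
    | negSucc n =>
      have := hpow (n + 1) ((π ^ Int.negSucc n) a)
      rw [← this]
      congr 1
      rw [zpow_negSucc, ← Equiv.Perm.mul_apply, mul_inv_cancel, Equiv.Perm.one_apply]
  let Ψ : MulAction.orbitRel.Quotient (Subgroup.zpowers π) X → P :=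
    Quotient.lift Φ (by
      intro a b hab
      obtain ⟨g, rfl⟩ := hab
      exact hinv g.1 g.2 b)
  have hΨbij : Function.Bijective Ψ := by
    constructor
    · intro q₁ q₂
      induction q₁ using Quotient.inductionOn with
      | _ a =>
        induction q₂ using Quotient.inductionOn with
        | _ b =>
          intro hab
          apply Quotient.sound
          have hmem : a ∈ orb b := by
            rw [horb_eq]
            simp only [fib, Finset.mem_filter, Finset.mem_univ, true_and]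
            exact hab
          simp only [orb, Finset.mem_image, Finset.mem_range] at hmem
          obtain ⟨i, -, rfl⟩ := hmem
          exact ⟨⟨π ^ i, Subgroup.pow_mem _ (Subgroup.mem_zpowers π) i⟩, rfl⟩
    · intro p
      obtain ⟨a, rfl⟩ := hΦsurj p
      exact ⟨Quotient.mk _ a, rfl⟩
  exact (Nat.card_congr (Equiv.ofBijective Ψ hΨbij)).symm

end Counting

section Main

variable {K F : Type*} [Field K] [Field F] [Algebra K F]
variable {M X : Type*} [Field M] [Algebra K M]

/-- Pull back an order function along an algebra embedding. -/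
def wp3_comap (w : OrdFn K M) (σ : F →ₐ[K] M) : OrdFn K F where
  ord f := w.ord (σ f)
  ord_mul f g hf hg := by
    rw [map_mul]
    exact w.ord_mul _ _ ((map_ne_zero σ).mpr hf) ((map_ne_zero σ).mpr hg)
  ord_add f g hf hg hfg := by
    rw [map_add]
    exact w.ord_add _ _ ((map_ne_zero σ).mpr hf) ((map_ne_zero σ).mpr hg)
      (by rw [← map_add]; exact (map_ne_zero σ).mpr hfg)
  ord_const c hc := by
    rw [AlgHom.commutes]
    exact w.ord_const c hc

theorem wp3_comap_ord (w : OrdFn K M) (σ : F →ₐ[K] M) (f : F) :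
    (wp3_comap w σ).ord f = w.ord (σ f) := rfl

/-- Polynomial expressions in an element of a valuation ring containing the constants stay in
the valuation ring. -/
theorem wp3_aeval_mem {L : Type*} [Field L] [Algebra K L] (O : ValuationSubring L)
    (hO : ∀ c : K, algebraMap K L c ∈ O) (x : L) (hx : x ∈ O) (q : Polynomial K) :
    Polynomial.aeval x q ∈ O := by
  let S : Subalgebra K L := { O.toSubring with algebraMap_mem' := hO }
  have hle : Algebra.adjoin K {x} ≤ S := Algebra.adjoin_le (by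
    intro z hz
    rw [Set.mem_singleton_iff] at hz
    rw [hz]
    exact hx)
  exact hle (Polynomial.aeval_mem_adjoin_singleton K x)

/-- Integrality transfer: an element whose image is a product of conjugates of an integral
element is integral. -/
theorem wp3_isIntegral_of_prod (σ : X → (F →ₐ[K] M)) (y : F) (hσy : ∀ a b : X, σ a y = σ b y)
    (f g : F) (hf : IsIntegral (Algebra.adjoin K {y}) f) (a₀ : X) (s : Finset X)
    (hg : σ a₀ g = ∏ b ∈ s, σ b f) :
    IsIntegral (Algebra.adjoin K {y}) g := by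
  have hres : ∀ (b : X) (x : F), x ∈ Algebra.adjoin K {y} → σ b x = σ a₀ x := by
    intro b x hx
    have hle : Algebra.adjoin K {y} ≤ AlgHom.equalizer (σ b) (σ a₀) := Algebra.adjoin_le (by
      intro z hz
      rw [Set.mem_singleton_iff] at hz
      rw [hz]
      exact hσy b a₀)
    exact hle hx
  have hcomp : ∀ b : X, ((σ b : F →+* M).comp (algebraMap (Algebra.adjoin K {y}) F)) =
      ((σ a₀ : F →+* M).comp (algebraMap (Algebra.adjoin K {y}) F)) := by
    intro b
    ext x
    exact hres b x x.2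
  have hint : ∀ b : X, ((σ a₀ : F →+* M).comp
      (algebraMap (Algebra.adjoin K {y}) F)).IsIntegralElem (σ b f) := by
    intro b
    rw [← hcomp b]
    exact RingHom.IsIntegralElem.map hf (σ b : F →+* M)
  have hprod : ∀ t : Finset X, ((σ a₀ : F →+* M).comp
      (algebraMap (Algebra.adjoin K {y}) F)).IsIntegralElem (∏ b ∈ t, σ b f) := by
    classical
    intro t
    induction t using Finset.induction_on with
    | empty => simpa using RingHom.isIntegralElem_one _
    | insert a t ha ih =>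
      rw [Finset.prod_insert ha]
      exact RingHom.IsIntegralElem.mul _ (hint a) ih
  have hprod' := hprod s
  rw [← hg] at hprod'
  exact RingHom.IsIntegralElem.of_map (σ a₀ : F →+* M).injective hprod'

end Main

section MainCount

variable {K F : Type*} [Field K] [Field F] [Algebra K F]
variable {M X : Type*} [Field M] [Algebra K M]

/-- An element of `K[y]` with positive order at a zero of `y` is divisible by `y`. -/
theorem wp3_exists_mul (y : F) (v : Place K F) (hv : 0 < v.ord y) (r : F)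
    (hr : r ∈ Algebra.adjoin K {y}) (hvr : 0 < v.ord r) :
    ∃ q : Polynomial K, r = y * Polynomial.aeval y q := by
  rw [Algebra.adjoin_singleton_eq_range_aeval] at hr
  obtain ⟨p, hpr⟩ := hr
  have hpr' : r = Polynomial.aeval y p := hpr.symm
  subst hpr'
  refine ⟨p.divX, ?_⟩
  have hp : Polynomial.aeval y p =
      Polynomial.aeval y p.divX * y + algebraMap K F (p.coeff 0) := by
    conv_lhs => rw [← Polynomial.divX_mul_X_add p]
    simp
  have hyO : y ∈ v.toValuationSubring := (wp1_mem_iff_ord_nonneg v y).mpr hv.le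
  have hc : p.coeff 0 = 0 := by
    by_contra hc
    have hc0 : algebraMap K F (p.coeff 0) ≠ 0 := (map_ne_zero _).mpr hc
    by_cases hg0 : Polynomial.aeval y p.divX * y = 0
    · rw [hp, hg0, zero_add, wp1_ord_algebraMap] at hvr
      exact lt_irrefl _ hvr
    · have hq0 : Polynomial.aeval y p.divX ≠ 0 := left_ne_zero_of_mul hg0
      have hy0 : y ≠ 0 := right_ne_zero_of_mul hg0
      have hqO : 0 ≤ v.ord (Polynomial.aeval y p.divX) :=
        (wp1_mem_iff_ord_nonneg v _).mp
          (wp3_aeval_mem v.toValuationSubring v.algebraMap_mem' y hyO _)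
      have hgpos : 0 < v.ord (Polynomial.aeval y p.divX * y) := by
        rw [v.ord_mul hq0 hy0]
        linarith
      have hr0 : Polynomial.aeval y p ≠ 0 := by
        intro h
        rw [h] at hvr
        simp at hvr
      have hsum : Polynomial.aeval y p + (-(Polynomial.aeval y p.divX * y)) =
          algebraMap K F (p.coeff 0) := by
        rw [hp]
        ring
      have hadd := wp1_ord_add v (Polynomial.aeval y p) (-(Polynomial.aeval y p.divX * y))
        (by rw [hsum]; exact hc0) hr0 (neg_ne_zero.mpr hg0)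
      rw [hsum, wp1_ord_algebraMap] at hadd
      have hneg : v.ord (-(Polynomial.aeval y p.divX * y)) =
          v.ord (Polynomial.aeval y p.divX * y) := by
        simp [Place.ord]
      rw [hneg] at hadd
      exact absurd hadd (not_le.mpr (lt_min hvr hgpos))
  rw [hp, hc, map_zero, add_zero, mul_comm]

theorem wp3_ord_pos_of_mul (w : OrdFn K M) (σ : F →ₐ[K] M) (y : F) (hw : 0 < w.ord (σ y))
    (q : Polynomial K) (hr0 : y * Polynomial.aeval y q ≠ 0) :
    0 < w.ord (σ (y * Polynomial.aeval y q)) := by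
  have hy0 : y ≠ 0 := left_ne_zero_of_mul hr0
  have hq0 : Polynomial.aeval y q ≠ 0 := right_ne_zero_of_mul hr0
  have hσy0 : σ y ≠ 0 := (map_ne_zero σ).mpr hy0
  have hσq0 : σ (Polynomial.aeval y q) ≠ 0 := (map_ne_zero σ).mpr hq0
  rw [map_mul, w.ord_mul _ _ hσy0 hσq0]
  have hmem : σ (Polynomial.aeval y q) ∈ wp3_vs w := by
    rw [← Polynomial.aeval_algHom_apply]
    exact wp3_aeval_mem (wp3_vs w) (wp3_algebraMap_mem_vs w) (σ y) (Or.inr hw.le) q
  have := hmem.resolve_left hσq0
  linarith

end MainCount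

section MainTheorem

variable {K F : Type*} [Field K] [IsAlgClosed K] [CharZero K] [Field F] [Algebra K F]
variable {M X : Type*} [Field M] [Algebra K M] [Fintype X]

/-- Every zero of `y` is one of the places `Φ a`. -/
theorem wp3_surj (σ : X → (F →ₐ[K] M)) (y : F) (hy : Transcendental K y)
    [FiniteDimensional K⟮y⟯ F]
    (hnorm : ∀ f : F, ∃ r : F, r ∈ K⟮y⟯ ∧ ∀ a : X, σ a r = ∏ b : X, σ b f)
    (hσy : ∀ a b : X, σ a y = σ b y)
    (w : OrdFn K M) (hw : ∀ a : X, 0 < w.ord (σ a y))
    (Φ : X → Place K F)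
    (hΦ : ∀ (a : X) (f : F), f ≠ 0 → (Φ a).ord f = 0 → w.ord (σ a f) = 0)
    (hΦy : ∀ a, 0 < (Φ a).ord y) (a₀ : X)
    (v : Place K F) (hv : 0 < v.ord y) : ∃ a, Φ a = v := by
  classical
  by_contra hne
  have hne' : ∀ a, Φ a ≠ v := fun a h => hne ⟨a, h⟩
  obtain ⟨f, hf0, hfint, hvf, hTf⟩ := wp1_exists_integral_sep y hy v hv (Finset.univ.image Φ)
    (by
      intro u hu
      obtain ⟨a, -, rfl⟩ := Finset.mem_image.mp hu
      exact hΦy a)
    (by
      intro hmem
      obtain ⟨a, -, ha⟩ := Finset.mem_image.mp hmem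
      exact hne' a ha)
  have hwf : ∀ a, w.ord (σ a f) = 0 := fun a =>
    hΦ a f hf0 (hTf _ (Finset.mem_image_of_mem Φ (Finset.mem_univ a)))
  obtain ⟨r, hrK, hr⟩ := hnorm f
  have hσf0 : ∀ b, σ b f ≠ 0 := fun b => (map_ne_zero (σ b)).mpr hf0
  have hprod0 : ∏ b : X, σ b f ≠ 0 := Finset.prod_ne_zero_iff.mpr fun b _ => hσf0 b
  have hr0 : r ≠ 0 := by
    intro h0
    have h1 := hr a₀
    rw [h0, map_zero] at h1
    exact hprod0 h1.symm
  have hwr : w.ord (σ a₀ r) = 0 := by
    rw [hr a₀, wp3_ord_prod w _ _ (fun b _ => hσf0 b)]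
    exact Finset.sum_eq_zero fun b _ => hwf b
  have hg : σ a₀ (r * f⁻¹) = ∏ b ∈ Finset.univ.erase a₀, σ b f := by
    rw [map_mul, map_inv₀, hr a₀, ← Finset.mul_prod_erase Finset.univ _ (Finset.mem_univ a₀)]
    have := hσf0 a₀
    field_simp
  have hgint : IsIntegral (Algebra.adjoin K {y}) (r * f⁻¹) :=
    wp3_isIntegral_of_prod σ y hσy f _ hfint a₀ _ hg
  have hrint : IsIntegral (Algebra.adjoin K {y}) r :=
    wp3_isIntegral_of_prod σ y hσy f r hfint a₀ Finset.univ (hr a₀)
  have hrA : r ∈ Algebra.adjoin K {y} := wp1_mem_adjoin_of_isIntegral y hy r hrK hrint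
  have hyO : y ∈ v.toValuationSubring := (wp1_mem_iff_ord_nonneg v y).mpr hv.le
  have hgO : 0 ≤ v.ord (r * f⁻¹) :=
    (wp1_mem_iff_ord_nonneg v _).mp (wp1_mem_of_isIntegral y v hyO _ hgint)
  have hvr : 0 < v.ord r := by
    have hrf : r = (r * f⁻¹) * f := by field_simp
    rw [hrf, v.ord_mul (mul_ne_zero hr0 (inv_ne_zero hf0)) hf0]
    linarith
  obtain ⟨q, hq⟩ := wp3_exists_mul y v hv r hrA hvr
  have hpos := wp3_ord_pos_of_mul w (σ a₀) y (hw a₀) q (by rw [← hq]; exact hr0)
  rw [← hq, hwr] at hpos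
  exact lt_irrefl _ hpos

/-- WP3, with the (in applications trivial) extra hypothesis that all embeddings agree on `y`. -/
theorem wp3_card_zeros_eq_numOrbits' (σ : X → (F →ₐ[K] M)) (y : F) (hy : Transcendental K y)
    [FiniteDimensional K⟮y⟯ F]
    (hcard : Module.finrank K⟮y⟯ F = Fintype.card X)
    (hnorm : ∀ f : F, ∃ r : F, r ∈ K⟮y⟯ ∧ ∀ a : X, σ a r = ∏ b : X, σ b f)
    (hσy : ∀ a b : X, σ a y = σ b y)
    (w : OrdFn K M) (e₀ : ℕ) (he₀ : 0 < e₀) (hw : ∀ a : X, w.ord (σ a y) = e₀)
    (π : Equiv.Perm X) (hπ : π ^ e₀ = 1)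
    (h1 : ∀ (a : X) (f : F), w.ord (σ (π a) f) = w.ord (σ a f))
    (h2 : ∀ (a : X) (f : F), f ≠ 0 →
      ((e₀ / Function.minimalPeriod π a : ℕ) : ℤ) ∣ w.ord (σ a f)) :
    Nat.card {v : Place K F // 0 < v.ord y} = numOrbits π := by
  classical
  have hy0 : y ≠ 0 := by
    rintro rfl
    exact hy isAlgebraic_zero
  have he₀' : (0 : ℤ) < (e₀ : ℤ) := by exact_mod_cast he₀
  have hnt : ∀ a, ∃ y₀ : F, y₀ ≠ 0 ∧ 0 < (wp3_comap w (σ a)).ord y₀ := fun a =>
    ⟨y, hy0, by rw [wp3_comap_ord, hw]; exact he₀'⟩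
  choose m ϖ hm hϖ0 hϖm hmul using fun a => wp3_ord_eq_mul (wp3_comap w (σ a)) (hnt a)
  have hΦy : ∀ a, m a * (wp3_place (wp3_comap w (σ a)) (hnt a)).ord y = e₀ := fun a => by
    rw [← hmul a y hy0]
    exact hw a
  have hΦypos : ∀ a, 0 < (wp3_place (wp3_comap w (σ a)) (hnt a)).ord y := by
    intro a
    by_contra hle
    have := mul_nonpos_of_nonneg_of_nonpos (hm a).le (not_lt.mp hle)
    rw [hΦy a] at this
    linarith
  have hΦπ : ∀ a, wp3_place (wp3_comap w (σ (π a))) (hnt (π a)) =
      wp3_place (wp3_comap w (σ a)) (hnt a) := by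
    intro a
    apply Place.ext
    ext f
    show (f = 0 ∨ 0 ≤ w.ord (σ (π a) f)) ↔ (f = 0 ∨ 0 ≤ w.ord (σ a f))
    rw [h1]
  have hper : ∀ a, (wp3_place (wp3_comap w (σ a)) (hnt a)).ord y ≤
      (Function.minimalPeriod π a : ℤ) := by
    intro a
    have hpp : Function.IsPeriodicPt π e₀ a := by
      show π^[e₀] a = a
      rw [Equiv.Perm.iterate_eq_pow, hπ]
      rfl
    have hdvd : Function.minimalPeriod π a ∣ e₀ := hpp.minimalPeriod_dvd
    have hmpos : 0 < Function.minimalPeriod π a := hpp.minimalPeriod_pos he₀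
    have hk : Function.minimalPeriod π a * (e₀ / Function.minimalPeriod π a) = e₀ :=
      Nat.mul_div_cancel' hdvd
    have hkpos : 0 < e₀ / Function.minimalPeriod π a := Nat.div_pos (Nat.le_of_dvd he₀ hdvd) hmpos
    have hkm : ((e₀ / Function.minimalPeriod π a : ℕ) : ℤ) ≤ m a := by
      apply Int.le_of_dvd (hm a)
      have := h2 a (ϖ a) (hϖ0 a)
      rwa [← wp3_comap_ord, hϖm a] at this
    have hkpos' : (0 : ℤ) < ((e₀ / Function.minimalPeriod π a : ℕ) : ℤ) := by exact_mod_cast hkpos
    have hk' : (Function.minimalPeriod π a : ℤ) * ((e₀ / Function.minimalPeriod π a : ℕ) : ℤ) =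
        (e₀ : ℤ) := by exact_mod_cast hk
    have h3 : ((e₀ / Function.minimalPeriod π a : ℕ) : ℤ) *
        (wp3_place (wp3_comap w (σ a)) (hnt a)).ord y ≤
        ((e₀ / Function.minimalPeriod π a : ℕ) : ℤ) * (Function.minimalPeriod π a : ℤ) := by
      calc ((e₀ / Function.minimalPeriod π a : ℕ) : ℤ) *
            (wp3_place (wp3_comap w (σ a)) (hnt a)).ord y
          ≤ m a * (wp3_place (wp3_comap w (σ a)) (hnt a)).ord y :=
            mul_le_mul_of_nonneg_right hkm (hΦypos a).le
        _ = (e₀ : ℤ) := hΦy a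
        _ = ((e₀ / Function.minimalPeriod π a : ℕ) : ℤ) * (Function.minimalPeriod π a : ℤ) := by
            rw [← hk', mul_comm]
    exact le_of_mul_le_mul_left h3 hkpos'
  have hX : Nonempty X := by
    rw [← Fintype.card_pos_iff, ← hcard]
    exact Module.finrank_pos
  obtain ⟨a₀⟩ := hX
  have hsurj : ∀ v : Place K F, 0 < v.ord y →
      ∃ a, wp3_place (wp3_comap w (σ a)) (hnt a) = v :=
    wp3_surj σ y hy hnorm hσy w (fun a => by rw [hw]; exact he₀')
      (fun a => wp3_place (wp3_comap w (σ a)) (hnt a))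
      (fun a f hf h0 => by rw [← wp3_comap_ord, hmul a f hf, h0, mul_zero]) hΦypos a₀
  have hfin : Fintype {v : Place K F // 0 < v.ord y} := (wp1_finite_zeros y hy).fintype
  refine wp3_count π
    (fun a => (⟨wp3_place (wp3_comap w (σ a)) (hnt a), hΦypos a⟩ :
      {v : Place K F // 0 < v.ord y})) ?_ ?_ (fun p => (p.1.ord y).toNat) ?_ ?_
  · rintro ⟨v, hv⟩
    obtain ⟨a, ha⟩ := hsurj v hv
    exact ⟨a, Subtype.ext ha⟩
  · intro a
    exact Subtype.ext (hΦπ a)
  · have hsum := wp1_sum_ord_zeros y hy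
    rw [Finset.sum_subtype (wp1_finite_zeros y hy).toFinset
      (p := fun v : Place K F => 0 < v.ord y) (fun v => by simp) (fun v => v.ord y)] at hsum
    have hcast : ((∑ p : {v : Place K F // 0 < v.ord y}, (p.1.ord y).toNat : ℕ) : ℤ) =
        (Fintype.card X : ℤ) := by
      rw [← hcard, ← hsum, Nat.cast_sum]
      exact Finset.sum_congr rfl fun p _ => Int.toNat_of_nonneg p.2.le
    exact_mod_cast hcast
  · intro a
    exact Int.toNat_le.mpr (hper a)

end MainTheorem

end Fermat.Agent.S24
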