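import Fermat.Agent.S24.Defs

/-!
# S24, work package WP1a (owner: helper94): the Dedekind dictionary

`K` algebraically closed of characteristic `0`, `F/K` a field, `y : F` transcendental over `K`
with `F / K(y)` finite.  `A := Algebra.adjoin K {y}` is a PID, `B := integralClosure A F` is a
Dedekind domain, finite over `A`, with fraction field `F`.  The places `v` of `F/K` with
`y ∈ O_v` are exactly the places attached to the height one primes of `B`; those with
`0 < ord_v y` correspond to the primes over `(y)`, and the fundamental identity gives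
`∑ ord_v y = [F : K(y)]`.

Exported (exact signatures of the S24 interface): `wp1_finite_zeros`, `wp1_sum_ord_zeros`,
`wp1_mem_of_isIntegral`, `wp1_exists_integral_sep`, `wp1_mem_adjoin_of_isIntegral`,
`wp1_exists_integral_fraction`, `wp1_finite_integralClosure`.
All other names are prefixed `wp1a_`.
-/

set_option autoImplicit false
set_option linter.style.haveILetI false
set_option linter.unusedSectionVars false
set_option linter.deprecated false

open ModularCurve AlgebraicCurve MatrixGroups IntermediateField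

namespace Fermat.Agent.S24

section wp1a_abstract

open IsDedekindDomain IsDedekindDomain.HeightOneSpectrum WithZero

variable {K F : Type*} [Field K] [Field F] [Algebra K F]
variable {B : Type*} [CommRing B] [IsDedekindDomain B] [Algebra B F] [IsFractionRing B F]
  [Algebra K B] [IsScalarTower K B F]

theorem wp1a_valuation_unit (w : HeightOneSpectrum B)
    (u : ((w.valuation F).valuationSubring)ˣ) :
    w.valuation F ((u : (w.valuation F).valuationSubring) : F) = 1 := by
  have h1 : w.valuation F ((u : (w.valuation F).valuationSubring) : F) ≤ 1 :=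
    (Valuation.mem_valuationSubring_iff _ _).mp (u : (w.valuation F).valuationSubring).2
  have h2 : w.valuation F (((u⁻¹ : ((w.valuation F).valuationSubring)ˣ) :
      (w.valuation F).valuationSubring) : F) ≤ 1 :=
    (Valuation.mem_valuationSubring_iff _ _).mp
      ((u⁻¹ : ((w.valuation F).valuationSubring)ˣ) : (w.valuation F).valuationSubring).2
  have h3 : ((u : (w.valuation F).valuationSubring) : F) *
      (((u⁻¹ : ((w.valuation F).valuationSubring)ˣ) : (w.valuation F).valuationSubring) : F) = 1 := by
    exact congrArg (Subtype.val) (u.mul_inv)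
  have h4 := congrArg (w.valuation F) h3
  rw [map_mul, map_one] at h4
  refine le_antisymm h1 ?_
  calc (1 : ℤᵐ⁰) = _ := h4.symm
    _ ≤ w.valuation F ((u : (w.valuation F).valuationSubring) : F) * 1 := by gcongr
    _ = _ := mul_one _

theorem wp1a_valuation_irreducible (w : HeightOneSpectrum B)
    {π : (w.valuation F).valuationSubring} (hπ : Irreducible π) :
    w.valuation F (π : F) = exp (-1 : ℤ) := by
  have hπ0 : (π : F) ≠ 0 := by
    simpa [ne_eq, ZeroMemClass.coe_eq_zero] using hπ.ne_zero
  have hle1 : w.valuation F (π : F) ≤ 1 := (Valuation.mem_valuationSubring_iff _ _).mp π.2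
  have hlt1 : w.valuation F (π : F) < 1 := by
    refine lt_of_le_of_ne hle1 ?_
    intro h1
    apply hπ.not_isUnit
    have hinv : (π : F)⁻¹ ∈ (w.valuation F).valuationSubring := by
      rw [Valuation.mem_valuationSubring_iff, map_inv₀, h1, inv_one]
    refine IsUnit.of_mul_eq_one ⟨(π : F)⁻¹, hinv⟩ ?_
    ext
    simp [hπ0]
  apply le_antisymm
  · have hne : w.valuation F (π : F) ≠ 0 := (Valuation.ne_zero_iff _).mpr hπ0
    rw [← WithZero.exp_log hne] at hlt1 ⊢
    rw [← WithZero.exp_zero, WithZero.exp_lt_exp] at hlt1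
    rw [WithZero.exp_le_exp]
    omega
  · obtain ⟨ϖ, hϖ⟩ := w.valuation_exists_uniformizer F
    have hϖmem : ϖ ∈ (w.valuation F).valuationSubring := by
      rw [Valuation.mem_valuationSubring_iff, hϖ, ← WithZero.exp_zero, WithZero.exp_le_exp]
      omega
    have hnu : ¬ IsUnit (⟨ϖ, hϖmem⟩ : (w.valuation F).valuationSubring) := by
      intro hu
      have := wp1a_valuation_unit w hu.unit
      rw [IsUnit.unit_spec] at this
      change w.valuation F ϖ = 1 at this
      rw [hϖ, ← WithZero.exp_zero, WithZero.exp_inj] at this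
      omega
    have hdvd : π ∣ (⟨ϖ, hϖmem⟩ : (w.valuation F).valuationSubring) := by
      rcases ValuationRing.dvd_total π (⟨ϖ, hϖmem⟩ : (w.valuation F).valuationSubring) with h | h
      · exact h
      · obtain ⟨c, hc⟩ := h
        rcases hπ.isUnit_or_isUnit hc with h' | h'
        · exact absurd h' hnu
        · obtain ⟨c', rfl⟩ := h'
          exact ⟨(c'⁻¹ : ((w.valuation F).valuationSubring)ˣ), by rw [hc]; simp [mul_assoc]⟩
    obtain ⟨a, ha⟩ := hdvd
    rw [mul_comm] at ha
    have ha := ha.symm
    have ha' : (a : F) * (π : F) = ϖ := congrArg Subtype.val ha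
    have hale : w.valuation F (a : F) ≤ 1 := (Valuation.mem_valuationSubring_iff _ _).mp a.2
    calc exp (-1 : ℤ) = w.valuation F ϖ := hϖ.symm
      _ = w.valuation F (a : F) * w.valuation F (π : F) := by rw [← ha', map_mul]
      _ ≤ 1 * w.valuation F (π : F) := by gcongr
      _ = _ := one_mul _

/-- The order at the place attached to a height one prime is given by the adic valuation. -/
theorem wp1a_ord_ofHeightOneSpectrum (w : HeightOneSpectrum B) (f : F) :
    (Place.ofHeightOneSpectrum (K := K) w).ord f = -(WithZero.log (w.valuation F f)) := by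
  rcases eq_or_ne f 0 with rfl | hf
  · simp
  set v : Place K F := Place.ofHeightOneSpectrum (K := K) w with hv
  obtain ⟨π, hπ⟩ := IsDiscreteValuationRing.exists_irreducible v.toValuationSubring
  obtain ⟨u, hu⟩ := v.exists_unit_mul_zpow hf hπ
  have h1 : w.valuation F ((u : v.toValuationSubring) : F) = 1 := wp1a_valuation_unit w u
  have h2 : w.valuation F (π : F) = exp (-1 : ℤ) := wp1a_valuation_irreducible w hπ
  conv_rhs => rw [hu]
  rw [map_mul, map_zpow₀, h1, h2, one_mul, ← WithZero.exp_zsmul, WithZero.log_exp]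
  simp

theorem wp1a_ofHeightOneSpectrum_injective :
    Function.Injective (Place.ofHeightOneSpectrum (K := K) (F := F) (R := B)) := by
  intro w w' h
  have h1 : (w.valuation F).valuationSubring = (w'.valuation F).valuationSubring :=
    congrArg Place.toValuationSubring h
  exact eq_of_valuation_isEquiv_valuation ((Valuation.isEquiv_iff_valuationSubring _ _).mpr h1)

theorem wp1a_ord_pos_iff (w : HeightOneSpectrum B) {b : B} (hb : b ≠ 0) :
    0 < (Place.ofHeightOneSpectrum (K := K) w).ord (algebraMap B F b) ↔ b ∈ w.asIdeal := by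
  have hne : w.valuation F (algebraMap B F b) ≠ 0 := by
    rw [Valuation.ne_zero_iff]
    exact (map_ne_zero_iff _ (IsFractionRing.injective B F)).mpr hb
  rw [wp1a_ord_ofHeightOneSpectrum, ← valuation_lt_one_iff_mem (K := F), Left.neg_pos_iff,
    ← WithZero.log_one, WithZero.log_lt_log hne one_ne_zero]

theorem wp1a_ord_eq_zero_of_notMem (w : HeightOneSpectrum B) {b : B} (hb : b ∉ w.asIdeal) :
    (Place.ofHeightOneSpectrum (K := K) w).ord (algebraMap B F b) = 0 := by
  rw [wp1a_ord_ofHeightOneSpectrum, valuation_of_algebraMap, intValuation_eq_one_iff.mpr hb]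
  simp

theorem wp1a_exists_heightOneSpectrum (v : Place K F)
    (hv : ∀ b : B, algebraMap B F b ∈ v.toValuationSubring) :
    ∃ w : HeightOneSpectrum B, Place.ofHeightOneSpectrum (K := K) w = v := by
  classical
  let φ : B →+* v.toValuationSubring :=
    (algebraMap B F).codRestrict v.toValuationSubring.toSubring hv
  have hφ : ∀ b : B, ((φ b : v.toValuationSubring) : F) = algebraMap B F b := fun b => rfl
  let P : Ideal B := (IsLocalRing.maximalIdeal v.toValuationSubring).comap φ
  have hPprime : P.IsPrime := Ideal.comap_isPrime φ _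
  have hunit : ∀ b : B, b ∉ P → (algebraMap B F b)⁻¹ ∈ v.toValuationSubring := by
    intro b hb
    have hu : IsUnit (φ b) := by
      by_contra hu
      exact hb ((IsLocalRing.mem_maximalIdeal _).mpr hu)
    obtain ⟨c, hc⟩ := hu
    have h1 : ((c : v.toValuationSubring) : F) *
        (((c⁻¹ : (v.toValuationSubring)ˣ) : v.toValuationSubring) : F) = 1 :=
      congrArg Subtype.val c.mul_inv
    rw [hc, hφ] at h1
    rw [← eq_inv_of_mul_eq_one_right h1]
    exact ((c⁻¹ : (v.toValuationSubring)ˣ) : v.toValuationSubring).2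
  have hPne : P ≠ ⊥ := by
    intro hP
    apply v.ne_top'
    refine SetLike.ext fun x => ⟨fun _ => ValuationSubring.mem_top x, fun _ => ?_⟩
    obtain ⟨a, s, rfl⟩ := IsLocalization.exists_mk'_eq (nonZeroDivisors B) x
    rw [IsFractionRing.mk'_eq_div, div_eq_mul_inv]
    refine mul_mem (hv a) (hunit s ?_)
    rw [hP, Ideal.mem_bot]
    exact nonZeroDivisors.coe_ne_zero s
  refine ⟨⟨P, hPprime, hPne⟩, ?_⟩
  apply Place.ext
  rw [Place.ofHeightOneSpectrum_toValuationSubring,
    ← valuationSubringAtPrime_eq_valuationSubring]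
  refine ValuationSubring.eq_of_le_of_ne_top _ ?_ v.ne_top'
  rintro x ⟨a, s, hs, rfl⟩
  exact mul_mem (hv a) (hunit s hs)

end wp1a_abstract

section wp1a_concrete

open IsDedekindDomain IsDedekindDomain.HeightOneSpectrum WithZero
open scoped IntermediateField.algebraAdjoinAdjoin

variable {K F : Type*} [Field K] [IsAlgClosed K] [CharZero K] [Field F] [Algebra K F]

/-- `K[X] ≃ K[y]` for transcendental `y`. -/
noncomputable def wp1a_polyEquiv (y : F) (hy : Transcendental K y) :
    Polynomial K ≃ₐ[K] Algebra.adjoin K {y} :=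
  (AlgEquiv.ofInjective (Polynomial.aeval y) (transcendental_iff_injective.mp hy)).trans
    (Subalgebra.equivOfEq _ _ (Algebra.adjoin_singleton_eq_range_aeval K y).symm)

theorem wp1a_polyEquiv_coe (y : F) (hy : Transcendental K y) (q : Polynomial K) :
    ((wp1a_polyEquiv y hy q : Algebra.adjoin K {y}) : F) = Polynomial.aeval y q := rfl

theorem wp1a_isPrincipalIdealRing (y : F) (hy : Transcendental K y) :
    IsPrincipalIdealRing (Algebra.adjoin K {y}) :=
  IsPrincipalIdealRing.of_surjective (wp1a_polyEquiv y hy).toRingEquiv.toRingHom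
    (wp1a_polyEquiv y hy).surjective

/-- Elements of `K(y)` integral over `K[y]` lie in `K[y]`. -/
theorem wp1_mem_adjoin_of_isIntegral (y : F) (hy : Transcendental K y) (r : F) (hr : r ∈ K⟮y⟯)
    (hint : IsIntegral (Algebra.adjoin K {y}) r) : r ∈ Algebra.adjoin K {y} := by
  haveI := wp1a_isPrincipalIdealRing y hy
  have h1 : IsIntegral (Algebra.adjoin K {y}) (⟨r, hr⟩ : K⟮y⟯) := by
    rw [← isIntegral_algebraMap_iff (B := F) (algebraMap K⟮y⟯ F).injective]
    exact hint
  obtain ⟨a, ha⟩ := IsIntegrallyClosed.isIntegral_iff.mp h1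
  have h2 : (a : F) = r := congrArg Subtype.val ha
  rw [← h2]
  exact a.2

/-- `K[y] ⊆ O_v` when `y ∈ O_v`. -/
theorem wp1a_adjoin_le (y : F) (v : Place K F) (hv : y ∈ v.toValuationSubring)
    (a : Algebra.adjoin K {y}) : (a : F) ∈ v.toValuationSubring := by
  let S : Subalgebra K F :=
    { v.toValuationSubring.toSubring.toSubsemiring with
      algebraMap_mem' := v.algebraMap_mem' }
  have hle : Algebra.adjoin K {y} ≤ S := Algebra.adjoin_le (by
    intro x hx
    rw [Set.mem_singleton_iff] at hx
    rw [hx]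
    exact hv)
  exact hle a.2

/-- Valuation rings containing `y` contain the integral closure of `K[y]`. -/
theorem wp1_mem_of_isIntegral (y : F) (v : Place K F) (hv : y ∈ v.toValuationSubring) (f : F)
    (hf : IsIntegral (Algebra.adjoin K {y}) f) : f ∈ v.toValuationSubring := by
  let ψ : Algebra.adjoin K {y} →+* v.toValuationSubring :=
    (algebraMap (Algebra.adjoin K {y}) F).codRestrict v.toValuationSubring.toSubring
      (wp1a_adjoin_le y v hv)
  obtain ⟨p, hp, hpe⟩ := hf
  have hint : IsIntegral v.toValuationSubring f :=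
    ⟨p.map ψ, hp.map ψ, by rw [Polynomial.eval₂_map]; exact hpe⟩
  obtain ⟨z, hz⟩ := IsIntegrallyClosed.isIntegral_iff.mp hint
  rw [← hz]
  exact z.2

end wp1a_concrete

section wp1a_concrete2

open IsDedekindDomain IsDedekindDomain.HeightOneSpectrum WithZero
open scoped IntermediateField.algebraAdjoinAdjoin

variable {K F : Type*} [Field K] [IsAlgClosed K] [CharZero K] [Field F] [Algebra K F]

theorem wp1a_isScalarTower (y : F) :
    IsScalarTower K (integralClosure (Algebra.adjoin K {y}) F) F :=
  IsScalarTower.of_algebraMap_eq (fun c => by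
    rw [IsScalarTower.algebraMap_apply K (Algebra.adjoin K {y})
      (integralClosure (Algebra.adjoin K {y}) F)]
    rfl)

theorem wp1a_isDedekindDomain (y : F) (hy : Transcendental K y) [FiniteDimensional K⟮y⟯ F] :
    IsDedekindDomain (integralClosure (Algebra.adjoin K {y}) F) := by
  haveI := wp1a_isPrincipalIdealRing y hy
  exact integralClosure.isDedekindDomain (Algebra.adjoin K {y}) K⟮y⟯ F

theorem wp1a_isFractionRing (y : F) [FiniteDimensional K⟮y⟯ F] :
    IsFractionRing (integralClosure (Algebra.adjoin K {y}) F) F :=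
  integralClosure.isFractionRing_of_finite_extension K⟮y⟯ F

theorem wp1_finite_integralClosure (y : F) (hy : Transcendental K y) [FiniteDimensional K⟮y⟯ F] :
    Module.Finite (Algebra.adjoin K {y}) (integralClosure (Algebra.adjoin K {y}) F) := by
  haveI := wp1a_isPrincipalIdealRing y hy
  exact IsIntegralClosure.finite (Algebra.adjoin K {y}) K⟮y⟯ F _

/-- Every place whose valuation ring contains `y` comes from a height one prime of the integral
closure of `K[y]`. -/
theorem wp1a_exists_eq_ofHeightOneSpectrum (y : F) (hy : Transcendental K y)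
    [FiniteDimensional K⟮y⟯ F] (v : Place K F) (hv : y ∈ v.toValuationSubring) :
    haveI := wp1a_isDedekindDomain y hy
    haveI := wp1a_isFractionRing (K := K) y
    haveI := wp1a_isScalarTower (K := K) y
    ∃ w : HeightOneSpectrum (integralClosure (Algebra.adjoin K {y}) F),
      Place.ofHeightOneSpectrum (K := K) w = v := by
  haveI := wp1a_isDedekindDomain y hy
  haveI := wp1a_isFractionRing (K := K) y
  haveI := wp1a_isScalarTower (K := K) y
  exact wp1a_exists_heightOneSpectrum v (fun b => wp1_mem_of_isIntegral y v hv _ b.2)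

theorem wp1_exists_integral_fraction (y : F) (hy : Transcendental K y) [FiniteDimensional K⟮y⟯ F]
    (v : Place K F) (hv : y ∈ v.toValuationSubring) (u : F) (hu : u ∈ v.toValuationSubring) :
    ∃ b s : F, IsIntegral (Algebra.adjoin K {y}) b ∧ IsIntegral (Algebra.adjoin K {y}) s ∧
      s ≠ 0 ∧ v.ord s = 0 ∧ u * s = b := by
  haveI := wp1a_isDedekindDomain y hy
  haveI := wp1a_isFractionRing (K := K) y
  haveI := wp1a_isScalarTower (K := K) y
  obtain ⟨w, rfl⟩ := wp1a_exists_eq_ofHeightOneSpectrum y hy v hv
  have hu' : w.valuation F u ≤ 1 := (Valuation.mem_valuationSubring_iff _ _).mp hu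
  obtain ⟨n, d, hnd⟩ := exists_primeCompl_mul_eq_of_integer w u hu'
  refine ⟨algebraMap _ F n, algebraMap _ F (d : integralClosure (Algebra.adjoin K {y}) F),
    n.2, (d : integralClosure (Algebra.adjoin K {y}) F).2, ?_, ?_, hnd⟩
  · intro h0
    have : (d : integralClosure (Algebra.adjoin K {y}) F) = 0 :=
      (IsFractionRing.injective (integralClosure (Algebra.adjoin K {y}) F) F)
        (by rw [h0, map_zero])
    exact d.2 (this ▸ Submodule.zero_mem _)
  · exact wp1a_ord_eq_zero_of_notMem w d.2

end wp1a_concrete2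

section wp1a_basic

open IsDedekindDomain IsDedekindDomain.HeightOneSpectrum WithZero

variable {K F : Type*} [Field K] [Field F] [Algebra K F]

theorem wp1a_mem_of_ord_nonneg (v : Place K F) {f : F} (h : 0 ≤ v.ord f) :
    f ∈ v.toValuationSubring := by
  rcases eq_or_ne f 0 with rfl | hf
  · exact zero_mem _
  obtain ⟨π, hπ⟩ := IsDiscreteValuationRing.exists_irreducible v.toValuationSubring
  obtain ⟨u, hu⟩ := v.exists_unit_mul_zpow hf hπ
  rw [hu]
  obtain ⟨n, hn⟩ := Int.eq_ofNat_of_zero_le h
  rw [hn, zpow_natCast]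
  exact mul_mem (u : v.toValuationSubring).2 (pow_mem π.2 n)

theorem wp1a_mem_of_ord_pos (v : Place K F) {f : F} (h : 0 < v.ord f) :
    f ∈ v.toValuationSubring := wp1a_mem_of_ord_nonneg v h.le

end wp1a_basic

section wp1a_concrete3

open IsDedekindDomain IsDedekindDomain.HeightOneSpectrum WithZero
open scoped IntermediateField.algebraAdjoinAdjoin

variable {K F : Type*} [Field K] [IsAlgClosed K] [CharZero K] [Field F] [Algebra K F]

/-- `y` as an element of `K[y]`. -/
def wp1a_yA (y : F) : Algebra.adjoin K {y} := ⟨y, Algebra.self_mem_adjoin_singleton K y⟩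

/-- `y` as an element of the integral closure of `K[y]`. -/
def wp1a_yB (y : F) : integralClosure (Algebra.adjoin K {y}) F :=
  algebraMap (Algebra.adjoin K {y}) (integralClosure (Algebra.adjoin K {y}) F) (wp1a_yA y)

theorem wp1a_yB_coe (y : F) :
    algebraMap (integralClosure (Algebra.adjoin K {y}) F) F (wp1a_yB (K := K) y) = y := rfl

theorem wp1a_yB_ne_zero (y : F) (hy : Transcendental K y) : wp1a_yB (K := K) y ≠ 0 := by
  intro h
  have h1 := congrArg (algebraMap (integralClosure (Algebra.adjoin K {y}) F) F) h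
  rw [wp1a_yB_coe, map_zero] at h1
  exact hy (h1 ▸ isAlgebraic_zero)

/-- The places where `y` vanishes are exactly the places attached to the primes containing `y`. -/
theorem wp1a_zeros_eq_image (y : F) (hy : Transcendental K y) [FiniteDimensional K⟮y⟯ F] :
    haveI := wp1a_isDedekindDomain y hy
    haveI := wp1a_isFractionRing (K := K) y
    haveI := wp1a_isScalarTower (K := K) y
    {v : Place K F | 0 < v.ord y} =
      (fun w : HeightOneSpectrum (integralClosure (Algebra.adjoin K {y}) F) =>
        Place.ofHeightOneSpectrum (K := K) (F := F) w) ''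
        {w | w.asIdeal ∣ Ideal.span {wp1a_yB (K := K) y}} := by
  haveI := wp1a_isDedekindDomain y hy
  haveI := wp1a_isFractionRing (K := K) y
  haveI := wp1a_isScalarTower (K := K) y
  ext v
  simp only [Set.mem_setOf_eq, Set.mem_image, Ideal.dvd_iff_le, Ideal.span_singleton_le_iff_mem]
  constructor
  · intro hv
    obtain ⟨w, rfl⟩ := wp1a_exists_eq_ofHeightOneSpectrum y hy v (wp1a_mem_of_ord_pos v hv)
    refine ⟨w, ?_, rfl⟩
    rw [← wp1a_ord_pos_iff (K := K) (F := F) w (wp1a_yB_ne_zero y hy), wp1a_yB_coe]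
    exact hv
  · rintro ⟨w, hw, rfl⟩
    rw [← wp1a_ord_pos_iff (K := K) (F := F) w (wp1a_yB_ne_zero y hy), wp1a_yB_coe] at hw
    exact hw

theorem wp1_finite_zeros (y : F) (hy : Transcendental K y) [FiniteDimensional K⟮y⟯ F] :
    {v : Place K F | 0 < v.ord y}.Finite := by
  haveI := wp1a_isDedekindDomain y hy
  haveI := wp1a_isFractionRing (K := K) y
  haveI := wp1a_isScalarTower (K := K) y
  rw [wp1a_zeros_eq_image y hy]
  refine Set.Finite.image _ (Ideal.finite_factors ?_)
  rw [Ne, Ideal.zero_eq_bot, Ideal.span_singleton_eq_bot]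
  exact wp1a_yB_ne_zero y hy

end wp1a_concrete3

section wp1a_concrete4

open IsDedekindDomain IsDedekindDomain.HeightOneSpectrum WithZero
open scoped IntermediateField.algebraAdjoinAdjoin

variable {K F : Type*} [Field K] [IsAlgClosed K] [CharZero K] [Field F] [Algebra K F]

theorem wp1_exists_integral_sep (y : F) (hy : Transcendental K y) [FiniteDimensional K⟮y⟯ F]
    (v : Place K F) (hv : 0 < v.ord y) (T : Finset (Place K F)) (hT : ∀ u ∈ T, 0 < u.ord y)
    (hvT : v ∉ T) :
    ∃ f : F, f ≠ 0 ∧ IsIntegral (Algebra.adjoin K {y}) f ∧ 0 < v.ord f ∧ ∀ u ∈ T, u.ord f = 0 := by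
  classical
  haveI := wp1a_isDedekindDomain y hy
  haveI := wp1a_isFractionRing (K := K) y
  haveI := wp1a_isScalarTower (K := K) y
  obtain ⟨w, rfl⟩ := wp1a_exists_eq_ofHeightOneSpectrum y hy v (wp1a_mem_of_ord_pos v hv)
  have hTw : ∀ u ∈ T, ∃ w' : HeightOneSpectrum (integralClosure (Algebra.adjoin K {y}) F),
      Place.ofHeightOneSpectrum (K := K) w' = u := fun u hu =>
    wp1a_exists_eq_ofHeightOneSpectrum y hy u (wp1a_mem_of_ord_pos u (hT u hu))
  haveI : Nonempty (HeightOneSpectrum (integralClosure (Algebra.adjoin K {y}) F)) := ⟨w⟩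
  choose! g hg using hTw
  let s : Finset (Ideal (integralClosure (Algebra.adjoin K {y}) F)) :=
    insert ⊥ (T.image (fun u => (g u).asIdeal))
  have hprime : ∀ i ∈ s, i ≠ ⊥ → i ≠ ⊥ → Ideal.IsPrime (id i) := by
    intro i hi hi0 _
    simp only [s, Finset.mem_insert, Finset.mem_image] at hi
    rcases hi with rfl | ⟨u, _, rfl⟩
    · exact absurd rfl hi0
    · exact (g u).isPrime
  have hnot : ¬ ((w.asIdeal : Set (integralClosure (Algebra.adjoin K {y}) F)) ⊆
      ⋃ i ∈ (↑s : Set (Ideal (integralClosure (Algebra.adjoin K {y}) F))), (id i : Ideal _)) := by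
    rw [Ideal.subset_union_prime ⊥ ⊥ hprime]
    rintro ⟨i, hi, hle⟩
    simp only [s, Finset.mem_insert, Finset.mem_image] at hi
    rcases hi with rfl | ⟨u, hu, rfl⟩
    · exact w.ne_bot (le_bot_iff.mp hle)
    · have heq : w.asIdeal = (g u).asIdeal :=
        w.isMaximal.eq_of_le (g u).isPrime.ne_top hle
      have : w = g u := HeightOneSpectrum.ext heq
      apply hvT
      rw [this, hg u hu]
      exact hu
  obtain ⟨f, hfw, hfs⟩ := Set.not_subset.mp hnot
  simp only [Set.mem_iUnion, not_exists] at hfs
  have hf0 : f ≠ 0 := by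
    intro h0
    exact hfs ⊥ (by simp [s]) (by rw [h0]; exact Submodule.zero_mem _)
  refine ⟨algebraMap _ F f, ?_, f.2, ?_, ?_⟩
  · exact (map_ne_zero_iff _ (IsFractionRing.injective _ F)).mpr hf0
  · exact (wp1a_ord_pos_iff (K := K) (F := F) w hf0).mpr hfw
  · intro u hu
    rw [← hg u hu]
    refine wp1a_ord_eq_zero_of_notMem (g u) ?_
    exact hfs (g u).asIdeal (by simp only [s, Finset.coe_insert, Finset.coe_image,
      Set.mem_insert_iff, Set.mem_image, Finset.mem_coe]; exact Or.inr ⟨u, hu, rfl⟩)

end wp1a_concrete4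

section wp1a_algClosed

theorem wp1a_isAlgClosed_of_ringEquiv {k k' : Type*} [Field k] [Field k'] (e : k ≃+* k')
    [IsAlgClosed k] : IsAlgClosed k' := by
  apply IsAlgClosed.of_exists_root
  intro p hmp hp
  have hpe : Polynomial.degree (p.map e.symm.toRingHom) ≠ 0 := by
    rw [Polynomial.degree_map]
    exact ne_of_gt (Polynomial.degree_pos_of_irreducible hp)
  rcases IsAlgClosed.exists_root (k := k) (p.map e.symm.toRingHom) hpe with ⟨x, hx⟩
  use e x
  rw [Polynomial.IsRoot] at hx
  apply e.symm.injective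
  rw [map_zero, ← hx]
  clear hx hpe hp hmp
  induction p using Polynomial.induction_on <;> simp_all

end wp1a_algClosed

section wp1a_concrete5

open IsDedekindDomain IsDedekindDomain.HeightOneSpectrum WithZero
open scoped IntermediateField.algebraAdjoinAdjoin

variable {K F : Type*} [Field K] [IsAlgClosed K] [CharZero K] [Field F] [Algebra K F]

theorem wp1a_polyEquiv_X (y : F) (hy : Transcendental K y) :
    wp1a_polyEquiv y hy Polynomial.X = wp1a_yA y := by
  ext
  simp [wp1a_polyEquiv_coe, wp1a_yA]

theorem wp1a_yA_prime (y : F) (hy : Transcendental K y) : Prime (wp1a_yA (K := K) y) := by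
  rw [← wp1a_polyEquiv_X y hy]
  exact (MulEquiv.prime_iff (wp1a_polyEquiv y hy).toMulEquiv).mpr Polynomial.prime_X

theorem wp1a_isMaximal (y : F) (hy : Transcendental K y) :
    (Ideal.span {wp1a_yA (K := K) y}).IsMaximal := by
  haveI := wp1a_isPrincipalIdealRing y hy
  have hprime := wp1a_yA_prime (K := K) y hy
  exact ((Ideal.span_singleton_prime hprime.ne_zero).mpr hprime).isMaximal
    (by rw [Ne, Ideal.span_singleton_eq_bot]; exact hprime.ne_zero)

theorem wp1a_surjective_quot (y : F) (hy : Transcendental K y) :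
    Function.Surjective ((Ideal.Quotient.mk (Ideal.span {wp1a_yA (K := K) y})).comp
      (algebraMap K (Algebra.adjoin K {y}))) := by
  intro x
  obtain ⟨a, rfl⟩ := Ideal.Quotient.mk_surjective x
  obtain ⟨q, rfl⟩ := (wp1a_polyEquiv y hy).surjective a
  refine ⟨q.coeff 0, ?_⟩
  rw [RingHom.comp_apply, Ideal.Quotient.eq, Ideal.mem_span_singleton]
  refine ⟨- wp1a_polyEquiv y hy q.divX, ?_⟩
  have h1 := congrArg (wp1a_polyEquiv y hy) (Polynomial.X_mul_divX_add q)
  rw [map_add, map_mul, wp1a_polyEquiv_X] at h1
  have h2 : wp1a_polyEquiv y hy (Polynomial.C (q.coeff 0)) =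
      algebraMap K (Algebra.adjoin K {y}) (q.coeff 0) := (wp1a_polyEquiv y hy).commutes _
  rw [← h1, h2]
  ring

end wp1a_concrete5

section wp1a_concrete6

open IsDedekindDomain IsDedekindDomain.HeightOneSpectrum WithZero
open scoped IntermediateField.algebraAdjoinAdjoin

variable {K F : Type*} [Field K] [IsAlgClosed K] [CharZero K] [Field F] [Algebra K F]

theorem wp1a_inertiaDeg_eq_one (y : F) (hy : Transcendental K y) [FiniteDimensional K⟮y⟯ F]
    (P : Ideal (integralClosure (Algebra.adjoin K {y}) F)) [P.IsPrime]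
    [P.LiesOver (Ideal.span {wp1a_yA (K := K) y})] :
    Ideal.inertiaDeg' (Ideal.span {wp1a_yA (K := K) y}) P = 1 := by
  haveI := wp1a_isMaximal (K := K) y hy
  letI : Field (Algebra.adjoin K {y} ⧸ Ideal.span {wp1a_yA (K := K) y}) := Ideal.Quotient.field _
  haveI : IsAlgClosed (Algebra.adjoin K {y} ⧸ Ideal.span {wp1a_yA (K := K) y}) :=
    wp1a_isAlgClosed_of_ringEquiv
      (RingEquiv.ofBijective _ ⟨RingHom.injective _, wp1a_surjective_quot y hy⟩)
  rw [Ideal.inertiaDeg'_algebraMap]
  have hbij := IsAlgClosed.algebraMap_bijective_of_isIntegral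
    (k := Algebra.adjoin K {y} ⧸ Ideal.span {wp1a_yA (K := K) y})
    (K := integralClosure (Algebra.adjoin K {y}) F ⧸ P)
  exact ((LinearEquiv.ofBijective
    (Algebra.linearMap (Algebra.adjoin K {y} ⧸ Ideal.span {wp1a_yA (K := K) y})
      (integralClosure (Algebra.adjoin K {y}) F ⧸ P)) hbij).finrank_eq.symm.trans
    (Module.finrank_self _))

end wp1a_concrete6

section wp1a_concrete7

open IsDedekindDomain IsDedekindDomain.HeightOneSpectrum WithZero
open scoped IntermediateField.algebraAdjoinAdjoin

variable {K F : Type*} [Field K] [IsAlgClosed K] [CharZero K] [Field F] [Algebra K F]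

theorem wp1a_liesOver_iff (y : F) (hy : Transcendental K y)
    (P : Ideal (integralClosure (Algebra.adjoin K {y}) F)) (hP : P.IsPrime) :
    P.LiesOver (Ideal.span {wp1a_yA (K := K) y}) ↔ wp1a_yB (K := K) y ∈ P := by
  haveI := wp1a_isMaximal (K := K) y hy
  constructor
  · intro h
    have h1 : wp1a_yA (K := K) y ∈ P.under (Algebra.adjoin K {y}) := by
      rw [← h.over]
      exact Ideal.subset_span rfl
    exact h1
  · intro h
    refine ⟨?_⟩
    refine Ideal.IsMaximal.eq_of_le inferInstance ?_ ?_
    · exact (Ideal.IsPrime.under (Algebra.adjoin K {y}) P).ne_top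
    · rw [Ideal.span_le, Set.singleton_subset_iff]
      exact h

theorem wp1_sum_ord_zeros (y : F) (hy : Transcendental K y) [FiniteDimensional K⟮y⟯ F] :
    ∑ v ∈ (wp1_finite_zeros y hy).toFinset, v.ord y = (Module.finrank K⟮y⟯ F : ℤ) := by
  classical
  haveI := wp1a_isPrincipalIdealRing y hy
  haveI := wp1a_isDedekindDomain y hy
  haveI := wp1a_isFractionRing (K := K) y
  haveI := wp1a_isScalarTower (K := K) y
  haveI := wp1_finite_integralClosure y hy
  haveI := wp1a_isMaximal (K := K) y hy
  have hyA0 : wp1a_yA (K := K) y ≠ 0 := (wp1a_yA_prime y hy).ne_zero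
  have hyB0 : wp1a_yB (K := K) y ≠ 0 := wp1a_yB_ne_zero y hy
  have hp0 : Ideal.span {wp1a_yA (K := K) y} ≠ ⊥ := by
    rw [Ne, Ideal.span_singleton_eq_bot]; exact hyA0
  have hI0 : Ideal.span {wp1a_yB (K := K) y} ≠ 0 := by
    rw [Ne, Ideal.zero_eq_bot, Ideal.span_singleton_eq_bot]; exact hyB0
  have hmap : (Ideal.span {wp1a_yA (K := K) y}).map
      (algebraMap (Algebra.adjoin K {y}) (integralClosure (Algebra.adjoin K {y}) F)) =
      Ideal.span {wp1a_yB (K := K) y} := by
    rw [Ideal.map_span, Set.image_singleton]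
    rfl
  have hfund := Ideal.sum_ramification_inertia (integralClosure (Algebra.adjoin K {y}) F)
    K⟮y⟯ F hp0
  have hS : {w : HeightOneSpectrum (integralClosure (Algebra.adjoin K {y}) F) |
      w.asIdeal ∣ Ideal.span {wp1a_yB (K := K) y}}.Finite := Ideal.finite_factors hI0
  have h1 : (wp1_finite_zeros y hy).toFinset = hS.toFinset.image
      (fun w => Place.ofHeightOneSpectrum (K := K) (F := F) w) := by
    apply Finset.coe_injective
    rw [Set.Finite.coe_toFinset, Finset.coe_image, Set.Finite.coe_toFinset]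
    exact wp1a_zeros_eq_image y hy
  have h2 : IsDedekindDomain.primesOverFinset (Ideal.span {wp1a_yA (K := K) y})
      (integralClosure (Algebra.adjoin K {y}) F) = hS.toFinset.image (fun w => w.asIdeal) := by
    ext P
    rw [IsDedekindDomain.mem_primesOverFinset_iff hp0, Finset.mem_image]
    constructor
    · rintro ⟨hP, hPover⟩
      have hyP : wp1a_yB (K := K) y ∈ P := (wp1a_liesOver_iff y hy P hP).mp hPover
      have hPne : P ≠ ⊥ := by
        rintro rfl
        exact hyB0 ((Ideal.mem_bot).mp hyP)
      refine ⟨⟨P, hP, hPne⟩, ?_, rfl⟩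
      rw [Set.Finite.mem_toFinset, Set.mem_setOf_eq, Ideal.dvd_iff_le,
        Ideal.span_singleton_le_iff_mem]
      exact hyP
    · rintro ⟨w, hw, rfl⟩
      rw [Set.Finite.mem_toFinset, Set.mem_setOf_eq, Ideal.dvd_iff_le,
        Ideal.span_singleton_le_iff_mem] at hw
      exact ⟨w.isPrime, (wp1a_liesOver_iff y hy w.asIdeal w.isPrime).mpr hw⟩
  rw [h1, Finset.sum_image (fun a _ b _ h => wp1a_ofHeightOneSpectrum_injective h), ← hfund, h2,
    Finset.sum_image (fun a _ b _ h => HeightOneSpectrum.ext h), Nat.cast_sum]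
  refine Finset.sum_congr rfl (fun w hw => ?_)
  rw [Set.Finite.mem_toFinset, Set.mem_setOf_eq, Ideal.dvd_iff_le,
    Ideal.span_singleton_le_iff_mem] at hw
  haveI : w.asIdeal.LiesOver (Ideal.span {wp1a_yA (K := K) y}) :=
    (wp1a_liesOver_iff y hy w.asIdeal w.isPrime).mpr hw
  haveI := w.isPrime
  rw [wp1a_inertiaDeg_eq_one y hy w.asIdeal, mul_one,
    Ideal.IsDedekindDomain.ramificationIdx'_eq_normalizedFactors_count (by rw [hmap]; exact hI0)
      w.isPrime w.ne_bot, hmap,
    ← Ideal.count_associates_factors_eq hI0 w.isPrime w.ne_bot]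
  have h3 : (Place.ofHeightOneSpectrum (K := K) (F := F) w).ord y =
      -(WithZero.log (w.valuation F (algebraMap _ F (wp1a_yB (K := K) y)))) := by
    rw [wp1a_yB_coe]
    exact wp1a_ord_ofHeightOneSpectrum w y
  rw [h3, valuation_of_algebraMap, intValuation_if_neg w hyB0, WithZero.log_exp, neg_neg]

end wp1a_concrete7

end Fermat.Agent.S24
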