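import Fermat.Agent.S24.Counting
import Fermat.Agent.Lib.Gamma0Orbits
import Fermat.Agent.Lib.Gamma0CuspCount

/-!
S24, assembly part B (helper90): the four applications of WP3 (`Counting.lean`) to an abstract
embedding `ι : F →ₐ[Kbar] D.M` of a function field into the field of a `ModularData N`.

Export: `asmB_counts` -- the numbers of places of `F` above `j = a` (generic), `j = 0`,
`j = 1728`, `j = ∞` as orbit numbers on `SL(2,ℤ)/Γ₀(N)`.
-/

set_option autoImplicit false

open ModularCurve AlgebraicCurve MatrixGroups IntermediateField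

namespace Fermat.Agent.S24

attribute [local instance] ModularData.fieldM ModularData.algM ModularData.actM

section Sigma

variable {N : ℕ} (D : ModularData N) {F : Type*} [Field F] [Algebra Kbar F] (ι : F →ₐ[Kbar] D.M)

/-- The conjugate embedding `f ↦ g • ι f`. -/
noncomputable def asmB_sigma0 (g : SL(2, ℤ)) : F →ₐ[Kbar] D.M :=
  { (MulSemiringAction.toRingHom SL(2, ℤ) D.M g).comp (ι : F →+* D.M) with
    commutes' := fun c => by
      show g • ι (algebraMap Kbar F c) = algebraMap Kbar D.M c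
      rw [AlgHom.commutes, D.smul_const] }

theorem asmB_sigma0_apply (g : SL(2, ℤ)) (f : F) : asmB_sigma0 D ι g f = g • ι f := rfl

/-- The conjugate embedding attached to a coset. -/
noncomputable def asmB_sigma (a : Cosets N) : F →ₐ[Kbar] D.M := asmB_sigma0 D ι a.out

variable {D ι}

theorem asmB_sigma_smul (hΓ : ∀ g ∈ CongruenceSubgroup.Gamma0 N, ∀ f : F, g • ι f = ι f)
    (g : SL(2, ℤ)) (a : Cosets N) (f : F) :
    asmB_sigma D ι (g • a) f = g • asmB_sigma D ι a f := by
  have h1 : ((g * a.out : SL(2, ℤ)) : Cosets N) = (((g • a).out : SL(2, ℤ)) : Cosets N) := by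
    rw [QuotientGroup.out_eq']
    conv_rhs => rw [← QuotientGroup.out_eq' a]
    rfl
  have h2 : (g * a.out)⁻¹ * (g • a).out ∈ CongruenceSubgroup.Gamma0 N := QuotientGroup.eq.mp h1
  have h3 : (g • a).out = (g * a.out) * ((g * a.out)⁻¹ * (g • a).out) := by group
  show (g • a).out • ι f = g • (a.out • ι f)
  rw [h3, mul_smul, hΓ _ h2, mul_smul]

theorem asmB_smul_prod [Fintype (Cosets N)]
    (hΓ : ∀ g ∈ CongruenceSubgroup.Gamma0 N, ∀ f : F, g • ι f = ι f) (g : SL(2, ℤ)) (f : F) :
    g • (∏ b : Cosets N, asmB_sigma D ι b f) = ∏ b : Cosets N, asmB_sigma D ι b f := by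
  have h1 : g • (∏ b : Cosets N, asmB_sigma D ι b f) =
      ∏ b : Cosets N, g • asmB_sigma D ι b f :=
    map_prod (MulSemiringAction.toRingHom SL(2, ℤ) D.M g) _ _
  rw [h1]
  have h2 : ∀ b : Cosets N, g • asmB_sigma D ι b f = asmB_sigma D ι (MulAction.toPerm g b) f :=
    fun b => (asmB_sigma_smul hΓ g b f).symm
  simp only [h2]
  exact Equiv.prod_comp (MulAction.toPerm g) (fun b => asmB_sigma D ι b f)

theorem asmB_core [Fintype (Cosets N)]
    (hΓ : ∀ g ∈ CongruenceSubgroup.Gamma0 N, ∀ f : F, g • ι f = ι f) (x : F)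
    (hιx : ι x = D.jd 1) (hdeg : Module.finrank Kbar⟮x⟯ F = Nat.card (Cosets N))
    (y : F) (hy : Transcendental Kbar y) [FiniteDimensional Kbar⟮y⟯ F] (hyx : Kbar⟮y⟯ = Kbar⟮x⟯)
    (hσy : ∀ g : SL(2, ℤ), g • ι y = ι y)
    (w : OrdFn Kbar D.M) (e₀ : ℕ) (he₀ : 0 < e₀) (hw : w.ord (ι y) = e₀)
    (γ : SL(2, ℤ)) (hγ : ∀ a : Cosets N, γ ^ e₀ • a = a)
    (h1 : ∀ h : D.M, w.ord (γ • h) = w.ord h)
    (h2 : ∀ h : D.M, h ≠ 0 → ∀ k : ℕ, k ∣ e₀ → γ ^ k • h = h → ((e₀ / k : ℕ) : ℤ) ∣ w.ord h) :
    Nat.card {v : Place Kbar F // 0 < v.ord y} =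
      numOrbits (MulAction.toPerm γ : Equiv.Perm (Cosets N)) := by
  have hπpow : ∀ (k : ℕ) (a : Cosets N),
      ((MulAction.toPerm γ : Equiv.Perm (Cosets N)) ^ k) a = γ ^ k • a := by
    intro k
    induction k with
    | zero => intro a; simp
    | succ k ih =>
      intro a
      rw [pow_succ', Equiv.Perm.mul_apply, ih, pow_succ', mul_smul]
      rfl
  refine wp3_card_zeros_eq_numOrbits' (asmB_sigma D ι) y hy ?hcard ?hnorm ?hσy w e₀ he₀ ?hw
    (MulAction.toPerm γ) ?hπ ?h1 ?h2
  case hcard => rw [hyx, hdeg, Nat.card_eq_fintype_card]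
  case hnorm =>
    intro f
    have hfix : ∀ g : SL(2, ℤ), g • (∏ b : Cosets N, asmB_sigma D ι b f) =
        ∏ b, asmB_sigma D ι b f := fun g => asmB_smul_prod hΓ g f
    have hmem := D.fixed _ hfix
    have hmap : (Kbar⟮x⟯).map ι = IntermediateField.adjoin Kbar {D.jd 1} := by
      rw [IntermediateField.adjoin_map, Set.image_singleton, hιx]
    rw [← hmap] at hmem
    obtain ⟨r, hr, hrP⟩ := hmem
    refine ⟨r, by rw [hyx]; exact hr, fun a => ?_⟩
    show a.out • ι r = _
    have hrP' : ι r = ∏ b : Cosets N, asmB_sigma D ι b f := hrP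
    rw [hrP']
    exact hfix _
  case hσy =>
    intro a b
    show a.out • ι y = b.out • ι y
    rw [hσy, hσy]
  case hw =>
    intro a
    show w.ord (a.out • ι y) = e₀
    rw [hσy]
    exact hw
  case hπ =>
    ext a
    rw [hπpow, hγ]
    rfl
  case h1 =>
    intro a f
    show w.ord (asmB_sigma D ι (γ • a) f) = _
    rw [asmB_sigma_smul hΓ, h1]
  case h2 =>
    intro a f hf
    have hσf : asmB_sigma D ι a f ≠ 0 := (map_ne_zero _).mpr hf
    have hpp : Function.IsPeriodicPt (MulAction.toPerm γ : Equiv.Perm (Cosets N)) e₀ a := by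
      show (MulAction.toPerm γ : Equiv.Perm (Cosets N))^[e₀] a = a
      rw [Equiv.Perm.iterate_eq_pow, hπpow, hγ]
    have hdvd := hpp.minimalPeriod_dvd
    refine h2 _ hσf _ hdvd ?_
    rw [← asmB_sigma_smul hΓ]
    congr 1
    rw [← hπpow]
    have hmp := Function.iterate_minimalPeriod
      (f := (MulAction.toPerm γ : Equiv.Perm (Cosets N))) (x := a)
    rw [Equiv.Perm.iterate_eq_pow] at hmp
    rw [hmp]

end Sigma

section Aux

theorem asmB_numOrbits_one (X : Type*) : numOrbits (1 : Equiv.Perm X) = Nat.card X := by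
  unfold numOrbits
  refine (Nat.card_congr (Equiv.ofBijective
    (Quotient.mk'' : X → MulAction.orbitRel.Quotient (Subgroup.zpowers (1 : Equiv.Perm X)) X)
    ⟨?_, Quotient.mk''_surjective⟩)).symm
  intro a b hab
  have h := Quotient.exact hab
  obtain ⟨g, hg⟩ := h
  have hg1 : (g : Equiv.Perm X) = 1 := by
    obtain ⟨k, hk⟩ := Subgroup.mem_zpowers_iff.mp g.2
    rw [one_zpow] at hk
    exact hk.symm
  have hg' : (g : Equiv.Perm X) b = a := hg
  rw [hg1] at hg'
  exact hg'.symm

theorem asmB_T_pow_smul (N : ℕ) (a : Cosets N) : (ModularGroup.T : SL(2, ℤ)) ^ N • a = a := by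
  induction a using QuotientGroup.induction_on with
  | H g =>
    rw [MulAction.Quotient.smul_mk, QuotientGroup.eq, Fermat.Agent.Lib.h86_inv_mul_mem_Gamma0_iff]
    have h := Fermat.Agent.Lib.h86_T_zpow_mul_apply (N : ℤ) g
    rw [zpow_natCast] at h
    rw [smul_eq_mul, h.1, h.2]
    exact ⟨g 1 0 * g 1 0, by ring⟩

variable {K F : Type*} [Field K] [Field F] [Algebra K F]

theorem asmB_adjoin_sub (x : F) (c : K) : K⟮x - algebraMap K F c⟯ = K⟮x⟯ := by
  apply le_antisymm
  · rw [adjoin_simple_le_iff]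
    exact sub_mem (mem_adjoin_simple_self K x) (IntermediateField.algebraMap_mem _ c)
  · rw [adjoin_simple_le_iff]
    have hmem : (x - algebraMap K F c) + algebraMap K F c ∈ K⟮x - algebraMap K F c⟯ :=
      add_mem (mem_adjoin_simple_self K _) (IntermediateField.algebraMap_mem _ c)
    rwa [sub_add_cancel] at hmem

theorem asmB_adjoin_inv (x : F) : K⟮x⁻¹⟯ = K⟮x⟯ := by
  apply le_antisymm
  · rw [adjoin_simple_le_iff]
    exact inv_mem (mem_adjoin_simple_self K x)
  · rw [adjoin_simple_le_iff]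
    have h := inv_mem (mem_adjoin_simple_self K x⁻¹)
    rwa [inv_inv] at h

theorem asmB_transcendental_sub {x : F} (hx : Transcendental K x) (c : K) :
    Transcendental K (x - algebraMap K F c) := by
  intro h
  apply hx
  have h2 : x = (x - algebraMap K F c) + algebraMap K F c := by ring
  rw [h2]
  exact h.add (isAlgebraic_algebraMap c)

theorem asmB_transcendental_inv {x : F} (hx : Transcendental K x) : Transcendental K x⁻¹ := by
  intro h
  apply hx
  have := h.inv
  rwa [inv_inv] at this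

end Aux

section Counts

variable {N : ℕ} (D : ModularData N) {F : Type*} [Field F] [Algebra Kbar F]
  (ι : F →ₐ[Kbar] D.M)

theorem asmB_smul_sub (x : F) (hιx : ι x = D.jd 1) (c : Kbar) (g : SL(2, ℤ)) :
    g • ι (x - algebraMap Kbar F c) = ι (x - algebraMap Kbar F c) := by
  rw [map_sub, hιx, AlgHom.commutes, smul_sub, D.smul_jd_one, D.smul_const]

theorem asmB_smul_inv (x : F) (hιx : ι x = D.jd 1) (g : SL(2, ℤ)) :
    g • ι x⁻¹ = ι x⁻¹ := by
  rw [map_inv₀, hιx, smul_inv'', D.smul_jd_one]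

/-- The numbers of places of `F` above `j = a` (generic), `j = 0`, `j = 1728` and `j = ∞` in
terms of orbits on `SL(2,ℤ)/Γ₀(N)`. -/
theorem asmB_counts (N : ℕ) [NeZero N] (D : ModularData N) {F : Type*} [Field F] [Algebra Kbar F]
    (ι : F →ₐ[Kbar] D.M) (x : F) (hx : Transcendental Kbar x) [FiniteDimensional Kbar⟮x⟯ F]
    (hιx : ι x = D.jd 1) (hdeg : Module.finrank Kbar⟮x⟯ F = Nat.card (Cosets N))
    (hΓ : ∀ g ∈ CongruenceSubgroup.Gamma0 N, ∀ f : F, g • ι f = ι f) :
    (∀ a : Kbar, a ≠ 0 → a ≠ 1728 →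
      Nat.card {v : Place Kbar F // 0 < v.ord (x - algebraMap Kbar F a)} =
        Module.finrank Kbar⟮x⟯ F) ∧
    Nat.card {v : Place Kbar F // 0 < v.ord x} =
      numOrbits (MulAction.toPerm (ModularGroup.S * ModularGroup.T) :
        Equiv.Perm (Cosets N)) ∧
    Nat.card {v : Place Kbar F // 0 < v.ord (x - algebraMap Kbar F 1728)} =
      numOrbits (MulAction.toPerm ModularGroup.S : Equiv.Perm (Cosets N)) ∧
    Nat.card {v : Place Kbar F // v.ord x < 0} =
      numOrbits (MulAction.toPerm ModularGroup.T : Equiv.Perm (Cosets N)) := by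
  classical
  have hfin : Fintype (Cosets N) := Fintype.ofFinite _
  have hx0 : x ≠ 0 := by
    rintro rfl
    exact hx isAlgebraic_zero
  have hj0 : D.jd 1 ≠ 0 := by
    rw [← hιx]
    exact (map_ne_zero ι).mpr hx0
  refine ⟨?_, ?_, ?_, ?_⟩
  · -- generic point
    intro a ha0 ha1
    obtain ⟨w, hw⟩ := D.ordGeneric a ha0 ha1
    have hyx := asmB_adjoin_sub (K := Kbar) x a
    have hfd : FiniteDimensional Kbar⟮x - algebraMap Kbar F a⟯ F := by
      rw [hyx]
      infer_instance
    have h := asmB_core (D := D) (ι := ι) hΓ x hιx hdeg (x - algebraMap Kbar F a)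
      (asmB_transcendental_sub hx a) hyx (asmB_smul_sub D ι x hιx a) w 1 one_pos
      (by rw [map_sub, hιx, AlgHom.commutes, hw]; rfl) 1 (fun b => by simp)
      (fun h => by rw [one_smul])
      (fun h _ k hk _ => by
        rw [Nat.dvd_one.mp hk]
        exact one_dvd _)
    rw [h, MulAction.toPerm_one, asmB_numOrbits_one, hdeg]
  · -- j = 0
    obtain ⟨w, hw, hw1, hw2⟩ := D.ordZero
    have h := asmB_core (D := D) (ι := ι) hΓ x hιx hdeg x hx rfl
      (fun g => by rw [hιx, D.smul_jd_one]) w 3 (by norm_num)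
      (by rw [hιx, hw]; rfl) (ModularGroup.S * ModularGroup.T)
      (fun b => Fermat.Agent.Lib.Gamma0Orbits.ST_cube_smul N b) hw1
      (fun h hh k hk hfix => by
        rcases (Nat.dvd_prime Nat.prime_three).mp hk with rfl | rfl
        · rw [pow_one] at hfix
          exact hw2 h hh hfix
        · exact one_dvd _)
    exact h
  · -- j = 1728
    obtain ⟨w, hw, hw1, hw2⟩ := D.ordI
    have hyx := asmB_adjoin_sub (K := Kbar) x 1728
    have hfd : FiniteDimensional Kbar⟮x - algebraMap Kbar F 1728⟯ F := by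
      rw [hyx]
      infer_instance
    have h := asmB_core (D := D) (ι := ι) hΓ x hιx hdeg (x - algebraMap Kbar F 1728)
      (asmB_transcendental_sub hx 1728) hyx (asmB_smul_sub D ι x hιx 1728) w 2 (by norm_num)
      (by rw [map_sub, hιx, AlgHom.commutes, hw]; rfl) ModularGroup.S
      (fun b => Fermat.Agent.Lib.Gamma0Orbits.S_sq_smul N b) hw1
      (fun h hh k hk hfix => by
        rcases (Nat.dvd_prime Nat.prime_two).mp hk with rfl | rfl
        · rw [pow_one] at hfix
          exact hw2 h hh hfix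
        · exact one_dvd _)
    exact h
  · -- j = ∞
    obtain ⟨w, hw, hw1, hw2⟩ := D.ordInfty
    have hyx := asmB_adjoin_inv (K := Kbar) x
    have hfd : FiniteDimensional Kbar⟮x⁻¹⟯ F := by
      rw [hyx]
      infer_instance
    have h := asmB_core (D := D) (ι := ι) hΓ x hιx hdeg x⁻¹
      (asmB_transcendental_inv hx) hyx (asmB_smul_inv D ι x hιx) w N (Nat.pos_of_neZero N)
      (by rw [map_inv₀, hιx, wp3_ord_inv w hj0, hw, neg_neg]) ModularGroup.T
      (fun b => asmB_T_pow_smul N b) hw1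
      (fun h hh k hk hfix => hw2 h hh k hk hfix)
    rw [← h]
    exact Nat.card_congr (Equiv.subtypeEquivRight fun v => by rw [v.ord_inv]; omega)

end Counts

end Fermat.Agent.S24
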