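import Fermat.Agent.S24.AsmCounts

/-!
S24, assembly part A-deg (helper30): the degree of a function field `F` embedded in the field of a
`ModularData N`, over `Kbar(x)` with `ι x = jd 1`, is the index of `Γ₀(N)`.

Export: `asmA_finrank`.
-/

set_option autoImplicit false

open ModularCurve AlgebraicCurve MatrixGroups IntermediateField Polynomial

namespace Fermat.Agent.S24

section Generic

/-- A field extension in characteristic zero all of whose elements are integral of degree at most
`n` is finite of degree at most `n`. -/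
theorem asmA_finite_of_bounded {K E : Type*} [Field K] [Field E] [Algebra K E] [CharZero K]
    (n : ℕ) (h : ∀ f : E, IsIntegral K f ∧ (minpoly K f).natDegree ≤ n) :
    FiniteDimensional K E ∧ Module.finrank K E ≤ n := by
  have : Algebra.IsAlgebraic K E := ⟨fun f => (h f).1.isAlgebraic⟩
  have hfin : FiniteDimensional K E := by
    by_contra hnfd
    obtain ⟨L, hL, hn⟩ := IntermediateField.exists_lt_finrank_of_infinite_dimensional hnfd n
    obtain ⟨α, hα⟩ := Field.exists_primitive_element K L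
    have h1 := (Field.primitive_element_iff_minpoly_natDegree_eq K α).mp hα
    rw [IntermediateField.minpoly_eq] at h1
    have h2 := (h (α : E)).2
    omega
  refine ⟨hfin, ?_⟩
  obtain ⟨α, hα⟩ := Field.exists_primitive_element K E
  have h1 := (Field.primitive_element_iff_minpoly_natDegree_eq K α).mp hα
  have h2 := (h α).2
  omega

end Generic

attribute [local instance] ModularData.fieldM ModularData.algM ModularData.actM

section Main

variable {N : ℕ} (D : ModularData N) {F : Type*} [Field F] [Algebra Kbar F]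
  (ι : F →ₐ[Kbar] D.M)

/-- Elements of `Kbar(jd 1)` are fixed by `SL(2,ℤ)`. -/
theorem asmA_smul_of_mem_adjoin (g : SL(2, ℤ)) {m : D.M}
    (hm : m ∈ IntermediateField.adjoin Kbar {D.jd 1}) : g • m = m := by
  induction hm using IntermediateField.adjoin_induction with
  | mem x hx => rw [Set.mem_singleton_iff.mp hx]; exact D.smul_jd_one g
  | algebraMap c => exact D.smul_const g c
  | add x y _ _ hx hy => rw [smul_add, hx, hy]
  | inv x _ hx =>
    have h := map_inv₀ (MulSemiringAction.toRingHom SL(2, ℤ) D.M g) x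
    have h' : g • x⁻¹ = (g • x)⁻¹ := h
    rw [h', hx]
  | mul x y _ _ hx hy => rw [smul_mul', hx, hy]

theorem asmA_map_adjoin (x : F) (hιx : ι x = D.jd 1) :
    (Kbar⟮x⟯).map ι = IntermediateField.adjoin Kbar {D.jd 1} := by
  rw [IntermediateField.adjoin_map, Set.image_singleton, hιx]

/-- The conjugate embeddings agree with `ι` on `Kbar(x)`. -/
theorem asmA_sigma_of_mem (x : F) (hιx : ι x = D.jd 1) (a : Cosets N) {r : F}
    (hr : r ∈ Kbar⟮x⟯) : asmB_sigma D ι a r = ι r := by
  show a.out • ι r = ι r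
  apply asmA_smul_of_mem_adjoin
  rw [← asmA_map_adjoin D ι x hιx]
  exact ⟨r, hr, rfl⟩

/-- The conjugate embedding of the trivial coset is `ι`. -/
theorem asmA_sigma_one (hΓ : ∀ g ∈ CongruenceSubgroup.Gamma0 N, ∀ f : F, g • ι f = ι f) (f : F) :
    asmB_sigma D ι (((1 : SL(2, ℤ)) : Cosets N)) f = ι f := by
  show (((1 : SL(2, ℤ)) : Cosets N)).out • ι f = ι f
  apply hΓ
  have h : (((((1 : SL(2, ℤ)) : Cosets N)).out : SL(2, ℤ)) : Cosets N) =
      ((1 : SL(2, ℤ)) : Cosets N) := QuotientGroup.out_eq' _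
  have h2 := QuotientGroup.eq.mp h.symm
  simpa using h2

/-- The "characteristic polynomial" `∏ₐ (X - σₐ f)`. -/
noncomputable def asmA_poly [Fintype (Cosets N)] (f : F) : Polynomial D.M :=
  ∏ a : Cosets N, (X - C (asmB_sigma D ι a f))

theorem asmA_poly_map [Fintype (Cosets N)]
    (hΓ : ∀ g ∈ CongruenceSubgroup.Gamma0 N, ∀ f : F, g • ι f = ι f) (g : SL(2, ℤ)) (f : F) :
    (asmA_poly D ι f).map (MulSemiringAction.toRingHom SL(2, ℤ) D.M g) = asmA_poly D ι f := by
  unfold asmA_poly
  rw [Polynomial.map_prod]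
  have h2 : ∀ b : Cosets N,
      (X - C (asmB_sigma D ι b f)).map (MulSemiringAction.toRingHom SL(2, ℤ) D.M g) =
        X - C (asmB_sigma D ι (MulAction.toPerm g b) f) := by
    intro b
    rw [Polynomial.map_sub, Polynomial.map_X, Polynomial.map_C]
    congr 2
    exact (asmB_sigma_smul hΓ g b f).symm
  simp only [h2]
  exact Equiv.prod_comp (MulAction.toPerm g) (fun b => X - C (asmB_sigma D ι b f))

/-- Every element of `F` is integral over `Kbar(x)` of degree at most the index. -/
theorem asmA_integral [Fintype (Cosets N)] (x : F) (hιx : ι x = D.jd 1)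
    (hΓ : ∀ g ∈ CongruenceSubgroup.Gamma0 N, ∀ f : F, g • ι f = ι f) (f : F) :
    IsIntegral Kbar⟮x⟯ f ∧ (minpoly Kbar⟮x⟯ f).natDegree ≤ Fintype.card (Cosets N) := by
  set φ : ↥Kbar⟮x⟯ →+* D.M := (ι : F →+* D.M).comp (algebraMap ↥Kbar⟮x⟯ F) with hφ
  have hlift : asmA_poly D ι f ∈ Polynomial.lifts φ := by
    rw [Polynomial.lifts_iff_coeff_lifts]
    intro k
    have hfix : ∀ g : SL(2, ℤ), g • (asmA_poly D ι f).coeff k = (asmA_poly D ι f).coeff k := by
      intro g
      have h := congrArg (fun p => p.coeff k) (asmA_poly_map D ι hΓ g f)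
      simpa [Polynomial.coeff_map] using h
    have hmem := D.fixed _ hfix
    rw [← asmA_map_adjoin D ι x hιx] at hmem
    obtain ⟨r, hr, hrP⟩ := hmem
    exact ⟨⟨r, hr⟩, hrP⟩
  have hmonic : (asmA_poly D ι f).Monic :=
    Polynomial.monic_prod_of_monic _ _ (fun a _ => Polynomial.monic_X_sub_C _)
  obtain ⟨Q, hQmap, hQdeg, hQmonic⟩ := Polynomial.lifts_and_natDegree_eq_and_monic hlift hmonic
  have hdegP : (asmA_poly D ι f).natDegree = Fintype.card (Cosets N) := by
    unfold asmA_poly
    rw [Polynomial.natDegree_prod_of_monic _ _ (fun a _ => Polynomial.monic_X_sub_C _)]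
    simp
  have hroot : Polynomial.aeval f Q = 0 := by
    apply ι.toRingHom.injective
    rw [map_zero]
    have h1 : ι.toRingHom (Polynomial.aeval f Q) = Polynomial.eval₂ φ (ι f) Q := by
      rw [Polynomial.aeval_def, Polynomial.hom_eval₂]
      rfl
    rw [h1, ← Polynomial.eval_map, hQmap]
    unfold asmA_poly
    rw [Polynomial.eval_prod]
    apply Finset.prod_eq_zero (Finset.mem_univ (((1 : SL(2, ℤ)) : Cosets N)))
    simp [asmA_sigma_one D ι hΓ f]
  refine ⟨⟨Q, hQmonic, by rw [← Polynomial.aeval_def]; exact hroot⟩, ?_⟩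
  have h1 := minpoly.degree_le_of_ne_zero (A := ↥Kbar⟮x⟯) f hQmonic.ne_zero hroot
  have h2 := Polynomial.natDegree_le_natDegree h1
  omega

/-- The index is at most the degree: the conjugates of `xN` are distinct. -/
theorem asmA_le_finrank [Fintype (Cosets N)] (x xN : F) (hιx : ι x = D.jd 1)
    (hιN : ι xN = D.jd N) [FiniteDimensional Kbar⟮x⟯ F] :
    Fintype.card (Cosets N) ≤ Module.finrank Kbar⟮x⟯ F := by
  classical
  set φ : ↥Kbar⟮x⟯ →+* D.M := (ι : F →+* D.M).comp (algebraMap ↥Kbar⟮x⟯ F) with hφ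
  set p := minpoly Kbar⟮x⟯ xN with hp
  have hpm : p.Monic := minpoly.monic (IsIntegral.of_finite _ _)
  set q := p.map φ with hq
  have hqm : q.Monic := hpm.map φ
  have hroots : ∀ a : Cosets N, asmB_sigma D ι a xN ∈ q.roots := by
    intro a
    rw [Polynomial.mem_roots hqm.ne_zero, Polynomial.IsRoot.def, hq, Polynomial.eval_map]
    have hcomp : φ = ((asmB_sigma D ι a : F →ₐ[Kbar] D.M) : F →+* D.M).comp
        (algebraMap ↥Kbar⟮x⟯ F) := by
      ext r
      exact (asmA_sigma_of_mem D ι x hιx a r.2).symm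
    have h5 : ((asmB_sigma D ι a : F →ₐ[Kbar] D.M) : F →+* D.M)
        (Polynomial.eval₂ (algebraMap ↥Kbar⟮x⟯ F) xN p) =
        Polynomial.eval₂ (((asmB_sigma D ι a : F →ₐ[Kbar] D.M) : F →+* D.M).comp
          (algebraMap ↥Kbar⟮x⟯ F)) (((asmB_sigma D ι a : F →ₐ[Kbar] D.M) : F →+* D.M) xN) p :=
      Polynomial.hom_eval₂ p _ _ xN
    have h6 : Polynomial.eval₂ (algebraMap ↥Kbar⟮x⟯ F) xN p = 0 := by
      rw [← Polynomial.aeval_def, hp, minpoly.aeval]
    rw [h6, map_zero] at h5
    rw [hcomp]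
    exact h5.symm
  have hinj : Function.Injective (fun a : Cosets N => asmB_sigma D ι a xN) := by
    intro a b hab
    have h1 : a.out • D.jd N = b.out • D.jd N := by
      have h0 : a.out • ι xN = b.out • ι xN := hab
      rwa [hιN] at h0
    have h2 : (b.out⁻¹ * a.out) • D.jd N = D.jd N := by
      rw [mul_smul, h1, inv_smul_smul]
    have h3 := D.stab _ h2
    have h4 : ((b.out : SL(2, ℤ)) : Cosets N) = ((a.out : SL(2, ℤ)) : Cosets N) :=
      QuotientGroup.eq.mpr h3
    rw [QuotientGroup.out_eq', QuotientGroup.out_eq'] at h4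
    exact h4.symm
  calc Fintype.card (Cosets N)
      = (Finset.univ.image (fun a : Cosets N => asmB_sigma D ι a xN)).card := by
        rw [Finset.card_image_of_injective _ hinj, Finset.card_univ]
    _ ≤ q.roots.toFinset.card := Finset.card_le_card (by
        intro m hm
        obtain ⟨a, -, rfl⟩ := Finset.mem_image.mp hm
        exact Multiset.mem_toFinset.mpr (hroots a))
    _ ≤ Multiset.card q.roots := Multiset.toFinset_card_le _
    _ ≤ q.natDegree := Polynomial.card_roots' q
    _ = p.natDegree := hpm.natDegree_map φ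
    _ ≤ Module.finrank Kbar⟮x⟯ F := minpoly.natDegree_le xN

end Main

/-- **Degree of the function field**: `[F : Kbar(x)] = [SL(2,ℤ) : Γ₀(N)]`. -/
theorem asmA_finrank (N : ℕ) [NeZero N] (D : ModularData N) {F : Type*} [Field F]
    [Algebra Kbar F] (ι : F →ₐ[Kbar] D.M) (x xN : F) (hιx : ι x = D.jd 1)
    (hιN : ι xN = D.jd N)
    (hΓ : ∀ g ∈ CongruenceSubgroup.Gamma0 N, ∀ f : F, g • ι f = ι f) :
    FiniteDimensional Kbar⟮x⟯ F ∧ Module.finrank Kbar⟮x⟯ F = Nat.card (Cosets N) := by
  have : Finite (Cosets N) := Subgroup.finite_quotient_of_finiteIndex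
  let : Fintype (Cosets N) := Fintype.ofFinite _
  have : CharZero ↥Kbar⟮x⟯ :=
    charZero_of_injective_algebraMap (algebraMap Kbar ↥Kbar⟮x⟯).injective
  obtain ⟨hfin, hle⟩ := asmA_finite_of_bounded (K := ↥Kbar⟮x⟯) (E := F)
    (Fintype.card (Cosets N)) (asmA_integral D ι x hιx hΓ)
  have hge := asmA_le_finrank D ι x xN hιx hιN
  exact ⟨hfin, by rw [Nat.card_eq_fintype_card]; omega⟩

end Fermat.Agent.S24
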