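import Fermat.Agent.S24.InfExp
import Fermat.Agent.S24.KleinJ
import Fermat.Agent.S24.ModField

/-!
WPA4b of the S24 project: expansions at `i∞` (in `w = e^{2πiτ/N}`) of the generators
`genFn g d` of `ModRing N`.

Exports (exact statements of the skeleton `Skel/InfGen.lean`):
* `wpA4_genFn_one_hasWExp` : `j(dτ)` has the expansion given by the formal series `JJ d`;
* `wpA4_genFn_hasWExp` : every `genFn g d` has an expansion with coefficients in `ℚ̄` and
  leading exponent `-(gcd(d, c)^2 * (N / d))`.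

Uses from the other work packages: `hasWExp_of_hasSum` (WPA4a), `wpA1_kleinJ_smul`,
`wpA1_kleinJ_hasSum` (WPA1), `wpA5_genFn_mdiff` (WPA5a).
-/

set_option autoImplicit false

open ModularCurve AlgebraicCurve MatrixGroups UpperHalfPlane ModularForm EisensteinSeries

open scoped Manifold

namespace Fermat.Agent.S24

/-- every complex root of unity is in the image of `phi`. -/
theorem wpA4b_exists_phi_eq (z : ℂ) (n : ℕ) (hn : 0 < n) (hz : z ^ n = 1) :
    ∃ ξ : Kbar, phi ξ = z ∧ ξ ≠ 0 := by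
  have : NeZero n := ⟨hn.ne'⟩
  obtain ⟨ζ, hζ⟩ := HasEnoughRootsOfUnity.exists_primitiveRoot Kbar n
  have hζ' : IsPrimitiveRoot (phi ζ) n := hζ.map_of_injective phi.injective
  obtain ⟨i, -, hi⟩ := hζ'.eq_pow_of_pow_eq_one hz
  refine ⟨ζ ^ i, by rw [map_pow, hi], pow_ne_zero _ (hζ.ne_zero hn.ne')⟩

/-- coefficients of `X^{-m} * p`, `p` a power series. -/
theorem wpA4b_coeff_single_mul {R : Type*} [CommRing R] (m : ℕ) (p : PowerSeries R) (k : ℤ) :
    (HahnSeries.single (-(m : ℤ)) (1 : R) * HahnSeries.ofPowerSeries ℤ R p).coeff k =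
      if 0 ≤ k + m then PowerSeries.coeff (k + m).toNat p else 0 := by
  rw [HahnSeries.coeff_single_mul, one_mul, sub_neg_eq_add]
  split_ifs with h
  · obtain ⟨n, hn⟩ := Int.eq_ofNat_of_zero_le h
    rw [hn, Int.toNat_natCast]
    exact HahnSeries.ofPowerSeries_apply_coeff p n
  · exact ofPowerSeries_coeff_of_neg p (not_le.mp h)

theorem wpA4b_coeffMap_ofPowerSeries {R S : Type*} [CommRing R] [CommRing S] (f : R →+* S)
    (p : PowerSeries R) :
    coeffMap f (HahnSeries.ofPowerSeries ℤ R p) = HahnSeries.ofPowerSeries ℤ S (p.map f) := by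
  ext k
  rw [coeffMap_coeff]
  rcases lt_or_ge k 0 with hk | hk
  · rw [ofPowerSeries_coeff_of_neg _ hk, ofPowerSeries_coeff_of_neg _ hk, map_zero]
  · obtain ⟨n, rfl⟩ := Int.eq_ofNat_of_zero_le hk
    have h1 := HahnSeries.ofPowerSeries_apply_coeff (Γ := ℤ) p n
    have h2 := HahnSeries.ofPowerSeries_apply_coeff (Γ := ℤ) (p.map f) n
    rw [h1, h2, PowerSeries.coeff_map]

/-- coefficient function of the twisted `j`-expansion `∑_n jq_{n-1} ξ^{n-1} X^{e n}`. -/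
noncomputable def wpA4b_cf (R : Type*) [Field R] [Algebra ℚ R] (e : ℕ) (ξ : R) (k : ℕ) : R :=
  if e ∣ k then algebraMap ℚ R (jq.coeff (((k / e : ℕ) : ℤ) - 1)) * ξ ^ (k / e) * ξ⁻¹ else 0

/-- the twisted `j`-expansion `X^{-e} ∑_n jq_{n-1} ξ^{n-1} X^{e n}`. -/
noncomputable def wpA4b_L (R : Type*) [Field R] [Algebra ℚ R] (e : ℕ) (ξ : R) : LaurentSeries R :=
  HahnSeries.single (-(e : ℤ)) (1 : R) *
    HahnSeries.ofPowerSeries ℤ R (PowerSeries.mk (wpA4b_cf R e ξ))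

theorem wpA4b_L_coeff (R : Type*) [Field R] [Algebra ℚ R] (e : ℕ) (ξ : R) (k : ℤ) :
    (wpA4b_L R e ξ).coeff k = if 0 ≤ k + e then wpA4b_cf R e ξ (k + e).toNat else 0 := by
  unfold wpA4b_L
  rw [wpA4b_coeff_single_mul]
  simp only [PowerSeries.coeff_mk]

theorem wpA4b_coeffMap_L (e : ℕ) (ξ : Kbar) :
    coeffMap phi (wpA4b_L Kbar e ξ) = wpA4b_L ℂ e (phi ξ) := by
  unfold wpA4b_L
  rw [map_mul, coeffMap_single, map_one, wpA4b_coeffMap_ofPowerSeries]
  congr 2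
  ext k
  simp only [PowerSeries.coeff_map, PowerSeries.coeff_mk, wpA4b_cf]
  split_ifs
  · rw [map_mul, map_mul, map_pow, map_inv₀, eq_ratCast, eq_ratCast, map_ratCast]
  · exact map_zero _


/-- A function which is `kleinJ` evaluated at points whose `q`-parameter is `ξ w^e` has the twisted
expansion `wpA4b_L ℂ e ξ`. -/
theorem wpA4b_hasWExp_of_qParam (N : ℕ) [NeZero N] (f : ℍ → ℂ) (hf : MDiff f) (e : ℕ)
    (he : 0 < e) (ξ : ℂ) (hξ : ξ ≠ 0)
    (h : ∀ τ : ℍ, ∃ z : ℍ, f τ = kleinJ z ∧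
      Function.Periodic.qParam 1 (z : ℂ) = ξ * wN N τ ^ e) :
    HasWExp N f (wpA4b_L ℂ e ξ) := by
  unfold wpA4b_L
  apply hasWExp_of_hasSum N f hf e
  intro τ
  obtain ⟨z, hfz, hq⟩ := h τ
  have hs := wpA1_kleinJ_hasSum z
  rw [hq] at hs
  have hs2 := hs.mul_left ξ⁻¹
  have hinj : Function.Injective (fun n : ℕ => e * n) :=
    fun a b hab => Nat.eq_of_mul_eq_mul_left he hab
  have hs3 : HasSum ((fun k : ℕ => wpA4b_cf ℂ e ξ k * wN N τ ^ k) ∘ fun n : ℕ => e * n)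
      (f τ * wN N τ ^ e) := by
    have e1 : ((fun k : ℕ => wpA4b_cf ℂ e ξ k * wN N τ ^ k) ∘ fun n : ℕ => e * n) =
        fun i : ℕ => ξ⁻¹ * (((jq.coeff ((i : ℤ) - 1) : ℚ) : ℂ) * (ξ * wN N τ ^ e) ^ i) := by
      funext n
      simp only [Function.comp, wpA4b_cf, dvd_mul_right, if_true, Nat.mul_div_cancel_left _ he]
      rw [eq_ratCast]
      ring
    have e2 : f τ * wN N τ ^ e = ξ⁻¹ * (kleinJ z * (ξ * wN N τ ^ e)) := by
      rw [hfz]
      field_simp
    rw [e1, e2]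
    exact hs2
  refine (hinj.hasSum_iff ?_).mp hs3
  intro k hk
  simp only [Set.mem_range, not_exists] at hk
  have hk' : ¬ e ∣ k := fun ⟨n, hn⟩ => hk n hn.symm
  simp [wpA4b_cf, hk']

theorem wpA4b_qParam_eq (N : ℕ) [NeZero N] (τ z : ℍ) (a : ℕ) (b : ℤ) (d' : ℕ) (hd' : d' ≠ 0)
    (hdN : d' ∣ N) (hz : (z : ℂ) = ((a : ℂ) * τ + b) / d') :
    Function.Periodic.qParam 1 (z : ℂ) =
      Complex.exp (2 * Real.pi * Complex.I * b / d') * wN N τ ^ (a * (N / d')) := by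
  have hN : N ≠ 0 := NeZero.ne N
  unfold wN Function.Periodic.qParam
  rw [← Complex.exp_nat_mul, ← Complex.exp_add, hz]
  congr 1
  obtain ⟨k, rfl⟩ := hdN
  have hk : k ≠ 0 := fun h => hN (by simp [h])
  rw [Nat.mul_div_cancel_left _ (Nat.pos_of_ne_zero hd')]
  have h1 : (d' : ℂ) ≠ 0 := by exact_mod_cast hd'
  have h2 : (k : ℂ) ≠ 0 := by exact_mod_cast hk
  push_cast
  field_simp
  ring

theorem wpA4b_linear_ne_zero (c δ : ℤ) (h : c ≠ 0 ∨ δ ≠ 0) (τ : ℍ) :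
    (c : ℂ) * τ + δ ≠ 0 := by
  intro h0
  have him := congrArg Complex.im h0
  have hre := congrArg Complex.re h0
  simp only [Complex.add_im, Complex.mul_im, Complex.intCast_re, Complex.intCast_im, zero_mul,
    add_zero, Complex.zero_im, Complex.add_re, Complex.mul_re, sub_zero, Complex.zero_re,
    UpperHalfPlane.coe_im, UpperHalfPlane.coe_re] at him hre
  have hc : c = 0 := by
    rcases mul_eq_zero.mp him with hc | hc
    · exact_mod_cast hc
    · exact absurd hc τ.im_pos.ne'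
  subst hc
  simp only [Int.cast_zero, zero_mul, zero_add] at hre
  have hδ : δ = 0 := by exact_mod_cast hre
  rcases h with h | h
  · exact h rfl
  · exact h hδ


/-- Hermite normal form: `[[d,0],[0,1]] * A = σ⁻¹ * [[a,b],[0,d/a]]` with `a = gcd(d, A₁₀)`,
expressed through the action on `ℍ`. -/
theorem wpA4b_hermite (A : SL(2, ℤ)) (d : ℕ) (hd : 0 < d) :
    ∃ (σ : SL(2, ℤ)) (b : ℤ), ∀ τ : ℍ,
      ((σ • scaleH d (A • τ) : ℍ) : ℂ) =
        ((Nat.gcd d (A 1 0).natAbs : ℂ) * τ + b) / ((d / Nat.gcd d (A 1 0).natAbs : ℕ) : ℂ) := by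
  set a : ℕ := Nat.gcd d (A 1 0).natAbs with ha
  have ha0 : 0 < a := Nat.gcd_pos_of_pos_left _ hd
  set d' : ℕ := d / a with hd'
  have had : a * d' = d := Nat.mul_div_cancel' (Nat.gcd_dvd_left _ _)
  have hd'0 : 0 < d' := Nat.pos_of_ne_zero (fun h => by rw [h, mul_zero] at had; omega)
  have hac : (a : ℤ) ∣ A 1 0 := by
    have : a ∣ (A 1 0).natAbs := Nat.gcd_dvd_right _ _
    exact Int.natCast_dvd.mpr this
  obtain ⟨c', hc'⟩ := hac
  have hgcd : (a : ℤ) = Int.gcd (d : ℤ) (A 1 0) := by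
    rw [ha, Int.gcd, Int.natAbs_natCast]
  have hbez : (a : ℤ) = (d : ℤ) * Int.gcdA d (A 1 0) + A 1 0 * Int.gcdB d (A 1 0) := by
    rw [hgcd]; exact Int.gcd_eq_gcd_ab _ _
  set s := Int.gcdA d (A 1 0)
  set t := Int.gcdB d (A 1 0)
  have hdet : A 0 0 * A 1 1 - A 0 1 * A 1 0 = 1 := by
    have := A.det_coe
    rwa [Matrix.det_fin_two] at this
  have hd3 : (d : ℤ) = a * d' := by exact_mod_cast had.symm
  have ha' : (a : ℤ) ≠ 0 := by exact_mod_cast ha0.ne'
  set x : ℤ := s * A 1 1 with hx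
  set y : ℤ := t - d * s * A 0 1 with hy
  have hσdet : x * ((d' : ℤ) * A 0 0) - y * (-c') = 1 := by
    apply mul_left_cancel₀ ha'
    linear_combination (-1 : ℤ) * hbez + s * d * hdet - s * A 1 1 * A 0 0 * hd3
      - (t - d * s * A 0 1) * hc'
  let σ : SL(2, ℤ) := ⟨!![x, y; -c', (d' : ℤ) * A 0 0], by
    rw [Matrix.det_fin_two_of]; exact hσdet⟩
  refine ⟨σ, x * d * A 0 1 + y * A 1 1, fun τ => ?_⟩
  have hD : (A 1 0 : ℂ) * τ + (A 1 1 : ℂ) ≠ 0 := by
    apply wpA4b_linear_ne_zero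
    by_contra hcon
    push Not at hcon
    rw [hcon.1, hcon.2] at hdet
    simp at hdet
  rw [UpperHalfPlane.coe_specialLinearGroup_apply, coe_scaleH d hd.ne',
    UpperHalfPlane.coe_specialLinearGroup_apply]
  have e00 : σ 0 0 = x := rfl
  have e01 : σ 0 1 = y := rfl
  have e10 : σ 1 0 = -c' := rfl
  have e11 : σ 1 1 = (d' : ℤ) * A 0 0 := rfl
  rw [e00, e01, e10, e11]
  simp only [algebraMap_int_eq, eq_intCast, Complex.ofReal_intCast]
  have hdetC : (A 0 0 : ℂ) * A 1 1 - A 0 1 * A 1 0 = 1 := by exact_mod_cast hdet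
  have hd3C : (d : ℂ) = a * d' := by exact_mod_cast hd3
  have hcC : (A 1 0 : ℂ) = a * c' := by exact_mod_cast hc'
  have hσC : (x : ℂ) * ((d' : ℂ) * A 0 0) - y * (-c') = 1 := by exact_mod_cast hσdet
  have hd'C : (d' : ℂ) ≠ 0 := by exact_mod_cast hd'0.ne'
  obtain ⟨D, hDdef⟩ : ∃ D : ℂ, D = (A 1 0 : ℂ) * τ + (A 1 1 : ℂ) := ⟨_, rfl⟩
  rw [← hDdef] at hD ⊢
  have hnum : (x : ℂ) * ((d : ℂ) * (((A 0 0 : ℂ) * τ + A 0 1) / D)) + y
      = ((a : ℂ) * τ + ((x * d * A 0 1 + y * A 1 1 : ℤ) : ℂ)) / D := by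
    rw [eq_div_iff hD]
    have h1 : ((x : ℂ) * ((d : ℂ) * (((A 0 0 : ℂ) * τ + A 0 1) / D)) + y) * D
        = x * d * ((A 0 0 : ℂ) * τ + A 0 1) + y * D := by
      field_simp
    rw [h1, hDdef]
    push_cast
    linear_combination (τ : ℂ) * (a : ℂ) * hσC + (τ : ℂ) * x * A 0 0 * hd3C
      + (τ : ℂ) * y * hcC
  have hden : ((-c' : ℤ) : ℂ) * ((d : ℂ) * (((A 0 0 : ℂ) * τ + A 0 1) / D))
      + (((d' : ℤ) * A 0 0 : ℤ) : ℂ) = (d' : ℂ) / D := by
    rw [eq_div_iff hD]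
    have h1 : (((-c' : ℤ) : ℂ) * ((d : ℂ) * (((A 0 0 : ℂ) * τ + A 0 1) / D))
        + (((d' : ℤ) * A 0 0 : ℤ) : ℂ)) * D
        = ((-c' : ℤ) : ℂ) * d * ((A 0 0 : ℂ) * τ + A 0 1) + (((d' : ℤ) * A 0 0 : ℤ) : ℂ) * D := by
      field_simp
    rw [h1, hDdef]
    push_cast
    linear_combination ((τ : ℂ) * A 0 0 + A 0 1) * (-(c' : ℂ) * hd3C + (d' : ℂ) * hcC)
      + (d' : ℂ) * hdetC
  rw [hnum, hden, div_div_div_cancel_right₀ hD]


/-- Every generator has an expansion with coefficients in `ℚ̄`, with leading exponent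
`-(gcd(d, c)^2 * (N / d))`, `c` the lower left entry of `g⁻¹`. -/
theorem wpA4_genFn_hasWExp (N : ℕ) [NeZero N] (g : SL(2, ℤ)) (d : ℕ) (hd : d ∣ N) :
    ∃ L : LaurentSeries Kbar, HasWExp N (genFn g d) (coeffMap phi L) ∧
      L.coeff (-((Nat.gcd d ((g⁻¹ : SL(2, ℤ)) 1 0).natAbs ^ 2 * (N / d) : ℕ) : ℤ)) ≠ 0 ∧
      ∀ n : ℤ, n < -((Nat.gcd d ((g⁻¹ : SL(2, ℤ)) 1 0).natAbs ^ 2 * (N / d) : ℕ) : ℤ) →
        L.coeff n = 0 := by
  have hN : N ≠ 0 := NeZero.ne N
  have hd0 : 0 < d := Nat.pos_of_ne_zero (fun h => hN (by simpa [h] using hd))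
  obtain ⟨σ, b, hσ⟩ := wpA4b_hermite g⁻¹ d hd0
  set a : ℕ := Nat.gcd d ((g⁻¹ : SL(2, ℤ)) 1 0).natAbs with ha
  have ha0 : 0 < a := Nat.gcd_pos_of_pos_left _ hd0
  set d' : ℕ := d / a with hd'
  have had : a * d' = d := Nat.mul_div_cancel' (Nat.gcd_dvd_left _ _)
  have hd'0 : 0 < d' := Nat.pos_of_ne_zero (fun h => by rw [h, mul_zero] at had; omega)
  have hd'N : d' ∣ N := (Dvd.intro_left a had).trans hd
  have he' : a * (N / d') = a ^ 2 * (N / d) := by
    obtain ⟨k, rfl⟩ := hd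
    rw [Nat.mul_div_cancel_left _ hd0, ← had, mul_assoc, mul_comm a (d' * k), mul_assoc,
      Nat.mul_div_cancel_left _ hd'0]
    ring
  have he0 : 0 < a ^ 2 * (N / d) :=
    Nat.mul_pos (pow_pos ha0 2) (Nat.div_pos (Nat.le_of_dvd (Nat.pos_of_ne_zero hN) hd) hd0)
  set e : ℕ := a ^ 2 * (N / d) with he
  have hξpow : Complex.exp (2 * Real.pi * Complex.I * b / d') ^ d' = 1 := by
    rw [← Complex.exp_nat_mul]
    have hd'C : (d' : ℂ) ≠ 0 := by exact_mod_cast hd'0.ne'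
    have : (d' : ℂ) * (2 * Real.pi * Complex.I * b / d') = b * (2 * Real.pi * Complex.I) := by
      field_simp
    rw [this]
    exact Complex.exp_int_mul_two_pi_mul_I b
  obtain ⟨ξ, hξ, hξ0⟩ := wpA4b_exists_phi_eq _ d' hd'0 hξpow
  refine ⟨wpA4b_L Kbar e ξ, ?_, ?_, ?_⟩
  · rw [wpA4b_coeffMap_L, hξ]
    apply wpA4b_hasWExp_of_qParam N _ (wpA5_genFn_mdiff g d) e he0 _ (Complex.exp_ne_zero _)
    intro τ
    refine ⟨σ • scaleH d (g⁻¹ • τ), ?_, ?_⟩
    · rw [wpA1_kleinJ_smul, genFn_apply]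
    · rw [← he']
      exact wpA4b_qParam_eq N τ _ a b d' hd'0.ne' hd'N (hσ τ)
  · rw [wpA4b_L_coeff]
    have h0 : (-(e : ℤ) + (e : ℤ)) = 0 := by ring
    rw [h0]
    simp only [le_refl, if_true, Int.toNat_zero, wpA4b_cf, dvd_zero, Nat.zero_div, pow_zero,
      mul_one, Nat.cast_zero, zero_sub, coeff_jq_neg_one, map_one, one_mul]
    exact inv_ne_zero hξ0
  · intro n hn
    rw [wpA4b_L_coeff, if_neg (by omega)]

/-- `j(dτ)` has the expansion `j(w^{Nd})`, i.e. the image of the formal series `JJ d`. -/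
theorem wpA4_genFn_one_hasWExp (N : ℕ) [NeZero N] (d : ℕ) (hd : d ∣ N) :
    HasWExp N (genFn 1 d) (coeffMap phi (qExpand Kbar N (JJ d))) := by
  have hN : N ≠ 0 := NeZero.ne N
  have hd0 : 0 < d := Nat.pos_of_ne_zero (fun h => hN (by simpa [h] using hd))
  have hN0 : 0 < N := Nat.pos_of_ne_zero hN
  have : NeZero d := ⟨hd0.ne'⟩
  have h1 : HasWExp N (genFn 1 d) (wpA4b_L ℂ (d * N) 1) := by
    apply wpA4b_hasWExp_of_qParam N _ (wpA5_genFn_mdiff 1 d) (d * N) (Nat.mul_pos hd0 hN0) 1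
      one_ne_zero
    intro τ
    refine ⟨scaleH d τ, by simp [genFn_apply], ?_⟩
    have h := wpA4b_qParam_eq N τ (scaleH d τ) d 0 1 one_ne_zero (one_dvd N)
      (by rw [coe_scaleH d hd0.ne']; simp)
    simpa using h
  have h2 : coeffMap phi (qExpand Kbar N (JJ d)) = wpA4b_L ℂ (d * N) 1 := by
    ext k
    rw [coeffMap_coeff, wpA4b_L_coeff, JJ_of_neZero]
    by_cases hNk : (N : ℤ) ∣ k
    · obtain ⟨k', rfl⟩ := hNk
      rw [qExpand_coeff_mul, coeffEmb_coeff]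
      by_cases hdk : (d : ℤ) ∣ k'
      · obtain ⟨j, rfl⟩ := hdk
        rw [qExpand_coeff_mul, eq_ratCast, map_ratCast]
        have hsum : (N : ℤ) * ((d : ℤ) * j) + ((d * N : ℕ) : ℤ) = ((d * N : ℕ) : ℤ) * (j + 1) := by
          push_cast; ring
        rw [hsum]
        have hdN0 : (0 : ℤ) < ((d * N : ℕ) : ℤ) := by exact_mod_cast Nat.mul_pos hd0 hN0
        by_cases hj : 0 ≤ j + 1
        · rw [if_pos (mul_nonneg hdN0.le hj)]
          obtain ⟨m, hm⟩ := Int.eq_ofNat_of_zero_le hj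
          rw [hm]
          have : (((d * N : ℕ) : ℤ) * ((m : ℕ) : ℤ)).toNat = d * N * m := by
            rw [← Nat.cast_mul, Int.toNat_natCast]
          rw [this]
          simp only [wpA4b_cf, dvd_mul_right, if_true,
            Nat.mul_div_cancel_left _ (Nat.mul_pos hd0 hN0), one_pow, mul_one, inv_one,
            eq_ratCast]
          congr 2
          rw [← hm]; ring
        · have hj' : j < -1 := by omega
          rw [if_neg (by
            intro h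
            have := (mul_nonneg_iff_of_pos_left hdN0).mp h
            exact hj this), coeff_jq_of_lt hj']
          simp
      · rw [qExpand_coeff_of_not_dvd d jq hdk]
        simp only [map_zero]
        split_ifs with h
        · rw [wpA4b_cf, if_neg]
          intro hdvd
          apply hdk
          have h3 : ((d * N : ℕ) : ℤ) ∣ (N : ℤ) * k' + ((d * N : ℕ) : ℤ) := by
            have := Int.natCast_dvd_natCast.mpr hdvd
            rwa [Int.toNat_of_nonneg h] at this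
          have h4 : ((d * N : ℕ) : ℤ) ∣ (N : ℤ) * k' := (Int.dvd_add_left dvd_rfl).mp h3
          obtain ⟨r, hr⟩ := h4
          refine ⟨r, ?_⟩
          have hNZ : (N : ℤ) ≠ 0 := by exact_mod_cast hN
          apply mul_left_cancel₀ hNZ
          rw [hr]; push_cast; ring
        · rfl
    · rw [qExpand_coeff_of_not_dvd N _ hNk, map_zero]
      split_ifs with h
      · rw [wpA4b_cf, if_neg]
        intro hdvd
        apply hNk
        have h3 : ((d * N : ℕ) : ℤ) ∣ k + ((d * N : ℕ) : ℤ) := by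
          have := Int.natCast_dvd_natCast.mpr hdvd
          rwa [Int.toNat_of_nonneg h] at this
        have h4 : ((d * N : ℕ) : ℤ) ∣ k := (Int.dvd_add_left dvd_rfl).mp h3
        exact (Dvd.intro_left (d : ℤ) (by push_cast; ring)).trans h4
      · rfl
  rw [h2]
  exact h1

end Fermat.Agent.S24
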