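import Fermat.Agent.S24.KleinJ
import Fermat.Agent.S24.InfExp
import Fermat.Agent.S24.InfGen

/-!
WPA4 of the S24 project: behaviour at `i∞` of the ring `ModRing N`
(exports `wpA4_rel_iff`, `wpA4_fixed`, `wpA4_stab`, `wpA4_ordInfty`).
-/

set_option autoImplicit false

open ModularCurve AlgebraicCurve MatrixGroups UpperHalfPlane ModularForm EisensteinSeries

open scoped Manifold

namespace Fermat.Agent.S24

/-! ### Formal preliminaries -/

theorem wpA4c_order_eq {R : Type*} [Zero R] {L : HahnSeries ℤ R} {n : ℤ} (h1 : L.coeff n ≠ 0)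
    (h2 : ∀ k : ℤ, k < n → L.coeff k = 0) : L.order = n := by
  refine le_antisymm (HahnSeries.order_le_of_coeff_ne_zero h1) (not_lt.1 fun h => ?_)
  have hL : L ≠ 0 := HahnSeries.ne_zero_of_coeff_ne_zero h1
  exact (HahnSeries.coeff_order_eq_zero.not.2 hL) (h2 _ h)

theorem wpA4c_phi_injective : Function.Injective phi := phi.injective

theorem wpA4c_coeffMap_phi_injective : Function.Injective (coeffMap phi) := by
  intro x y h
  ext k
  have := congrArg (fun L : LaurentSeries ℂ => L.coeff k) h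
  simp only [coeffMap_coeff] at this
  exact phi.injective this

theorem wpA4c_coeffMap_phi_C (c : Kbar) :
    coeffMap phi (HahnSeries.C c) = HahnSeries.C (phi c) := by
  ext k
  simp only [coeffMap_coeff, HahnSeries.C_apply, HahnSeries.coeff_single]
  split_ifs <;> simp

theorem wpA4c_order_coeffMap (L : LaurentSeries Kbar) : (coeffMap phi L).order = L.order := by
  by_cases hL : L = 0
  · subst hL; simp
  · refine wpA4c_order_eq ?_ ?_
    · rw [coeffMap_coeff]
      intro h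
      exact (HahnSeries.coeff_order_eq_zero.not.2 hL) (phi.injective (by simpa using h))
    · intro k hk
      rw [coeffMap_coeff, HahnSeries.coeff_eq_zero_of_lt_order hk, map_zero]

/-! ### Expansions of the elements of `ModRing N` -/

variable {N : ℕ} [NeZero N]

theorem wpA4c_hasWExp_algebraMap (c : Kbar) :
    HasWExp N (algebraMap Kbar (ℍ → ℂ) c) (coeffMap phi (HahnSeries.C c)) := by
  rw [wpA4c_coeffMap_phi_C]
  exact hasWExp_const N (phi c)

theorem wpA4c_exists_of_mem {f : ℍ → ℂ} (hf : f ∈ ModRing N) :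
    ∃ L : LaurentSeries Kbar, HasWExp N f (coeffMap phi L) := by
  unfold ModRing at hf
  induction hf using Algebra.adjoin_induction with
  | mem x hx =>
    obtain ⟨g, d, hd, rfl⟩ := hx
    obtain ⟨L, hL, -⟩ := wpA4_genFn_hasWExp N g d hd
    exact ⟨L, hL⟩
  | algebraMap c => exact ⟨HahnSeries.C c, wpA4c_hasWExp_algebraMap c⟩
  | add x y _ _ hx hy =>
    obtain ⟨L, hL⟩ := hx
    obtain ⟨M, hM⟩ := hy
    exact ⟨L + M, by rw [map_add]; exact hL.add hM⟩
  | mul x y _ _ hx hy =>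
    obtain ⟨L, hL⟩ := hx
    obtain ⟨M, hM⟩ := hy
    exact ⟨L * M, by rw [map_mul]; exact hL.mul hM⟩

/-! ### The order at `i∞` -/

open Classical in
/-- The order at `i∞` (in the parameter `w = e^{2πiτ/N}`) of a function with an expansion. -/
noncomputable def wpA4c_ord (N : ℕ) (f : ℍ → ℂ) : ℤ :=
  if h : ∃ L : LaurentSeries ℂ, HasWExp N f L then (Classical.choose h).order else 0

theorem wpA4c_ord_eq {f : ℍ → ℂ} {L : LaurentSeries ℂ} (h : HasWExp N f L) :
    wpA4c_ord N f = L.order := by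
  unfold wpA4c_ord
  rw [dif_pos ⟨L, h⟩]
  exact congrArg _ ((Classical.choose_spec (⟨L, h⟩ : ∃ L, HasWExp N f L)).unique h)

omit [NeZero N] in
theorem wpA4c_twistL_zero (k : ℕ) : twistL N k 0 = 0 := by
  ext n
  simp

omit [NeZero N] in
theorem wpA4c_order_twistL (k : ℕ) (L : LaurentSeries ℂ) : (twistL N k L).order = L.order := by
  by_cases hL : L = 0
  · subst hL; rw [wpA4c_twistL_zero]
  · refine wpA4c_order_eq ?_ ?_
    · rw [twistL_coeff]
      exact mul_ne_zero (Complex.exp_ne_zero _) (HahnSeries.coeff_order_eq_zero.not.2 hL)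
    · intro n hn
      rw [twistL_coeff, HahnSeries.coeff_eq_zero_of_lt_order hn, mul_zero]

theorem wpA4c_dvd_of_twistL_eq {k : ℕ} {L : LaurentSeries ℂ} (h : twistL N k L = L) {n : ℤ}
    (hn : L.coeff n ≠ 0) : (N : ℤ) ∣ (k : ℤ) * n := by
  have h1 := congrArg (fun M : LaurentSeries ℂ => M.coeff n) h
  simp only [twistL_coeff] at h1
  have h2 : Complex.exp (-(2 * (Real.pi : ℂ) * Complex.I * (k : ℂ) * (n : ℂ) / (N : ℂ))) = 1 :=
    mul_right_cancel₀ hn (by rw [h1, one_mul])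
  obtain ⟨m, hm⟩ := Complex.exp_eq_one_iff.1 h2
  have hN : (N : ℂ) ≠ 0 := Nat.cast_ne_zero.2 (NeZero.ne N)
  have hpi : (2 * (Real.pi : ℂ) * Complex.I) ≠ 0 := Complex.two_pi_I_ne_zero
  have h3 : ((k : ℂ) * (n : ℂ)) = (N : ℂ) * (-(m : ℂ)) := by
    field_simp at hm
    linear_combination -hm
  refine ⟨-m, ?_⟩
  exact_mod_cast h3

/-! ### The expansion of `kleinJ` -/

omit [NeZero N] in
theorem wpA4c_genFn_one_one : genFn 1 1 = kleinJ := by
  funext τ
  rw [genFn_apply, inv_one, one_smul]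
  congr 1
  ext
  rw [coe_scaleH 1 one_ne_zero]
  simp

omit [NeZero N] in
theorem wpA4c_JJ_one : JJ 1 = coeffEmb Kbar jq := by
  rw [JJ_of_neZero, qExpand_one_apply]

theorem wpA4c_hasWExp_kleinJ :
    HasWExp N kleinJ (coeffMap phi (qExpand Kbar N (coeffEmb Kbar jq))) := by
  have := wpA4_genFn_one_hasWExp N 1 (one_dvd N)
  rwa [wpA4c_genFn_one_one, wpA4c_JJ_one] at this

theorem wpA4c_jpow_coeff_self (M : ℕ) :
    ((qExpand Kbar N (coeffEmb Kbar jq)) ^ M).coeff (-((N : ℤ) * M)) = 1 := by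
  rw [← map_pow, ← map_pow, show -((N : ℤ) * M) = (N : ℤ) * (-(M : ℤ)) by ring,
    qExpand_coeff_mul, coeffEmb_coeff, coeff_jq_pow_self, map_one]

theorem wpA4c_jpow_coeff_of_lt (M : ℕ) {k : ℤ} (hk : k < -((N : ℤ) * M)) :
    ((qExpand Kbar N (coeffEmb Kbar jq)) ^ M).coeff k = 0 := by
  rw [← map_pow, ← map_pow]
  by_cases hdvd : (N : ℤ) ∣ k
  · obtain ⟨k', rfl⟩ := hdvd
    have hN : (0 : ℤ) < N := by exact_mod_cast Nat.pos_of_ne_zero (NeZero.ne N)
    have hk' : k' < -(M : ℤ) := by nlinarith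
    rw [qExpand_coeff_mul, coeffEmb_coeff, coeff_jq_pow_of_lt hk', map_zero]
  · exact qExpand_coeff_of_not_dvd N _ hdvd

theorem wpA4c_ord_kleinJ : wpA4c_ord N kleinJ = -(N : ℤ) := by
  rw [wpA4c_ord_eq wpA4c_hasWExp_kleinJ, wpA4c_order_coeffMap]
  have h1 := wpA4c_jpow_coeff_self (N := N) 1
  have h2 := fun k (hk : k < -((N : ℤ) * (1 : ℕ))) => wpA4c_jpow_coeff_of_lt (N := N) 1 hk
  simp only [pow_one, Nat.cast_one, mul_one] at h1 h2
  exact wpA4c_order_eq (by rw [h1]; exact one_ne_zero) h2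

/-! ### Export: the order function at `i∞` -/

theorem wpA4_ordInfty (N : ℕ) [NeZero N] : ∃ o : (ℍ → ℂ) → ℤ,
    (∀ f ∈ ModRing N, ∀ g ∈ ModRing N, f ≠ 0 → g ≠ 0 → o (f * g) = o f + o g) ∧
    (∀ f ∈ ModRing N, ∀ g ∈ ModRing N, f ≠ 0 → g ≠ 0 → f + g ≠ 0 →
      min (o f) (o g) ≤ o (f + g)) ∧
    (∀ c : Kbar, c ≠ 0 → o (algebraMap Kbar (ℍ → ℂ) c) = 0) ∧ o kleinJ = -(N : ℤ) ∧
    (∀ f ∈ ModRing N, o (actFn ModularGroup.T f) = o f) ∧
    (∀ f ∈ ModRing N, f ≠ 0 → ∀ k : ℕ, k ∣ N → actFn (ModularGroup.T ^ k) f = f →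
      ((N / k : ℕ) : ℤ) ∣ o f) := by
  refine ⟨wpA4c_ord N, ?_, ?_, ?_, wpA4c_ord_kleinJ, ?_, ?_⟩
  · intro f hf g hg hf0 hg0
    obtain ⟨L, hL⟩ := wpA4c_exists_of_mem hf
    obtain ⟨M, hM⟩ := wpA4c_exists_of_mem hg
    rw [wpA4c_ord_eq (hL.mul hM), wpA4c_ord_eq hL, wpA4c_ord_eq hM]
    exact HahnSeries.order_mul (fun h => hf0 (hL.eq_zero_iff.2 h)) (fun h => hg0 (hM.eq_zero_iff.2 h))
  · intro f hf g hg _ _ hfg
    obtain ⟨L, hL⟩ := wpA4c_exists_of_mem hf
    obtain ⟨M, hM⟩ := wpA4c_exists_of_mem hg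
    rw [wpA4c_ord_eq (hL.add hM), wpA4c_ord_eq hL, wpA4c_ord_eq hM]
    exact HahnSeries.min_order_le_order_add (fun h => hfg ((hL.add hM).eq_zero_iff.2 h))
  · intro c _
    rw [wpA4c_ord_eq (wpA4c_hasWExp_algebraMap c), wpA4c_order_coeffMap, HahnSeries.order_C]
  · intro f hf
    obtain ⟨L, hL⟩ := wpA4c_exists_of_mem hf
    have h1 := hL.twist 1
    rw [pow_one] at h1
    rw [wpA4c_ord_eq h1, wpA4c_ord_eq hL, wpA4c_order_twistL]
  · intro f hf hf0 k hk hinv
    obtain ⟨L, hL⟩ := wpA4c_exists_of_mem hf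
    have h1 := hL.twist k
    rw [hinv] at h1
    have h2 : twistL N k (coeffMap phi L) = coeffMap phi L := h1.unique hL
    have hL0 : coeffMap phi L ≠ 0 := fun h => hf0 (hL.eq_zero_iff.2 h)
    have h3 := wpA4c_dvd_of_twistL_eq h2 (HahnSeries.coeff_order_eq_zero.not.2 hL0)
    rw [wpA4c_ord_eq hL]
    obtain ⟨e, he⟩ := hk
    have hk0 : k ≠ 0 := by
      rintro rfl
      rw [zero_mul] at he
      exact NeZero.ne N he
    have hNk : N / k = e := by
      rw [he]
      exact Nat.mul_div_cancel_left e (Nat.pos_of_ne_zero hk0)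
    rw [hNk]
    obtain ⟨m, hm⟩ := h3
    refine ⟨m, ?_⟩
    have hk0' : (k : ℤ) ≠ 0 := by exact_mod_cast hk0
    apply mul_left_cancel₀ hk0'
    rw [hm, he]
    push_cast
    ring

/-! ### Export: the stabiliser of `j(Nτ)` -/

theorem wpA4c_JJ_coeff_self (d : ℕ) [NeZero d] :
    (qExpand Kbar N (JJ d)).coeff (-((N : ℤ) * d)) = 1 := by
  rw [JJ_of_neZero, show -((N : ℤ) * d) = (N : ℤ) * ((d : ℤ) * (-1)) by ring,
    qExpand_coeff_mul, coeffEmb_coeff, qExpand_coeff_mul, coeff_jq_neg_one, map_one]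

theorem wpA4c_JJ_coeff_of_lt (d : ℕ) [NeZero d] {k : ℤ} (hk : k < -((N : ℤ) * d)) :
    (qExpand Kbar N (JJ d)).coeff k = 0 := by
  have hN : (0 : ℤ) < N := by exact_mod_cast Nat.pos_of_ne_zero (NeZero.ne N)
  have hd : (0 : ℤ) < d := by exact_mod_cast Nat.pos_of_ne_zero (NeZero.ne d)
  by_cases hdvd : (N : ℤ) ∣ k
  · obtain ⟨k1, rfl⟩ := hdvd
    have hk1 : k1 < -(d : ℤ) := by nlinarith
    rw [qExpand_coeff_mul, JJ_of_neZero, coeffEmb_coeff]
    by_cases hdvd' : (d : ℤ) ∣ k1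
    · obtain ⟨k2, rfl⟩ := hdvd'
      have hk2 : k2 < -1 := by nlinarith
      rw [qExpand_coeff_mul, coeff_jq_of_lt hk2, map_zero]
    · rw [qExpand_coeff_of_not_dvd d _ hdvd', map_zero]
  · exact qExpand_coeff_of_not_dvd N _ hdvd

theorem wpA4_stab (N : ℕ) [NeZero N] (g : SL(2, ℤ)) (h : actFn g (genFn 1 N) = genFn 1 N) :
    g ∈ CongruenceSubgroup.Gamma0 N := by
  rw [actFn_genFn, mul_one] at h
  obtain ⟨L, hL, hL1, hL2⟩ := wpA4_genFn_hasWExp N g N dvd_rfl
  have h1 := wpA4_genFn_one_hasWExp N N dvd_rfl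
  rw [h] at hL
  have hLeq : L = qExpand Kbar N (JJ N) := wpA4c_coeffMap_phi_injective (hL.unique h1)
  have ho1 : L.order = -((Nat.gcd N ((g⁻¹ : SL(2, ℤ)) 1 0).natAbs ^ 2 * (N / N) : ℕ) : ℤ) :=
    wpA4c_order_eq hL1 hL2
  have ho2 : L.order = -((N : ℤ) * N) := by
    rw [hLeq]
    exact wpA4c_order_eq (by rw [wpA4c_JJ_coeff_self]; exact one_ne_zero)
      (fun k hk => wpA4c_JJ_coeff_of_lt N hk)
  have hNpos : 0 < N := Nat.pos_of_ne_zero (NeZero.ne N)
  rw [ho1, Nat.div_self hNpos, mul_one] at ho2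
  have h3 : Nat.gcd N ((g⁻¹ : SL(2, ℤ)) 1 0).natAbs ^ 2 = N ^ 2 := by
    have : ((Nat.gcd N ((g⁻¹ : SL(2, ℤ)) 1 0).natAbs ^ 2 : ℕ) : ℤ) = ((N ^ 2 : ℕ) : ℤ) := by
      push_cast at ho2 ⊢
      linarith
    exact_mod_cast this
  have h4 : Nat.gcd N ((g⁻¹ : SL(2, ℤ)) 1 0).natAbs = N :=
    Nat.pow_left_injective (n := 2) (by norm_num) h3
  have h5 : N ∣ ((g⁻¹ : SL(2, ℤ)) 1 0).natAbs := by
    have := Nat.gcd_dvd_right N ((g⁻¹ : SL(2, ℤ)) 1 0).natAbs
    rwa [h4] at this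
  have h6 : (N : ℤ) ∣ (g⁻¹ : SL(2, ℤ)) 1 0 := Int.natCast_dvd.2 h5
  have h7 : g⁻¹ ∈ CongruenceSubgroup.Gamma0 N := by
    rw [CongruenceSubgroup.Gamma0_mem]
    exact (ZMod.intCast_zmod_eq_zero_iff_dvd _ N).2 h6
  simpa using (CongruenceSubgroup.Gamma0 N).inv_mem h7

/-! ### Export: polynomial relations -/

theorem wpA4c_hasWExp_aeval (P : MvPolynomial N.divisors Kbar) :
    HasWExp N (MvPolynomial.aeval (fun d : N.divisors => genFn 1 d.1) P)
      (coeffMap phi (qExpand Kbar N (MvPolynomial.aeval (fun d : N.divisors => JJ d.1) P))) := by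
  induction P using MvPolynomial.induction_on with
  | C c =>
    rw [MvPolynomial.aeval_C, MvPolynomial.aeval_C, algebraMap_laurentSeries_eq_single,
      qExpand_single, mul_zero]
    exact wpA4c_hasWExp_algebraMap c
  | add p q hp hq =>
    rw [map_add, map_add, map_add, map_add]
    exact hp.add hq
  | mul_X p i hp =>
    rw [map_mul, map_mul, map_mul, map_mul, MvPolynomial.aeval_X, MvPolynomial.aeval_X]
    exact hp.mul (wpA4_genFn_one_hasWExp N i.1 (Nat.dvd_of_mem_divisors i.2))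

theorem wpA4_rel_iff (N : ℕ) [NeZero N] (P : MvPolynomial N.divisors Kbar) :
    MvPolynomial.aeval (fun d : N.divisors => JJ d.1) P = 0 ↔
      MvPolynomial.aeval (fun d : N.divisors => genFn 1 d.1) P = 0 := by
  have h := wpA4c_hasWExp_aeval (N := N) P
  rw [h.eq_zero_iff]
  constructor
  · intro h0
    rw [h0, map_zero, map_zero]
  · intro h0
    apply qExpand_injective (R := Kbar) N
    apply wpA4c_coeffMap_phi_injective
    rw [h0, map_zero, map_zero]

/-! ### Export: invariant elements -/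

omit [NeZero N] in
theorem wpA4c_slash_eq {f : ℍ → ℂ} (hinv : ∀ g : SL(2, ℤ), actFn g f = f) (γ : SL(2, ℤ)) :
    f ∣[(0 : ℤ)] γ = f := by
  funext τ
  have h := congrFun (hinv γ⁻¹) τ
  rw [actFn_apply, inv_inv] at h
  rw [ModularForm.SL_slash_apply, h]
  simp

omit [NeZero N] in
/-- A holomorphic `SL(2,ℤ)`-invariant function with a limit at `i∞` is constant. -/
theorem wpA4c_const_of_invariant {f : ℍ → ℂ} (hmd : MDiff f)
    (hinv : ∀ g : SL(2, ℤ), actFn g f = f) {c : ℂ}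
    (ht : Filter.Tendsto f atImInfty (nhds c)) : f = fun _ => c := by
  have hbdd : IsBoundedAtImInfty f := ht.isBigO_one ℝ
  let F : ModularForm 𝒮ℒ 0 :=
    { toFun := f
      slash_action_eq' := by
        rintro _ ⟨γ, rfl⟩
        exact wpA4c_slash_eq hinv γ
      holo' := hmd
      bdd_at_cusps' := by
        intro c hc
        rw [OnePoint.isBoundedAt_iff_forall_SL2Z hc]
        intro γ _
        rw [wpA4c_slash_eq hinv γ]
        exact hbdd }
  obtain ⟨c', hc'⟩ := ModularFormClass.levelOne_weight_zero_const F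
  have hF : (F : ℍ → ℂ) = f := rfl
  rw [hF] at hc'
  have h2 : Filter.Tendsto f atImInfty (nhds c') := by
    rw [hc']
    exact tendsto_const_nhds
  have : c = c' := tendsto_nhds_unique ht h2
  rw [hc', this]
  rfl


omit [NeZero N] in
theorem wpA4c_actFn_kleinJ (g : SL(2, ℤ)) : actFn g kleinJ = kleinJ := by
  funext τ
  rw [actFn_apply, wpA1_kleinJ_smul]

omit [NeZero N] in
theorem wpA4c_kleinJ_mem : kleinJ ∈ ModRing N := by
  rw [← wpA4c_genFn_one_one]
  exact genFn_mem_ModRing N 1 (one_dvd N)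

theorem wpA4c_hasWExp_pow {f : ℍ → ℂ} {L : LaurentSeries ℂ} (h : HasWExp N f L) (k : ℕ) :
    HasWExp N (f ^ k) (L ^ k) := by
  induction k with
  | zero =>
    rw [pow_zero, pow_zero]
    have := hasWExp_const N (1 : ℂ)
    rwa [map_one] at this
  | succ k ih =>
    rw [pow_succ, pow_succ]
    exact ih.mul h

theorem wpA4c_fixed_aux (M : ℕ) : ∀ f : ℍ → ℂ, f ∈ ModRing N →
    (∀ g : SL(2, ℤ), actFn g f = f) → ∀ L : LaurentSeries Kbar, HasWExp N f (coeffMap phi L) →
    (∀ n : ℤ, n < -(M : ℤ) → L.coeff n = 0) → f ∈ Algebra.adjoin Kbar {kleinJ} := by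
  induction M with
  | zero =>
    intro f hf hinv L hL hcoeff
    have ht := hL.tendsto (by
      intro n hn
      rw [coeffMap_coeff, hcoeff n (by simpa using hn), map_zero])
    rw [coeffMap_coeff] at ht
    have hconst := wpA4c_const_of_invariant hL.mdiff hinv ht
    have : f = algebraMap Kbar (ℍ → ℂ) (L.coeff 0) := by
      rw [hconst]
      rfl
    rw [this]
    exact Subalgebra.algebraMap_mem _ (L.coeff 0)
  | succ M ih =>
    intro f hf hinv L hL hcoeff
    by_cases hc : L.coeff (-((M : ℤ) + 1)) = 0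
    · apply ih f hf hinv L hL
      intro n hn
      rcases lt_or_eq_of_le (show n ≤ -((M : ℤ) + 1) by omega) with h | h
      · exact hcoeff n (by push_cast; omega)
      · rw [h]; exact hc
    · have h1 := hL.twist 1
      rw [pow_one, hinv] at h1
      have h2 : twistL N 1 (coeffMap phi L) = coeffMap phi L := h1.unique hL
      have h3 : (N : ℤ) ∣ ((1 : ℕ) : ℤ) * (-((M : ℤ) + 1)) :=
        wpA4c_dvd_of_twistL_eq h2 (by
          rw [coeffMap_coeff]
          exact fun h => hc (phi.injective (by simpa using h)))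
      obtain ⟨e, he⟩ := h3
      have hNpos : (0 : ℤ) < N := by exact_mod_cast Nat.pos_of_ne_zero (NeZero.ne N)
      have he0 : e < 0 := by
        by_contra hcon
        have : 0 ≤ (N : ℤ) * e := mul_nonneg hNpos.le (not_lt.1 hcon)
        push_cast at he
        omega
      obtain ⟨M', hM'⟩ : ∃ M' : ℕ, (M' : ℤ) = -e := ⟨(-e).toNat, Int.toNat_of_nonneg (by omega)⟩
      have hNM : (N : ℤ) * M' = (M : ℤ) + 1 := by
        rw [hM']
        push_cast at he
        linarith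
      set c := L.coeff (-((M : ℤ) + 1)) with hcdef
      have hf' : f + algebraMap Kbar (ℍ → ℂ) (-c) * kleinJ ^ M' ∈ ModRing N :=
        Subalgebra.add_mem _ hf (Subalgebra.mul_mem _ (Subalgebra.algebraMap_mem _ _)
          (Subalgebra.pow_mem _ wpA4c_kleinJ_mem _))
      have hinv' : ∀ g : SL(2, ℤ), actFn g (f + algebraMap Kbar (ℍ → ℂ) (-c) * kleinJ ^ M') =
          f + algebraMap Kbar (ℍ → ℂ) (-c) * kleinJ ^ M' := by
        intro g
        funext τ
        have e1 := congrFun (hinv g) τ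
        have e2 := congrFun (wpA4c_actFn_kleinJ g) τ
        simp only [actFn_apply, Pi.add_apply, Pi.mul_apply, Pi.pow_apply] at e1 e2 ⊢
        rw [e1, e2]
        rfl
      have hL' : HasWExp N (f + algebraMap Kbar (ℍ → ℂ) (-c) * kleinJ ^ M')
          (coeffMap phi (L + HahnSeries.C (-c) * (qExpand Kbar N (coeffEmb Kbar jq)) ^ M')) := by
        rw [map_add, map_mul, map_pow]
        exact hL.add ((wpA4c_hasWExp_algebraMap (-c)).mul (wpA4c_hasWExp_pow wpA4c_hasWExp_kleinJ M'))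
      have hcoeff' : ∀ n : ℤ, n < -(M : ℤ) →
          (L + HahnSeries.C (-c) * (qExpand Kbar N (coeffEmb Kbar jq)) ^ M').coeff n = 0 := by
        intro n hn
        rw [HahnSeries.coeff_add, HahnSeries.C_mul_eq_smul, HahnSeries.coeff_smul, smul_eq_mul]
        rcases lt_or_eq_of_le (show n ≤ -((M : ℤ) + 1) by omega) with h | h
        · rw [hcoeff n (by push_cast; omega), wpA4c_jpow_coeff_of_lt M' (by rw [hNM]; exact h)]
          simp
        · have h' : n = -((N : ℤ) * M') := by rw [hNM]; exact h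
          rw [h', wpA4c_jpow_coeff_self, ← hNM] at *
          rw [hcdef]
          ring
      have hmem := ih _ hf' hinv' _ hL' hcoeff'
      have hfeq : f = (f + algebraMap Kbar (ℍ → ℂ) (-c) * kleinJ ^ M') +
          algebraMap Kbar (ℍ → ℂ) c * kleinJ ^ M' := by
        rw [map_neg]
        ring
      have hj : kleinJ ∈ Algebra.adjoin Kbar ({kleinJ} : Set (ℍ → ℂ)) :=
        Algebra.subset_adjoin (Set.mem_singleton _)
      have hterm : algebraMap Kbar (ℍ → ℂ) c * kleinJ ^ M' ∈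
          Algebra.adjoin Kbar ({kleinJ} : Set (ℍ → ℂ)) :=
        Subalgebra.mul_mem _ (Subalgebra.algebraMap_mem _ _) (Subalgebra.pow_mem _ hj _)
      rw [hfeq]
      exact Subalgebra.add_mem _ hmem hterm

theorem wpA4_fixed (N : ℕ) [NeZero N] (f : ℍ → ℂ) (hf : f ∈ ModRing N)
    (hinv : ∀ g : SL(2, ℤ), actFn g f = f) : f ∈ Algebra.adjoin Kbar {kleinJ} := by
  obtain ⟨L, hL⟩ := wpA4c_exists_of_mem hf
  by_cases hL0 : L = 0
  · have : f = 0 := hL.eq_zero_iff.2 (by rw [hL0, map_zero])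
    rw [this]
    exact Subalgebra.zero_mem _
  · obtain ⟨M, hM⟩ : ∃ M : ℕ, -(M : ℤ) ≤ L.order :=
      ⟨(-L.order).toNat, by have := Int.self_le_toNat (-L.order); omega⟩
    exact wpA4c_fixed_aux M f hf hinv L hL
      (fun n hn => HahnSeries.coeff_eq_zero_of_lt_order (lt_of_lt_of_le hn hM))

end Fermat.Agent.S24
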