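import Fermat.Agent.S24.AnDefs

/-!
# S24 — WPA2 (owner: helper91): Klein's `j` is surjective `ℍ → ℂ`

Main export: `wpA2_kleinJ_surjective : Function.Surjective kleinJ`.

Proof: the image is open (open mapping theorem on the upper half plane, `kleinJ` is not constant
because `‖kleinJ τ‖ → ∞` at `i∞`) and closed (by `SL(2,ℤ)`-invariance the values of norm `< R`
are already taken on a compact part of the standard fundamental domain), and `ℂ` is connected.

The file is self-contained: the three basic facts on `kleinJ` that it needs (holomorphy,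
invariance, growth at `i∞`) are proved here under `wpA2_`-prefixed names.
-/

set_option autoImplicit false

open ModularCurve AlgebraicCurve MatrixGroups UpperHalfPlane ModularForm EisensteinSeries
open scoped Manifold
open CongruenceSubgroup

namespace Fermat.Agent.S24

/-- The weight-`k` transformation rule of a level-one modular form. -/
theorem wpA2_modularForm_smul {k : ℤ} (f : ModularForm 𝒮ℒ k) (g : SL(2, ℤ)) (τ : ℍ) :
    f (g • τ) = denom g τ ^ k * f τ := by
  have : SlashInvariantFormClass (ModularForm 𝒮ℒ k) Γ(1) k := Gamma_one_coe_eq_SL ▸ inferInstance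
  exact SlashInvariantForm.slash_action_eqn_SL'' f (mem_Gamma_one g) τ

/-- The weight-`k` transformation rule of a level-one cusp form. -/
theorem wpA2_cuspForm_smul {k : ℤ} (f : CuspForm 𝒮ℒ k) (g : SL(2, ℤ)) (τ : ℍ) :
    f (g • τ) = denom g τ ^ k * f τ := by
  have : SlashInvariantFormClass (CuspForm 𝒮ℒ k) Γ(1) k := Gamma_one_coe_eq_SL ▸ inferInstance
  exact SlashInvariantForm.slash_action_eqn_SL'' f (mem_Gamma_one g) τ

/-- `kleinJ` is `SL(2,ℤ)`-invariant. -/
theorem wpA2_kleinJ_smul (g : SL(2, ℤ)) (τ : ℍ) : kleinJ (g • τ) = kleinJ τ := by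
  have h4 := wpA2_modularForm_smul E₄ g τ
  have hΔ := wpA2_cuspForm_smul CuspForm.discriminant g τ
  have hd : denom g τ ≠ 0 := denom_ne_zero g τ
  simp only [CuspForm.coe_discriminant] at hΔ
  unfold kleinJ
  rw [h4, hΔ]
  have e : (denom g τ ^ (4 : ℤ)) ^ 3 = denom g τ ^ (12 : ℤ) := by
    rw [← zpow_natCast, ← zpow_mul]; norm_num
  rw [mul_pow, e, mul_div_mul_left _ _ (zpow_ne_zero _ hd)]

/-- `kleinJ` is holomorphic on the upper half plane (`DifferentiableOn` form). -/
theorem wpA2_kleinJ_differentiableOn :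
    DifferentiableOn ℂ (kleinJ ∘ ofComplex) {z : ℂ | 0 < z.im} := by
  have h4 : DifferentiableOn ℂ ((E₄ : ℍ → ℂ) ∘ ofComplex) {z : ℂ | 0 < z.im} :=
    UpperHalfPlane.mdifferentiable_iff.mp (ModularFormClass.holo E₄)
  have hΔ : DifferentiableOn ℂ ((CuspForm.discriminant : ℍ → ℂ) ∘ ofComplex) {z : ℂ | 0 < z.im} :=
    UpperHalfPlane.mdifferentiable_iff.mp (CuspFormClass.holo CuspForm.discriminant)
  exact (h4.pow 3).div hΔ (fun z _ => ModularForm.discriminant_ne_zero (ofComplex z))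

/-- `kleinJ` is holomorphic on the upper half plane. -/
theorem wpA2_kleinJ_mdiff : MDiff kleinJ :=
  UpperHalfPlane.mdifferentiable_iff.mpr wpA2_kleinJ_differentiableOn

/-- `E₄ → 1` at `i∞`. -/
theorem wpA2_E4_tendsto : Filter.Tendsto (fun τ : ℍ => E₄ τ) atImInfty (nhds 1) := by
  have han : AnalyticAt ℂ (cuspFunction 1 E₄) 0 :=
    ModularFormClass.analyticAt_cuspFunction_zero E₄ one_pos one_mem_strictPeriods_SL
  have h0 : cuspFunction 1 E₄ 0 = 1 := by
    have := EisensteinSeries.E_qExpansion_coeff_zero (k := 4) (by norm_num) ⟨2, rfl⟩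
    rw [qExpansion_coeff] at this
    simpa using this
  have hq := qParam_tendsto_atImInfty (h := 1) one_pos
  have := han.continuousAt.tendsto.comp hq
  rw [h0] at this
  refine this.congr (fun τ => ?_)
  exact SlashInvariantFormClass.eq_cuspFunction E₄ τ one_mem_strictPeriods_SL one_ne_zero

/-- `‖kleinJ τ‖ → ∞` at `i∞`. -/
theorem wpA2_norm_kleinJ_tendsto :
    Filter.Tendsto (fun τ : ℍ => ‖kleinJ τ‖) atImInfty Filter.atTop := by
  have hΔ : Filter.Tendsto ModularForm.discriminant atImInfty (nhds 0) :=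
    ModularForm.discriminant_isZeroAtImInfty
  have hΔ' : Filter.Tendsto ModularForm.discriminant atImInfty (nhdsWithin 0 {0}ᶜ) :=
    tendsto_nhdsWithin_iff.mpr
      ⟨hΔ, Filter.Eventually.of_forall fun τ => ModularForm.discriminant_ne_zero τ⟩
  have h1 : Filter.Tendsto (fun τ : ℍ => ‖(ModularForm.discriminant τ)⁻¹‖) atImInfty
      Filter.atTop := tendsto_norm_inv_nhdsNE_zero_atTop.comp hΔ'
  have h2 : Filter.Tendsto (fun τ : ℍ => ‖E₄ τ‖ ^ 3) atImInfty (nhds 1) := by
    have := (wpA2_E4_tendsto.norm).pow 3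
    simpa using this
  have h3 := Filter.Tendsto.pos_mul_atTop one_pos h2 h1
  refine h3.congr (fun τ => ?_)
  unfold kleinJ
  rw [div_eq_mul_inv, norm_mul, norm_pow]

/-- The range of `kleinJ` is open. -/
theorem wpA2_isOpen_range : IsOpen (Set.range kleinJ) := by
  have hUo : IsOpen {z : ℂ | 0 < z.im} := isOpen_lt continuous_const Complex.continuous_im
  have hFU : (kleinJ ∘ ofComplex) '' {z : ℂ | 0 < z.im} = Set.range kleinJ := by
    ext w
    constructor
    · rintro ⟨z, -, rfl⟩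
      exact ⟨ofComplex z, rfl⟩
    · rintro ⟨τ, rfl⟩
      exact ⟨(τ : ℂ), τ.2, by simp⟩
  have han : AnalyticOnNhd ℂ (kleinJ ∘ ofComplex) {z : ℂ | 0 < z.im} :=
    wpA2_kleinJ_differentiableOn.analyticOnNhd hUo
  have hconn : IsPreconnected {z : ℂ | 0 < z.im} := (convex_halfSpace_im_gt 0).isPreconnected
  rcases han.is_constant_or_isOpen hconn with ⟨w, hw⟩ | h
  · exfalso
    have h1 := wpA2_norm_kleinJ_tendsto.eventually (Filter.eventually_gt_atTop ‖w‖)
    obtain ⟨τ, hτ⟩ := h1.exists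
    have h2 : kleinJ τ = w := by
      have := hw (τ : ℂ) τ.2
      simpa using this
    rw [h2] at hτ
    exact lt_irrefl _ hτ
  · rw [← hFU]
    exact h _ subset_rfl hUo

/-- The range of `kleinJ` is closed. -/
theorem wpA2_isClosed_range : IsClosed (Set.range kleinJ) := by
  rw [← closure_subset_iff_isClosed]
  intro w hw
  obtain ⟨B, hB⟩ := (UpperHalfPlane.atImInfty_mem _).mp
    (wpA2_norm_kleinJ_tendsto.eventually (Filter.eventually_ge_atTop (‖w‖ + 1)))
  have hKc : IsCompact (Set.Icc (-(1 / 2) : ℝ) (1 / 2) ×ℂ Set.Icc (1 / 2 : ℝ) B) :=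
    isCompact_Icc.reProdIm isCompact_Icc
  have hKU : (Set.Icc (-(1 / 2) : ℝ) (1 / 2) ×ℂ Set.Icc (1 / 2 : ℝ) B) ⊆ {z : ℂ | 0 < z.im} :=
    fun z hz => lt_of_lt_of_le (by norm_num) hz.2.1
  have hFK : IsClosed ((kleinJ ∘ ofComplex) ''
      (Set.Icc (-(1 / 2) : ℝ) (1 / 2) ×ℂ Set.Icc (1 / 2 : ℝ) B)) :=
    (hKc.image_of_continuousOn (wpA2_kleinJ_differentiableOn.continuousOn.mono hKU)).isClosed
  have hsub : Set.range kleinJ ∩ Metric.ball 0 (‖w‖ + 1) ⊆ (kleinJ ∘ ofComplex) ''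
      (Set.Icc (-(1 / 2) : ℝ) (1 / 2) ×ℂ Set.Icc (1 / 2 : ℝ) B) := by
    rintro _ ⟨⟨τ, rfl⟩, hτ⟩
    obtain ⟨g, hg⟩ := ModularGroup.exists_smul_mem_fd τ
    have hj : kleinJ (g • τ) = kleinJ τ := wpA2_kleinJ_smul g τ
    have hτ' : ‖kleinJ τ‖ < ‖w‖ + 1 := by simpa using hτ
    refine ⟨((g • τ : ℍ) : ℂ), ⟨?_, ?_, ?_⟩, ?_⟩
    · exact abs_le.mp hg.2
    · have h3 := ModularGroup.three_le_four_mul_im_sq_of_mem_fd hg
      have hpos := (g • τ).im_pos
      change (1 / 2 : ℝ) ≤ (g • τ).im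
      nlinarith
    · by_contra hlt
      have h5 : B ≤ (g • τ).im := le_of_lt (not_le.mp hlt)
      have h6 : ‖w‖ + 1 ≤ ‖kleinJ (g • τ)‖ := hB (g • τ) h5
      rw [hj] at h6
      exact absurd hτ' (not_lt.mpr h6)
    · change kleinJ (ofComplex ((g • τ : ℍ) : ℂ)) = kleinJ τ
      rw [ofComplex_apply, hj]
  have hw' : w ∈ closure (Set.range kleinJ ∩ Metric.ball 0 (‖w‖ + 1)) := by
    rw [mem_closure_iff_nhds] at hw ⊢
    intro t ht
    have hb : Metric.ball (0 : ℂ) (‖w‖ + 1) ∈ nhds w :=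
      Metric.isOpen_ball.mem_nhds (by simp)
    obtain ⟨x, hx⟩ := hw (t ∩ Metric.ball 0 (‖w‖ + 1)) (Filter.inter_mem ht hb)
    exact ⟨x, hx.1.1, hx.2, hx.1.2⟩
  obtain ⟨z, -, rfl⟩ := (closure_minimal hsub hFK) hw'
  exact ⟨ofComplex z, rfl⟩

/-- **WPA2**: Klein's `j`-function takes every complex value on the upper half plane. -/
theorem wpA2_kleinJ_surjective : Function.Surjective kleinJ :=
  Set.range_eq_univ.mp
    (IsClopen.eq_univ ⟨wpA2_isClosed_range, wpA2_isOpen_range⟩ (Set.range_nonempty _))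

end Fermat.Agent.S24
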