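import Fermat.Agent.S24.ModDataCore
import Fermat.Agent.S24.KleinJ
import Fermat.Agent.S24.KleinJSurj
import Fermat.Agent.S24.KleinJOrder
import Fermat.Agent.S24.ModField
import Fermat.Agent.S24.Infinity

/-!
S24, work package WPA5(b): `Nonempty (ModularData N)`, from `ModDataCore` and the analytic work
packages WPA1-WPA5(a).
-/

set_option autoImplicit false

open ModularCurve AlgebraicCurve MatrixGroups UpperHalfPlane ModularForm EisensteinSeries
open scoped Manifold

namespace Fermat.Agent.S24

theorem wpA5b3_inputs (N : ℕ) [NeZero N] : wpA5b3_Inputs N where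
  kleinJ_smul := wpA1_kleinJ_smul
  kleinJ_surjective := wpA2_kleinJ_surjective
  deriv_ne_zero := wpA3_deriv_ne_zero
  ST_smul_rho := wpA3_ST_smul_rho
  order_rho := wpA3_order_rho
  order_I := wpA3_order_I
  rel_iff := wpA4_rel_iff N
  fixed := wpA4_fixed N
  stab := wpA4_stab N
  ordInfty := wpA4_ordInfty N
  mdiff_of_mem := wpA5_mdiff_of_mem N
  analyticOrderAt_ne_top := wpA5_analyticOrderAt_ne_top N
  ordAt_mul := wpA5_ordAt_mul N
  ordAt_add := wpA5_ordAt_add N
  ordAt_const := wpA5_ordAt_const
  ordAt_actFn := wpA5_ordAt_actFn N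
  dvd_ordAt := wpA5_dvd_ordAt N

/-- **WPA5(b)**: the analytic input of S24. -/
theorem wpA_nonempty_modularData (N : ℕ) [NeZero N] : Nonempty (ModularData N) :=
  haveI := wpA5b3_inputs N
  wpA5b3_nonempty_modularData N

end Fermat.Agent.S24
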