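import Fermat.Agent.S24.PlacesBasicCore
import Fermat.Agent.S24.Places

/-!
S24, work package WP1b (owner: helper97): the two "principal divisor" lemmas, which use
WP1a (`Places.lean`); the other six lemmas of WP1b are in `PlacesBasicCore.lean`.
-/

set_option autoImplicit false

open ModularCurve AlgebraicCurve MatrixGroups IntermediateField

namespace Fermat.Agent.S24

variable {K F : Type*} [Field K] [IsAlgClosed K] [CharZero K] [Field F] [Algebra K F]

omit [IsAlgClosed K] [CharZero K] in
theorem wp1b_transcendental_inv {f : F} (hf : Transcendental K f) : Transcendental K f⁻¹ := by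
  intro h
  apply hf
  have := h.inv
  rwa [inv_inv] at this

omit [IsAlgClosed K] [CharZero K] in
theorem wp1b_adjoin_inv (f : F) : K⟮f⁻¹⟯ = K⟮f⟯ := by
  apply le_antisymm
  · rw [IntermediateField.adjoin_simple_le_iff]
    exact inv_mem (IntermediateField.mem_adjoin_simple_self K f)
  · rw [IntermediateField.adjoin_simple_le_iff]
    have := inv_mem (IntermediateField.mem_adjoin_simple_self K f⁻¹)
    rwa [inv_inv] at this

omit [IsAlgClosed K] [CharZero K] in
theorem wp1b_finrank_adjoin_inv (f : F) :
    Module.finrank K⟮f⁻¹⟯ F = Module.finrank K⟮f⟯ F := by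
  rw [wp1b_adjoin_inv]

theorem wp1_finite_ord_ne_zero (y : F) (hy : Transcendental K y) [FiniteDimensional K⟮y⟯ F]
    (f : F) (hf : f ≠ 0) : {v : Place K F | v.ord f ≠ 0}.Finite := by
  by_cases halg : IsAlgebraic K f
  · obtain ⟨c, rfl⟩ := wp1b_exists_eq_algebraMap_of_isAlgebraic halg
    have : {v : Place K F | v.ord (algebraMap K F c) ≠ 0} = ∅ := by
      ext v
      simp [wp1_ord_algebraMap]
    rw [this]
    exact Set.finite_empty
  · have htr : Transcendental K f := halg
    have htr' : Transcendental K f⁻¹ := wp1b_transcendental_inv htr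
    have : FiniteDimensional K⟮f⟯ F := wp1_finite_of_transcendental y hy f htr
    have : FiniteDimensional K⟮f⁻¹⟯ F := wp1_finite_of_transcendental y hy f⁻¹ htr'
    refine ((wp1_finite_zeros f htr).union (wp1_finite_zeros f⁻¹ htr')).subset ?_
    intro v hv
    simp only [Set.mem_ofPred_eq] at hv
    simp only [Set.mem_union, Set.mem_ofPred_eq, v.ord_inv]
    omega

theorem wp1_sum_ord_eq_zero (y : F) (hy : Transcendental K y) [FiniteDimensional K⟮y⟯ F]
    (f : F) (hf : f ≠ 0) :
    ∑ v ∈ (wp1_finite_ord_ne_zero y hy f hf).toFinset, v.ord f = 0 := by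
  classical
  by_cases halg : IsAlgebraic K f
  · obtain ⟨c, rfl⟩ := wp1b_exists_eq_algebraMap_of_isAlgebraic halg
    exact Finset.sum_eq_zero fun v _ => wp1_ord_algebraMap v c
  · have htr : Transcendental K f := halg
    have htr' : Transcendental K f⁻¹ := wp1b_transcendental_inv htr
    have : FiniteDimensional K⟮f⟯ F := wp1_finite_of_transcendental y hy f htr
    have : FiniteDimensional K⟮f⁻¹⟯ F := wp1_finite_of_transcendental y hy f⁻¹ htr'
    have hZ := wp1_sum_ord_zeros f htr
    have hP := wp1_sum_ord_zeros f⁻¹ htr'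
    rw [wp1b_finrank_adjoin_inv] at hP
    have hS : (wp1_finite_ord_ne_zero y hy f hf).toFinset
        = (wp1_finite_zeros f htr).toFinset ∪ (wp1_finite_zeros f⁻¹ htr').toFinset := by
      ext v
      simp only [Set.Finite.mem_toFinset, Set.mem_ofPred_eq, Finset.mem_union, v.ord_inv]
      omega
    have hdisj : Disjoint (wp1_finite_zeros f htr).toFinset (wp1_finite_zeros f⁻¹ htr').toFinset := by
      rw [Finset.disjoint_left]
      intro v h1 h2
      simp only [Set.Finite.mem_toFinset, Set.mem_ofPred_eq, v.ord_inv] at h1 h2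
      omega
    rw [hS, Finset.sum_union hdisj, hZ]
    have hP' : ∑ v ∈ (wp1_finite_zeros f⁻¹ htr').toFinset, v.ord f = -(Module.finrank K⟮f⟯ F : ℤ) := by
      rw [← hP, ← Finset.sum_neg_distrib]
      exact Finset.sum_congr rfl fun v _ => by rw [v.ord_inv, neg_neg]
    rw [hP']
    ring

end Fermat.Agent.S24
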