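import Fermat.Agent.S24.Defs
import Fermat.Agent.Lib.Gamma0Cosets

/-!
# WP5-7 glue: coset combinatorics of `SL(2,ℤ) / Γ₀(N)` in the shape used by the S24 assembly

The four counts are proved in `Fermat.Agent.Lib` (`card_quotient_Gamma0`, `card_fixedBy_S`,
`card_fixedBy_ST`, `card_orbits_T`); here they are restated for `Cosets N`, subtypes of fixed
points and `numOrbits (MulAction.toPerm _)`.
-/

set_option autoImplicit false

open ModularCurve AlgebraicCurve MatrixGroups IntermediateField

namespace Fermat.Agent.S24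

/-- Orbits of `zpowers (toPerm g)` on `X` are the orbits of `zpowers g`. -/
theorem wp567_numOrbits_toPerm {G X : Type*} [Group G] [MulAction G X] (g : G) :
    numOrbits (MulAction.toPerm g : Equiv.Perm X) =
      Nat.card (MulAction.orbitRel.Quotient (Subgroup.zpowers g) X) := by
  unfold numOrbits
  refine Nat.card_congr (Quotient.congr (Equiv.refl X) ?_)
  intro a b
  have key : ∀ k : ℤ, ((MulAction.toPerm g : Equiv.Perm X) ^ k) b = g ^ k • b := by
    intro k
    have h : (MulAction.toPerm g : Equiv.Perm X) ^ k = MulAction.toPerm (g ^ k) :=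
      (map_zpow (MulAction.toPermHom G X) g k).symm
    rw [h]
    rfl
  change (MulAction.orbitRel (Subgroup.zpowers (MulAction.toPerm g : Equiv.Perm X)) X) a b ↔
    (MulAction.orbitRel (Subgroup.zpowers g) X) a b
  rw [MulAction.orbitRel_apply, MulAction.orbitRel_apply, MulAction.mem_orbit_iff,
    MulAction.mem_orbit_iff]
  constructor
  · rintro ⟨⟨h, hh⟩, hb⟩
    obtain ⟨k, rfl⟩ := Subgroup.mem_zpowers_iff.mp hh
    refine ⟨⟨g ^ k, Subgroup.zpow_mem_zpowers g k⟩, ?_⟩
    change g ^ k • b = a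
    rw [← key k]
    exact hb
  · rintro ⟨⟨h, hh⟩, hb⟩
    obtain ⟨k, rfl⟩ := Subgroup.mem_zpowers_iff.mp hh
    refine ⟨⟨(MulAction.toPerm g : Equiv.Perm X) ^ k, Subgroup.zpow_mem_zpowers _ k⟩, ?_⟩
    change ((MulAction.toPerm g : Equiv.Perm X) ^ k) b = a
    rw [key k]
    exact hb

theorem wp5_card_cosets (N : ℕ) [NeZero N] : Nat.card (Cosets N) = dedekindPsi N :=
  Fermat.Agent.Lib.card_quotient_Gamma0 N

theorem wp5_finite_cosets (N : ℕ) [NeZero N] : Finite (Cosets N) :=
  inferInstance

theorem wp6_card_fixed_S (N : ℕ) [NeZero N] :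
    Nat.card {x : Cosets N // ModularGroup.S • x = x} = nuTwo N :=
  Fermat.Agent.Lib.card_fixedBy_S N

theorem wp6_card_fixed_ST (N : ℕ) [NeZero N] :
    Nat.card {x : Cosets N // (ModularGroup.S * ModularGroup.T) • x = x} = nuThree N :=
  Fermat.Agent.Lib.card_fixedBy_ST N

theorem wp7_numOrbits_T (N : ℕ) [NeZero N] :
    numOrbits (MulAction.toPerm ModularGroup.T : Equiv.Perm (Cosets N)) = cuspCount N := by
  rw [wp567_numOrbits_toPerm]
  exact Fermat.Agent.Lib.card_orbits_T N

end Fermat.Agent.S24
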