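import Fermat.Agent.S24.Defs

/-!
# WP4: permutations — orbit counts of cyclic groups

* `wp4_parity`   : `n + o(s) + o(t) + o(st)` is even
* `wp4_scott`    : Scott's lemma, `o(s) + o(t) + o(st) ≤ n + 2` for a transitive pair
* `wp4_burnside` : orbit count of a permutation of prime order
-/

set_option autoImplicit false

open ModularCurve AlgebraicCurve MatrixGroups IntermediateField

namespace Fermat.Agent.S24

section Orbits

variable {X : Type*}

/-- The orbit relation of `zpowers π` is `SameCycle`. -/
theorem wp4_orbitRel_iff (π : Equiv.Perm X) (a b : X) :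
    (MulAction.orbitRel (Subgroup.zpowers π) X) a b ↔ π.SameCycle b a := by
  rw [MulAction.orbitRel_apply, MulAction.mem_orbit_iff]
  constructor
  · rintro ⟨⟨g, hg⟩, hga⟩
    obtain ⟨k, rfl⟩ := Subgroup.mem_zpowers_iff.mp hg
    exact ⟨k, hga⟩
  · rintro ⟨k, hk⟩
    exact ⟨⟨π ^ k, Subgroup.zpow_mem_zpowers π k⟩, hk⟩

end Orbits

section Count

variable {X : Type*} [Fintype X] [DecidableEq X]

/-- Orbits of `zpowers π` = fixed points + nontrivial cycles. -/
theorem wp4_numOrbits_add_support (π : Equiv.Perm X) :
    numOrbits π + π.support.card = Fintype.card X + π.cycleFactorsFinset.card := by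
  classical
  -- the classifying map
  let Q := MulAction.orbitRel.Quotient (Subgroup.zpowers π) X
  let T := {x : X // π x = x} ⊕ {c : Equiv.Perm X // c ∈ π.cycleFactorsFinset}
  let φ₀ : X → T := fun x =>
    if h : π x = x then Sum.inl ⟨x, h⟩
    else Sum.inr ⟨π.cycleOf x, Equiv.Perm.cycleOf_mem_cycleFactorsFinset_iff.mpr
      (Equiv.Perm.mem_support.mpr h)⟩
  have hφ₀ : ∀ a b : X, (MulAction.orbitRel (Subgroup.zpowers π) X) a b → φ₀ a = φ₀ b := by
    intro a b hab
    rw [wp4_orbitRel_iff] at hab
    -- hab : SameCycle π b a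
    by_cases hb : π b = b
    · have hab' : a = b := by
        obtain ⟨k, hk⟩ := hab
        rw [← hk]
        exact (Equiv.Perm.zpow_apply_eq_self_of_apply_eq_self hb k)
      rw [hab']
    · have ha : π a ≠ a := by
        intro ha
        apply hb
        obtain ⟨k, hk⟩ := hab.symm
        rw [← hk]
        rw [← Equiv.Perm.mul_apply, ← zpow_one_add, add_comm, zpow_add_one, Equiv.Perm.mul_apply, ha]
      simp only [φ₀, dif_neg ha, dif_neg hb]
      congr 2
      exact (hab.cycleOf_eq).symm
  let φ : Q → T := Quotient.lift φ₀ hφ₀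
  have hφ_inj : Function.Injective φ := by
    intro q₁ q₂
    induction q₁ using Quotient.inductionOn with
    | h a =>
    induction q₂ using Quotient.inductionOn with
    | h b =>
    intro h
    change φ₀ a = φ₀ b at h
    apply Quotient.sound
    change (MulAction.orbitRel (Subgroup.zpowers π) X) a b
    rw [wp4_orbitRel_iff]
    by_cases ha : π a = a <;> by_cases hb : π b = b
    · simp only [φ₀, dif_pos ha, dif_pos hb] at h
      have h' : a = b := congrArg Subtype.val (Sum.inl.inj h)
      rw [h']
    · simp [φ₀, dif_pos ha, dif_neg hb] at h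
    · simp [φ₀, dif_neg ha, dif_pos hb] at h
    · simp only [φ₀, dif_neg ha, dif_neg hb] at h
      have h' : π.cycleOf a = π.cycleOf b := congrArg Subtype.val (Sum.inr.inj h)
      exact ((Equiv.Perm.sameCycle_iff_cycleOf_eq_of_mem_support
        (Equiv.Perm.mem_support.mpr ha) (Equiv.Perm.mem_support.mpr hb)).mpr h').symm
  have hφ_surj : Function.Surjective φ := by
    rintro (⟨x, hx⟩ | ⟨c, hc⟩)
    · refine ⟨Quotient.mk _ x, ?_⟩
      change φ₀ x = _
      simp [φ₀, dif_pos hx]
    · have hcyc := (Equiv.Perm.mem_cycleFactorsFinset_iff.mp hc).1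
      obtain ⟨x, hx⟩ := hcyc.nonempty_support
      have hcx : c = π.cycleOf x := Equiv.Perm.cycle_is_cycleOf hx hc
      have hπx : π x ≠ x := by
        have h2 := (Equiv.Perm.mem_cycleFactorsFinset_iff.mp hc).2 x hx
        rw [← h2]
        exact Equiv.Perm.mem_support.mp hx
      refine ⟨Quotient.mk _ x, ?_⟩
      change φ₀ x = _
      simp only [φ₀, dif_neg hπx]
      congr 2
      exact hcx.symm
  have hcard : Nat.card Q = Nat.card T := Nat.card_eq_of_bijective φ ⟨hφ_inj, hφ_surj⟩
  have hT : Nat.card T = Fintype.card {x : X // π x = x} + π.cycleFactorsFinset.card := by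
    rw [Nat.card_eq_fintype_card, Fintype.card_sum, Fintype.card_coe]
  have hfix : Fintype.card {x : X // π x = x} + π.support.card = Fintype.card X := by
    rw [Fintype.card_subtype]
    have : π.support = Finset.univ.filter (fun x => ¬ π x = x) := by
      ext x; simp
    rw [this, Finset.card_filter_add_card_filter_not, Finset.card_univ]
  change Nat.card Q + _ = _
  rw [hcard, hT]
  omega

theorem wp4_card_fixed_add_support (π : Equiv.Perm X) :
    Nat.card {x : X // π x = x} + π.support.card = Fintype.card X := by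
  classical
  rw [Nat.card_eq_fintype_card, Fintype.card_subtype]
  have : π.support = Finset.univ.filter (fun x => ¬ π x = x) := by
    ext x; simp
  rw [this, Finset.card_filter_add_card_filter_not, Finset.card_univ]

theorem wp4_card_cycleType (π : Equiv.Perm X) :
    Multiset.card π.cycleType = π.cycleFactorsFinset.card := by
  rw [Equiv.Perm.cycleType_def, Multiset.card_map]; rfl

theorem wp4_sign_eq (π : Equiv.Perm X) :
    Equiv.Perm.sign π = (-1 : ℤˣ) ^ (Fintype.card X + numOrbits π) := by
  rw [Equiv.Perm.sign_of_cycleType, Equiv.Perm.sum_cycleType, wp4_card_cycleType]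
  have h := wp4_numOrbits_add_support π
  have h2 : π.support.card + π.cycleFactorsFinset.card + 2 * Fintype.card X =
      Fintype.card X + numOrbits π + 2 * π.support.card := by omega
  have e1 : (-1 : ℤˣ) ^ (π.support.card + π.cycleFactorsFinset.card) =
      (-1 : ℤˣ) ^ (π.support.card + π.cycleFactorsFinset.card + 2 * Fintype.card X) := by
    rw [pow_add _ _ (2 * Fintype.card X), pow_mul]; simp
  have e2 : (-1 : ℤˣ) ^ (Fintype.card X + numOrbits π + 2 * π.support.card) =
      (-1 : ℤˣ) ^ (Fintype.card X + numOrbits π) := by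
    rw [pow_add _ _ (2 * π.support.card), pow_mul]; simp
  rw [e1, h2, e2]

end Count

section Main

variable {X : Type*} [Fintype X]

/-- `n + o(s) + o(t) + o(st)` is even. -/
theorem wp4_parity (s t : Equiv.Perm X) :
    Even (Fintype.card X + numOrbits s + numOrbits t + numOrbits (s * t)) := by
  classical
  have h := Equiv.Perm.sign_mul s t
  rw [wp4_sign_eq, wp4_sign_eq, wp4_sign_eq, ← pow_add] at h
  have h2 : (-1 : ℤˣ) ^ ((Fintype.card X + numOrbits (s * t)) +
      (Fintype.card X + numOrbits s + (Fintype.card X + numOrbits t))) = 1 := by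
    rw [pow_add, h, ← pow_add, ← two_mul, pow_mul]; simp
  have h3 := (neg_one_pow_eq_one_iff_even (R := ℤˣ) (by decide)).mp h2
  obtain ⟨k, hk⟩ := h3
  exact ⟨k - Fintype.card X, by omega⟩

/-- Orbit count of a permutation of prime order. -/
theorem wp4_burnside (π : Equiv.Perm X) (p : ℕ) (hp : p.Prime) (hπ : π ^ p = 1) :
    p * numOrbits π = Fintype.card X + (p - 1) * Nat.card {x : X // π x = x} := by
  classical
  have : Fact p.Prime := ⟨hp⟩
  have h1 := wp4_numOrbits_add_support π
  have h2 := Equiv.Perm.cycleType_of_pow_prime_eq_one hπ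
  have hsum : π.support.card = π.cycleFactorsFinset.card * p := by
    rw [← Equiv.Perm.sum_cycleType, h2, Multiset.sum_replicate, wp4_card_cycleType, smul_eq_mul]
  have hfix := wp4_card_fixed_add_support π
  obtain ⟨q, rfl⟩ : ∃ q, p = q + 1 := ⟨p - 1, by have := hp.pos; omega⟩
  simp only [Nat.add_sub_cancel]
  have ho : numOrbits π = Nat.card {x : X // π x = x} + π.cycleFactorsFinset.card := by
    omega
  rw [ho, ← hfix, hsum]
  ring

end Main

section Scott

variable {X : Type*} [Fintype X]

/-- The permutation operator on functions: `(wp4_P g v) x = v (g x)`. -/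
noncomputable abbrev wp4_P (g : Equiv.Perm X) : (X → ℚ) →ₗ[ℚ] (X → ℚ) :=
  LinearMap.funLeft ℚ ℚ g

omit [Fintype X] in
theorem wp4_apply_inv (f : Equiv.Perm X) (x : X) : f (f⁻¹ x) = x := by simp

omit [Fintype X] in
theorem wp4_inv_apply (f : Equiv.Perm X) (x : X) : f⁻¹ (f x) = x := by simp

omit [Fintype X] in
/-- The group of permutations leaving a function invariant. -/
def wp4_stab (v : X → ℚ) : Subgroup (Equiv.Perm X) where
  carrier := {h | ∀ x, v (h x) = v x}
  one_mem' := fun _ => rfl
  mul_mem' := fun {a b} ha hb x => by rw [Equiv.Perm.mul_apply, ha, hb]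
  inv_mem' := fun {a} ha x => by
    have := ha (a⁻¹ x)
    rw [wp4_apply_inv] at this
    exact this.symm

omit [Fintype X] in
theorem wp4_mem_ker_iff (g : Equiv.Perm X) (v : X → ℚ) :
    v ∈ LinearMap.ker (LinearMap.id - wp4_P g) ↔ ∀ x, v (g x) = v x := by
  rw [LinearMap.mem_ker, LinearMap.sub_apply, sub_eq_zero]
  constructor
  · intro h x
    exact (congrFun h x).symm
  · intro h
    funext x
    exact (h x).symm

/-- The fixed space of the permutation operator has dimension `numOrbits`. -/
theorem wp4_finrank_ker (g : Equiv.Perm X) :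
    Module.finrank ℚ (LinearMap.ker (LinearMap.id - wp4_P g)) = numOrbits g := by
  classical
  let Q := MulAction.orbitRel.Quotient (Subgroup.zpowers g) X
  let mk : X → Q := Quotient.mk _
  let L : (Q → ℚ) →ₗ[ℚ] (X → ℚ) := LinearMap.funLeft ℚ ℚ mk
  have hLinj : Function.Injective L :=
    LinearMap.funLeft_injective_of_surjective ℚ ℚ mk Quotient.mk_surjective
  have hrange : LinearMap.range L = LinearMap.ker (LinearMap.id - wp4_P g) := by
    ext v
    rw [wp4_mem_ker_iff]
    constructor
    · rintro ⟨w, rfl⟩ x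
      change w (mk (g x)) = w (mk x)
      congr 1
      apply Quotient.sound
      change (MulAction.orbitRel (Subgroup.zpowers g) X) (g x) x
      rw [wp4_orbitRel_iff]
      exact ⟨1, by simp⟩
    · intro h
      have hstab : Subgroup.zpowers g ≤ wp4_stab v := by
        rw [Subgroup.zpowers_le]
        exact h
      refine ⟨Quotient.lift v ?_, ?_⟩
      · intro a b hab
        change (MulAction.orbitRel (Subgroup.zpowers g) X) a b at hab
        rw [wp4_orbitRel_iff] at hab
        obtain ⟨k, hk⟩ := hab
        rw [← hk]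
        exact hstab (Subgroup.zpow_mem_zpowers g k) b
      · funext x
        rfl
  rw [← hrange, LinearMap.finrank_range_of_inj hLinj]
  have : Fintype Q := Fintype.ofFinite Q
  rw [Module.finrank_fintype_fun_eq_card, numOrbits, Nat.card_eq_fintype_card]

theorem wp4_finrank_range (g : Equiv.Perm X) :
    Module.finrank ℚ (LinearMap.range (LinearMap.id - wp4_P g)) + numOrbits g =
      Fintype.card X := by
  have := LinearMap.finrank_range_add_finrank_ker (LinearMap.id - wp4_P g)
  rw [wp4_finrank_ker, Module.finrank_fintype_fun_eq_card] at this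
  exact this

/-- **Scott's lemma** for a transitive pair of permutations. -/
theorem wp4_scott (s t : Equiv.Perm X)
    (htrans : ∀ x y : X, ∃ g ∈ Subgroup.closure {s, t}, g x = y) :
    numOrbits s + numOrbits t + numOrbits (s * t) ≤ Fintype.card X + 2 := by
  classical
  let A1 : (X → ℚ) →ₗ[ℚ] (X → ℚ) := LinearMap.id - wp4_P t
  let A2 : (X → ℚ) →ₗ[ℚ] (X → ℚ) := LinearMap.id - wp4_P s
  let A3 : (X → ℚ) →ₗ[ℚ] (X → ℚ) := LinearMap.id - wp4_P (s * t)⁻¹
  have h1 : Module.finrank ℚ (LinearMap.range A1) + numOrbits t = Fintype.card X :=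
    wp4_finrank_range t
  have h2 : Module.finrank ℚ (LinearMap.range A2) + numOrbits s = Fintype.card X :=
    wp4_finrank_range s
  have h3 : Module.finrank ℚ (LinearMap.range A3) + numOrbits (s * t) = Fintype.card X := by
    have hker : LinearMap.ker A3 = LinearMap.ker (LinearMap.id - wp4_P (s * t)) := by
      ext v
      rw [wp4_mem_ker_iff, wp4_mem_ker_iff]
      constructor
      · intro h x
        have := h ((s * t) x)
        rw [wp4_inv_apply] at this
        exact this.symm
      · intro h x
        have := h ((s * t)⁻¹ x)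
        rw [wp4_apply_inv] at this
        exact this.symm
    have := LinearMap.finrank_range_add_finrank_ker A3
    rw [hker, wp4_finrank_ker, Module.finrank_fintype_fun_eq_card] at this
    exact this
  -- the two maps of Scott's lemma
  let B : (X → ℚ) →ₗ[ℚ] (LinearMap.range A1 × LinearMap.range A2 × LinearMap.range A3) :=
    A1.rangeRestrict.prod (A2.rangeRestrict.prod A3.rangeRestrict)
  let Δ : (LinearMap.range A1 × LinearMap.range A2 × LinearMap.range A3) →ₗ[ℚ] (X → ℚ) :=
    (LinearMap.range A1).subtype.coprod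
      ((wp4_P t ∘ₗ (LinearMap.range A2).subtype).coprod
        ((wp4_P t ∘ₗ wp4_P s) ∘ₗ (LinearMap.range A3).subtype))
  have hΔB : ∀ v, Δ (B v) = 0 := by
    intro v
    funext x
    simp only [Δ, B, A1, A2, A3, LinearMap.coprod_apply, LinearMap.prod_apply,
      LinearMap.coe_comp, Function.comp_apply, Submodule.coe_subtype,
      LinearMap.funLeft_apply, Pi.add_apply, Pi.zero_apply]
    simp
  have hle : LinearMap.range B ≤ LinearMap.ker Δ := by
    rintro _ ⟨v, rfl⟩
    exact hΔB v
  -- rank-nullity for Δ and B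
  have hΔ := LinearMap.finrank_range_add_finrank_ker Δ
  have hB := LinearMap.finrank_range_add_finrank_ker B
  rw [Module.finrank_prod, Module.finrank_prod] at hΔ
  rw [Module.finrank_fintype_fun_eq_card] at hB
  have hmono : Module.finrank ℚ (LinearMap.range B) ≤ Module.finrank ℚ (LinearMap.ker Δ) :=
    Submodule.finrank_mono hle
  -- invariants are constant
  have hconst : ∀ v ∈ LinearMap.ker B, ∀ x y : X, v x = v y := by
    intro v hv x y
    have hv' : B v = 0 := hv
    have hv1 : A1 v = 0 := by
      have := congrArg (fun z => (z.1 : X → ℚ)) hv'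
      simpa [B] using this
    have hv2 : A2 v = 0 := by
      have := congrArg (fun z => (z.2.1 : X → ℚ)) hv'
      simpa [B] using this
    have ht : t ∈ wp4_stab v := (wp4_mem_ker_iff t v).mp hv1
    have hs : s ∈ wp4_stab v := (wp4_mem_ker_iff s v).mp hv2
    have hcl : Subgroup.closure {s, t} ≤ wp4_stab v := by
      rw [Subgroup.closure_le]
      rintro g (rfl | rfl)
      · exact hs
      · exact ht
    obtain ⟨g, hg, hgy⟩ := htrans y x
    rw [← hgy]
    exact hcl hg y
  have hkerB : Module.finrank ℚ (LinearMap.ker B) ≤ 1 := by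
    refine finrank_le_one ⟨fun _ => 1, ?_⟩ ?_
    · have hv1 : A1 (fun _ => (1 : ℚ)) = 0 := by
        funext x; simp [A1]
      have hv2 : A2 (fun _ => (1 : ℚ)) = 0 := by
        funext x; simp [A2]
      have hv3 : A3 (fun _ => (1 : ℚ)) = 0 := by
        funext x; simp [A3]
      rw [LinearMap.mem_ker]
      simp only [B, LinearMap.prod_apply]
      refine Prod.ext ?_ (Prod.ext ?_ ?_)
      · exact Subtype.ext hv1
      · exact Subtype.ext hv2
      · exact Subtype.ext hv3
    · rintro ⟨w, hw⟩
      rcases isEmpty_or_nonempty X with hX | ⟨⟨x₀⟩⟩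
      · refine ⟨0, Subtype.ext ?_⟩
        funext x
        exact (hX.false x).elim
      · refine ⟨w x₀, Subtype.ext ?_⟩
        funext x
        simp [hconst w hw x x₀]
  -- the image of Δ contains the augmentation space
  let W : Submodule ℚ (X → ℚ) := LinearMap.range Δ
  let H : Subgroup (Equiv.Perm X) :=
    { carrier := {g | ∀ x : X, (Pi.single x (1 : ℚ) - Pi.single (g x) (1 : ℚ) : X → ℚ) ∈ W}
      one_mem' := fun x => by simp
      mul_mem' := fun {a b} ha hb x => by
        have e : (Pi.single x (1 : ℚ) - Pi.single ((a * b) x) (1 : ℚ) : X → ℚ) =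
            (Pi.single x (1 : ℚ) - Pi.single (b x) (1 : ℚ)) +
              (Pi.single (b x) (1 : ℚ) - Pi.single (a (b x)) (1 : ℚ)) := by
          rw [Equiv.Perm.mul_apply]; abel
        rw [e]
        exact W.add_mem (hb x) (ha (b x))
      inv_mem' := fun {a} ha x => by
        have e : (Pi.single x (1 : ℚ) - Pi.single (a⁻¹ x) (1 : ℚ) : X → ℚ) =
            -(Pi.single (a⁻¹ x) (1 : ℚ) - Pi.single (a (a⁻¹ x)) (1 : ℚ)) := by
          rw [wp4_apply_inv]; abel
        rw [e]
        exact W.neg_mem (ha (a⁻¹ x)) }
  have hsingle : ∀ (g : Equiv.Perm X) (x : X),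
      wp4_P g (Pi.single x (1 : ℚ)) = Pi.single (g⁻¹ x) (1 : ℚ) := by
    intro g x
    funext y
    simp only [LinearMap.funLeft_apply, Pi.single_apply]
    by_cases h : g y = x
    · rw [if_pos h, if_pos]
      rw [← h, wp4_inv_apply]
    · rw [if_neg h, if_neg]
      intro h'
      apply h
      rw [h', wp4_apply_inv]
  have htinv : t⁻¹ ∈ H := by
    intro x
    refine ⟨(⟨A1 (Pi.single x 1), LinearMap.mem_range_self _ _⟩, 0, 0), ?_⟩
    simp only [Δ, LinearMap.coprod_apply, Submodule.coe_subtype, map_zero, add_zero, A1,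
      LinearMap.sub_apply, LinearMap.id_coe, id_eq, hsingle]
  have htsinv : t⁻¹ * s⁻¹ * t ∈ H := by
    intro x
    refine ⟨(0, ⟨A2 (wp4_P t⁻¹ (Pi.single x 1)), LinearMap.mem_range_self _ _⟩, 0), ?_⟩
    simp only [Δ, LinearMap.coprod_apply, Submodule.coe_subtype, map_zero, add_zero, zero_add, A2,
      LinearMap.sub_apply, LinearMap.id_coe, id_eq, hsingle, LinearMap.coe_comp,
      Function.comp_apply, map_sub, inv_inv, Equiv.Perm.mul_apply, wp4_inv_apply]
  have htH : t ∈ H := by
    have := H.inv_mem htinv
    rwa [inv_inv] at this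
  have hsH : s ∈ H := by
    have h := H.inv_mem (H.mul_mem (H.mul_mem htH htsinv) htinv)
    have e : (t * (t⁻¹ * s⁻¹ * t) * t⁻¹)⁻¹ = s := by group
    rwa [e] at h
  have hclH : Subgroup.closure {s, t} ≤ H := by
    rw [Subgroup.closure_le]
    rintro g (rfl | rfl)
    · exact hsH
    · exact htH
  have hdiff : ∀ x y : X, (Pi.single x (1 : ℚ) - Pi.single y (1 : ℚ) : X → ℚ) ∈ W := by
    intro x y
    obtain ⟨g, hg, hgy⟩ := htrans x y
    rw [← hgy]
    exact hclH hg x
  -- the sum functional
  let σ : (X → ℚ) →ₗ[ℚ] ℚ := ∑ x : X, LinearMap.proj x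
  have hσ : ∀ v : X → ℚ, σ v = ∑ x, v x := by
    intro v
    simp [σ, LinearMap.sum_apply]
  have hkerσ : LinearMap.ker σ ≤ W := by
    intro v hv
    rw [LinearMap.mem_ker, hσ] at hv
    rcases isEmpty_or_nonempty X with hX | ⟨⟨x₀⟩⟩
    · have : v = 0 := by
        funext x
        exact (hX.false x).elim
      rw [this]
      exact W.zero_mem
    · have e : v = ∑ x, v x • (Pi.single x (1 : ℚ) - Pi.single x₀ (1 : ℚ) : X → ℚ) := by
        have e1 : ∑ x, v x • (Pi.single x (1 : ℚ) - Pi.single x₀ (1 : ℚ) : X → ℚ) =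
            ∑ x, (Pi.single x (v x) : X → ℚ) - (∑ x, v x) • (Pi.single x₀ (1 : ℚ) : X → ℚ) := by
          rw [Finset.sum_smul, ← Finset.sum_sub_distrib]
          refine Finset.sum_congr rfl fun x _ => ?_
          rw [smul_sub]
          congr 1
          funext y
          simp [Pi.single_apply]
        rw [e1, hv, zero_smul, sub_zero, Finset.univ_sum_single]
      rw [e]
      exact W.sum_mem fun x _ => W.smul_mem _ (hdiff x x₀)
  have hσrank := LinearMap.finrank_range_add_finrank_ker σ
  rw [Module.finrank_fintype_fun_eq_card] at hσrank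
  have hσrange : Module.finrank ℚ (LinearMap.range σ) ≤ 1 := by
    have := Submodule.finrank_le (LinearMap.range σ)
    simpa using this
  have hW : Module.finrank ℚ (LinearMap.ker σ) ≤ Module.finrank ℚ (LinearMap.range Δ) :=
    Submodule.finrank_mono hkerσ
  omega

end Scott

end Fermat.Agent.S24
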