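import Fermat.Agent.S24.Defs
import Fermat.Agent.S24.Perm
import Fermat.Agent.S24.CosetGlue
import Fermat.Agent.Lib.Gamma0Orbits

/-!
# Genus arithmetic for the S24 assembly

With `n = #Cosets N`, `o₂, o₃, o_∞` the numbers of orbits of `S`, `S * T`, `T` on `Cosets N`:

* `2 * o₂ = n + ν₂`, `3 * o₃ = n + 2 * ν₃`, `o_∞ = c` (Burnside + the coset counts),
* `n + o₂ + o₃ + o_∞` is even and `o₂ + o₃ + o_∞ ≤ n + 2` (parity, Scott's lemma),
* hence `((n - o₃) + (n - o₂) - n - o_∞ + 2).toNat / 2 = genusFormula N` in `ℚ`.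
-/

set_option autoImplicit false

open ModularCurve AlgebraicCurve MatrixGroups IntermediateField

namespace Fermat.Agent.S24

/-- `2 * #orbits(S) = #Cosets + ν₂`. -/
theorem wp8_two_mul_numOrbits_S (N : ℕ) [NeZero N] :
    2 * numOrbits (MulAction.toPerm ModularGroup.S : Equiv.Perm (Cosets N)) =
      dedekindPsi N + nuTwo N := by
  have h := Fermat.Agent.Lib.Gamma0Orbits.two_mul_card_orbits_S N
  rw [Fermat.Agent.Lib.card_quotient_Gamma0, Fermat.Agent.Lib.card_fixedBy_S] at h
  rw [wp567_numOrbits_toPerm]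
  exact h

/-- `3 * #orbits(S * T) = #Cosets + 2 * ν₃`. -/
theorem wp8_three_mul_numOrbits_ST (N : ℕ) [NeZero N] :
    3 * numOrbits (MulAction.toPerm (ModularGroup.S * ModularGroup.T) : Equiv.Perm (Cosets N)) =
      dedekindPsi N + 2 * nuThree N := by
  have h := Fermat.Agent.Lib.Gamma0Orbits.three_mul_card_orbits_ST N
  rw [Fermat.Agent.Lib.card_quotient_Gamma0, Fermat.Agent.Lib.card_fixedBy_ST] at h
  rw [wp567_numOrbits_toPerm]
  exact h

/-- The group generated by `S` and `T` acts transitively on the cosets. -/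
theorem wp8_transitive (N : ℕ) (x y : Cosets N) :
    ∃ g ∈ Subgroup.closure
        {(MulAction.toPerm ModularGroup.S : Equiv.Perm (Cosets N)),
          (MulAction.toPerm ModularGroup.T : Equiv.Perm (Cosets N))}, g x = y := by
  obtain ⟨g₀, hg₀⟩ := MulAction.exists_smul_eq SL(2, ℤ) x y
  refine ⟨MulAction.toPermHom SL(2, ℤ) (Cosets N) g₀, ?_, hg₀⟩
  have hmem : g₀ ∈ Subgroup.closure {ModularGroup.S, ModularGroup.T} := by
    rw [SpecialLinearGroup.SL2Z_generators]
    exact Subgroup.mem_top g₀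
  have hmap := Subgroup.mem_map_of_mem (MulAction.toPermHom SL(2, ℤ) (Cosets N)) hmem
  rw [MonoidHom.map_closure] at hmap
  have himg : (MulAction.toPermHom SL(2, ℤ) (Cosets N)) '' {ModularGroup.S, ModularGroup.T} =
      {(MulAction.toPerm ModularGroup.S : Equiv.Perm (Cosets N)),
        (MulAction.toPerm ModularGroup.T : Equiv.Perm (Cosets N))} := by
    rw [Set.image_pair]
    rfl
  rw [himg] at hmap
  exact hmap

/-- Parity: `n + o₂ + o_∞ + o₃` is even. -/
theorem wp8_even (N : ℕ) [NeZero N] :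
    Even (Nat.card (Cosets N) +
      numOrbits (MulAction.toPerm ModularGroup.S : Equiv.Perm (Cosets N)) +
      numOrbits (MulAction.toPerm ModularGroup.T : Equiv.Perm (Cosets N)) +
      numOrbits (MulAction.toPerm (ModularGroup.S * ModularGroup.T) :
        Equiv.Perm (Cosets N))) := by
  have : Finite (Cosets N) := wp5_finite_cosets N
  let _ : Fintype (Cosets N) := Fintype.ofFinite _
  have h := wp4_parity (MulAction.toPerm ModularGroup.S : Equiv.Perm (Cosets N))
    (MulAction.toPerm ModularGroup.T : Equiv.Perm (Cosets N))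
  rw [Nat.card_eq_fintype_card]
  have hmul : (MulAction.toPerm ModularGroup.S : Equiv.Perm (Cosets N)) *
      (MulAction.toPerm ModularGroup.T : Equiv.Perm (Cosets N)) =
      MulAction.toPerm (ModularGroup.S * ModularGroup.T) :=
    (map_mul (MulAction.toPermHom SL(2, ℤ) (Cosets N)) ModularGroup.S ModularGroup.T).symm
  rw [hmul] at h
  exact h

/-- Scott's lemma for the cosets: `o₂ + o_∞ + o₃ ≤ n + 2`. -/
theorem wp8_scott (N : ℕ) [NeZero N] :
    numOrbits (MulAction.toPerm ModularGroup.S : Equiv.Perm (Cosets N)) +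
      numOrbits (MulAction.toPerm ModularGroup.T : Equiv.Perm (Cosets N)) +
      numOrbits (MulAction.toPerm (ModularGroup.S * ModularGroup.T) :
        Equiv.Perm (Cosets N)) ≤ Nat.card (Cosets N) + 2 := by
  have : Finite (Cosets N) := wp5_finite_cosets N
  let _ : Fintype (Cosets N) := Fintype.ofFinite _
  have h := wp4_scott (MulAction.toPerm ModularGroup.S : Equiv.Perm (Cosets N))
    (MulAction.toPerm ModularGroup.T : Equiv.Perm (Cosets N)) (wp8_transitive N)
  rw [Nat.card_eq_fintype_card]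
  have hmul : (MulAction.toPerm ModularGroup.S : Equiv.Perm (Cosets N)) *
      (MulAction.toPerm ModularGroup.T : Equiv.Perm (Cosets N)) =
      MulAction.toPerm (ModularGroup.S * ModularGroup.T) :=
    (map_mul (MulAction.toPermHom SL(2, ℤ) (Cosets N)) ModularGroup.S ModularGroup.T).symm
  rw [hmul] at h
  exact h

/-- Pure arithmetic: the Riemann–Hurwitz count gives the genus formula. -/
theorem wp8_arith (ψ ν₂ ν₃ c o₂ o₃ : ℕ) (h2 : 2 * o₂ = ψ + ν₂) (h3 : 3 * o₃ = ψ + 2 * ν₃)
    (heven : Even (ψ + o₂ + c + o₃)) (hle : o₂ + c + o₃ ≤ ψ + 2) :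
    (((((ψ : ℤ) - o₃ + ((ψ : ℤ) - o₂) - ψ - c + 2).toNat / 2 : ℕ) : ℚ)) =
      1 + (ψ : ℚ) / 12 - (ν₂ : ℚ) / 4 - (ν₃ : ℚ) / 3 - (c : ℚ) / 2 := by
  obtain ⟨m, hm⟩ := heven
  -- `ψ + 2 - o₂ - c - o₃ = 2 * k`
  obtain ⟨k, hk⟩ : ∃ k : ℕ, ψ + 2 = o₂ + c + o₃ + 2 * k := by
    obtain ⟨d, hd⟩ := Nat.exists_eq_add_of_le hle
    have hd2 : Even d := by
      have : Even (2 * (o₂ + c + o₃) + d) := by
        have h4 : 2 * (o₂ + c + o₃) + d = 2 * (m + 1) := by omega
        rw [h4]
        exact even_two_mul _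
      exact (Nat.even_add.mp this).mp (even_two_mul _)
    obtain ⟨k, hk⟩ := hd2
    exact ⟨k, by omega⟩
  have hz : (ψ : ℤ) - o₃ + ((ψ : ℤ) - o₂) - ψ - c + 2 = ((2 * k : ℕ) : ℤ) := by
    push_cast
    omega
  rw [hz, Int.toNat_natCast, Nat.mul_div_cancel_left k (by norm_num : 0 < 2)]
  have hkq : (ψ : ℚ) + 2 = o₂ + c + o₃ + 2 * k := by exact_mod_cast hk
  have h2q : 2 * (o₂ : ℚ) = ψ + ν₂ := by exact_mod_cast h2
  have h3q : 3 * (o₃ : ℚ) = ψ + 2 * ν₃ := by exact_mod_cast h3
  linarith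

/-- **Genus arithmetic**: with `n`, `c₀`, `c₁`, `c∞` the degree and the numbers of places over
`j = 0`, `j = 1728`, `j = ∞` (identified with orbit counts on `Cosets N`), the number
`(deg + 2).toNat / 2` computed from the Riemann–Hurwitz degree is `genusFormula N`. -/
theorem wp8_genus_arith (N : ℕ) [NeZero N] (n c₀ c₁ cI : ℕ)
    (hn : n = Nat.card (Cosets N))
    (h0 : c₀ = numOrbits (MulAction.toPerm (ModularGroup.S * ModularGroup.T) :
      Equiv.Perm (Cosets N)))
    (h1 : c₁ = numOrbits (MulAction.toPerm ModularGroup.S : Equiv.Perm (Cosets N)))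
    (hI : cI = numOrbits (MulAction.toPerm ModularGroup.T : Equiv.Perm (Cosets N))) :
    (((((n : ℤ) - c₀ + ((n : ℤ) - c₁) - n - cI + 2).toNat / 2 : ℕ) : ℚ)) = genusFormula N := by
  have hψ : n = dedekindPsi N := by rw [hn, wp5_card_cosets]
  have hc : cI = cuspCount N := by rw [hI, wp7_numOrbits_T]
  have h2 : 2 * c₁ = dedekindPsi N + nuTwo N := by rw [h1, wp8_two_mul_numOrbits_S]
  have h3 : 3 * c₀ = dedekindPsi N + 2 * nuThree N := by rw [h0, wp8_three_mul_numOrbits_ST]
  have heven : Even (dedekindPsi N + c₁ + cI + c₀) := by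
    have h := wp8_even N
    rw [wp5_card_cosets, ← h1, ← hI, ← h0] at h
    exact h
  have hle : c₁ + cI + c₀ ≤ dedekindPsi N + 2 := by
    have h := wp8_scott N
    rw [wp5_card_cosets, ← h1, ← hI, ← h0] at h
    exact h
  have key := wp8_arith (dedekindPsi N) (nuTwo N) (nuThree N) cI c₁ c₀ h2 h3 heven hle
  rw [hψ, key, genusFormula, hc]

/-- Variant of `wp8_genus_arith` for a degree given as `n - o₃ - o₂ - o_∞`. -/
theorem wp8_genus_eq (N : ℕ) [NeZero N] (deg : ℤ)
    (h : deg = (Nat.card (Cosets N) : ℤ)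
      - numOrbits (MulAction.toPerm (ModularGroup.S * ModularGroup.T) : Equiv.Perm (Cosets N))
      - numOrbits (MulAction.toPerm ModularGroup.S : Equiv.Perm (Cosets N))
      - numOrbits (MulAction.toPerm ModularGroup.T : Equiv.Perm (Cosets N))) :
    ((((deg + 2).toNat / 2 : ℕ) : ℚ)) = genusFormula N := by
  rw [← wp8_genus_arith N _ _ _ _ rfl rfl rfl rfl, h]
  congr 3
  ring

end Fermat.Agent.S24
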