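import Fermat.Agent.S24.Differentials

/-!
S24, last step of the assembly (general function fields, no modular input): the genus of a
function field `F/K` from the numbers of places above three points of the `x`-line
(Riemann–Hurwitz via `wp2_degree_eq`).  Everything is in `namespace Fermat.Agent.S24`.
-/

set_option autoImplicit false

open ModularCurve AlgebraicCurve MatrixGroups IntermediateField
open KaehlerDifferential

namespace Fermat.Agent.S24

variable {K F : Type*} [Field K] [IsAlgClosed K] [CharZero K] [Field F] [Algebra K F]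

omit [IsAlgClosed K] in
/-- The genus is computed from the degree of the divisor of some non-zero differential. -/
theorem wp2g_genus_def (x : F) (hx : Transcendental K x) [FiniteDimensional K⟮x⟯ F]
    [HasCanonicalDivisor (K := K) (F := F)] :
    ∃ (ω : Ω[F⁄K]) (hω : ω ≠ 0),
      AlgebraicCurve.genus K F = (Divisor.degree (canonicalDivisorOf hω) + 2).toNat / 2 := by
  have h : ∃ ω : Ω[F⁄K], ω ≠ 0 := ⟨D K F x, wp2_D_ne_zero x hx⟩
  refine ⟨h.choose, h.choose_spec, ?_⟩
  unfold AlgebraicCurve.genus
  rw [dif_pos h]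

/-- Degree of the canonical divisor used by `genus`, from the ramification of `x` outside a
finite set `S` of values. -/
theorem wp2g_genus_eq_of_finset (x : F) (hx : Transcendental K x) [FiniteDimensional K⟮x⟯ F]
    [HasCanonicalDivisor (K := K) (F := F)] (S : Finset K)
    (hS : ∀ a : K, a ∉ S → Nat.card {v : Place K F // 0 < v.ord (x - algebraMap K F a)}
      = Module.finrank K⟮x⟯ F) :
    AlgebraicCurve.genus K F = ((∑ a ∈ S, ((Module.finrank K⟮x⟯ F : ℤ)
        - (Nat.card {v : Place K F // 0 < v.ord (x - algebraMap K F a)} : ℤ))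
      - (Module.finrank K⟮x⟯ F : ℤ) - (Nat.card {v : Place K F // v.ord x < 0} : ℤ))
      + 2).toNat / 2 := by
  obtain ⟨ω, hω, hg⟩ := wp2g_genus_def x hx
  rw [hg, wp2_degree_eq x hx S hS ω hω (canonicalDivisorOf hω)
    (fun v => canonicalDivisorOf_apply hω v)]

/-- **Riemann–Hurwitz, three branch points**: if `x` is unramified outside `a₀`, `a₁`, `∞` and
there are `c₀`, `c₁`, `cinf` places above these points, then `2g - 2 = n - c₀ - c₁ - cinf`. -/
theorem wp2g_genus_eq (x : F) (hx : Transcendental K x) [FiniteDimensional K⟮x⟯ F]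
    [HasCanonicalDivisor (K := K) (F := F)] (a₀ a₁ : K) (h01 : a₀ ≠ a₁) (n c₀ c₁ cinf : ℕ)
    (hn : Module.finrank K⟮x⟯ F = n)
    (hgen : ∀ a : K, a ≠ a₀ → a ≠ a₁ →
      Nat.card {v : Place K F // 0 < v.ord (x - algebraMap K F a)} = n)
    (h₀ : Nat.card {v : Place K F // 0 < v.ord (x - algebraMap K F a₀)} = c₀)
    (h₁ : Nat.card {v : Place K F // 0 < v.ord (x - algebraMap K F a₁)} = c₁)
    (hinf : Nat.card {v : Place K F // v.ord x < 0} = cinf)
    (hpar : Even (n + c₀ + c₁ + cinf)) (hle : c₀ + c₁ + cinf ≤ n + 2) :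
    2 * (AlgebraicCurve.genus K F : ℤ) = (n : ℤ) - c₀ - c₁ - cinf + 2 := by
  classical
  have hS : ∀ a : K, a ∉ ({a₀, a₁} : Finset K) →
      Nat.card {v : Place K F // 0 < v.ord (x - algebraMap K F a)} = Module.finrank K⟮x⟯ F := by
    intro a ha
    rw [Finset.mem_insert, Finset.mem_singleton, not_or] at ha
    rw [hn]
    exact hgen a ha.1 ha.2
  have hg := wp2g_genus_eq_of_finset x hx {a₀, a₁} hS
  rw [Finset.sum_pair h01, hn, h₀, h₁, hinf] at hg
  rw [hg]
  obtain ⟨k, hk⟩ := hpar
  omega

end Fermat.Agent.S24
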