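import Fermat.Agent.S24.Defs

/-!
Analytic definitions for the S24 project: Klein's `j` on the upper half plane, the functions
`τ ↦ j(d · g⁻¹τ)`, and the `ℚ̄`-algebra `ModRing N` they generate.
-/

set_option autoImplicit false

open ModularCurve AlgebraicCurve MatrixGroups UpperHalfPlane ModularForm EisensteinSeries

namespace Fermat.Agent.S24

/-- The fixed embedding `ℚ̄ → ℂ`. -/
noncomputable def phi : Kbar →+* ℂ :=
  letI : Algebra ℚ (AlgebraicClosure ℚ) := AlgebraicClosure.instAlgebra ℚ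
  ((IsAlgClosed.lift : AlgebraicClosure ℚ →ₐ[ℚ] ℂ) : AlgebraicClosure ℚ →+* ℂ)

/-- `ℂ` as a `ℚ̄`-algebra through `phi` (scoped instance: `open scoped Fermat.Agent.S24`). -/
@[instance_reducible]
noncomputable def algKbarComplex : Algebra Kbar ℂ := phi.toAlgebra

attribute [scoped instance] algKbarComplex

theorem algebraMap_Kbar_complex (c : Kbar) : algebraMap Kbar ℂ c = phi c := rfl

/-- Klein's `j`-function `E₄³ / Δ` on the upper half plane. -/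
noncomputable def kleinJ (τ : ℍ) : ℂ := E₄ τ ^ 3 / ModularForm.discriminant τ

/-- Multiplication by a positive integer on `ℍ` (identity for `d = 0`). -/
noncomputable def scaleH (d : ℕ) (τ : ℍ) : ℍ :=
  if h : d = 0 then τ else
    ⟨(d : ℂ) * (τ : ℂ), by
      have hd : (0 : ℝ) < d := by exact_mod_cast Nat.pos_of_ne_zero h
      simpa using mul_pos hd τ.im_pos⟩

theorem coe_scaleH (d : ℕ) (hd : d ≠ 0) (τ : ℍ) : ((scaleH d τ : ℍ) : ℂ) = (d : ℂ) * (τ : ℂ) := by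
  unfold scaleH
  rw [dif_neg hd]

/-- The left action of `SL(2,ℤ)` on functions on `ℍ`: `(g • f)(τ) = f(g⁻¹ τ)`. -/
noncomputable def actFn (g : SL(2, ℤ)) (f : ℍ → ℂ) : ℍ → ℂ := fun τ => f (g⁻¹ • τ)

theorem actFn_apply (g : SL(2, ℤ)) (f : ℍ → ℂ) (τ : ℍ) : actFn g f τ = f (g⁻¹ • τ) := rfl

theorem actFn_one (f : ℍ → ℂ) : actFn 1 f = f := by
  funext τ
  simp [actFn]

theorem actFn_mul (g h : SL(2, ℤ)) (f : ℍ → ℂ) : actFn (g * h) f = actFn g (actFn h f) := by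
  funext τ
  simp [actFn, mul_smul]

/-- The generator `τ ↦ j(d · g⁻¹τ)`; `genFn 1 d` is `τ ↦ j(dτ)` and `genFn g 1 = j`. -/
noncomputable def genFn (g : SL(2, ℤ)) (d : ℕ) : ℍ → ℂ := fun τ => kleinJ (scaleH d (g⁻¹ • τ))

theorem genFn_apply (g : SL(2, ℤ)) (d : ℕ) (τ : ℍ) :
    genFn g d τ = kleinJ (scaleH d (g⁻¹ • τ)) := rfl

theorem actFn_genFn (g h : SL(2, ℤ)) (d : ℕ) : actFn g (genFn h d) = genFn (g * h) d := by
  funext τ
  simp [actFn, genFn, mul_smul]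

/-- The `ℚ̄`-algebra of functions on `ℍ` generated by all `τ ↦ j(d · g⁻¹τ)`, `d ∣ N`,
`g ∈ SL(2,ℤ)`. -/
noncomputable def ModRing (N : ℕ) : Subalgebra Kbar (ℍ → ℂ) :=
  Algebra.adjoin Kbar {f | ∃ (g : SL(2, ℤ)) (d : ℕ), d ∣ N ∧ f = genFn g d}

theorem genFn_mem_ModRing (N : ℕ) (g : SL(2, ℤ)) {d : ℕ} (hd : d ∣ N) : genFn g d ∈ ModRing N :=
  Algebra.subset_adjoin ⟨g, d, hd, rfl⟩

/-- The point `ρ = e^{2πi/3}` of `ℍ`, fixed by `S * T`. -/
noncomputable def rhoH : ℍ :=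
  ⟨(-1 / 2 : ℂ) + (Real.sqrt 3 / 2 : ℝ) * Complex.I, by
    simp⟩

/-- The order of vanishing at `τ₀ ∈ ℍ` of a function on `ℍ` (junk if not analytic or zero). -/
noncomputable def ordAt (τ₀ : ℍ) (f : ℍ → ℂ) : ℤ :=
  ((analyticOrderAt (f ∘ ofComplex) (τ₀ : ℂ)).toNat : ℤ)

end Fermat.Agent.S24
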