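import Fermat.Statements.S24

/-!
Shared definitions for the S24 project (genus of the function field of X_0(N)).
Everything lives in `namespace Fermat.Agent.S24`.
-/

set_option autoImplicit false

open ModularCurve AlgebraicCurve MatrixGroups

namespace Fermat.Agent.S24

/-- The constant field `ℚ̄`. -/
abbrev Kbar : Type := AlgebraicClosure ℚ

/-- A `ℤ`-valued order function on a field `M` over `K`: a discrete valuation written
additively, without a prescribed value at `0`. -/
structure OrdFn (K M : Type*) [Field K] [Field M] [Algebra K M] where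
  /-- the order of an element (the value at `0` is irrelevant) -/
  ord : M → ℤ
  ord_mul : ∀ f g : M, f ≠ 0 → g ≠ 0 → ord (f * g) = ord f + ord g
  ord_add : ∀ f g : M, f ≠ 0 → g ≠ 0 → f + g ≠ 0 → min (ord f) (ord g) ≤ ord (f + g)
  ord_const : ∀ c : K, c ≠ 0 → ord (algebraMap K M c) = 0

/-- Number of orbits of the cyclic group generated by a permutation. -/
noncomputable def numOrbits {X : Type*} (π : Equiv.Perm X) : ℕ :=
  Nat.card (MulAction.orbitRel.Quotient (Subgroup.zpowers π) X)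

/-- The coset space `SL(2,ℤ) / Γ₀(N)` (left cosets, with the left multiplication action). -/
abbrev Cosets (N : ℕ) : Type := SL(2, ℤ) ⧸ CongruenceSubgroup.Gamma0 N

/-- The formal series `j(q^d)` with coefficients in `ℚ̄` (and `0` for `d = 0`). -/
noncomputable def JJ (d : ℕ) : LaurentSeries Kbar :=
  if h : d = 0 then 0 else
    haveI : NeZero d := ⟨h⟩
    coeffEmb Kbar (qExpand ℚ d jq)

theorem JJ_of_neZero (d : ℕ) [NeZero d] : JJ d = coeffEmb Kbar (qExpand ℚ d jq) := by
  unfold JJ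
  rw [dif_neg (NeZero.ne d)]

/-- The analytic input for level `N`: a field `M` of "modular functions" over `ℚ̄` with an action
of `SL(2,ℤ)`, containing elements `jd d` ("`j(dτ)`", `d ∣ N`) satisfying exactly the same
polynomial relations over `ℚ̄` as the formal series `JJ d`, whose `SL(2,ℤ)`-invariants are
`ℚ̄(j)`, and carrying the order functions at the points above `j = a`, `0`, `1728`, `∞`. -/
structure ModularData (N : ℕ) where
  /-- the field of modular functions -/
  M : Type
  [fieldM : Field M]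
  [algM : Algebra Kbar M]
  [actM : MulSemiringAction SL(2, ℤ) M]
  smul_const : ∀ (g : SL(2, ℤ)) (c : Kbar), g • algebraMap Kbar M c = algebraMap Kbar M c
  /-- `jd d` is the function `τ ↦ j(dτ)` (only used for `d ∣ N`) -/
  jd : ℕ → M
  rel_iff : ∀ P : MvPolynomial (N.divisors) Kbar,
    MvPolynomial.aeval (fun d : N.divisors => JJ d.1) P = 0 ↔
      MvPolynomial.aeval (fun d : N.divisors => jd d.1) P = 0
  smul_jd_one : ∀ g : SL(2, ℤ), g • jd 1 = jd 1
  smul_jd : ∀ g : SL(2, ℤ), g ∈ CongruenceSubgroup.Gamma0 N → ∀ d : ℕ, d ∣ N → g • jd d = jd d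
  stab : ∀ g : SL(2, ℤ), g • jd N = jd N → g ∈ CongruenceSubgroup.Gamma0 N
  fixed : ∀ h : M, (∀ g : SL(2, ℤ), g • h = h) → h ∈ IntermediateField.adjoin Kbar {jd 1}
  ordGeneric : ∀ a : Kbar, a ≠ 0 → a ≠ 1728 →
    ∃ w : OrdFn Kbar M, w.ord (jd 1 - algebraMap Kbar M a) = 1
  ordZero : ∃ w : OrdFn Kbar M, w.ord (jd 1) = 3 ∧
    (∀ h : M, w.ord ((ModularGroup.S * ModularGroup.T) • h) = w.ord h) ∧
    ∀ h : M, h ≠ 0 → (ModularGroup.S * ModularGroup.T) • h = h → (3 : ℤ) ∣ w.ord h
  ordI : ∃ w : OrdFn Kbar M, w.ord (jd 1 - algebraMap Kbar M 1728) = 2 ∧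
    (∀ h : M, w.ord (ModularGroup.S • h) = w.ord h) ∧
    ∀ h : M, h ≠ 0 → ModularGroup.S • h = h → (2 : ℤ) ∣ w.ord h
  ordInfty : ∃ w : OrdFn Kbar M, w.ord (jd 1) = -(N : ℤ) ∧
    (∀ h : M, w.ord (ModularGroup.T • h) = w.ord h) ∧
    ∀ h : M, h ≠ 0 → ∀ k : ℕ, k ∣ N → ModularGroup.T ^ k • h = h → ((N / k : ℕ) : ℤ) ∣ w.ord h

end Fermat.Agent.S24
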