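import Fermat.Agent.S24.Defs

/-!
# S24 / WP2(i): the module of Kähler differentials of a function field in characteristic zero

For a field extension `F / K` in characteristic zero and `t : F` with `F / K(t)` finite,
`Ω[F⁄K]` is spanned by `D t`; if moreover `t` is transcendental over `K`, then `D t ≠ 0`.
-/

set_option autoImplicit false

open KaehlerDifferential IntermediateField Polynomial

namespace Fermat.Agent.S24

section DiffSpan

variable {K F : Type*} [Field K] [CharZero K] [Field F] [Algebra K F]

omit [CharZero K] in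
/-- The differential of an element of `K(t)` is an `F`-multiple of `D t`. -/
private theorem wp2i_D_mem_span_of_mem_adjoin (t y : F) (hy : y ∈ K⟮t⟯) :
    D K F y ∈ Submodule.span F {D K F t} := by
  obtain ⟨r, s, rfl⟩ := (mem_adjoin_simple_iff K y).mp hy
  rw [Derivation.leibniz_div, Derivation.map_aeval, Derivation.map_aeval]
  refine Submodule.smul_mem _ _ (Submodule.sub_mem _ ?_ ?_) <;>
    exact Submodule.smul_mem _ _ (Submodule.smul_mem _ _ (Submodule.mem_span_singleton_self _))

/-- `Ω[F⁄K]` is spanned by `D t` as soon as `F / K(t)` is finite (characteristic zero). -/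
theorem wp2_span_D_eq_top (t : F) [FiniteDimensional K⟮t⟯ F] :
    Submodule.span F {D K F t} = ⊤ := by
  have : Algebra.IsSeparable K⟮t⟯ F := Algebra.IsSeparable.of_integral K⟮t⟯ F
  have : Algebra.FormallyUnramified K⟮t⟯ F := Algebra.FormallyUnramified.of_isSeparable K⟮t⟯ F
  -- the image of `Ω[K(t)⁄K]` lies in the span of `D t`
  have hmap : ∀ η : Ω[K⟮t⟯⁄K],
      KaehlerDifferential.map K K K⟮t⟯ F η ∈ Submodule.span F {D K F t} := by
    intro η
    have hη : η ∈ Submodule.span K⟮t⟯ (Set.range (D K K⟮t⟯)) := by
      rw [KaehlerDifferential.span_range_derivation]; trivial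
    induction hη using Submodule.span_induction with
    | mem x hx =>
      obtain ⟨y, rfl⟩ := hx
      rw [KaehlerDifferential.map_D]
      exact wp2i_D_mem_span_of_mem_adjoin t _ y.2
    | zero => rw [map_zero]; exact Submodule.zero_mem _
    | add x y _ _ hx hy => rw [map_add]; exact Submodule.add_mem _ hx hy
    | smul a x _ hx =>
      rw [map_smul, algebra_compatible_smul F a]
      exact Submodule.smul_mem _ _ hx
  have hbc : ∀ z, KaehlerDifferential.mapBaseChange K K⟮t⟯ F z ∈
      Submodule.span F {D K F t} := by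
    intro z
    induction z using TensorProduct.induction_on with
    | zero => rw [map_zero]; exact Submodule.zero_mem _
    | tmul f η =>
      rw [KaehlerDifferential.mapBaseChange_tmul]
      exact Submodule.smul_mem _ _ (hmap η)
    | add x y hx hy => rw [map_add]; exact Submodule.add_mem _ hx hy
  rw [eq_top_iff]
  intro ω _
  obtain ⟨z, rfl⟩ :=
    (KaehlerDifferential.exact_mapBaseChange_map K K⟮t⟯ F ω).mp (Subsingleton.elim _ _)
  exact hbc z

/-- Every differential is a multiple of `D t` when `F / K(t)` is finite. -/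
theorem wp2_exists_smul_D (t : F) [FiniteDimensional K⟮t⟯ F] (ω : Ω[F⁄K]) :
    ∃ f : F, ω = f • D K F t := by
  have hω : ω ∈ Submodule.span F {D K F t} := by rw [wp2_span_D_eq_top t]; trivial
  obtain ⟨f, hf⟩ := Submodule.mem_span_singleton.mp hω
  exact ⟨f, hf.symm⟩

/-- The differential of a transcendental element is nonzero (when `F / K(x)` is finite). -/
theorem wp2_D_ne_zero (x : F) (hx : Transcendental K x) [FiniteDimensional K⟮x⟯ F] :
    D K F x ≠ 0 := by
  intro h0
  have hsub : Subsingleton Ω[F⁄K] := by
    refine ⟨fun a b => ?_⟩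
    obtain ⟨f, rfl⟩ := wp2_exists_smul_D x a
    obtain ⟨g, rfl⟩ := wp2_exists_smul_D x b
    rw [h0, smul_zero, smul_zero]
  have : Algebra.FormallyUnramified K F := ⟨hsub⟩
  have : Algebra.EssFiniteType K K⟮x⟯ :=
    IntermediateField.essFiniteType_iff.mpr ⟨{x}, by simp⟩
  have : Algebra.EssFiniteType K F := Algebra.EssFiniteType.comp K K⟮x⟯ F
  have : Module.Finite K F := Algebra.FormallyUnramified.finite_of_free K F
  exact hx (Algebra.IsAlgebraic.isAlgebraic x)

/-- `Ω[F⁄K]` is nontrivial for a function field of one variable. -/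
theorem wp2_nontrivial_kaehler (x : F) (hx : Transcendental K x) [FiniteDimensional K⟮x⟯ F] :
    Nontrivial Ω[F⁄K] :=
  ⟨⟨D K F x, 0, wp2_D_ne_zero x hx⟩⟩

end DiffSpan

end Fermat.Agent.S24
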