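import Fermat.Agent.S24.Defs
import Fermat.Agent.S24.Places
import Fermat.Agent.S24.PlacesBasicCore
import Fermat.Agent.S24.DiffSpan

/-!
S24 / WP2, local part (helper27): Kähler differentials of a function field of one variable at a
place.  Main export: `wp2_ordDifferential_smul_D`, the order of `f • D x` at a place where
`x - a` has nonzero order.  Route: the valuation ring `O_v` is a localization of the integral
closure of `K[y]`, hence essentially of finite type over `K`, so `Ω[O_v⁄K]` is a finite
`O_v`-module and Nakayama gives `Ω[O_v⁄K] = O_v · D t` for a uniformizer `t`.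
-/

set_option autoImplicit false

open KaehlerDifferential AlgebraicCurve IntermediateField

namespace Fermat.Agent.S24

section PartA

variable {K F : Type*} [Field K] [CharZero K] [Field F] [Algebra K F]

/-- `Ω[F⁄K]` is spanned by `D x` for transcendental `x` with `F / K(x)` finite
(restatement of `wp2_exists_smul_D` from `DiffSpan`). -/
theorem wp2_exists_eq_smul_D (x : F) (_hx : Transcendental K x) [FiniteDimensional K⟮x⟯ F]
    (ω : Ω[F⁄K]) : ∃ f : F, ω = f • D K F x :=
  wp2_exists_smul_D x ω

end PartA

section Generalities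

/-- Nakayama: over a local `R`-algebra `A` with principal maximal ideal `(t)`, residue field
covered by `R`, and finitely generated differentials, `Ω[A⁄R]` is spanned by `D t`. -/
theorem wp2_local_span_D_eq_top {R A : Type*} [CommRing R] [CommRing A] [Algebra R A] [IsLocalRing A]
    [Module.Finite A Ω[A⁄R]]
    (hres : Function.Surjective ((IsLocalRing.residue A).comp (algebraMap R A)))
    (t : A) (ht : IsLocalRing.maximalIdeal A = Ideal.span {t}) :
    Submodule.span A {D R A t} = ⊤ := by
  rw [eq_top_iff]
  refine Submodule.le_of_le_smul_of_le_jacobson_bot (I := IsLocalRing.maximalIdeal A)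
    (Module.finite_def.mp inferInstance) (IsLocalRing.maximalIdeal_le_jacobson ⊥) ?_
  rw [← KaehlerDifferential.span_range_derivation R A, Submodule.span_le]
  rintro _ ⟨a, rfl⟩
  obtain ⟨r, hr⟩ := hres (IsLocalRing.residue A a)
  have hx : a - algebraMap R A r ∈ IsLocalRing.maximalIdeal A := by
    rw [← IsLocalRing.residue_eq_zero_iff, map_sub, sub_eq_zero]
    exact hr.symm
  rw [ht, Ideal.mem_span_singleton'] at hx
  obtain ⟨b, hb⟩ := hx
  have hDa : D R A a = b • D R A t + t • D R A b := by
    have h1 : a = b * t + algebraMap R A r := by rw [hb]; ring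
    conv_lhs => rw [h1]
    rw [map_add, Derivation.leibniz, Derivation.map_algebraMap, add_zero]
  rw [hDa]
  refine Submodule.add_mem _ (Submodule.mem_sup_left ?_) (Submodule.mem_sup_right ?_)
  · exact Submodule.smul_mem _ _ (Submodule.subset_span rfl)
  · refine Submodule.smul_mem_smul ?_ ?_
    · rw [ht]; exact Ideal.subset_span rfl
    · rw [KaehlerDifferential.span_range_derivation]; exact Submodule.mem_top

/-- Leibniz rule for integer powers in a field. -/
theorem wp2_leibniz_zpow {K F M : Type*} [Field K] [Field F] [Algebra K F] [AddCommGroup M]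
    [Module K M] [Module F M] [IsScalarTower K F M]
    (d : Derivation K F M) {a : F} (ha : a ≠ 0) (n : ℤ) :
    d (a ^ n) = ((n : F) * a ^ (n - 1)) • d a := by
  induction n using Int.induction_on with
  | zero => simp
  | succ k ih =>
    rw [zpow_add_one₀ ha, Derivation.leibniz, ih, smul_smul, ← add_smul]
    congr 1
    rw [add_sub_cancel_right, zpow_sub_one₀ ha]
    generalize a ^ (k : ℤ) = b
    push_cast
    field_simp
    ring
  | pred k ih =>
    have h1 : a ^ (-(k : ℤ) - 1) = a ^ (-(k : ℤ)) * a⁻¹ := by rw [zpow_sub_one₀ ha]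
    rw [h1, Derivation.leibniz, ih, Derivation.leibniz_inv, smul_smul, smul_smul, ← add_smul]
    congr 1
    rw [zpow_sub_one₀ ha, zpow_sub_one₀ ha, zpow_sub_one₀ ha]
    generalize a ^ (-(k : ℤ)) = b
    push_cast
    field_simp
    ring

end Generalities

section PlaceLocal

variable {K F : Type*} [Field K] [Field F] [Algebra K F]

/-- The (private) coordinate differential of the prelude is `D t` for some irreducible `t`. -/
theorem wp2_exists_dCoord_eq (v : Place K F) :
    ∃ t : v.toValuationSubring, Irreducible t ∧ v.dCoord = D K F (t : F) :=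
  ⟨_, (IsDiscreteValuationRing.exists_irreducible v.toValuationSubring).choose_spec, rfl⟩

/-- Every differential of an integral element is an integral multiple of `D t`. -/
theorem wp2_exists_D_eq_smul (v : Place K F)
    [Module.Finite v.toValuationSubring Ω[v.toValuationSubring⁄K]]
    (hres : Function.Surjective (algebraMap K v.ResidueField))
    {t : v.toValuationSubring} (ht : Irreducible t) (u : v.toValuationSubring) :
    ∃ g : v.toValuationSubring, D K F (u : F) = (g : F) • D K F (t : F) := by
  have hspan := wp2_local_span_D_eq_top (R := K) (A := v.toValuationSubring) hres t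
    ht.maximalIdeal_eq
  have hu : D K v.toValuationSubring u ∈
      Submodule.span v.toValuationSubring {D K v.toValuationSubring t} := by
    rw [hspan]; trivial
  obtain ⟨g, hg⟩ := Submodule.mem_span_singleton.mp hu
  refine ⟨g, ?_⟩
  have h := congrArg (KaehlerDifferential.map K K v.toValuationSubring F) hg
  rw [map_smul, KaehlerDifferential.map_D, KaehlerDifferential.map_D] at h
  have h2 : g • D K F (algebraMap v.toValuationSubring F t) = (g : F) • D K F (t : F) :=
    (algebraMap_smul F g _).symm
  rw [h2] at h
  exact h.symm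

/-- Key local computation: if `ord_v y = n ≠ 0` then `D y = g • D t` with `ord_v g = n - 1`. -/
theorem wp2_D_eq_smul_of_ord_ne_zero [CharZero K] (v : Place K F)
    [Module.Finite v.toValuationSubring Ω[v.toValuationSubring⁄K]]
    (hres : Function.Surjective (algebraMap K v.ResidueField))
    {t : v.toValuationSubring} (ht : Irreducible t) {y : F} (hy0 : y ≠ 0) (hy : v.ord y ≠ 0) :
    ∃ g : F, D K F y = g • D K F (t : F) ∧ v.ord g = v.ord y - 1 := by
  obtain ⟨u, hu⟩ := v.exists_unit_mul_zpow hy0 ht
  set n := v.ord y with hn
  obtain ⟨g, hg⟩ := wp2_exists_D_eq_smul v hres ht (u : v.toValuationSubring)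
  have hπ0 : (t : F) ≠ 0 := by
    simpa [ne_eq, ZeroMemClass.coe_eq_zero] using ht.ne_zero
  -- the unit `n * u + t * g`
  have hnK : (n : K) ≠ 0 := by exact_mod_cast hy
  have hnu : IsUnit (algebraMap K v.toValuationSubring (n : K)) :=
    (IsUnit.mk0 _ hnK).map _
  have hw : IsUnit (algebraMap K v.toValuationSubring (n : K) * (u : v.toValuationSubring)
      + t * g) := by
    rw [← IsLocalRing.notMem_maximalIdeal]
    intro hmem
    have h1 : t * g ∈ IsLocalRing.maximalIdeal v.toValuationSubring :=
      Ideal.mul_mem_right _ _ ((IsLocalRing.mem_maximalIdeal _).mpr ht.not_isUnit)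
    have h2 := (Ideal.add_mem_iff_left _ h1).mp hmem
    exact (IsLocalRing.notMem_maximalIdeal.mpr (hnu.mul u.isUnit)) h2
  refine ⟨((hw.unit : v.toValuationSubring) : F) * (t : F) ^ (n - 1), ?_,
    v.ord_unit_smul_zpow hw.unit ht (n - 1)⟩
  rw [hu, Derivation.leibniz, wp2_leibniz_zpow _ hπ0, hg, smul_smul, smul_smul, ← add_smul]
  congr 1
  rw [IsUnit.unit_spec]
  have hcast : ((algebraMap K v.toValuationSubring (n : K) : v.toValuationSubring) : F)
      = (n : F) := by
    rw [v.coe_algebraMap]; simp
  push_cast
  rw [hcast]
  have : (t : F) ^ n = (t : F) * (t : F) ^ (n - 1) := by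
    rw [zpow_sub_one₀ hπ0]; field_simp
  rw [this]
  ring

end PlaceLocal

section PartB

variable {K F : Type*} [Field K] [IsAlgClosed K] [CharZero K] [Field F] [Algebra K F]

omit [IsAlgClosed K] [CharZero K] in
/-- A nonzero element of order `0` is a unit of the valuation ring. -/
theorem wp2_isUnit_of_ord_eq_zero (v : Place K F) (s : v.toValuationSubring)
    (hs0 : (s : F) ≠ 0) (hs : v.ord (s : F) = 0) : IsUnit s := by
  rw [← v.adicValuation_coe_eq_one_iff]
  have h1 : WithZero.log (v.adicValuation (s : F)) = 0 := by
    have := hs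
    unfold Place.ord at this
    omega
  have h2 := WithZero.exp_log (v.adicValuation_ne_zero hs0)
  rw [h1] at h2
  rw [← h2]
  rfl

/-- The valuation ring of a place is essentially of finite type over `K`. -/
theorem wp2_essFiniteType (y : F) (hy : Transcendental K y) [FiniteDimensional K⟮y⟯ F]
    (v : Place K F) (hv : y ∈ v.toValuationSubring) :
    Algebra.EssFiniteType K v.toValuationSubring := by
  classical
  let ι : integralClosure (Algebra.adjoin K {y}) F →+* v.toValuationSubring :=
    { toFun := fun b => ⟨(b : F), wp1_mem_of_isIntegral y v hv b b.2⟩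
      map_one' := rfl
      map_mul' := fun _ _ => rfl
      map_zero' := rfl
      map_add' := fun _ _ => rfl }
  let _ : Algebra (integralClosure (Algebra.adjoin K {y}) F) v.toValuationSubring := ι.toAlgebra
  have htower : IsScalarTower K (integralClosure (Algebra.adjoin K {y}) F)
      v.toValuationSubring := IsScalarTower.of_algebraMap_eq (fun c => Subtype.ext rfl)
  let M : Submonoid (integralClosure (Algebra.adjoin K {y}) F) :=
    (IsUnit.submonoid v.toValuationSubring).comap ι
  have hloc : IsLocalization M v.toValuationSubring := by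
    rw [isLocalization_iff]
    refine ⟨fun m => m.2, fun z => ?_, fun {b1 b2} h => ⟨1, ?_⟩⟩
    · obtain ⟨b, s, hb, hs, hs0, hsord, hmul⟩ :=
        wp1_exists_integral_fraction y hy v hv z z.2
      have hsunit : IsUnit (ι ⟨s, hs⟩) :=
        wp2_isUnit_of_ord_eq_zero v (ι ⟨s, hs⟩) hs0 hsord
      exact ⟨(⟨b, hb⟩, ⟨⟨s, hs⟩, hsunit⟩), Subtype.ext hmul⟩
    · have : b1 = b2 := Subtype.ext (show (b1 : F) = (b2 : F) from
        congrArg (fun z : v.toValuationSubring => (z : F)) h)
      rw [this]
  have hfin : Module.Finite (Algebra.adjoin K {y}) (integralClosure (Algebra.adjoin K {y}) F) :=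
    wp1_finite_integralClosure y hy
  have hA : Algebra.FiniteType K (Algebra.adjoin K {y}) :=
    Algebra.FiniteType.adjoin_of_finite (Set.finite_singleton y)
  have hB : Algebra.FiniteType K (integralClosure (Algebra.adjoin K {y}) F) :=
    Algebra.FiniteType.trans (S := Algebra.adjoin K {y}) hA inferInstance
  have hess : Algebra.EssFiniteType (integralClosure (Algebra.adjoin K {y}) F)
      v.toValuationSubring := Algebra.EssFiniteType.of_isLocalization _ M
  exact Algebra.EssFiniteType.comp K (integralClosure (Algebra.adjoin K {y}) F)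
    v.toValuationSubring

omit [CharZero K] in
/-- The residue field of a place is `K`. -/
theorem wp2_residue_surjective (y : F) (hy : Transcendental K y) [FiniteDimensional K⟮y⟯ F]
    (v : Place K F) : Function.Surjective (algebraMap K v.ResidueField) := by
  intro r
  obtain ⟨f, rfl⟩ := IsLocalRing.residue_surjective r
  obtain ⟨c, hc | hc⟩ := wp1_exists_const y hy v (f : F) f.2
  · refine ⟨c, ?_⟩
    have : f = algebraMap K v.toValuationSubring c := Subtype.ext hc
    rw [this]
    rfl
  · refine ⟨c, ?_⟩
    have hmem : f - algebraMap K v.toValuationSubring c ∈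
        IsLocalRing.maximalIdeal v.toValuationSubring := by
      rw [IsLocalRing.mem_maximalIdeal, mem_nonunits_iff]
      intro hu
      have h0 := v.ord_coe_unit hu.unit
      rw [IsUnit.unit_spec] at h0
      have h1 : ((f - algebraMap K v.toValuationSubring c : v.toValuationSubring) : F)
          = (f : F) - algebraMap K F c := rfl
      rw [h1] at h0
      omega
    have h2 := (IsLocalRing.residue_eq_zero_iff _).mpr hmem
    rw [map_sub, sub_eq_zero] at h2
    exact h2.symm

/-- **Local formula** (WP2, local part): the order of `f • D x` at a place `v` where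
`x - a` has order `≠ 0` (zero of `x - a`, or pole of `x` with `a = 0`). -/
theorem wp2_ordDifferential_smul_D (x : F) (hx : Transcendental K x) [FiniteDimensional K⟮x⟯ F]
    (v : Place K F) (f : F) (hf : f ≠ 0) (a : K) (ha : v.ord (x - algebraMap K F a) ≠ 0) :
    v.ordDifferential (f • D K F x) = v.ord f + v.ord (x - algebraMap K F a) - 1 := by
  obtain ⟨y, hy, hyfin, hyv⟩ : ∃ y : F, Transcendental K y ∧ FiniteDimensional K⟮y⟯ F ∧
      y ∈ v.toValuationSubring := by
    rcases v.toValuationSubring.mem_or_inv_mem x with h | h
    · exact ⟨x, hx, inferInstance, h⟩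
    · have hx' : Transcendental K x⁻¹ := fun halg => hx (by simpa using halg.inv)
      exact ⟨x⁻¹, hx', wp1_finite_of_transcendental x hx x⁻¹ hx', h⟩
  have : Algebra.EssFiniteType K v.toValuationSubring := wp2_essFiniteType y hy v hyv
  have hres := wp2_residue_surjective y hy v
  obtain ⟨t, ht, hdc⟩ := wp2_exists_dCoord_eq v
  have hy0 : x - algebraMap K F a ≠ 0 := by
    intro h
    rw [h, v.ord_zero] at ha
    exact ha rfl
  obtain ⟨g, hg, hgord⟩ := wp2_D_eq_smul_of_ord_ne_zero v hres ht hy0 ha
  have hDx : D K F x = g • D K F (t : F) := by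
    rw [← hg, map_sub, Derivation.map_algebraMap, sub_zero]
  have hDx0 := wp2_D_ne_zero x hx
  have hg0 : g ≠ 0 := by
    rintro rfl
    rw [zero_smul] at hDx
    exact hDx0 hDx
  have : Nontrivial Ω[F⁄K] := nontrivial_of_ne _ _ hDx0
  have : v.DCoordGenerates := ⟨by
    rw [eq_top_iff]
    intro ω _
    obtain ⟨h, rfl⟩ := wp2_exists_eq_smul_D x hx ω
    rw [hDx, smul_smul, hdc]
    exact Submodule.smul_mem _ _ (Submodule.subset_span rfl)⟩
  have hcoeff : v.differentialCoeff (f • D K F x) = f * g :=
    v.differentialCoeff_unique (by rw [hDx, smul_smul, hdc])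
  rw [Place.ordDifferential, hcoeff, v.ord_mul hf hg0, hgord]
  ring

end PartB

end Fermat.Agent.S24
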