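import Fermat.Agent.S24.DiffLocal

/-!
WP2 of the S24 project, global part: Riemann–Hurwitz for the differential `dx`
(`wp2_degree_eq`).  The local computation of `ord_v (f dx)` is in `DiffLocal.lean`, the
one-dimensionality of `Ω[F⁄K]` in `DiffSpan.lean`.
Everything is in `namespace Fermat.Agent.S24`.
-/

set_option autoImplicit false

open ModularCurve AlgebraicCurve MatrixGroups IntermediateField
open KaehlerDifferential

namespace Fermat.Agent.S24

variable {K F : Type*} [Field K] [IsAlgClosed K] [CharZero K] [Field F] [Algebra K F]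

omit [IsAlgClosed K] [CharZero K] in
theorem wp2_transcendental_sub {x : F} (hx : Transcendental K x) (a : K) :
    Transcendental K (x - algebraMap K F a) := by
  intro h
  apply hx
  have := h.add (isAlgebraic_algebraMap (R := K) (A := F) a)
  rwa [sub_add_cancel] at this

omit [IsAlgClosed K] [CharZero K] in
theorem wp2_transcendental_inv {x : F} (hx : Transcendental K x) : Transcendental K x⁻¹ := by
  intro h
  apply hx
  have := h.inv
  rwa [inv_inv] at this

omit [IsAlgClosed K] [CharZero K] in
theorem wp2_adjoin_sub (x : F) (a : K) : K⟮x - algebraMap K F a⟯ = K⟮x⟯ := by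
  apply le_antisymm
  · rw [IntermediateField.adjoin_simple_le_iff]
    exact sub_mem (IntermediateField.mem_adjoin_simple_self K x) (IntermediateField.algebraMap_mem _ a)
  · rw [IntermediateField.adjoin_simple_le_iff]
    have := add_mem (IntermediateField.mem_adjoin_simple_self K (x - algebraMap K F a))
      (IntermediateField.algebraMap_mem K⟮x - algebraMap K F a⟯ a)
    rwa [sub_add_cancel] at this

omit [IsAlgClosed K] [CharZero K] in
theorem wp2_adjoin_inv (x : F) : K⟮x⁻¹⟯ = K⟮x⟯ := by
  apply le_antisymm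
  · rw [IntermediateField.adjoin_simple_le_iff]
    exact inv_mem (IntermediateField.mem_adjoin_simple_self K x)
  · rw [IntermediateField.adjoin_simple_le_iff]
    have := inv_mem (IntermediateField.mem_adjoin_simple_self K x⁻¹)
    rwa [inv_inv] at this

omit [IsAlgClosed K] [CharZero K] in
theorem wp2_ord_neg (v : Place K F) (y : F) : v.ord (-y) = v.ord y := by
  unfold Place.ord
  rw [Valuation.map_neg]

omit [IsAlgClosed K] [CharZero K] in
theorem wp2_card_subtype (p : Place K F → Prop) (h : {v : Place K F | p v}.Finite) :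
    Nat.card {v : Place K F // p v} = h.toFinset.card := by
  have := Set.ncard_eq_toFinset_card {v : Place K F | p v} h
  rw [← this]
  exact Nat.card_coe_set_eq {v : Place K F | p v}

/-- The finite set of zeros of `x - a`. -/
noncomputable def wp2_zeros (x : F) (hx : Transcendental K x) [FiniteDimensional K⟮x⟯ F]
    (a : K) : Finset (Place K F) :=
  haveI : FiniteDimensional K⟮x - algebraMap K F a⟯ F :=
    wp1_finite_of_transcendental x hx _ (wp2_transcendental_sub hx a)
  (wp1_finite_zeros (x - algebraMap K F a) (wp2_transcendental_sub hx a)).toFinset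

theorem wp2_mem_zeros (x : F) (hx : Transcendental K x) [FiniteDimensional K⟮x⟯ F]
    (a : K) (v : Place K F) :
    v ∈ wp2_zeros x hx a ↔ 0 < v.ord (x - algebraMap K F a) := by
  unfold wp2_zeros
  rw [Set.Finite.mem_toFinset]
  exact Iff.rfl

theorem wp2_sum_zeros (x : F) (hx : Transcendental K x) [FiniteDimensional K⟮x⟯ F] (a : K) :
    ∑ v ∈ wp2_zeros x hx a, v.ord (x - algebraMap K F a) = (Module.finrank K⟮x⟯ F : ℤ) := by
  have : FiniteDimensional K⟮x - algebraMap K F a⟯ F :=
    wp1_finite_of_transcendental x hx _ (wp2_transcendental_sub hx a)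
  have h := wp1_sum_ord_zeros (x - algebraMap K F a) (wp2_transcendental_sub hx a)
  rw [wp2_adjoin_sub] at h
  exact h

theorem wp2_card_zeros (x : F) (hx : Transcendental K x) [FiniteDimensional K⟮x⟯ F] (a : K) :
    Nat.card {v : Place K F // 0 < v.ord (x - algebraMap K F a)} = (wp2_zeros x hx a).card := by
  have : FiniteDimensional K⟮x - algebraMap K F a⟯ F :=
    wp1_finite_of_transcendental x hx _ (wp2_transcendental_sub hx a)
  exact wp2_card_subtype _ (wp1_finite_zeros (x - algebraMap K F a) (wp2_transcendental_sub hx a))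

/-- The finite set of poles of `x`. -/
noncomputable def wp2_poles (x : F) (hx : Transcendental K x) [FiniteDimensional K⟮x⟯ F] :
    Finset (Place K F) :=
  haveI : FiniteDimensional K⟮x⁻¹⟯ F :=
    wp1_finite_of_transcendental x hx _ (wp2_transcendental_inv hx)
  (wp1_finite_zeros x⁻¹ (wp2_transcendental_inv hx)).toFinset

theorem wp2_mem_poles (x : F) (hx : Transcendental K x) [FiniteDimensional K⟮x⟯ F]
    (v : Place K F) : v ∈ wp2_poles x hx ↔ v.ord x < 0 := by
  unfold wp2_poles
  rw [Set.Finite.mem_toFinset]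
  change 0 < v.ord x⁻¹ ↔ v.ord x < 0
  rw [v.ord_inv]
  omega

theorem wp2_sum_poles (x : F) (hx : Transcendental K x) [FiniteDimensional K⟮x⟯ F] :
    ∑ v ∈ wp2_poles x hx, v.ord x = -(Module.finrank K⟮x⟯ F : ℤ) := by
  have : FiniteDimensional K⟮x⁻¹⟯ F :=
    wp1_finite_of_transcendental x hx _ (wp2_transcendental_inv hx)
  have h := wp1_sum_ord_zeros x⁻¹ (wp2_transcendental_inv hx)
  rw [wp2_adjoin_inv] at h
  rw [← h, ← Finset.sum_neg_distrib]
  exact Finset.sum_congr rfl fun v _ => by rw [v.ord_inv, neg_neg]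

theorem wp2_card_poles (x : F) (hx : Transcendental K x) [FiniteDimensional K⟮x⟯ F] :
    Nat.card {v : Place K F // v.ord x < 0} = (wp2_poles x hx).card := by
  have : FiniteDimensional K⟮x⁻¹⟯ F :=
    wp1_finite_of_transcendental x hx _ (wp2_transcendental_inv hx)
  have h1 := wp2_card_subtype _ (wp1_finite_zeros x⁻¹ (wp2_transcendental_inv hx))
  have h2 : Nat.card {v : Place K F // v.ord x < 0}
      = Nat.card {v : Place K F // 0 < v.ord x⁻¹} := by
    refine Nat.card_congr (Equiv.subtypeEquivRight fun v => ?_)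
    rw [v.ord_inv]
    omega
  rw [h2, h1]
  rfl

/-- A non-zero function has finitely many zeros and poles (own copy, so that this file only
depends on `Places.lean`). -/
theorem wp2_finite_ord_ne_zero (y : F) (hy : Transcendental K y) [FiniteDimensional K⟮y⟯ F]
    (f : F) (_hf : f ≠ 0) : {v : Place K F | v.ord f ≠ 0}.Finite := by
  by_cases halg : IsAlgebraic K f
  · obtain ⟨c, rfl⟩ := wp1b_exists_eq_algebraMap_of_isAlgebraic halg
    have : {v : Place K F | v.ord (algebraMap K F c) ≠ 0} = ∅ := by
      ext v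
      simp [wp1_ord_algebraMap]
    rw [this]
    exact Set.finite_empty
  · have htr : Transcendental K f := halg
    have htr' : Transcendental K f⁻¹ := wp2_transcendental_inv htr
    have : FiniteDimensional K⟮f⟯ F := wp1_finite_of_transcendental y hy f htr
    have : FiniteDimensional K⟮f⁻¹⟯ F := wp1_finite_of_transcendental y hy f⁻¹ htr'
    refine ((wp1_finite_zeros f htr).union (wp1_finite_zeros f⁻¹ htr')).subset ?_
    intro v hv
    have hv' : v.ord f ≠ 0 := hv
    have h1 : v ∈ {v : Place K F | 0 < v.ord f} ∪ {v : Place K F | 0 < v.ord f⁻¹} ↔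
        (0 < v.ord f ∨ 0 < v.ord f⁻¹) := Iff.rfl
    rw [h1, v.ord_inv]
    omega

/-- The divisor of a non-zero function has degree `0` (sum of orders form; own copy). -/
theorem wp2_sum_ord_eq_zero (y : F) (hy : Transcendental K y) [FiniteDimensional K⟮y⟯ F]
    (f : F) (hf : f ≠ 0) :
    ∑ v ∈ (wp2_finite_ord_ne_zero y hy f hf).toFinset, v.ord f = 0 := by
  classical
  by_cases halg : IsAlgebraic K f
  · obtain ⟨c, rfl⟩ := wp1b_exists_eq_algebraMap_of_isAlgebraic halg
    exact Finset.sum_eq_zero fun v _ => wp1_ord_algebraMap v c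
  · have htr : Transcendental K f := halg
    have htr' : Transcendental K f⁻¹ := wp2_transcendental_inv htr
    have : FiniteDimensional K⟮f⟯ F := wp1_finite_of_transcendental y hy f htr
    have : FiniteDimensional K⟮f⁻¹⟯ F := wp1_finite_of_transcendental y hy f⁻¹ htr'
    have hZ := wp1_sum_ord_zeros f htr
    have hP := wp1_sum_ord_zeros f⁻¹ htr'
    rw [wp2_adjoin_inv] at hP
    have hmem1 : ∀ v : Place K F, v ∈ (wp1_finite_zeros f htr).toFinset ↔ 0 < v.ord f := by
      intro v
      rw [Set.Finite.mem_toFinset]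
      exact Iff.rfl
    have hmem2 : ∀ v : Place K F, v ∈ (wp1_finite_zeros f⁻¹ htr').toFinset ↔ v.ord f < 0 := by
      intro v
      rw [Set.Finite.mem_toFinset]
      change 0 < v.ord f⁻¹ ↔ _
      rw [v.ord_inv]
      omega
    have hmem0 : ∀ v : Place K F, v ∈ (wp2_finite_ord_ne_zero y hy f hf).toFinset ↔ v.ord f ≠ 0 := by
      intro v
      rw [Set.Finite.mem_toFinset]
      exact Iff.rfl
    have hS : (wp2_finite_ord_ne_zero y hy f hf).toFinset
        = (wp1_finite_zeros f htr).toFinset ∪ (wp1_finite_zeros f⁻¹ htr').toFinset := by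
      ext v
      rw [Finset.mem_union, hmem0, hmem1, hmem2]
      omega
    have hdisj : Disjoint (wp1_finite_zeros f htr).toFinset
        (wp1_finite_zeros f⁻¹ htr').toFinset := by
      rw [Finset.disjoint_left]
      intro v h1 h2
      rw [hmem1] at h1
      rw [hmem2] at h2
      omega
    rw [hS, Finset.sum_union hdisj, hZ]
    have hP' : ∑ v ∈ (wp1_finite_zeros f⁻¹ htr').toFinset, v.ord f
        = -(Module.finrank K⟮f⟯ F : ℤ) := by
      rw [← hP, ← Finset.sum_neg_distrib]
      exact Finset.sum_congr rfl fun v _ => by rw [v.ord_inv, neg_neg]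
    rw [hP']
    ring

/-- **Riemann–Hurwitz for `dx`**: the degree of the divisor of a non-zero differential, computed
from the ramification of `x`. -/
theorem wp2_degree_eq (x : F) (hx : Transcendental K x) [FiniteDimensional K⟮x⟯ F] (S : Finset K)
    (hS : ∀ a : K, a ∉ S → Nat.card {v : Place K F // 0 < v.ord (x - algebraMap K F a)}
      = Module.finrank K⟮x⟯ F)
    (ω : Ω[F⁄K]) (hω : ω ≠ 0) (D : Divisor K F) (hD : ∀ v : Place K F, D v = v.ordDifferential ω) :
    Divisor.degree D = ∑ a ∈ S, ((Module.finrank K⟮x⟯ F : ℤ)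
        - (Nat.card {v : Place K F // 0 < v.ord (x - algebraMap K F a)} : ℤ))
      - (Module.finrank K⟮x⟯ F : ℤ) - (Nat.card {v : Place K F // v.ord x < 0} : ℤ) := by
  classical
  obtain ⟨f, rfl⟩ := wp2_exists_eq_smul_D x hx ω
  have hf : f ≠ 0 := by
    rintro rfl
    exact hω (zero_smul _ _)
  -- the local contribution of `dx`
  let r : Place K F → ℤ := fun v => v.ordDifferential ((1 : F) • KaehlerDifferential.D K F x)
  have hr1 : ∀ (v : Place K F) (a : K), v.ord (x - algebraMap K F a) ≠ 0 →
      r v = v.ord (x - algebraMap K F a) - 1 := by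
    intro v a ha
    have h := wp2_ordDifferential_smul_D x hx v 1 one_ne_zero a ha
    change v.ordDifferential ((1 : F) • KaehlerDifferential.D K F x) = _
    rw [h, v.ord_one, zero_add]
  have hex : ∀ v : Place K F, v.ord x < 0 ∨ ∃ a : K, 0 < v.ord (x - algebraMap K F a) := by
    intro v
    by_cases hp : v.ord x < 0
    · exact Or.inl hp
    · right
      have hmem : x ∈ v.toValuationSubring := (wp1_mem_iff_ord_nonneg v x).mpr (not_lt.mp hp)
      obtain ⟨c, hc | hc⟩ := wp1_exists_const x hx v x hmem
      · exact absurd (hc ▸ isAlgebraic_algebraMap (R := K) (A := F) c) hx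
      · exact ⟨c, hc⟩
  have hpole : ∀ v : Place K F, v.ord x < 0 → r v = v.ord x - 1 := by
    intro v hv
    have h := hr1 v 0 (by rw [map_zero, sub_zero]; exact hv.ne)
    rwa [map_zero, sub_zero] at h
  have hDv : ∀ v : Place K F, D v = v.ord f + r v := by
    intro v
    rcases hex v with hv | ⟨a, ha⟩
    · have h := wp2_ordDifferential_smul_D x hx v f hf 0
        (by rw [map_zero, sub_zero]; exact hv.ne)
      rw [map_zero, sub_zero] at h
      rw [hD v, h, hpole v hv]
      ring
    · rw [hD v, wp2_ordDifferential_smul_D x hx v f hf a ha.ne', hr1 v a ha.ne']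
      ring
  -- the relevant finite sets of places
  set Z : K → Finset (Place K F) := fun a => wp2_zeros x hx a with hZ
  set P : Finset (Place K F) := wp2_poles x hx with hP
  set E : Finset (Place K F) := (wp2_finite_ord_ne_zero x hx f hf).toFinset with hE
  set U : Finset (Place K F) := S.biUnion Z with hU
  have hmemZ : ∀ (a : K) (v : Place K F), v ∈ Z a ↔ 0 < v.ord (x - algebraMap K F a) :=
    fun a v => wp2_mem_zeros x hx a v
  have hmemP : ∀ v : Place K F, v ∈ P ↔ v.ord x < 0 := fun v => wp2_mem_poles x hx v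
  have hmemE : ∀ v : Place K F, v ∈ E ↔ v.ord f ≠ 0 := by
    intro v
    rw [hE, Set.Finite.mem_toFinset]
    exact Iff.rfl
  -- sums over the zeros of `x - a`
  have hsumZ : ∀ a : K, ∑ v ∈ Z a, r v
      = (Module.finrank K⟮x⟯ F : ℤ) - ((Z a).card : ℤ) := by
    intro a
    have h1 : ∑ v ∈ Z a, r v = ∑ v ∈ Z a, (v.ord (x - algebraMap K F a) - 1) :=
      Finset.sum_congr rfl fun v hv => hr1 v a ((hmemZ a v).mp hv).ne'
    rw [h1, Finset.sum_sub_distrib, wp2_sum_zeros x hx a, Finset.sum_const, nsmul_eq_mul, mul_one]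
  -- away from the poles and the zeros of `x - a`, `a ∈ S`, the differential `dx` has order `0`
  have hr0 : ∀ v : Place K F, v ∉ P → v ∉ U → r v = 0 := by
    intro v hvP hvU
    rcases hex v with hv | ⟨c, hc⟩
    · exact absurd ((hmemP v).mpr hv) hvP
    · have hcS : c ∉ S := fun hcS => hvU (Finset.mem_biUnion.mpr ⟨c, hcS, (hmemZ c v).mpr hc⟩)
      have hcard : ((Z c).card : ℤ) = (Module.finrank K⟮x⟯ F : ℤ) := by
        rw [← hS c hcS, wp2_card_zeros x hx c]
      have hsum0 : ∑ w ∈ Z c, (w.ord (x - algebraMap K F c) - 1) = 0 := by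
        rw [Finset.sum_sub_distrib, wp2_sum_zeros x hx c, Finset.sum_const, nsmul_eq_mul, mul_one,
          hcard, sub_self]
      have hnonneg : ∀ w ∈ Z c, 0 ≤ w.ord (x - algebraMap K F c) - 1 := by
        intro w hw
        have := (hmemZ c w).mp hw
        omega
      have h0 := (Finset.sum_eq_zero_iff_of_nonneg hnonneg).mp hsum0 v ((hmemZ c v).mpr hc)
      rw [hr1 v c hc.ne', h0]
  -- disjointness
  have hdisjZ : ∀ a b : K, a ≠ b → Disjoint (Z a) (Z b) := by
    intro a b hab
    rw [Finset.disjoint_left]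
    intro v hva hvb
    rw [hmemZ] at hva hvb
    have hne : algebraMap K F (a - b) ≠ 0 := by
      rw [Ne, map_eq_zero, sub_eq_zero]
      exact hab
    have h0 : v.ord (algebraMap K F (a - b)) = 0 := wp1_ord_algebraMap v (a - b)
    have hsum : (x - algebraMap K F b) + -(x - algebraMap K F a) = algebraMap K F (a - b) := by
      rw [map_sub]
      ring
    have hb0 : x - algebraMap K F b ≠ 0 := by
      intro h
      rw [h, v.ord_zero] at hvb
      exact lt_irrefl _ hvb
    have ha0 : -(x - algebraMap K F a) ≠ 0 := by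
      intro h
      rw [neg_eq_zero] at h
      rw [h, v.ord_zero] at hva
      exact lt_irrefl _ hva
    have h1 := wp1_ord_add v (x - algebraMap K F b) (-(x - algebraMap K F a))
      (by rw [hsum]; exact hne) hb0 ha0
    rw [hsum, h0, wp2_ord_neg] at h1
    have := le_min hvb.le hva.le
    omega
  have hdisjPU : Disjoint P U := by
    rw [Finset.disjoint_left]
    intro v hvP hvU
    rw [hmemP] at hvP
    obtain ⟨a, -, hva⟩ := Finset.mem_biUnion.mp hvU
    rw [hmemZ] at hva
    by_cases ha : a = 0
    · rw [ha, map_zero, sub_zero] at hva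
      omega
    · have hane : algebraMap K F a ≠ 0 := by
        rw [Ne, map_eq_zero]
        exact ha
      have hxa0 : x - algebraMap K F a ≠ 0 := by
        intro h
        rw [h, v.ord_zero] at hva
        exact lt_irrefl _ hva
      have hx0 : x ≠ 0 := by
        intro h
        rw [h, v.ord_zero] at hvP
        exact lt_irrefl _ hvP
      have h1 := wp1_ord_add v (x - algebraMap K F a) (algebraMap K F a)
        (by rw [sub_add_cancel]; exact hx0) hxa0 hane
      rw [sub_add_cancel, wp1_ord_algebraMap] at h1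
      have := le_min hva.le (le_refl (0 : ℤ))
      omega
  -- the degree as a finite sum
  set T : Finset (Place K F) := E ∪ (P ∪ U) with hT
  have hsupp : D.support ⊆ T := by
    intro v hv
    rw [Finsupp.mem_support_iff] at hv
    by_contra hvT
    rw [hT, Finset.mem_union, Finset.mem_union] at hvT
    push Not at hvT
    obtain ⟨hvE, hvP, hvU⟩ := hvT
    apply hv
    rw [hDv v, hr0 v hvP hvU, add_zero]
    by_contra h
    exact hvE ((hmemE v).mpr h)
  have hdeg : Divisor.degree D = ∑ v ∈ T, D v := by
    have h1 : Divisor.degree D = D.sum fun v n => n * (v.deg : ℤ) := by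
      simp [Divisor.degree, Finsupp.liftAddHom_apply]
    rw [h1, Finsupp.sum_of_support_subset D hsupp (fun v n => n * (v.deg : ℤ))
      (fun v _ => zero_mul _)]
    exact Finset.sum_congr rfl fun v _ => by rw [wp1_deg_eq_one x hx v, Nat.cast_one, mul_one]
  have hsumf : ∑ v ∈ T, v.ord f = 0 := by
    have h1 : ∑ v ∈ E, v.ord f = ∑ v ∈ T, v.ord f := by
      refine Finset.sum_subset Finset.subset_union_left ?_
      intro v _ hvE
      by_contra h
      exact hvE ((hmemE v).mpr h)
    rw [← h1]
    exact wp2_sum_ord_eq_zero x hx f hf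
  have hsumr : ∑ v ∈ T, r v = ∑ v ∈ P, r v + ∑ v ∈ U, r v := by
    have h1 : ∑ v ∈ P ∪ U, r v = ∑ v ∈ T, r v := by
      refine Finset.sum_subset Finset.subset_union_right ?_
      intro v _ hvPU
      rw [Finset.mem_union] at hvPU
      push Not at hvPU
      exact hr0 v hvPU.1 hvPU.2
    rw [← h1, Finset.sum_union hdisjPU]
  have hsumU : ∑ v ∈ U, r v = ∑ a ∈ S, ∑ v ∈ Z a, r v := by
    rw [hU]
    refine Finset.sum_biUnion ?_
    intro a _ b _ hab
    exact hdisjZ a b hab
  have hsumP : ∑ v ∈ P, r v = -(Module.finrank K⟮x⟯ F : ℤ) - (P.card : ℤ) := by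
    have h1 : ∑ v ∈ P, r v = ∑ v ∈ P, (v.ord x - 1) :=
      Finset.sum_congr rfl fun v hv => hpole v ((hmemP v).mp hv)
    rw [h1, Finset.sum_sub_distrib, wp2_sum_poles x hx, Finset.sum_const, nsmul_eq_mul, mul_one]
  have hsumS : ∑ a ∈ S, ∑ v ∈ Z a, r v = ∑ a ∈ S, ((Module.finrank K⟮x⟯ F : ℤ)
      - (Nat.card {v : Place K F // 0 < v.ord (x - algebraMap K F a)} : ℤ)) :=
    Finset.sum_congr rfl fun a _ => by rw [hsumZ a, wp2_card_zeros x hx a]
  have hD' : ∑ v ∈ T, D v = ∑ v ∈ T, v.ord f + ∑ v ∈ T, r v := by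
    rw [← Finset.sum_add_distrib]
    exact Finset.sum_congr rfl fun v _ => hDv v
  rw [hdeg, hD', hsumf, hsumr, hsumP, hsumU, hsumS, wp2_card_poles x hx]
  ring

end Fermat.Agent.S24
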