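import Fermat.Agent.S24.AnDefs

/-!
Definitions for work package WPA4 of the S24 project (behaviour at `i∞`): the local parameter
`w = e^{2πiτ/N}`, functions with a Laurent expansion in `w` with finite principal part, and the
coefficientwise twist induced by `τ ↦ τ - k`.
-/

set_option autoImplicit false

open ModularCurve AlgebraicCurve MatrixGroups UpperHalfPlane ModularForm EisensteinSeries

open scoped Manifold

namespace Fermat.Agent.S24

/-- The local parameter `w = e^{2πiτ/N}` at `i∞`. -/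
noncomputable def wN (N : ℕ) (τ : ℍ) : ℂ := Function.Periodic.qParam (N : ℝ) (τ : ℂ)

theorem wN_def (N : ℕ) (τ : ℍ) : wN N τ = Function.Periodic.qParam (N : ℝ) (τ : ℂ) := rfl

/-- `f` is `N`-periodic, holomorphic on `ℍ` and bounded at `i∞`. -/
def IsNice (N : ℕ) (f : ℍ → ℂ) : Prop :=
  Function.Periodic (f ∘ ofComplex) (N : ℝ) ∧ MDiff f ∧ IsBoundedAtImInfty f

/-- `f` has the Laurent expansion `L` in `w = e^{2πiτ/N}`: for some `m`, the function `f · w ^ m`
is `N`-periodic, holomorphic and bounded at `i∞`, and `L = w ^ (-m) · (q-expansion of f · w ^ m)`. -/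
def HasWExp (N : ℕ) (f : ℍ → ℂ) (L : LaurentSeries ℂ) : Prop :=
  ∃ m : ℕ, IsNice N (fun τ => f τ * wN N τ ^ m) ∧
    L = HahnSeries.single (-(m : ℤ)) (1 : ℂ) *
      HahnSeries.ofPowerSeries ℤ ℂ (UpperHalfPlane.qExpansion (N : ℝ) (fun τ => f τ * wN N τ ^ m))

/-- The coefficientwise twist `c_n ↦ e^{-2πi k n / N} c_n` of a Laurent series (the effect of
`τ ↦ τ - k` on expansions in `w = e^{2πiτ/N}`). -/
noncomputable def twistL (N : ℕ) (k : ℕ) (L : LaurentSeries ℂ) : LaurentSeries ℂ where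
  coeff n := Complex.exp (-(2 * (Real.pi : ℂ) * Complex.I * (k : ℂ) * (n : ℂ) / (N : ℂ))) * L.coeff n
  isPWO_support' := L.isPWO_support.mono (Function.support_mul_subset_right _ _)

@[simp]
theorem twistL_coeff (N : ℕ) (k : ℕ) (L : LaurentSeries ℂ) (n : ℤ) :
    (twistL N k L).coeff n =
      Complex.exp (-(2 * (Real.pi : ℂ) * Complex.I * (k : ℂ) * (n : ℂ) / (N : ℂ))) * L.coeff n :=
  rfl

end Fermat.Agent.S24
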