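import Fermat.Agent.S24.Defs

/-!
S24 / WPA5 (c): extension of an order function from a domain to its fraction field.
-/

set_option autoImplicit false

namespace Fermat.Agent.S24

section

variable {K A M : Type*} [Field K] [CommRing A] [IsDomain A] [Algebra K A] [Field M] [Algebra K M]
  [Algebra A M] [IsScalarTower K A M] [IsFractionRing A M]

/-- The extension of `o` to the fraction field, as a function. -/
noncomputable def wpA5c_ordExt (o : A → ℤ) (h : M) : ℤ :=
  o (Classical.choose (IsFractionRing.div_surjective (A := A) h)) -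
    o (Classical.choose (Classical.choose_spec (IsFractionRing.div_surjective (A := A) h)))

theorem wpA5c_ordExt_div (o : A → ℤ)
    (hmul : ∀ f g : A, f ≠ 0 → g ≠ 0 → o (f * g) = o f + o g) (a b : A) (ha : a ≠ 0) (hb : b ≠ 0) :
    wpA5c_ordExt (M := M) o (algebraMap A M a / algebraMap A M b) = o a - o b := by
  unfold wpA5c_ordExt
  obtain ⟨hb'mem, hspec⟩ := Classical.choose_spec (Classical.choose_spec
    (IsFractionRing.div_surjective (A := A) (algebraMap A M a / algebraMap A M b)))
  set a' := Classical.choose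
    (IsFractionRing.div_surjective (A := A) (algebraMap A M a / algebraMap A M b)) with ha'
  set b' := Classical.choose (Classical.choose_spec
    (IsFractionRing.div_surjective (A := A) (algebraMap A M a / algebraMap A M b))) with hb'
  have hinj : Function.Injective (algebraMap A M) := IsFractionRing.injective A M
  have hb'0 : b' ≠ 0 := nonZeroDivisors.ne_zero hb'mem
  have hbM : algebraMap A M b ≠ 0 := fun h => hb (hinj (by rw [h, map_zero]))
  have hb'M : algebraMap A M b' ≠ 0 := fun h => hb'0 (hinj (by rw [h, map_zero]))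
  have haM : algebraMap A M a ≠ 0 := fun h => ha (hinj (by rw [h, map_zero]))
  have hcross : a' * b = a * b' := by
    apply hinj
    rw [map_mul, map_mul]
    rw [div_eq_div_iff hb'M hbM] at hspec
    exact hspec
  have ha'0 : a' ≠ 0 := by
    intro h0
    rw [h0, zero_mul] at hcross
    exact mul_ne_zero ha hb'0 hcross.symm
  have h1 := hmul a' b ha'0 hb
  have h2 := hmul a b' ha hb'0
  rw [hcross] at h1
  linarith

/-- Extension of an order function from a domain `A` to its fraction field `M`. -/
theorem wpA5c_exists_ordFn (o : A → ℤ)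
    (hmul : ∀ f g : A, f ≠ 0 → g ≠ 0 → o (f * g) = o f + o g)
    (hadd : ∀ f g : A, f ≠ 0 → g ≠ 0 → f + g ≠ 0 → min (o f) (o g) ≤ o (f + g))
    (hconst : ∀ c : K, c ≠ 0 → o (algebraMap K A c) = 0) :
    ∃ w : OrdFn K M, ∀ a b : A, a ≠ 0 → b ≠ 0 →
      w.ord (algebraMap A M a / algebraMap A M b) = o a - o b := by
  have hinj : Function.Injective (algebraMap A M) := IsFractionRing.injective A M
  have hne : ∀ a : A, a ≠ 0 → algebraMap A M a ≠ 0 := fun a ha h => ha (hinj (by rw [h, map_zero]))
  have hrep : ∀ h : M, h ≠ 0 → ∃ a b : A, a ≠ 0 ∧ b ≠ 0 ∧ h = algebraMap A M a / algebraMap A M b := by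
    intro h hh
    obtain ⟨a, b, hb, rfl⟩ := IsFractionRing.div_surjective (A := A) h
    refine ⟨a, b, ?_, nonZeroDivisors.ne_zero hb, rfl⟩
    rintro rfl
    simp at hh
  have ho1 : o 1 = 0 := by
    have := hconst 1 one_ne_zero
    rwa [map_one] at this
  refine ⟨⟨wpA5c_ordExt (M := M) o, ?_, ?_, ?_⟩, fun a b ha hb => wpA5c_ordExt_div o hmul a b ha hb⟩
  · intro f g hf hg
    obtain ⟨a, b, ha, hb, rfl⟩ := hrep f hf
    obtain ⟨c, d, hc, hd, rfl⟩ := hrep g hg
    have e1 : algebraMap A M a / algebraMap A M b * (algebraMap A M c / algebraMap A M d) =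
        algebraMap A M (a * c) / algebraMap A M (b * d) := by
      rw [map_mul, map_mul, div_mul_div_comm]
    rw [e1, wpA5c_ordExt_div o hmul _ _ (mul_ne_zero ha hc) (mul_ne_zero hb hd),
      wpA5c_ordExt_div o hmul _ _ ha hb, wpA5c_ordExt_div o hmul _ _ hc hd, hmul a c ha hc,
      hmul b d hb hd]
    ring
  · intro f g hf hg hfg
    obtain ⟨a, b, ha, hb, rfl⟩ := hrep f hf
    obtain ⟨c, d, hc, hd, rfl⟩ := hrep g hg
    have e1 : algebraMap A M a / algebraMap A M b + algebraMap A M c / algebraMap A M d =
        algebraMap A M (a * d + b * c) / algebraMap A M (b * d) := by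
      rw [map_add, map_mul, map_mul, map_mul, div_add_div _ _ (hne b hb) (hne d hd)]
    have hnum : a * d + b * c ≠ 0 := by
      intro h0
      rw [e1, h0, map_zero, zero_div] at hfg
      exact hfg rfl
    rw [e1, wpA5c_ordExt_div o hmul _ _ hnum (mul_ne_zero hb hd),
      wpA5c_ordExt_div o hmul _ _ ha hb, wpA5c_ordExt_div o hmul _ _ hc hd, hmul b d hb hd]
    have h3 := hadd (a * d) (b * c) (mul_ne_zero ha hd) (mul_ne_zero hb hc) hnum
    rw [hmul a d ha hd, hmul b c hb hc] at h3
    have h4 : min (o a - o b) (o c - o d) = min (o a + o d) (o b + o c) - (o b + o d) := by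
      rw [← min_sub_sub_right]
      congr 1 <;> ring
    rw [h4]
    linarith
  · intro c hc
    have e1 : algebraMap K M c = algebraMap A M (algebraMap K A c) / algebraMap A M 1 := by
      rw [map_one, div_one, ← IsScalarTower.algebraMap_apply]
    have hc' : algebraMap K A c ≠ 0 := by
      intro h0
      have : algebraMap K M c = 0 := by
        rw [IsScalarTower.algebraMap_apply K A M, h0, map_zero]
      exact hc ((map_eq_zero (algebraMap K M)).mp this)
    rw [e1, wpA5c_ordExt_div o hmul _ _ hc' one_ne_zero, hconst c hc, ho1]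
    ring

end

end Fermat.Agent.S24
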