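import Fermat.Agent.S24.ModNorm
import Fermat.Agent.S24.OrdExt

/-!
S24 / WPA5b1: the field `ModFld N = Frac (ModRing N)` of modular functions of level `N`, the
action of `SL(2,ℤ)` on it, the elements `wpA5b_jd N d` ("`j(dτ)`"), and the transfer of
relations, invariants and order functions from `ModRing N` to `ModFld N`.
-/

set_option autoImplicit false

open ModularCurve AlgebraicCurve MatrixGroups UpperHalfPlane ModularForm EisensteinSeries
open scoped Manifold

namespace Fermat.Agent.S24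

instance wpA5b_isDomain (N : ℕ) [NeZero N] : IsDomain (ModRing N) := by
  have h1 : NoZeroDivisors (ModRing N) := by
    constructor
    intro a b hab
    have h := wpA5c_mul_eq_zero N a.1 b.1 a.2 b.2 (by
      have := congrArg Subtype.val hab
      simpa using this)
    rcases h with h | h
    · left
      exact Subtype.ext h
    · right
      exact Subtype.ext h
  have h2 : Nontrivial (ModRing N) := by
    refine ⟨⟨0, 1, ?_⟩⟩
    intro h
    have := congrArg (fun f : ModRing N => (f : ℍ → ℂ) UpperHalfPlane.I) h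
    simp at this
  exact NoZeroDivisors.to_isDomain _

/-- `actFn g` as a `ℚ̄`-algebra automorphism of `ModRing N`. -/
noncomputable def wpA5b_actEquiv (N : ℕ) [NeZero N] (g : SL(2, ℤ)) : ModRing N ≃ₐ[Kbar] ModRing N where
  toFun f := ⟨actFn g f.1, wpA5c_actFn_mem N g f.1 f.2⟩
  invFun f := ⟨actFn g⁻¹ f.1, wpA5c_actFn_mem N g⁻¹ f.1 f.2⟩
  left_inv f := Subtype.ext (wpA5c_actFn_inv_cancel g f.1)
  right_inv f := Subtype.ext (by
    have := wpA5c_actFn_inv_cancel g⁻¹ f.1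
    rwa [inv_inv] at this)
  map_mul' _ _ := rfl
  map_add' _ _ := rfl
  commutes' _ := rfl

theorem wpA5b_actEquiv_coe (N : ℕ) [NeZero N] (g : SL(2, ℤ)) (f : ModRing N) :
    ((wpA5b_actEquiv N g f : ModRing N) : ℍ → ℂ) = actFn g (f : ℍ → ℂ) := rfl

/-- The action as a monoid homomorphism into ring automorphisms. -/
noncomputable def wpA5b_actHom (N : ℕ) [NeZero N] : SL(2, ℤ) →* (ModRing N ≃+* ModRing N) where
  toFun g := (wpA5b_actEquiv N g).toRingEquiv
  map_one' := by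
    ext f : 2
    exact actFn_one f.1
  map_mul' g h := by
    ext f : 2
    exact actFn_mul g h f.1

/-- The field of modular functions of level `N`: the fraction field of `ModRing N`. -/
def ModFld (N : ℕ) [NeZero N] : Type := FractionRing (ModRing N)

noncomputable instance ModFld.instField (N : ℕ) [NeZero N] : Field (ModFld N) :=
  inferInstanceAs (Field (FractionRing (ModRing N)))

noncomputable instance ModFld.instAlgebraModRing (N : ℕ) [NeZero N] :
    Algebra (ModRing N) (ModFld N) :=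
  inferInstanceAs (Algebra (ModRing N) (FractionRing (ModRing N)))

instance ModFld.instIsFractionRing (N : ℕ) [NeZero N] : IsFractionRing (ModRing N) (ModFld N) :=
  inferInstanceAs (IsFractionRing (ModRing N) (FractionRing (ModRing N)))

noncomputable instance ModFld.instAlgebraKbar (N : ℕ) [NeZero N] : Algebra Kbar (ModFld N) :=
  ((algebraMap (ModRing N) (ModFld N)).comp (algebraMap Kbar (ModRing N))).toAlgebra

instance ModFld.instIsScalarTower (N : ℕ) [NeZero N] : IsScalarTower Kbar (ModRing N) (ModFld N) :=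
  IsScalarTower.of_algebraMap_eq (fun _ => rfl)

noncomputable instance ModFld.instMulSemiringAction (N : ℕ) [NeZero N] :
    MulSemiringAction SL(2, ℤ) (ModFld N) :=
  MulSemiringAction.compHom (ModFld N)
    ((IsFractionRing.ringEquivOfRingEquivHom (ModRing N) (ModFld N)).comp (wpA5b_actHom N))

variable (N : ℕ) [NeZero N]

/-- The inclusion of `ModRing N` into its fraction field. -/
noncomputable def wpA5b_incl : ModRing N →ₐ[Kbar] ModFld N :=
  IsScalarTower.toAlgHom Kbar (ModRing N) (ModFld N)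

theorem wpA5b_incl_apply (f : ModRing N) : wpA5b_incl N f = algebraMap (ModRing N) (ModFld N) f := rfl

theorem wpA5b_incl_injective : Function.Injective (wpA5b_incl N) :=
  IsFractionRing.injective (ModRing N) (ModFld N)

theorem wpA5b_smul_incl (g : SL(2, ℤ)) (f : ModRing N) :
    g • wpA5b_incl N f = wpA5b_incl N (wpA5b_actEquiv N g f) := by
  show IsFractionRing.ringEquivOfRingEquiv (wpA5b_actHom N g) (algebraMap (ModRing N) (ModFld N) f) = _
  rw [IsFractionRing.ringEquivOfRingEquiv_algebraMap]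
  rfl

theorem wpA5b_smul_const (g : SL(2, ℤ)) (c : Kbar) :
    g • algebraMap Kbar (ModFld N) c = algebraMap Kbar (ModFld N) c := by
  have h1 : algebraMap Kbar (ModFld N) c = wpA5b_incl N (algebraMap Kbar (ModRing N) c) := rfl
  rw [h1, wpA5b_smul_incl, AlgEquiv.commutes]

theorem wpA5b_incl_eq_zero_iff (f : ModRing N) : wpA5b_incl N f = 0 ↔ f = 0 := by
  constructor
  · intro h
    apply wpA5b_incl_injective N
    rw [h, map_zero]
  · rintro rfl
    exact map_zero _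

theorem wpA5b_smul_incl_eq_iff (g : SL(2, ℤ)) (f : ModRing N) :
    g • wpA5b_incl N f = wpA5b_incl N f ↔ actFn g (f : ℍ → ℂ) = f := by
  rw [wpA5b_smul_incl]
  constructor
  · intro h
    have := wpA5b_incl_injective N h
    exact congrArg Subtype.val this
  · intro h
    have h1 : wpA5b_actEquiv N g f = f := Subtype.ext h
    rw [h1]

/-- The element "`j(dτ)`" of `ModFld N` (zero if `d ∤ N`). -/
noncomputable def wpA5b_jd (d : ℕ) : ModFld N :=
  if h : d ∣ N then wpA5b_incl N ⟨genFn 1 d, genFn_mem_ModRing N 1 h⟩ else 0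

theorem wpA5b_jd_of_dvd {d : ℕ} (h : d ∣ N) :
    wpA5b_jd N d = wpA5b_incl N ⟨genFn 1 d, genFn_mem_ModRing N 1 h⟩ := dif_pos h

theorem wpA5b_scaleH_one (σ : ℍ) : scaleH 1 σ = σ := by
  apply UpperHalfPlane.ext
  rw [coe_scaleH 1 one_ne_zero]
  simp

theorem wpA5b_genFn_one_right (g : SL(2, ℤ)) : genFn g 1 = kleinJ := by
  funext τ
  rw [genFn_apply, wpA5b_scaleH_one, wpA1_kleinJ_smul]

omit [NeZero N] in
theorem wpA5b_kleinJ_mem : kleinJ ∈ ModRing N := by
  have := genFn_mem_ModRing N 1 (one_dvd N)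
  rwa [wpA5b_genFn_one_right] at this

theorem wpA5b_jd_one : wpA5b_jd N 1 = wpA5b_incl N ⟨kleinJ, wpA5b_kleinJ_mem N⟩ := by
  have h1 : (⟨genFn 1 1, genFn_mem_ModRing N 1 (one_dvd N)⟩ : ModRing N) =
      ⟨kleinJ, wpA5b_kleinJ_mem N⟩ := Subtype.ext (wpA5b_genFn_one_right 1)
  rw [wpA5b_jd_of_dvd N (one_dvd N), h1]

theorem wpA5b_smul_jd (g : SL(2, ℤ)) {d : ℕ} (hd : d ∣ N) :
    g • wpA5b_jd N d = wpA5b_incl N ⟨genFn g d, genFn_mem_ModRing N g hd⟩ := by
  have h1 : wpA5b_actEquiv N g ⟨genFn 1 d, genFn_mem_ModRing N 1 hd⟩ =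
      (⟨genFn g d, genFn_mem_ModRing N g hd⟩ : ModRing N) := by
    apply Subtype.ext
    rw [wpA5b_actEquiv_coe]
    show actFn g (genFn 1 d) = genFn g d
    rw [actFn_genFn, mul_one]
  rw [wpA5b_jd_of_dvd N hd, wpA5b_smul_incl, h1]

theorem wpA5b_smul_jd_eq_iff (g : SL(2, ℤ)) {d : ℕ} (hd : d ∣ N) :
    g • wpA5b_jd N d = wpA5b_jd N d ↔ actFn g (genFn 1 d) = genFn 1 d := by
  rw [wpA5b_jd_of_dvd N hd, wpA5b_smul_incl_eq_iff]

theorem wpA5b_smul_jd_of_mem (g : SL(2, ℤ)) (hg : g ∈ CongruenceSubgroup.Gamma0 N) (d : ℕ)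
    (hd : d ∣ N) : g • wpA5b_jd N d = wpA5b_jd N d := by
  have h1 := wpA5c_genFn_mul_right N 1 g hg d hd
  rw [one_mul] at h1
  rw [wpA5b_smul_jd_eq_iff N g hd, actFn_genFn, mul_one, h1]

theorem wpA5b_smul_jd_one (g : SL(2, ℤ)) : g • wpA5b_jd N 1 = wpA5b_jd N 1 := by
  rw [wpA5b_smul_jd_eq_iff N g (one_dvd N), actFn_genFn, wpA5b_genFn_one_right,
    wpA5b_genFn_one_right]

/-- Polynomial relations among the `jd d` in `ModFld N` are the same as those among the functions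
`genFn 1 d`. -/
theorem wpA5b_aeval_jd_eq_zero_iff (P : MvPolynomial N.divisors Kbar) :
    MvPolynomial.aeval (fun d : N.divisors => wpA5b_jd N d.1) P = 0 ↔
      MvPolynomial.aeval (fun d : N.divisors => genFn 1 d.1) P = 0 := by
  have e1 : (fun d : N.divisors => wpA5b_jd N d.1) = fun d : N.divisors =>
      wpA5b_incl N ⟨genFn 1 d.1, genFn_mem_ModRing N 1 (Nat.dvd_of_mem_divisors d.2)⟩ := by
    funext d
    exact wpA5b_jd_of_dvd N (Nat.dvd_of_mem_divisors d.2)
  have e2 : (fun d : N.divisors => genFn 1 d.1) = fun d : N.divisors =>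
      (ModRing N).val ⟨genFn 1 d.1, genFn_mem_ModRing N 1 (Nat.dvd_of_mem_divisors d.2)⟩ := rfl
  rw [e1, e2, ← MvPolynomial.comp_aeval_apply, ← MvPolynomial.comp_aeval_apply,
    wpA5b_incl_eq_zero_iff]
  constructor
  · intro h
    rw [h, map_zero]
  · intro h
    exact Subtype.ext h

/-- Every element of `ModFld N` is a quotient with `SL(2,ℤ)`-invariant denominator. -/
theorem wpA5b_exists_invariant_denom (h : ModFld N) :
    ∃ f D : ModRing N, D ≠ 0 ∧ (∀ g : SL(2, ℤ), actFn g (D : ℍ → ℂ) = D) ∧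
      h = wpA5b_incl N f / wpA5b_incl N D := by
  obtain ⟨a, b, hb, rfl⟩ := IsFractionRing.div_surjective (A := ModRing N) h
  have hb0 : b ≠ 0 := nonZeroDivisors.ne_zero hb
  have hb0' : (b : ℍ → ℂ) ≠ 0 := fun h0 => hb0 (Subtype.ext h0)
  obtain ⟨b', hb'mem, hne, hinv⟩ := wpA5c_exists_invariant_multiple N b.1 b.2 hb0'
  have hD0 : b * ⟨b', hb'mem⟩ ≠ 0 := by
    intro h0
    exact hne (congrArg Subtype.val h0)
  refine ⟨a * ⟨b', hb'mem⟩, b * ⟨b', hb'mem⟩, hD0, hinv, ?_⟩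
  have hb'0 : (⟨b', hb'mem⟩ : ModRing N) ≠ 0 := right_ne_zero_of_mul hD0
  have h1 : wpA5b_incl N ⟨b', hb'mem⟩ ≠ 0 := fun h0 => hb'0 ((wpA5b_incl_eq_zero_iff N _).mp h0)
  rw [map_mul, map_mul, mul_div_mul_right _ _ h1]
  rfl

theorem wpA5b_incl_mem_adjoin (x : ModRing N) (hx : (x : ℍ → ℂ) ∈ Algebra.adjoin Kbar {kleinJ}) :
    wpA5b_incl N x ∈ IntermediateField.adjoin Kbar {wpA5b_jd N 1} := by
  have h1 : Algebra.adjoin Kbar {kleinJ} =
      (Algebra.adjoin Kbar {(⟨kleinJ, wpA5b_kleinJ_mem N⟩ : ModRing N)}).map (ModRing N).val := by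
    rw [AlgHom.map_adjoin_singleton]
    rfl
  rw [h1] at hx
  obtain ⟨y, hy, hyx⟩ := hx
  have hyx' : y = x := Subtype.ext hyx
  subst hyx'
  have h2 : wpA5b_incl N y ∈
      (Algebra.adjoin Kbar {(⟨kleinJ, wpA5b_kleinJ_mem N⟩ : ModRing N)}).map (wpA5b_incl N) :=
    ⟨y, hy, rfl⟩
  rw [AlgHom.map_adjoin_singleton, ← wpA5b_jd_one] at h2
  exact IntermediateField.algebra_adjoin_le_adjoin Kbar _ h2

/-- `fixed` for `ModFld N`, given the `q`-expansion principle `wpA4_fixed` for `ModRing N`. -/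
theorem wpA5b_fixed_of
    (hfix : ∀ f : ℍ → ℂ, f ∈ ModRing N → (∀ g : SL(2, ℤ), actFn g f = f) →
      f ∈ Algebra.adjoin Kbar {kleinJ})
    (h : ModFld N) (hh : ∀ g : SL(2, ℤ), g • h = h) :
    h ∈ IntermediateField.adjoin Kbar {wpA5b_jd N 1} := by
  obtain ⟨f, D, hD0, hDinv, rfl⟩ := wpA5b_exists_invariant_denom N h
  have hD1 : wpA5b_incl N D ≠ 0 := fun h0 => hD0 ((wpA5b_incl_eq_zero_iff N _).mp h0)
  have hfinv : ∀ g : SL(2, ℤ), actFn g (f : ℍ → ℂ) = f := by
    intro g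
    rw [← wpA5b_smul_incl_eq_iff]
    have h1 := hh g
    rw [smul_div₀', (wpA5b_smul_incl_eq_iff N g D).mpr (hDinv g)] at h1
    exact (div_left_inj' hD1).mp h1
  exact div_mem (wpA5b_incl_mem_adjoin N f (hfix f.1 f.2 hfinv))
    (wpA5b_incl_mem_adjoin N D (hfix D.1 D.2 hDinv))

/-- Extension of an order function on `ModRing N` to `ModFld N`, with transfer of invariance and
divisibility properties. -/
theorem wpA5b_exists_ordFn (o : (ℍ → ℂ) → ℤ)
    (hmul : ∀ f ∈ ModRing N, ∀ g ∈ ModRing N, f ≠ 0 → g ≠ 0 → o (f * g) = o f + o g)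
    (hadd : ∀ f ∈ ModRing N, ∀ g ∈ ModRing N, f ≠ 0 → g ≠ 0 → f + g ≠ 0 →
      min (o f) (o g) ≤ o (f + g))
    (hconst : ∀ c : Kbar, c ≠ 0 → o (algebraMap Kbar (ℍ → ℂ) c) = 0) :
    ∃ w : OrdFn Kbar (ModFld N),
      (∀ f : ModRing N, f ≠ 0 → w.ord (wpA5b_incl N f) = o (f : ℍ → ℂ)) ∧
      (∀ γ : SL(2, ℤ), (∀ f ∈ ModRing N, o (actFn γ f) = o f) →
        ∀ h : ModFld N, w.ord (γ • h) = w.ord h) ∧
      (∀ (γ : SL(2, ℤ)) (e : ℤ), (∀ f ∈ ModRing N, f ≠ 0 → actFn γ f = f → e ∣ o f) →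
        ∀ h : ModFld N, h ≠ 0 → γ • h = h → e ∣ w.ord h) := by
  have hval0 : ∀ a : ModRing N, a ≠ 0 → (a : ℍ → ℂ) ≠ 0 := fun a ha h0 => ha (Subtype.ext h0)
  obtain ⟨w, hw⟩ := wpA5c_exists_ordFn (K := Kbar) (A := ModRing N) (M := ModFld N)
    (fun a => o (a : ℍ → ℂ))
    (fun f g hf hg => hmul f.1 f.2 g.1 g.2 (hval0 f hf) (hval0 g hg))
    (fun f g hf hg hfg => hadd f.1 f.2 g.1 g.2 (hval0 f hf) (hval0 g hg) (hval0 (f + g) hfg))
    (fun c hc => hconst c hc)
  have hw' : ∀ a b : ModRing N, a ≠ 0 → b ≠ 0 →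
      w.ord (wpA5b_incl N a / wpA5b_incl N b) = o (a : ℍ → ℂ) - o (b : ℍ → ℂ) := hw
  have ho1 : o (1 : ℍ → ℂ) = 0 := by
    have := hconst 1 one_ne_zero
    rwa [map_one] at this
  have hrep : ∀ h : ModFld N, h ≠ 0 → ∃ a b : ModRing N, a ≠ 0 ∧ b ≠ 0 ∧
      h = wpA5b_incl N a / wpA5b_incl N b := by
    intro h hh
    obtain ⟨a, b, hb, rfl⟩ := IsFractionRing.div_surjective (A := ModRing N) h
    refine ⟨a, b, ?_, nonZeroDivisors.ne_zero hb, rfl⟩
    rintro rfl
    simp at hh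
  refine ⟨w, ?_, ?_, ?_⟩
  · intro f hf
    have h1 := hw' f 1 hf one_ne_zero
    rw [map_one, div_one] at h1
    rw [h1]
    show o (f : ℍ → ℂ) - o (1 : ℍ → ℂ) = _
    rw [ho1, sub_zero]
  · intro γ hγ h
    by_cases hh : h = 0
    · rw [hh, smul_zero]
    · obtain ⟨a, b, ha, hb, rfl⟩ := hrep h hh
      rw [smul_div₀', wpA5b_smul_incl, wpA5b_smul_incl,
        hw' _ _ ((map_ne_zero_iff _ (wpA5b_actEquiv N γ).injective).mpr ha)
          ((map_ne_zero_iff _ (wpA5b_actEquiv N γ).injective).mpr hb),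
        hw' a b ha hb, wpA5b_actEquiv_coe, wpA5b_actEquiv_coe, hγ a.1 a.2, hγ b.1 b.2]
  · intro γ e hγ h hh hfix
    obtain ⟨f, D, hD0, hDinv, rfl⟩ := wpA5b_exists_invariant_denom N h
    have hD1 : wpA5b_incl N D ≠ 0 := fun h0 => hD0 ((wpA5b_incl_eq_zero_iff N _).mp h0)
    have hf0 : f ≠ 0 := by
      rintro rfl
      simp at hh
    have hfinv : actFn γ (f : ℍ → ℂ) = f := by
      rw [← wpA5b_smul_incl_eq_iff]
      have h1 := hfix
      rw [smul_div₀', (wpA5b_smul_incl_eq_iff N γ D).mpr (hDinv γ)] at h1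
      exact (div_left_inj' hD1).mp h1
    rw [hw' f D hf0 hD0]
    exact dvd_sub (hγ f.1 f.2 (hval0 f hf0) hfinv) (hγ D.1 D.2 (hval0 D hD0) (hDinv γ))

end Fermat.Agent.S24
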