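import Fermat.Agent.S24.AnDefs

/-!
S24, work package WPA5(b), core part: the field of modular functions (the fraction field of
`ModRing N`) and the assembly of `Nonempty (ModularData N)` from the analytic inputs of the
work packages WPA1-WPA5(a), which are collected in the class `wpA5b3_Inputs N`.
-/

set_option autoImplicit false

open ModularCurve AlgebraicCurve MatrixGroups UpperHalfPlane ModularForm EisensteinSeries
open scoped Manifold

namespace Fermat.Agent.S24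

/-- The analytic inputs (statements of the work packages WPA1-WPA5(a)) used by the assembly. -/
class wpA5b3_Inputs (N : ℕ) : Prop where
  kleinJ_smul : ∀ (g : SL(2, ℤ)) (τ : ℍ), kleinJ (g • τ) = kleinJ τ
  kleinJ_surjective : Function.Surjective kleinJ
  deriv_ne_zero : ∀ τ : ℍ, kleinJ τ ≠ 0 → kleinJ τ ≠ 1728 →
    deriv (kleinJ ∘ ofComplex) (τ : ℂ) ≠ 0
  ST_smul_rho : (ModularGroup.S * ModularGroup.T) • rhoH = rhoH
  order_rho : analyticOrderAt (kleinJ ∘ ofComplex) (rhoH : ℂ) = 3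
  order_I : analyticOrderAt (fun z : ℂ => kleinJ (ofComplex z) - 1728)
    (UpperHalfPlane.I : ℂ) = 2
  rel_iff : ∀ P : MvPolynomial N.divisors Kbar,
    MvPolynomial.aeval (fun d : N.divisors => JJ d.1) P = 0 ↔
      MvPolynomial.aeval (fun d : N.divisors => genFn 1 d.1) P = 0
  fixed : ∀ f : ℍ → ℂ, f ∈ ModRing N → (∀ g : SL(2, ℤ), actFn g f = f) →
    f ∈ Algebra.adjoin Kbar {kleinJ}
  stab : ∀ g : SL(2, ℤ), actFn g (genFn 1 N) = genFn 1 N → g ∈ CongruenceSubgroup.Gamma0 N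
  ordInfty : ∃ o : (ℍ → ℂ) → ℤ,
    (∀ f ∈ ModRing N, ∀ g ∈ ModRing N, f ≠ 0 → g ≠ 0 → o (f * g) = o f + o g) ∧
    (∀ f ∈ ModRing N, ∀ g ∈ ModRing N, f ≠ 0 → g ≠ 0 → f + g ≠ 0 →
      min (o f) (o g) ≤ o (f + g)) ∧
    (∀ c : Kbar, c ≠ 0 → o (algebraMap Kbar (ℍ → ℂ) c) = 0) ∧ o kleinJ = -(N : ℤ) ∧
    (∀ f ∈ ModRing N, o (actFn ModularGroup.T f) = o f) ∧
    (∀ f ∈ ModRing N, f ≠ 0 → ∀ k : ℕ, k ∣ N → actFn (ModularGroup.T ^ k) f = f →
      ((N / k : ℕ) : ℤ) ∣ o f)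
  mdiff_of_mem : ∀ f : ℍ → ℂ, f ∈ ModRing N → MDiff f
  analyticOrderAt_ne_top : ∀ (τ₀ : ℍ) (f : ℍ → ℂ), f ∈ ModRing N → f ≠ 0 →
    analyticOrderAt (f ∘ ofComplex) (τ₀ : ℂ) ≠ ⊤
  ordAt_mul : ∀ (τ₀ : ℍ) (f g : ℍ → ℂ), f ∈ ModRing N → g ∈ ModRing N → f ≠ 0 → g ≠ 0 →
    ordAt τ₀ (f * g) = ordAt τ₀ f + ordAt τ₀ g
  ordAt_add : ∀ (τ₀ : ℍ) (f g : ℍ → ℂ), f ∈ ModRing N → g ∈ ModRing N → f ≠ 0 → g ≠ 0 →
    f + g ≠ 0 → min (ordAt τ₀ f) (ordAt τ₀ g) ≤ ordAt τ₀ (f + g)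
  ordAt_const : ∀ (τ₀ : ℍ) (c : Kbar), c ≠ 0 → ordAt τ₀ (algebraMap Kbar (ℍ → ℂ) c) = 0
  ordAt_actFn : ∀ (τ₀ : ℍ) (γ : SL(2, ℤ)), γ • τ₀ = τ₀ → ∀ f : ℍ → ℂ, f ∈ ModRing N →
    ordAt τ₀ (actFn γ f) = ordAt τ₀ f
  dvd_ordAt : ∀ (τ₀ : ℍ) (γ : SL(2, ℤ)), γ • τ₀ = τ₀ → ∀ e : ℕ,
    IsPrimitiveRoot (UpperHalfPlane.denom γ τ₀ ^ 2) e → ∀ f : ℍ → ℂ, f ∈ ModRing N → f ≠ 0 →
    actFn γ f = f → (e : ℤ) ∣ ordAt τ₀ f


/-! ### `ModRing N` is a domain -/

theorem wpA5b3_analyticAt (N : ℕ) [NeZero N] [wpA5b3_Inputs N] (τ₀ : ℍ) (f : ℍ → ℂ) (hf : f ∈ ModRing N) :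
    AnalyticAt ℂ (f ∘ ofComplex) (τ₀ : ℂ) := by
  have h2 := UpperHalfPlane.mdifferentiable_iff.mp (wpA5b3_Inputs.mdiff_of_mem (N := N) f hf)
  exact h2.analyticAt (isOpen_upperHalfPlaneSet.mem_nhds τ₀.im_pos)

theorem wpA5b3_mul_ne_zero (N : ℕ) [NeZero N] [wpA5b3_Inputs N] (f g : ℍ → ℂ) (hf : f ∈ ModRing N)
    (hg : g ∈ ModRing N) (hf0 : f ≠ 0) (hg0 : g ≠ 0) : f * g ≠ 0 := by
  intro h
  have h1 := wpA5b3_Inputs.analyticOrderAt_ne_top (N := N) UpperHalfPlane.I f hf hf0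
  have h2 := wpA5b3_Inputs.analyticOrderAt_ne_top (N := N) UpperHalfPlane.I g hg hg0
  have h3 : analyticOrderAt ((f ∘ ofComplex) * (g ∘ ofComplex)) ((UpperHalfPlane.I : ℍ) : ℂ) =
      analyticOrderAt (f ∘ ofComplex) ((UpperHalfPlane.I : ℍ) : ℂ) +
        analyticOrderAt (g ∘ ofComplex) ((UpperHalfPlane.I : ℍ) : ℂ) :=
    analyticOrderAt_mul (wpA5b3_analyticAt N _ f hf) (wpA5b3_analyticAt N _ g hg)
  have h4 : (f ∘ ofComplex) * (g ∘ ofComplex) = fun _ => (0 : ℂ) := by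
    funext z
    have := congrFun h (ofComplex z)
    simpa using this
  rw [h4] at h3
  have h5 : analyticOrderAt (fun _ : ℂ => (0 : ℂ)) ((UpperHalfPlane.I : ℍ) : ℂ) = ⊤ := by
    rw [analyticOrderAt_eq_top]
    exact Filter.Eventually.of_forall fun _ => rfl
  rw [h5] at h3
  rcases WithTop.add_eq_top.mp h3.symm with h | h
  · exact h1 h
  · exact h2 h

instance wpA5b3_isDomain (N : ℕ) [NeZero N] [wpA5b3_Inputs N] : IsDomain (ModRing N) := by
  have : NoZeroDivisors (ModRing N) := by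
    refine ⟨fun {a b} hab => ?_⟩
    by_contra hcon
    push Not at hcon
    have ha : (a : ℍ → ℂ) ≠ 0 := fun h => hcon.1 (Subtype.ext h)
    have hb : (b : ℍ → ℂ) ≠ 0 := fun h => hcon.2 (Subtype.ext h)
    exact wpA5b3_mul_ne_zero N a b a.2 b.2 ha hb (congrArg Subtype.val hab)
  have : Nontrivial (ModRing N) := by
    refine ⟨⟨0, 1, fun h => ?_⟩⟩
    have h1 := congrArg Subtype.val h
    have h2 := congrFun h1 UpperHalfPlane.I
    simp at h2
  exact NoZeroDivisors.to_isDomain _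

/-! ### The action of `SL(2,ℤ)` -/

/-- `actFn g` as an algebra homomorphism. -/
noncomputable def wpA5b3_actHom (g : SL(2, ℤ)) : (ℍ → ℂ) →ₐ[Kbar] (ℍ → ℂ) where
  toFun := actFn g
  map_one' := rfl
  map_mul' _ _ := rfl
  map_zero' := rfl
  map_add' _ _ := rfl
  commutes' _ := rfl

theorem wpA5b3_actFn_mem (N : ℕ) (g : SL(2, ℤ)) {f : ℍ → ℂ} (hf : f ∈ ModRing N) :
    actFn g f ∈ ModRing N := by
  have h : (ModRing N).map (wpA5b3_actHom g) ≤ ModRing N := by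
    unfold ModRing
    rw [AlgHom.map_adjoin]
    apply Algebra.adjoin_mono
    rintro _ ⟨f, ⟨h, d, hd, rfl⟩, rfl⟩
    exact ⟨g * h, d, hd, actFn_genFn g h d⟩
  exact h ⟨f, hf, rfl⟩

noncomputable instance wpA5b3_action (N : ℕ) : MulSemiringAction SL(2, ℤ) (ModRing N) where
  smul g f := ⟨actFn g f.1, wpA5b3_actFn_mem N g f.2⟩
  one_smul f := Subtype.ext (actFn_one f.1)
  mul_smul g h f := Subtype.ext (actFn_mul g h f.1)
  smul_zero _ := Subtype.ext rfl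
  smul_add _ _ _ := Subtype.ext rfl
  smul_one _ := Subtype.ext rfl
  smul_mul _ _ _ := Subtype.ext rfl

theorem wpA5b3_coe_smul (N : ℕ) (g : SL(2, ℤ)) (f : ModRing N) :
    ((g • f : ModRing N) : ℍ → ℂ) = actFn g (f : ℍ → ℂ) := rfl

/-! ### Invariance of the generators -/

theorem wpA5b3_scale_smul (d N : ℕ) (hd : d ∣ N) (hd0 : d ≠ 0) (δ : SL(2, ℤ))
    (hδ : δ ∈ CongruenceSubgroup.Gamma0 N) (τ : ℍ) :
    ∃ δ' : SL(2, ℤ), scaleH d (δ • τ) = δ' • scaleH d τ := by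
  have hc : (d : ℤ) ∣ δ 1 0 := by
    have h1 : ((δ 1 0 : ℤ) : ZMod N) = 0 := CongruenceSubgroup.Gamma0_mem.mp hδ
    have h2 : (N : ℤ) ∣ δ 1 0 := (ZMod.intCast_zmod_eq_zero_iff_dvd _ _).mp h1
    exact dvd_trans (Int.natCast_dvd_natCast.mpr hd) h2
  obtain ⟨c', hc'⟩ := hc
  have hdet : (!![δ 0 0, δ 0 1 * d; c', δ 1 1] : Matrix (Fin 2) (Fin 2) ℤ).det = 1 := by
    have h := δ.det_coe
    rw [Matrix.det_fin_two] at h
    rw [Matrix.det_fin_two_of]
    rw [hc'] at h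
    linear_combination h
  obtain ⟨δ', hδ'⟩ : ∃ δ' : SL(2, ℤ), δ' 0 0 = δ 0 0 ∧ δ' 0 1 = δ 0 1 * d ∧ δ' 1 0 = c' ∧
      δ' 1 1 = δ 1 1 := ⟨⟨!![δ 0 0, δ 0 1 * d; c', δ 1 1], hdet⟩, rfl, rfl, rfl, rfl⟩
  refine ⟨δ', ?_⟩
  apply UpperHalfPlane.ext
  rw [coe_scaleH d hd0, coe_specialLinearGroup_apply, coe_specialLinearGroup_apply,
    coe_scaleH d hd0, hδ'.1, hδ'.2.1, hδ'.2.2.1, hδ'.2.2.2]
  have hden : ((algebraMap ℤ ℝ (δ 1 0) : ℝ) : ℂ) * (τ : ℂ) + ((algebraMap ℤ ℝ (δ 1 1) : ℝ) : ℂ) =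
      ((algebraMap ℤ ℝ c' : ℝ) : ℂ) * ((d : ℂ) * (τ : ℂ)) + ((algebraMap ℤ ℝ (δ 1 1) : ℝ) : ℂ) := by
    rw [hc']
    simp
    ring
  rw [← hden, mul_div_assoc']
  congr 1
  simp
  ring


theorem wpA5b3_genFn_mul_Gamma0 (N d : ℕ) [NeZero N] [wpA5b3_Inputs N] (hd : d ∣ N) (h δ : SL(2, ℤ))
    (hδ : δ ∈ CongruenceSubgroup.Gamma0 N) : genFn (h * δ) d = genFn h d := by
  have hd0 : d ≠ 0 := fun h0 => NeZero.ne N (by simpa [h0] using hd)
  funext τ
  rw [genFn_apply, genFn_apply, mul_inv_rev, mul_smul]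
  obtain ⟨δ', hδ'⟩ := wpA5b3_scale_smul d N hd hd0 δ⁻¹ (inv_mem hδ) (h⁻¹ • τ)
  rw [hδ', wpA5b3_Inputs.kleinJ_smul (N := N)]

theorem wpA5b3_Gamma_le_Gamma0 (N : ℕ) :
    CongruenceSubgroup.Gamma N ≤ CongruenceSubgroup.Gamma0 N := by
  intro γ hγ
  rw [CongruenceSubgroup.Gamma_mem] at hγ
  exact CongruenceSubgroup.Gamma0_mem.mpr hγ.2.2.1

theorem wpA5b3_actFn_Gamma (N : ℕ) [NeZero N] [wpA5b3_Inputs N] (γ : SL(2, ℤ)) (hγ : γ ∈ CongruenceSubgroup.Gamma N)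
    (f : ℍ → ℂ) (hf : f ∈ ModRing N) : actFn γ f = f := by
  have h : ModRing N ≤ AlgHom.equalizer (wpA5b3_actHom γ) (AlgHom.id Kbar (ℍ → ℂ)) := by
    unfold ModRing
    apply Algebra.adjoin_le
    rintro _ ⟨h, d, hd, rfl⟩
    change actFn γ (genFn h d) = genFn h d
    rw [actFn_genFn]
    have h1 : γ * h = h * (h⁻¹ * γ * h) := by group
    rw [h1]
    apply wpA5b3_genFn_mul_Gamma0 N d hd
    apply wpA5b3_Gamma_le_Gamma0
    have := (CongruenceSubgroup.Gamma_normal N).conj_mem γ hγ h⁻¹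
    simpa using this
  exact h hf

theorem wpA5b3_smul_Gamma (N : ℕ) [NeZero N] [wpA5b3_Inputs N] (γ : SL(2, ℤ)) (hγ : γ ∈ CongruenceSubgroup.Gamma N)
    (f : ModRing N) : γ • f = f :=
  Subtype.ext (wpA5b3_actFn_Gamma N γ hγ f.1 f.2)

/-! ### The norm trick -/

theorem wpA5b3_smul_ne_zero (N : ℕ) (g : SL(2, ℤ)) (b : ModRing N) (hb : b ≠ 0) : g • b ≠ 0 := by
  intro h
  apply hb
  have := congrArg (fun x => g⁻¹ • x) h
  simpa using this

theorem wpA5b3_exists_norm (N : ℕ) [NeZero N] [wpA5b3_Inputs N] (b : ModRing N) (hb : b ≠ 0) :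
    ∃ b' D : ModRing N, D ≠ 0 ∧ (∀ g : SL(2, ℤ), g • D = D) ∧ b * b' = D := by
  classical
  have hle : CongruenceSubgroup.Gamma N ≤ MulAction.stabilizer SL(2, ℤ) b := fun γ hγ =>
    MulAction.mem_stabilizer_iff.mpr (wpA5b3_smul_Gamma N γ hγ b)
  have : (MulAction.stabilizer SL(2, ℤ) b).FiniteIndex := Subgroup.finiteIndex_of_le hle
  let _ : Fintype (SL(2, ℤ) ⧸ MulAction.stabilizer SL(2, ℤ) b) :=
    Subgroup.fintypeQuotientOfFiniteIndex
  let D : ModRing N := ∏ q : SL(2, ℤ) ⧸ MulAction.stabilizer SL(2, ℤ) b,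
    MulAction.ofQuotientStabilizer SL(2, ℤ) b q
  have hdvd : b ∣ D := by
    have h1 : MulAction.ofQuotientStabilizer SL(2, ℤ) b
        ((1 : SL(2, ℤ)) : SL(2, ℤ) ⧸ MulAction.stabilizer SL(2, ℤ) b) = b := by
      rw [MulAction.ofQuotientStabilizer_mk, one_smul]
    have h2 := Finset.dvd_prod_of_mem (MulAction.ofQuotientStabilizer SL(2, ℤ) b)
      (Finset.mem_univ ((1 : SL(2, ℤ)) : SL(2, ℤ) ⧸ MulAction.stabilizer SL(2, ℤ) b))
    rwa [h1] at h2
  obtain ⟨b', hb'⟩ := hdvd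
  refine ⟨b', D, ?_, ?_, hb'.symm⟩
  · apply Finset.prod_ne_zero_iff.mpr
    intro q _
    induction q using QuotientGroup.induction_on with
    | H g =>
      rw [MulAction.ofQuotientStabilizer_mk]
      exact wpA5b3_smul_ne_zero N g b hb
  · intro g
    change g • (∏ q : SL(2, ℤ) ⧸ MulAction.stabilizer SL(2, ℤ) b,
      MulAction.ofQuotientStabilizer SL(2, ℤ) b q) = _
    rw [Finset.smul_prod']
    simp_rw [← MulAction.ofQuotientStabilizer_smul]
    exact Fintype.prod_equiv (MulAction.toPerm g) _ _ (fun q => rfl)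

/-! ### Abstract fraction-field lemmas -/


section Abstract

variable {R : Type} [CommRing R] [IsDomain R] [Algebra Kbar R]

omit [Algebra Kbar R] in
theorem wpA5b3_rep (x : FractionRing R) (hx : x ≠ 0) :
    ∃ f D : R, f ≠ 0 ∧ D ≠ 0 ∧
      x = algebraMap R (FractionRing R) f / algebraMap R (FractionRing R) D := by
  obtain ⟨a, b, hb, rfl⟩ := IsFractionRing.div_surjective R x
  refine ⟨a, b, ?_, nonZeroDivisors.ne_zero hb, rfl⟩
  rintro rfl
  simp at hx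

omit [IsDomain R] [Algebra Kbar R] in
theorem wpA5b3_algebraMap_ne_zero {f : R} (hf : f ≠ 0) :
    algebraMap R (FractionRing R) f ≠ 0 := fun h0 =>
  hf (IsFractionRing.injective R (FractionRing R) (by rw [h0, map_zero]))

/-- Extension of an order function from a domain to its fraction field. -/
theorem wpA5b3_extend (o : R → ℤ)
    (hmul : ∀ f g : R, f ≠ 0 → g ≠ 0 → o (f * g) = o f + o g)
    (hadd : ∀ f g : R, f ≠ 0 → g ≠ 0 → f + g ≠ 0 → min (o f) (o g) ≤ o (f + g))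
    (hconst : ∀ c : Kbar, c ≠ 0 → o (algebraMap Kbar R c) = 0) :
    ∃ w : OrdFn Kbar (FractionRing R), ∀ f D : R, f ≠ 0 → D ≠ 0 →
      w.ord (algebraMap R (FractionRing R) f / algebraMap R (FractionRing R) D) = o f - o D := by
  classical
  have hinj : Function.Injective (algebraMap R (FractionRing R)) :=
    IsFractionRing.injective R (FractionRing R)
  obtain ⟨ordM, key⟩ : ∃ ordM : FractionRing R → ℤ, ∀ f D : R, f ≠ 0 → D ≠ 0 →
      ordM (algebraMap R (FractionRing R) f / algebraMap R (FractionRing R) D) = o f - o D := by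
    choose num den hden hnd using fun h : FractionRing R => IsFractionRing.div_surjective R h
    refine ⟨fun h => o (num h) - o (den h), ?_⟩
    intro f D hf hD
    have hb0 := nonZeroDivisors.ne_zero
      (hden (algebraMap R (FractionRing R) f / algebraMap R (FractionRing R) D))
    have h1 := hnd (algebraMap R (FractionRing R) f / algebraMap R (FractionRing R) D)
    rw [div_eq_div_iff (wpA5b3_algebraMap_ne_zero hb0) (wpA5b3_algebraMap_ne_zero hD),
      ← map_mul, ← map_mul] at h1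
    have h2 := hinj h1
    have ha0 : num (algebraMap R (FractionRing R) f / algebraMap R (FractionRing R) D) ≠ 0 := by
      intro h0
      rw [h0, zero_mul] at h2
      exact mul_ne_zero hf hb0 h2.symm
    have h3 := hmul _ D ha0 hD
    have h4 := hmul f _ hf hb0
    rw [h2] at h3
    show o (num _) - o (den _) = o f - o D
    linarith
  refine ⟨⟨ordM, ?_, ?_, ?_⟩, key⟩
  · intro x y hx hy
    obtain ⟨f₁, D₁, hf₁, hD₁, rfl⟩ := wpA5b3_rep x hx
    obtain ⟨f₂, D₂, hf₂, hD₂, rfl⟩ := wpA5b3_rep y hy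
    rw [div_mul_div_comm, ← map_mul, ← map_mul, key _ _ (mul_ne_zero hf₁ hf₂)
      (mul_ne_zero hD₁ hD₂), key _ _ hf₁ hD₁, key _ _ hf₂ hD₂, hmul _ _ hf₁ hf₂,
      hmul _ _ hD₁ hD₂]
    ring
  · intro x y hx hy hxy
    obtain ⟨f₁, D₁, hf₁, hD₁, rfl⟩ := wpA5b3_rep x hx
    obtain ⟨f₂, D₂, hf₂, hD₂, rfl⟩ := wpA5b3_rep y hy
    have hsum : algebraMap R (FractionRing R) f₁ / algebraMap R (FractionRing R) D₁ +
        algebraMap R (FractionRing R) f₂ / algebraMap R (FractionRing R) D₂ =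
        algebraMap R (FractionRing R) (f₁ * D₂ + D₁ * f₂) /
          algebraMap R (FractionRing R) (D₁ * D₂) := by
      rw [div_add_div _ _ (wpA5b3_algebraMap_ne_zero hD₁) (wpA5b3_algebraMap_ne_zero hD₂),
        map_add, map_mul, map_mul, map_mul]
    have hnum : f₁ * D₂ + D₁ * f₂ ≠ 0 := by
      intro h0
      apply hxy
      rw [hsum, h0, map_zero, zero_div]
    rw [hsum, key _ _ hnum (mul_ne_zero hD₁ hD₂), key _ _ hf₁ hD₁, key _ _ hf₂ hD₂,
      hmul _ _ hD₁ hD₂]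
    have h5 := hadd (f₁ * D₂) (D₁ * f₂) (mul_ne_zero hf₁ hD₂) (mul_ne_zero hD₁ hf₂) hnum
    rw [hmul _ _ hf₁ hD₂, hmul _ _ hD₁ hf₂] at h5
    rcases le_total (o f₁ + o D₂) (o D₁ + o f₂) with h | h
    · rw [min_eq_left h] at h5
      exact (min_le_left _ _).trans (by linarith)
    · rw [min_eq_right h] at h5
      exact (min_le_right _ _).trans (by linarith)
  · intro c hc
    have h1 : algebraMap Kbar (FractionRing R) c =
        algebraMap R (FractionRing R) (algebraMap Kbar R c) /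
          algebraMap R (FractionRing R) 1 := by
      rw [map_one, div_one, ← IsScalarTower.algebraMap_apply]
    have h2 : algebraMap Kbar R c ≠ 0 := fun h0 =>
      hc ((algebraMap Kbar R).injective (by rw [h0, map_zero]))
    rw [h1, key _ _ h2 one_ne_zero, hconst c hc]
    have h3 := hconst 1 one_ne_zero
    rw [map_one] at h3
    rw [h3, sub_zero]

end Abstract


section AbstractAction

variable {R : Type} [CommRing R] [IsDomain R] [Algebra Kbar R] {G : Type} [Group G]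
  [MulSemiringAction G R]

/-- The induced action on the fraction field. -/
@[instance_reducible]
noncomputable def wpA5b3_fracAction (G R : Type) [CommRing R] [IsDomain R] [Group G]
    [MulSemiringAction G R] : MulSemiringAction G (FractionRing R) :=
  IsFractionRing.mulSemiringAction G R (FractionRing R)

attribute [local instance] wpA5b3_fracAction

omit [Algebra Kbar R] in
theorem wpA5b3_smul_algebraMap (g : G) (f : R) :
    g • algebraMap R (FractionRing R) f = algebraMap R (FractionRing R) (g • f) :=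
  (algebraMap.coe_smul' g f (FractionRing R)).symm

omit [Algebra Kbar R] in
theorem wpA5b3_smul_div (g : G) (f D : R) :
    g • (algebraMap R (FractionRing R) f / algebraMap R (FractionRing R) D) =
      algebraMap R (FractionRing R) (g • f) / algebraMap R (FractionRing R) (g • D) := by
  rw [smul_div₀', wpA5b3_smul_algebraMap, wpA5b3_smul_algebraMap]

omit [IsDomain R] [Algebra Kbar R] in
theorem wpA5b3_smul_ne_zero' (g : G) {f : R} (hf : f ≠ 0) : g • f ≠ 0 := by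
  intro h
  apply hf
  have := congrArg (fun x => g⁻¹ • x) h
  simpa using this

omit [Algebra Kbar R] in
/-- Every element of the fraction field is a quotient with invariant denominator. -/
theorem wpA5b3_rep_inv
    (hnorm : ∀ b : R, b ≠ 0 → ∃ b' D : R, D ≠ 0 ∧ (∀ g : G, g • D = D) ∧ b * b' = D)
    (x : FractionRing R) :
    ∃ f D : R, D ≠ 0 ∧ (∀ g : G, g • D = D) ∧
      x = algebraMap R (FractionRing R) f / algebraMap R (FractionRing R) D := by
  obtain ⟨a, b, hb, rfl⟩ := IsFractionRing.div_surjective R x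
  have hb0 := nonZeroDivisors.ne_zero hb
  obtain ⟨b', D, hD0, hDinv, hbb'⟩ := hnorm b hb0
  have hb'0 : b' ≠ 0 := by
    rintro rfl
    rw [mul_zero] at hbb'
    exact hD0 hbb'.symm
  refine ⟨a * b', D, hD0, hDinv, ?_⟩
  rw [← hbb', map_mul, map_mul, mul_div_mul_right _ _ (wpA5b3_algebraMap_ne_zero hb'0)]

theorem wpA5b3_extend_smul (o : R → ℤ) (w : OrdFn Kbar (FractionRing R))
    (hw : ∀ f D : R, f ≠ 0 → D ≠ 0 →
      w.ord (algebraMap R (FractionRing R) f / algebraMap R (FractionRing R) D) = o f - o D)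
    (γ : G) (hγ : ∀ f : R, o (γ • f) = o f) (h : FractionRing R) :
    w.ord (γ • h) = w.ord h := by
  by_cases h0 : h = 0
  · rw [h0, smul_zero]
  · obtain ⟨f, D, hf, hD, rfl⟩ := wpA5b3_rep h h0
    rw [wpA5b3_smul_div, hw _ _ (wpA5b3_smul_ne_zero' γ hf) (wpA5b3_smul_ne_zero' γ hD),
      hw _ _ hf hD, hγ, hγ]

theorem wpA5b3_extend_dvd (o : R → ℤ) (w : OrdFn Kbar (FractionRing R))
    (hw : ∀ f D : R, f ≠ 0 → D ≠ 0 →
      w.ord (algebraMap R (FractionRing R) f / algebraMap R (FractionRing R) D) = o f - o D)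
    (hnorm : ∀ b : R, b ≠ 0 → ∃ b' D : R, D ≠ 0 ∧ (∀ g : G, g • D = D) ∧ b * b' = D)
    (γ : G) (e : ℤ) (hγ : ∀ f : R, f ≠ 0 → γ • f = f → e ∣ o f)
    (h : FractionRing R) (h0 : h ≠ 0) (hinv : γ • h = h) : e ∣ w.ord h := by
  obtain ⟨f, D, hD, hDinv, rfl⟩ := wpA5b3_rep_inv hnorm h
  have hf : f ≠ 0 := by
    rintro rfl
    simp at h0
  rw [wpA5b3_smul_div, hDinv γ, div_left_inj' (wpA5b3_algebraMap_ne_zero hD)] at hinv
  have hfinv : γ • f = f := IsFractionRing.injective R (FractionRing R) hinv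
  rw [hw _ _ hf hD]
  exact dvd_sub (hγ f hf hfinv) (hγ D hD (hDinv γ))

theorem wpA5b3_fixed_abs
    (hnorm : ∀ b : R, b ≠ 0 → ∃ b' D : R, D ≠ 0 ∧ (∀ g : G, g • D = D) ∧ b * b' = D)
    (j : R) (hfix : ∀ f : R, (∀ g : G, g • f = f) → f ∈ Algebra.adjoin Kbar {j})
    (h : FractionRing R) (hinv : ∀ g : G, g • h = h) :
    h ∈ IntermediateField.adjoin Kbar {algebraMap R (FractionRing R) j} := by
  obtain ⟨f, D, hD, hDinv, rfl⟩ := wpA5b3_rep_inv hnorm h
  have hfinv : ∀ g : G, g • f = f := by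
    intro g
    have h1 := hinv g
    rw [wpA5b3_smul_div, hDinv g, div_left_inj' (wpA5b3_algebraMap_ne_zero hD)] at h1
    exact IsFractionRing.injective R (FractionRing R) h1
  have hmem : ∀ x : R, x ∈ Algebra.adjoin Kbar {j} → algebraMap R (FractionRing R) x ∈
      IntermediateField.adjoin Kbar {algebraMap R (FractionRing R) j} := by
    intro x hx
    have h1 : (IsScalarTower.toAlgHom Kbar R (FractionRing R)) x ∈
        (Algebra.adjoin Kbar {j}).map (IsScalarTower.toAlgHom Kbar R (FractionRing R)) :=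
      ⟨x, hx, rfl⟩
    rw [AlgHom.map_adjoin, Set.image_singleton] at h1
    exact IntermediateField.algebra_adjoin_le_adjoin Kbar _ h1
  exact div_mem (hmem f (hfix f hfinv)) (hmem D (hfix D hDinv))

end AbstractAction

/-! ### The ring of modular functions as a standalone type -/

/-- `ModRing N` as a type of its own (this keeps instance search on its fraction field cheap). -/
def wpA5b3_R (N : ℕ) : Type := ModRing N

noncomputable instance wpA5b3_R_commRing (N : ℕ) : CommRing (wpA5b3_R N) :=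
  inferInstanceAs (CommRing (ModRing N))

noncomputable instance wpA5b3_R_algebra (N : ℕ) : Algebra Kbar (wpA5b3_R N) :=
  inferInstanceAs (Algebra Kbar (ModRing N))

instance wpA5b3_R_isDomain (N : ℕ) [NeZero N] [wpA5b3_Inputs N] : IsDomain (wpA5b3_R N) :=
  inferInstanceAs (IsDomain (ModRing N))

noncomputable instance wpA5b3_R_action (N : ℕ) : MulSemiringAction SL(2, ℤ) (wpA5b3_R N) :=
  inferInstanceAs (MulSemiringAction SL(2, ℤ) (ModRing N))

/-- The underlying function. -/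
noncomputable def wpA5b3_val (N : ℕ) : wpA5b3_R N →ₐ[Kbar] (ℍ → ℂ) := (ModRing N).val

/-- Constructor. -/
def wpA5b3_mk (N : ℕ) (f : ℍ → ℂ) (hf : f ∈ ModRing N) : wpA5b3_R N := ⟨f, hf⟩

theorem wpA5b3_val_mk (N : ℕ) (f : ℍ → ℂ) (hf : f ∈ ModRing N) :
    wpA5b3_val N (wpA5b3_mk N f hf) = f := rfl

theorem wpA5b3_mk_congr (N : ℕ) {f g : ℍ → ℂ} (hf : f ∈ ModRing N) (hg : g ∈ ModRing N)
    (h : f = g) : wpA5b3_mk N f hf = wpA5b3_mk N g hg := by
  subst h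
  rfl

theorem wpA5b3_val_mem (N : ℕ) (f : wpA5b3_R N) : wpA5b3_val N f ∈ ModRing N := f.2

theorem wpA5b3_val_injective (N : ℕ) : Function.Injective (wpA5b3_val N) := Subtype.val_injective

theorem wpA5b3_val_smul (N : ℕ) (g : SL(2, ℤ)) (f : wpA5b3_R N) :
    wpA5b3_val N (g • f) = actFn g (wpA5b3_val N f) := rfl

theorem wpA5b3_val_ne_zero (N : ℕ) {f : wpA5b3_R N} (hf : f ≠ 0) : wpA5b3_val N f ≠ 0 := fun h =>
  hf (wpA5b3_val_injective N (by rw [h, map_zero]))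

theorem wpA5b3_R_norm (N : ℕ) [NeZero N] [wpA5b3_Inputs N] (b : wpA5b3_R N) (hb : b ≠ 0) :
    ∃ b' D : wpA5b3_R N, D ≠ 0 ∧ (∀ g : SL(2, ℤ), g • D = D) ∧ b * b' = D :=
  wpA5b3_exists_norm N b hb

attribute [local instance] wpA5b3_fracAction

/-- Order functions on the field of modular functions from order functions on `ModRing N`. -/
theorem wpA5b3_exists_ordFn (N : ℕ) [NeZero N] [wpA5b3_Inputs N] (o : (ℍ → ℂ) → ℤ)
    (hmul : ∀ f ∈ ModRing N, ∀ g ∈ ModRing N, f ≠ 0 → g ≠ 0 → o (f * g) = o f + o g)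
    (hadd : ∀ f ∈ ModRing N, ∀ g ∈ ModRing N, f ≠ 0 → g ≠ 0 → f + g ≠ 0 →
      min (o f) (o g) ≤ o (f + g))
    (hconst : ∀ c : Kbar, c ≠ 0 → o (algebraMap Kbar (ℍ → ℂ) c) = 0) :
    ∃ w : OrdFn Kbar (FractionRing (wpA5b3_R N)),
      (∀ f : wpA5b3_R N, f ≠ 0 →
        w.ord (algebraMap (wpA5b3_R N) (FractionRing (wpA5b3_R N)) f) = o (wpA5b3_val N f)) ∧
      (∀ γ : SL(2, ℤ), (∀ f ∈ ModRing N, o (actFn γ f) = o f) →
        ∀ h : FractionRing (wpA5b3_R N), w.ord (γ • h) = w.ord h) ∧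
      (∀ (γ : SL(2, ℤ)) (e : ℤ), (∀ f ∈ ModRing N, f ≠ 0 → actFn γ f = f → e ∣ o f) →
        ∀ h : FractionRing (wpA5b3_R N), h ≠ 0 → γ • h = h → e ∣ w.ord h) := by
  have hmul' : ∀ f g : wpA5b3_R N, f ≠ 0 → g ≠ 0 →
      o (wpA5b3_val N (f * g)) = o (wpA5b3_val N f) + o (wpA5b3_val N g) := fun f g hf hg => by
    rw [map_mul]
    exact hmul _ (wpA5b3_val_mem N f) _ (wpA5b3_val_mem N g) (wpA5b3_val_ne_zero N hf)
      (wpA5b3_val_ne_zero N hg)
  have hadd' : ∀ f g : wpA5b3_R N, f ≠ 0 → g ≠ 0 → f + g ≠ 0 →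
      min (o (wpA5b3_val N f)) (o (wpA5b3_val N g)) ≤ o (wpA5b3_val N (f + g)) :=
    fun f g hf hg hfg => by
      have h := wpA5b3_val_ne_zero N hfg
      rw [map_add] at h ⊢
      exact hadd _ (wpA5b3_val_mem N f) _ (wpA5b3_val_mem N g) (wpA5b3_val_ne_zero N hf)
        (wpA5b3_val_ne_zero N hg) h
  have hconst' : ∀ c : Kbar, c ≠ 0 → o (wpA5b3_val N (algebraMap Kbar (wpA5b3_R N) c)) = 0 :=
    fun c hc => by
      rw [AlgHom.commutes]
      exact hconst c hc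
  obtain ⟨w, hw⟩ := wpA5b3_extend (fun f : wpA5b3_R N => o (wpA5b3_val N f)) hmul' hadd' hconst'
  refine ⟨w, ?_, ?_, ?_⟩
  · intro f hf
    have h1 := hw f 1 hf one_ne_zero
    rw [map_one, div_one] at h1
    have h2 := hconst 1 one_ne_zero
    rw [map_one] at h2
    rw [h1, map_one, h2, sub_zero]
  · intro γ hγ h
    exact wpA5b3_extend_smul _ w hw γ (fun f => hγ _ (wpA5b3_val_mem N f)) h
  · intro γ e hγ h h0 hinv
    refine wpA5b3_extend_dvd _ w hw (wpA5b3_R_norm N) γ e (fun f hf hfinv => ?_) h h0 hinv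
    refine hγ _ (wpA5b3_val_mem N f) (wpA5b3_val_ne_zero N hf) ?_
    rw [← wpA5b3_val_smul, hfinv]


/-! ### The elements `jd d` -/

/-- The class of `τ ↦ j(dτ)` in the field of modular functions. -/
noncomputable def wpA5b3_jd (N : ℕ) [NeZero N] [wpA5b3_Inputs N] (d : ℕ) : FractionRing (wpA5b3_R N) :=
  if h : d ∣ N then
    algebraMap (wpA5b3_R N) (FractionRing (wpA5b3_R N)) (wpA5b3_mk N (genFn 1 d) (genFn_mem_ModRing N 1 h))
  else 0

theorem wpA5b3_jd_of_dvd (N : ℕ) [NeZero N] [wpA5b3_Inputs N] {d : ℕ} (h : d ∣ N) :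
    wpA5b3_jd N d = algebraMap (wpA5b3_R N) (FractionRing (wpA5b3_R N))
      (wpA5b3_mk N (genFn 1 d) (genFn_mem_ModRing N 1 h)) := dif_pos h

theorem wpA5b3_genFn_one_one : genFn 1 1 = kleinJ := by
  funext τ
  rw [genFn_apply, inv_one, one_smul]
  congr 1
  apply UpperHalfPlane.ext
  rw [coe_scaleH 1 one_ne_zero]
  simp

theorem wpA5b3_kleinJ_mem (N : ℕ) : kleinJ ∈ ModRing N := by
  rw [← wpA5b3_genFn_one_one]
  exact genFn_mem_ModRing N 1 (one_dvd N)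

theorem wpA5b3_jd_one (N : ℕ) [NeZero N] [wpA5b3_Inputs N] :
    wpA5b3_jd N 1 = algebraMap (wpA5b3_R N) (FractionRing (wpA5b3_R N))
      (wpA5b3_mk N kleinJ (wpA5b3_kleinJ_mem N)) := by
  rw [wpA5b3_jd_of_dvd N (one_dvd N)]
  exact congrArg _ (wpA5b3_mk_congr N _ _ wpA5b3_genFn_one_one)

theorem wpA5b3_smul_const (N : ℕ) [NeZero N] [wpA5b3_Inputs N] (g : SL(2, ℤ)) (c : Kbar) :
    g • algebraMap Kbar (FractionRing (wpA5b3_R N)) c =
      algebraMap Kbar (FractionRing (wpA5b3_R N)) c := by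
  rw [IsScalarTower.algebraMap_apply Kbar (wpA5b3_R N) (FractionRing (wpA5b3_R N)),
    wpA5b3_smul_algebraMap]
  refine congrArg _ ?_
  apply wpA5b3_val_injective
  rw [wpA5b3_val_smul, AlgHom.commutes]
  rfl

theorem wpA5b3_rel_iff (N : ℕ) [NeZero N] [wpA5b3_Inputs N] (P : MvPolynomial N.divisors Kbar) :
    MvPolynomial.aeval (fun d : N.divisors => JJ d.1) P = 0 ↔
      MvPolynomial.aeval (fun d : N.divisors => wpA5b3_jd N d.1) P = 0 := by
  rw [wpA5b3_Inputs.rel_iff (N := N) P]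
  have h1 : (fun d : N.divisors => wpA5b3_jd N d.1) = fun d : N.divisors =>
      IsScalarTower.toAlgHom Kbar (wpA5b3_R N) (FractionRing (wpA5b3_R N))
        (wpA5b3_mk N (genFn 1 d.1) (genFn_mem_ModRing N 1 (Nat.dvd_of_mem_divisors d.2))) := by
    funext d
    exact wpA5b3_jd_of_dvd N (Nat.dvd_of_mem_divisors d.2)
  have h2 : (fun d : N.divisors => genFn 1 d.1) = fun d : N.divisors =>
      wpA5b3_val N
        (wpA5b3_mk N (genFn 1 d.1) (genFn_mem_ModRing N 1 (Nat.dvd_of_mem_divisors d.2))) := rfl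
  rw [h1, h2, ← MvPolynomial.comp_aeval_apply, ← MvPolynomial.comp_aeval_apply]
  constructor
  · intro h
    rw [wpA5b3_val_injective N (h.trans (map_zero _).symm), map_zero]
  · intro h
    have h3 : Function.Injective (IsScalarTower.toAlgHom Kbar (wpA5b3_R N)
        (FractionRing (wpA5b3_R N))) := IsFractionRing.injective (wpA5b3_R N) _
    rw [h3 (h.trans (map_zero _).symm), map_zero]

theorem wpA5b3_smul_jd (N : ℕ) [NeZero N] [wpA5b3_Inputs N] (g : SL(2, ℤ)) (hg : g ∈ CongruenceSubgroup.Gamma0 N)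
    (d : ℕ) (hd : d ∣ N) : g • wpA5b3_jd N d = wpA5b3_jd N d := by
  rw [wpA5b3_jd_of_dvd N hd, wpA5b3_smul_algebraMap]
  refine congrArg _ ?_
  apply wpA5b3_val_injective
  rw [wpA5b3_val_smul, wpA5b3_val_mk, actFn_genFn]
  have := wpA5b3_genFn_mul_Gamma0 N d hd 1 g hg
  rwa [one_mul, ← mul_one g] at this

theorem wpA5b3_smul_jd_one (N : ℕ) [NeZero N] [wpA5b3_Inputs N] (g : SL(2, ℤ)) :
    g • wpA5b3_jd N 1 = wpA5b3_jd N 1 := by
  rw [wpA5b3_jd_one, wpA5b3_smul_algebraMap]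
  refine congrArg _ ?_
  apply wpA5b3_val_injective
  rw [wpA5b3_val_smul, wpA5b3_val_mk]
  funext τ
  rw [actFn_apply, wpA5b3_Inputs.kleinJ_smul (N := N)]

theorem wpA5b3_stab (N : ℕ) [NeZero N] [wpA5b3_Inputs N] (g : SL(2, ℤ)) (h : g • wpA5b3_jd N N = wpA5b3_jd N N) :
    g ∈ CongruenceSubgroup.Gamma0 N := by
  rw [wpA5b3_jd_of_dvd N (dvd_refl N), wpA5b3_smul_algebraMap] at h
  have h1 := IsFractionRing.injective (wpA5b3_R N) (FractionRing (wpA5b3_R N)) h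
  have h2 := congrArg (wpA5b3_val N) h1
  rw [wpA5b3_val_smul, wpA5b3_val_mk] at h2
  exact wpA5b3_Inputs.stab (N := N) g h2

theorem wpA5b3_fixed (N : ℕ) [NeZero N] [wpA5b3_Inputs N] (h : FractionRing (wpA5b3_R N))
    (hinv : ∀ g : SL(2, ℤ), g • h = h) :
    h ∈ IntermediateField.adjoin Kbar {wpA5b3_jd N 1} := by
  rw [wpA5b3_jd_one]
  refine wpA5b3_fixed_abs (wpA5b3_R_norm N) _ (fun f hf => ?_) h hinv
  have h1 : wpA5b3_val N f ∈ Algebra.adjoin Kbar {kleinJ} := by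
    refine wpA5b3_Inputs.fixed (N := N) _ (wpA5b3_val_mem N f) (fun g => ?_)
    rw [← wpA5b3_val_smul, hf g]
  have h2 : (Algebra.adjoin Kbar {wpA5b3_mk N kleinJ (wpA5b3_kleinJ_mem N)}).map (wpA5b3_val N) =
      Algebra.adjoin Kbar {kleinJ} := by
    rw [AlgHom.map_adjoin, Set.image_singleton, wpA5b3_val_mk]
  rw [← h2] at h1
  obtain ⟨x, hx, hxf⟩ := h1
  rwa [← wpA5b3_val_injective N hxf]

/-! ### The order functions and the assembly -/

theorem wpA5b3_order_zero_fun (z₀ : ℂ) :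
    analyticOrderAt ((0 : ℍ → ℂ) ∘ ofComplex) z₀ = ⊤ := by
  rw [analyticOrderAt_eq_top]
  exact Filter.Eventually.of_forall fun _ => rfl

theorem wpA5b3_ordGeneric (N : ℕ) [NeZero N] [wpA5b3_Inputs N] (a : Kbar) (ha0 : a ≠ 0) (ha1 : a ≠ 1728) :
    ∃ w : OrdFn Kbar (FractionRing (wpA5b3_R N)),
      w.ord (wpA5b3_jd N 1 - algebraMap Kbar (FractionRing (wpA5b3_R N)) a) = 1 := by
  obtain ⟨τ₀, hτ₀⟩ := wpA5b3_Inputs.kleinJ_surjective (N := N) (phi a)
  obtain ⟨w, hw, -, -⟩ := wpA5b3_exists_ordFn N (ordAt τ₀)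
    (fun f hf g hg hf0 hg0 => wpA5b3_Inputs.ordAt_mul (N := N) τ₀ f g hf hg hf0 hg0)
    (fun f hf g hg hf0 hg0 hfg => wpA5b3_Inputs.ordAt_add (N := N) τ₀ f g hf hg hf0 hg0 hfg)
    (wpA5b3_Inputs.ordAt_const (N := N) τ₀)
  refine ⟨w, ?_⟩
  have h1 : wpA5b3_jd N 1 - algebraMap Kbar (FractionRing (wpA5b3_R N)) a =
      algebraMap (wpA5b3_R N) (FractionRing (wpA5b3_R N))
        (wpA5b3_mk N kleinJ (wpA5b3_kleinJ_mem N) - algebraMap Kbar (wpA5b3_R N) a) := by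
    rw [wpA5b3_jd_one, map_sub, ← IsScalarTower.algebraMap_apply]
  have hval : wpA5b3_val N (wpA5b3_mk N kleinJ (wpA5b3_kleinJ_mem N) -
      algebraMap Kbar (wpA5b3_R N) a) = fun τ => kleinJ τ - phi a := by
    rw [map_sub, wpA5b3_val_mk, AlgHom.commutes]
    rfl
  have hord : analyticOrderAt ((fun τ => kleinJ τ - phi a) ∘ ofComplex) (τ₀ : ℂ) = 1 := by
    have hk0 : kleinJ τ₀ ≠ 0 := by
      rw [hτ₀]
      exact (map_ne_zero phi).mpr ha0
    have hk1 : kleinJ τ₀ ≠ 1728 := by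
      rw [hτ₀]
      intro h
      apply ha1
      apply phi.injective
      rw [h, map_ofNat]
    have hd := wpA5b3_Inputs.deriv_ne_zero (N := N) τ₀ hk0 hk1
    have han : AnalyticAt ℂ (kleinJ ∘ ofComplex) (τ₀ : ℂ) :=
      wpA5b3_analyticAt N τ₀ kleinJ (wpA5b3_kleinJ_mem N)
    have h2 := han.analyticOrderAt_sub_eq_one_of_deriv_ne_zero hd
    have h3 : ((fun τ => kleinJ τ - phi a) ∘ ofComplex) =
        fun z => (kleinJ ∘ ofComplex) z - (kleinJ ∘ ofComplex) (τ₀ : ℂ) := by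
      funext z
      simp only [Function.comp_apply, ofComplex_apply, hτ₀]
    rw [h3]
    exact h2
  have hne : wpA5b3_mk N kleinJ (wpA5b3_kleinJ_mem N) - algebraMap Kbar (wpA5b3_R N) a ≠ 0 := by
    intro h0
    have h4 := hval
    rw [h0, map_zero] at h4
    rw [← h4, wpA5b3_order_zero_fun] at hord
    exact absurd hord (by simp)
  rw [h1, hw _ hne, hval]
  unfold ordAt
  rw [hord]
  rfl

theorem wpA5b3_kleinJ_ne_zero (N : ℕ) [NeZero N] [wpA5b3_Inputs N] : wpA5b3_mk N kleinJ (wpA5b3_kleinJ_mem N) ≠ 0 := by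
  intro h0
  have h1 := congrArg (wpA5b3_val N) h0
  rw [wpA5b3_val_mk, map_zero] at h1
  have h2 := (wpA5b3_Inputs.order_rho (N := N))
  rw [h1, wpA5b3_order_zero_fun] at h2
  exact absurd h2 (by simp)


theorem wpA5b3_prim_rho :
    IsPrimitiveRoot
      (UpperHalfPlane.denom ((ModularGroup.S * ModularGroup.T : SL(2, ℤ))) rhoH ^ 2) 3 := by
  have h1 : UpperHalfPlane.denom ((ModularGroup.S * ModularGroup.T : SL(2, ℤ))) rhoH =
      (1 / 2 : ℂ) + (Real.sqrt 3 / 2 : ℝ) * Complex.I := by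
    rw [ModularGroup.denom_apply]
    have h10 : ((ModularGroup.S * ModularGroup.T : SL(2, ℤ)) 1 0 : ℤ) = 1 := by
      rw [Matrix.SpecialLinearGroup.coe_mul, Matrix.mul_apply, Fin.sum_univ_two]
      simp [ModularGroup.S, ModularGroup.T]
    have h11 : ((ModularGroup.S * ModularGroup.T : SL(2, ℤ)) 1 1 : ℤ) = 1 := by
      rw [Matrix.SpecialLinearGroup.coe_mul, Matrix.mul_apply, Fin.sum_univ_two]
      simp [ModularGroup.S, ModularGroup.T]
    rw [h10, h11]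
    simp only [rhoH, Int.cast_one, one_mul]
    change (-1 / 2 : ℂ) + (Real.sqrt 3 / 2 : ℝ) * Complex.I + 1 = _
    ring
  rw [h1]
  have hs : (Real.sqrt 3 : ℝ) * Real.sqrt 3 = 3 := Real.mul_self_sqrt (by norm_num)
  have hsq : ((1 / 2 : ℂ) + (Real.sqrt 3 / 2 : ℝ) * Complex.I) ^ 2 =
      (-1 / 2 : ℂ) + (Real.sqrt 3 / 2 : ℝ) * Complex.I := by
    apply Complex.ext
    · simp [pow_two]
      nlinarith [hs]
    · simp [pow_two]
      ring
  rw [hsq]
  refine IsPrimitiveRoot.mk_of_lt _ (by norm_num) ?_ ?_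
  · apply Complex.ext
    · simp [pow_succ]
      nlinarith [hs]
    · simp [pow_succ]
      linear_combination (-(Real.sqrt 3) / 8) * hs
  · intro l hl0 hl3 h
    have hl : l = 1 ∨ l = 2 := by omega
    rcases hl with rfl | rfl
    · have := congrArg Complex.re h
      simp at this
      norm_num at this
    · have := congrArg Complex.re h
      simp [pow_two] at this
      nlinarith [hs]

theorem wpA5b3_S_smul_I : ModularGroup.S • UpperHalfPlane.I = UpperHalfPlane.I := by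
  rw [UpperHalfPlane.modular_S_smul]
  apply UpperHalfPlane.ext
  simp [UpperHalfPlane.coe_I]

theorem wpA5b3_prim_I :
    IsPrimitiveRoot (UpperHalfPlane.denom (ModularGroup.S : SL(2, ℤ)) UpperHalfPlane.I ^ 2) 2 := by
  rw [ModularGroup.denom_S, UpperHalfPlane.coe_I, Complex.I_sq]
  exact IsPrimitiveRoot.neg_one 0 (by norm_num)


theorem wpA5b3_ordZero (N : ℕ) [NeZero N] [wpA5b3_Inputs N] :
    ∃ w : OrdFn Kbar (FractionRing (wpA5b3_R N)), w.ord (wpA5b3_jd N 1) = 3 ∧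
      (∀ h : FractionRing (wpA5b3_R N),
        w.ord ((ModularGroup.S * ModularGroup.T) • h) = w.ord h) ∧
      ∀ h : FractionRing (wpA5b3_R N), h ≠ 0 → (ModularGroup.S * ModularGroup.T) • h = h →
        (3 : ℤ) ∣ w.ord h := by
  obtain ⟨w, hw, hsmul, hdvd⟩ := wpA5b3_exists_ordFn N (ordAt rhoH)
    (fun f hf g hg hf0 hg0 => wpA5b3_Inputs.ordAt_mul (N := N) rhoH f g hf hg hf0 hg0)
    (fun f hf g hg hf0 hg0 hfg => wpA5b3_Inputs.ordAt_add (N := N) rhoH f g hf hg hf0 hg0 hfg)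
    (wpA5b3_Inputs.ordAt_const (N := N) rhoH)
  refine ⟨w, ?_, hsmul _ (fun f hf => wpA5b3_Inputs.ordAt_actFn (N := N) rhoH _ (wpA5b3_Inputs.ST_smul_rho (N := N)) f hf),
    hdvd _ 3 (fun f hf hf0 hinv => ?_)⟩
  · rw [wpA5b3_jd_one, hw _ (wpA5b3_kleinJ_ne_zero N), wpA5b3_val_mk]
    unfold ordAt
    rw [(wpA5b3_Inputs.order_rho (N := N))]
    rfl
  · exact_mod_cast wpA5b3_Inputs.dvd_ordAt (N := N) rhoH _ (wpA5b3_Inputs.ST_smul_rho (N := N)) 3 wpA5b3_prim_rho f hf hf0 hinv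


theorem wpA5b3_ordI (N : ℕ) [NeZero N] [wpA5b3_Inputs N] :
    ∃ w : OrdFn Kbar (FractionRing (wpA5b3_R N)),
      w.ord (wpA5b3_jd N 1 - algebraMap Kbar (FractionRing (wpA5b3_R N)) 1728) = 2 ∧
      (∀ h : FractionRing (wpA5b3_R N), w.ord (ModularGroup.S • h) = w.ord h) ∧
      ∀ h : FractionRing (wpA5b3_R N), h ≠ 0 → ModularGroup.S • h = h → (2 : ℤ) ∣ w.ord h := by
  obtain ⟨w, hw, hsmul, hdvd⟩ := wpA5b3_exists_ordFn N (ordAt UpperHalfPlane.I)
    (fun f hf g hg hf0 hg0 => wpA5b3_Inputs.ordAt_mul (N := N) UpperHalfPlane.I f g hf hg hf0 hg0)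
    (fun f hf g hg hf0 hg0 hfg => wpA5b3_Inputs.ordAt_add (N := N) UpperHalfPlane.I f g hf hg hf0 hg0 hfg)
    (wpA5b3_Inputs.ordAt_const (N := N) UpperHalfPlane.I)
  refine ⟨w, ?_, hsmul _ (fun f hf => wpA5b3_Inputs.ordAt_actFn (N := N) UpperHalfPlane.I _ wpA5b3_S_smul_I f hf),
    hdvd _ 2 (fun f hf hf0 hinv => ?_)⟩
  · have h1 : wpA5b3_jd N 1 - algebraMap Kbar (FractionRing (wpA5b3_R N)) 1728 =
        algebraMap (wpA5b3_R N) (FractionRing (wpA5b3_R N))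
          (wpA5b3_mk N kleinJ (wpA5b3_kleinJ_mem N) - algebraMap Kbar (wpA5b3_R N) 1728) := by
      rw [wpA5b3_jd_one, map_sub, ← IsScalarTower.algebraMap_apply]
    have hval : wpA5b3_val N (wpA5b3_mk N kleinJ (wpA5b3_kleinJ_mem N) -
        algebraMap Kbar (wpA5b3_R N) 1728) = fun τ => kleinJ τ - 1728 := by
      rw [map_sub, wpA5b3_val_mk, AlgHom.commutes]
      funext τ
      change kleinJ τ - phi 1728 = kleinJ τ - 1728
      rw [map_ofNat]
    have hord : analyticOrderAt ((fun τ => kleinJ τ - 1728) ∘ ofComplex)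
        ((UpperHalfPlane.I : ℍ) : ℂ) = 2 := (wpA5b3_Inputs.order_I (N := N))
    have hne : wpA5b3_mk N kleinJ (wpA5b3_kleinJ_mem N) - algebraMap Kbar (wpA5b3_R N) 1728 ≠ 0 := by
      intro h0
      have h4 := hval
      rw [h0, map_zero] at h4
      rw [← h4, wpA5b3_order_zero_fun] at hord
      exact absurd hord (by simp)
    rw [h1, hw _ hne, hval]
    unfold ordAt
    rw [hord]
    rfl
  · exact_mod_cast wpA5b3_Inputs.dvd_ordAt (N := N) UpperHalfPlane.I _ wpA5b3_S_smul_I 2 wpA5b3_prim_I f hf hf0 hinv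

theorem wpA5b3_ordInfty (N : ℕ) [NeZero N] [wpA5b3_Inputs N] :
    ∃ w : OrdFn Kbar (FractionRing (wpA5b3_R N)), w.ord (wpA5b3_jd N 1) = -(N : ℤ) ∧
      (∀ h : FractionRing (wpA5b3_R N), w.ord (ModularGroup.T • h) = w.ord h) ∧
      ∀ h : FractionRing (wpA5b3_R N), h ≠ 0 → ∀ k : ℕ, k ∣ N → ModularGroup.T ^ k • h = h →
        ((N / k : ℕ) : ℤ) ∣ w.ord h := by
  obtain ⟨o, hmul, hadd, hconst, hj, hT, hdiv⟩ := wpA5b3_Inputs.ordInfty (N := N)
  obtain ⟨w, hw, hsmul, hdvd⟩ := wpA5b3_exists_ordFn N o hmul hadd hconst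
  refine ⟨w, ?_, hsmul _ hT, fun h h0 k hk hinv => ?_⟩
  · rw [wpA5b3_jd_one, hw _ (wpA5b3_kleinJ_ne_zero N), wpA5b3_val_mk, hj]
  · exact hdvd (ModularGroup.T ^ k) _ (fun f hf hf0 hfinv => hdiv f hf hf0 k hk hfinv) h h0 hinv

/-- **WPA5(b)**: the analytic input of S24, from the inputs `wpA5b3_Inputs N`. -/
theorem wpA5b3_nonempty_modularData (N : ℕ) [NeZero N] [wpA5b3_Inputs N] : Nonempty (ModularData N) :=
  ⟨{  M := FractionRing (wpA5b3_R N)
      fieldM := inferInstance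
      algM := inferInstance
      actM := wpA5b3_fracAction SL(2, ℤ) (wpA5b3_R N)
      smul_const := wpA5b3_smul_const N
      jd := wpA5b3_jd N
      rel_iff := wpA5b3_rel_iff N
      smul_jd_one := wpA5b3_smul_jd_one N
      smul_jd := wpA5b3_smul_jd N
      stab := wpA5b3_stab N
      fixed := wpA5b3_fixed N
      ordGeneric := wpA5b3_ordGeneric N
      ordZero := wpA5b3_ordZero N
      ordI := wpA5b3_ordI N
      ordInfty := wpA5b3_ordInfty N }⟩

end Fermat.Agent.S24
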