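import Fermat.Agent.S24.ModField
import Fermat.Agent.S24.KleinJ

/-!
S24 / WPA5 (c): algebraic structure of `ModRing N` under the action of `SL(2,ℤ)`:
stability, absence of zero divisors, `Γ₀(N)`-invariance of the generators, finiteness of orbits,
and the norm trick (every nonzero element has a nonzero invariant multiple).
-/

set_option autoImplicit false

open ModularCurve AlgebraicCurve MatrixGroups UpperHalfPlane ModularForm EisensteinSeries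
open scoped Manifold

namespace Fermat.Agent.S24

/-- `actFn g` as a ring homomorphism of the ring of all functions. -/
noncomputable def wpA5c_actHom (g : SL(2, ℤ)) : (ℍ → ℂ) →+* (ℍ → ℂ) :=
  RingHom.pi (fun τ : ℍ => Pi.evalRingHom (fun _ : ℍ => ℂ) (g⁻¹ • τ))

theorem wpA5c_actHom_apply (g : SL(2, ℤ)) (f : ℍ → ℂ) : wpA5c_actHom g f = actFn g f := rfl

theorem wpA5c_actFn_add (g : SL(2, ℤ)) (f₁ f₂ : ℍ → ℂ) :
    actFn g (f₁ + f₂) = actFn g f₁ + actFn g f₂ := rfl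

theorem wpA5c_actFn_mul (g : SL(2, ℤ)) (f₁ f₂ : ℍ → ℂ) :
    actFn g (f₁ * f₂) = actFn g f₁ * actFn g f₂ := rfl

theorem wpA5c_actFn_const (g : SL(2, ℤ)) (c : Kbar) :
    actFn g (algebraMap Kbar (ℍ → ℂ) c) = algebraMap Kbar (ℍ → ℂ) c := rfl

theorem wpA5c_actFn_zero (g : SL(2, ℤ)) : actFn g (0 : ℍ → ℂ) = 0 := rfl

theorem wpA5c_actFn_one' (g : SL(2, ℤ)) : actFn g (1 : ℍ → ℂ) = 1 := rfl

theorem wpA5c_actFn_inv_cancel (g : SL(2, ℤ)) (f : ℍ → ℂ) : actFn g⁻¹ (actFn g f) = f := by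
  rw [← actFn_mul, inv_mul_cancel, actFn_one]

theorem wpA5c_actFn_eq_zero_iff (g : SL(2, ℤ)) (f : ℍ → ℂ) : actFn g f = 0 ↔ f = 0 := by
  constructor
  · intro h
    rw [← wpA5c_actFn_inv_cancel g f, h, wpA5c_actFn_zero]
  · rintro rfl
    rfl

theorem wpA5c_actFn_mem (N : ℕ) [NeZero N] (g : SL(2, ℤ)) (f : ℍ → ℂ) (hf : f ∈ ModRing N) :
    actFn g f ∈ ModRing N := by
  unfold ModRing at hf
  induction hf using Algebra.adjoin_induction with
  | mem x hx =>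
    obtain ⟨h, d, hd, rfl⟩ := hx
    rw [actFn_genFn]
    exact genFn_mem_ModRing N (g * h) hd
  | algebraMap c =>
    rw [wpA5c_actFn_const]
    exact Subalgebra.algebraMap_mem _ c
  | add x y _ _ ihx ihy =>
    rw [wpA5c_actFn_add]
    exact Subalgebra.add_mem _ ihx ihy
  | mul x y _ _ ihx ihy =>
    rw [wpA5c_actFn_mul]
    exact Subalgebra.mul_mem _ ihx ihy

theorem wpA5c_mul_eq_zero (N : ℕ) [NeZero N] (f g : ℍ → ℂ) (hf : f ∈ ModRing N)
    (hg : g ∈ ModRing N) (h : f * g = 0) : f = 0 ∨ g = 0 :=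
  (UpperHalfPlane.mul_eq_zero_iff (wpA5_mdiff_of_mem N f hf) (wpA5_mdiff_of_mem N g hg)).mp h

/-- The matrix `diag(d,1) k diag(d,1)⁻¹` for `k ∈ Γ₀(N)`, `d ∣ N`. -/
theorem wpA5c_scaleH_smul (N : ℕ) [NeZero N] (k : SL(2, ℤ)) (hk : k ∈ CongruenceSubgroup.Gamma0 N)
    (d : ℕ) (hd : d ∣ N) (σ : ℍ) : ∃ k' : SL(2, ℤ), scaleH d (k • σ) = k' • scaleH d σ := by
  have hN : N ≠ 0 := NeZero.ne N
  have hd0 : d ≠ 0 := by
    rintro rfl
    exact hN (Nat.eq_zero_of_zero_dvd hd)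
  have hc : (N : ℤ) ∣ k 1 0 := by
    rw [CongruenceSubgroup.Gamma0_mem] at hk
    exact (ZMod.intCast_zmod_eq_zero_iff_dvd _ _).mp hk
  have hdc : (d : ℤ) ∣ k 1 0 := dvd_trans (Int.natCast_dvd_natCast.mpr hd) hc
  obtain ⟨c', hc'⟩ := hdc
  have hdet : k 0 0 * k 1 1 - k 0 1 * k 1 0 = 1 := by
    have := k.det_coe
    rw [Matrix.det_fin_two] at this
    exact this
  obtain ⟨k', h00, h01, h10, h11⟩ : ∃ k' : SL(2, ℤ), k' 0 0 = k 0 0 ∧ k' 0 1 = k 0 1 * d ∧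
      k' 1 0 = c' ∧ k' 1 1 = k 1 1 := by
    refine ⟨⟨!![k 0 0, k 0 1 * d; c', k 1 1], ?_⟩, rfl, rfl, rfl, rfl⟩
    rw [Matrix.det_fin_two_of]
    rw [hc'] at hdet
    linear_combination hdet
  refine ⟨k', ?_⟩
  apply UpperHalfPlane.ext
  rw [coe_scaleH d hd0, coe_specialLinearGroup_apply, coe_specialLinearGroup_apply,
    coe_scaleH d hd0, h00, h01, h10, h11]
  have hden : ((algebraMap ℤ ℝ (k 1 0) : ℝ) : ℂ) * (σ : ℂ) + ((algebraMap ℤ ℝ (k 1 1) : ℝ) : ℂ) ≠ 0 := by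
    have := UpperHalfPlane.denom_ne_zero (k : GL (Fin 2) ℝ) σ
    simpa [UpperHalfPlane.denom] using this
  have hc'' : ((algebraMap ℤ ℝ (k 1 0) : ℝ) : ℂ) = (d : ℂ) * ((algebraMap ℤ ℝ c' : ℝ) : ℂ) := by
    rw [hc']
    simp
  rw [hc''] at hden
  rw [hc'']
  have hden' : ((algebraMap ℤ ℝ c' : ℝ) : ℂ) * ((d : ℂ) * (σ : ℂ)) +
      ((algebraMap ℤ ℝ (k 1 1) : ℝ) : ℂ) ≠ 0 := by
    convert hden using 1
    ring
  rw [mul_div_assoc', div_eq_div_iff hden hden']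
  simp
  ring

theorem wpA5c_genFn_mul_right (N : ℕ) [NeZero N] (g h : SL(2, ℤ))
    (hh : h ∈ CongruenceSubgroup.Gamma0 N) (d : ℕ) (hd : d ∣ N) :
    genFn (g * h) d = genFn g d := by
  funext τ
  rw [genFn_apply, genFn_apply, mul_inv_rev, mul_smul]
  obtain ⟨k', hk'⟩ := wpA5c_scaleH_smul N h⁻¹ (inv_mem hh) d hd (g⁻¹ • τ)
  rw [hk', wpA1_kleinJ_smul]

/-- The orbit of a function under `SL(2,ℤ)`. -/
def wpA5c_orbit (f : ℍ → ℂ) : Set (ℍ → ℂ) := Set.range (fun g : SL(2, ℤ) => actFn g f)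

theorem wpA5c_genFn_range_finite (N : ℕ) [NeZero N] (d : ℕ) (hd : d ∣ N) :
    (Set.range (fun x : SL(2, ℤ) => genFn x d)).Finite := by
  have hfin : Finite (Cosets N) := Subgroup.finite_quotient_of_finiteIndex
  have hsub : Set.range (fun x : SL(2, ℤ) => genFn x d) ⊆
      Set.range (fun q : Cosets N => genFn q.out d) := by
    rintro _ ⟨x, rfl⟩
    refine ⟨QuotientGroup.mk x, ?_⟩
    obtain ⟨h, hh⟩ := QuotientGroup.mk_out_eq_mul (CongruenceSubgroup.Gamma0 N) x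
    simp only
    rw [hh, wpA5c_genFn_mul_right N x h h.2 d hd]
  exact (Set.finite_range _).subset hsub

theorem wpA5c_orbit_finite (N : ℕ) [NeZero N] (f : ℍ → ℂ) (hf : f ∈ ModRing N) :
    (wpA5c_orbit f).Finite := by
  unfold ModRing at hf
  induction hf using Algebra.adjoin_induction with
  | mem x hx =>
    obtain ⟨h, d, hd, rfl⟩ := hx
    refine (wpA5c_genFn_range_finite N d hd).subset ?_
    rintro _ ⟨g, rfl⟩
    exact ⟨g * h, (actFn_genFn g h d).symm⟩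
  | algebraMap c =>
    refine (Set.finite_singleton (algebraMap Kbar (ℍ → ℂ) c)).subset ?_
    rintro _ ⟨g, rfl⟩
    exact wpA5c_actFn_const g c
  | add x y _ _ ihx ihy =>
    refine (Set.Finite.image2 (· + ·) ihx ihy).subset ?_
    rintro _ ⟨g, rfl⟩
    exact ⟨actFn g x, ⟨g, rfl⟩, actFn g y, ⟨g, rfl⟩, rfl⟩
  | mul x y _ _ ihx ihy =>
    refine (Set.Finite.image2 (· * ·) ihx ihy).subset ?_
    rintro _ ⟨g, rfl⟩
    exact ⟨actFn g x, ⟨g, rfl⟩, actFn g y, ⟨g, rfl⟩, rfl⟩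

/-- The norm trick: every nonzero element of `ModRing N` has a nonzero `SL(2,ℤ)`-invariant
multiple in `ModRing N`. -/
theorem wpA5c_exists_invariant_multiple (N : ℕ) [NeZero N] (f : ℍ → ℂ) (hf : f ∈ ModRing N)
    (hf0 : f ≠ 0) :
    ∃ f' ∈ ModRing N, f * f' ≠ 0 ∧ ∀ g : SL(2, ℤ), actFn g (f * f') = f * f' := by
  classical
  have hfin := wpA5c_orbit_finite N f hf
  obtain ⟨S, hS⟩ : ∃ S : Finset (ℍ → ℂ), S = hfin.toFinset := ⟨_, rfl⟩
  have hmemS : ∀ x, x ∈ S ↔ ∃ g : SL(2, ℤ), actFn g f = x := by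
    intro x
    rw [hS, Set.Finite.mem_toFinset]
    rfl
  have hfS : f ∈ S := (hmemS f).mpr ⟨1, actFn_one f⟩
  have hSmem : ∀ x ∈ S, x ∈ ModRing N := by
    intro x hx
    obtain ⟨g, rfl⟩ := (hmemS x).mp hx
    exact wpA5c_actFn_mem N g f hf
  have hSne : ∀ x ∈ S, x ≠ 0 := by
    intro x hx
    obtain ⟨g, rfl⟩ := (hmemS x).mp hx
    exact fun h => hf0 ((wpA5c_actFn_eq_zero_iff g f).mp h)
  have hprod : f * ∏ x ∈ S.erase f, x = ∏ x ∈ S, x := Finset.mul_prod_erase S (fun x => x) hfS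
  refine ⟨∏ x ∈ S.erase f, x, ?_, ?_, ?_⟩
  · exact Subalgebra.prod_mem _ (fun x hx => hSmem x (Finset.mem_of_mem_erase hx))
  · rw [hprod]
    intro h0
    rw [UpperHalfPlane.prod_eq_zero_iff (f := fun x : ℍ → ℂ => x)
      (fun x hx => wpA5_mdiff_of_mem N x (hSmem x hx))] at h0
    obtain ⟨x, hx, hx0⟩ := h0
    exact hSne x hx hx0
  · intro g
    rw [hprod, ← wpA5c_actHom_apply, map_prod]
    have himg : S.image (wpA5c_actHom g) = S := by
      ext y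
      simp only [Finset.mem_image, hmemS]
      constructor
      · rintro ⟨x, ⟨h, rfl⟩, rfl⟩
        exact ⟨g * h, actFn_mul g h f⟩
      · rintro ⟨h, rfl⟩
        refine ⟨actFn (g⁻¹ * h) f, ⟨g⁻¹ * h, rfl⟩, ?_⟩
        rw [wpA5c_actHom_apply, ← actFn_mul, mul_inv_cancel_left]
    have hinj : ∀ x ∈ S, ∀ y ∈ S, wpA5c_actHom g x = wpA5c_actHom g y → x = y := by
      intro x _ y _ hxy
      have h1 := congrArg (actFn g⁻¹) hxy
      rwa [wpA5c_actHom_apply, wpA5c_actHom_apply, wpA5c_actFn_inv_cancel,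
        wpA5c_actFn_inv_cancel] at h1
    conv_rhs => rw [← himg]
    rw [Finset.prod_image hinj]

end Fermat.Agent.S24
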